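import Fermat.Agent.X1.HeckeQ
import Fermat.Agent.DS.Interface

/-!
# Interface for the mod `ℓ` Eichler--Shimura package on `Γ₁(M)`
-/

set_option autoImplicit false

open CongruenceSubgroup ModularCurve.Period
open scoped MatrixGroups ModularForm

noncomputable section

namespace Fermat.Agent.X1

open Fermat.Agent.DS (GQ)

/-- The mod `ℓ` Eichler--Shimura package on `Γ₁(M)`: a Hecke-stable space `V` of homomorphisms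
`Γ₁(M) → ℤ/ℓ` containing the parabolic ones, with an action of the Galois group, unramified outside
`M ℓ` with `φ² - T_p φ + p ⟨p⟩ = 0` for Frobenius elements `φ` at `p ∤ M ℓ`. -/
structure ES1 (M ℓ : ℕ) [NeZero M] [Fact ℓ.Prime] where
  V : Submodule (ZMod ℓ) (Additive (Gamma1 M) →+ ZMod ℓ)
  mem_of_parabolic : ∀ c : Additive (Gamma1 M) →+ ZMod ℓ, IsParabolicHom (Gamma1 M) c → c ∈ V
  tOp_mem : ∀ (p : ℕ) [Fact p.Prime], ¬ p ∣ M → ∀ x ∈ V,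
    tOp M (ZMod ℓ) (Gamma1 M) (ZMod ℓ) p x ∈ V
  dOp_mem : ∀ (u : (ZMod M)ˣ), ∀ x ∈ V, dOp M (ZMod ℓ) (Gamma1 M) (ZMod ℓ) u x ∈ V
  R : GQ →* Module.End (ZMod ℓ) V
  R_tOp : ∀ (σ : GQ) (p : ℕ) [Fact p.Prime] (hp : ¬ p ∣ M) (x : V),
    ((R σ ⟨tOp M (ZMod ℓ) (Gamma1 M) (ZMod ℓ) p x, tOp_mem p hp x x.2⟩ : V) :
      Additive (Gamma1 M) →+ ZMod ℓ) =
      tOp M (ZMod ℓ) (Gamma1 M) (ZMod ℓ) p (R σ x : V)
  R_dOp : ∀ (σ : GQ) (u : (ZMod M)ˣ) (x : V),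
    ((R σ ⟨dOp M (ZMod ℓ) (Gamma1 M) (ZMod ℓ) u x, dOp_mem u x x.2⟩ : V) :
      Additive (Gamma1 M) →+ ZMod ℓ) =
      dOp M (ZMod ℓ) (Gamma1 M) (ZMod ℓ) u (R σ x : V)
  finiteLevel : GaloisFactorsThroughFiniteLevel R
  inertia : ∀ p : ℕ, p.Prime → ¬ p ∣ M → p ≠ ℓ →
    ∀ A : ValuationSubring (AlgebraicClosure ℚ), A.LiesOverPrime p →
      ∀ σ ∈ A.inertiaSubgroupIn ℚ, R σ = 1
  frobenius : ∀ (p : ℕ) [Fact p.Prime], ¬ p ∣ M → p ≠ ℓ →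
    ∀ A : ValuationSubring (AlgebraicClosure ℚ), A.LiesOverPrime p →
      ∀ φ : GQ, A.IsFrobeniusAt φ p → ∀ x : V,
        ((R φ (R φ x) : V) : Additive (Gamma1 M) →+ ZMod ℓ) -
          tOp M (ZMod ℓ) (Gamma1 M) (ZMod ℓ) p (R φ x : V) +
          (p : ZMod ℓ) • dOp M (ZMod ℓ) (Gamma1 M) (ZMod ℓ) (pUnit M p) (x : V) = 0

/-- The weight one Eisenstein series congruent to `1` modulo `ℓ`. -/
def EOmega (ℓ : ℕ) : Prop :=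
  ∀ (k : Type) [Field k] [CharP k ℓ] (φ : integralClosure ℤ ℂ →+* k),
    ∃ (ω : (ZMod ℓ)ˣ →* (integralClosure ℤ ℂ)ˣ) (E : ModularForm (Gamma1 ℓ) 1),
      (∀ u : (ZMod ℓ)ˣ, φ (ω u : integralClosure ℤ ℂ) = (((u : ZMod ℓ).val : ℕ) : k)) ∧
      (∀ (γ : SL(2, ℤ)) (u : (ZMod ℓ)ˣ), γ ∈ Gamma0 ℓ → ((γ 1 1 : ℤ) : ZMod ℓ) = u →
        (E : UpperHalfPlane → ℂ) ∣[(1 : ℤ)] γ =
          ((((ω u)⁻¹ : (integralClosure ℤ ℂ)ˣ) : integralClosure ℤ ℂ) : ℂ) • (E : UpperHalfPlane → ℂ)) ∧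
      ∀ n : ℕ, ∃ a : integralClosure ℤ ℂ, (a : ℂ) = ModularFormClass.qCoeff E n ∧
        φ a = if n = 0 then 1 else 0

/-- Eigenclass attached to a weight one form (mod `ℓ`): the shape used for `ModL`. -/
def WtOneEigenclass (N ℓ : ℕ) [NeZero N] [NeZero (N * ℓ)] : Prop :=
  ∀ (ε : DirichletCharacter ℂ N) (f : CuspForm (Gamma1 N) 1) (t : ℕ → integralClosure ℤ ℂ)
    (e : ℕ → integralClosure ℤ ℂ), (∀ p : ℕ, (e p : ℂ) = ε (p : ZMod N)) →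
    (∀ n, IsIntegral ℤ (ModularFormClass.qCoeff f n)) →
    (∀ p : ℕ, p.Prime → ¬ p ∣ N → DS.HeckeRel (e p : ℂ) (t p : ℂ) f p) →
    ∀ (k : Type) [Field k] [CharP k ℓ] (φ : integralClosure ℤ ℂ →+* k),
      (∃ (n : ℕ) (a : integralClosure ℤ ℂ), (a : ℂ) = ModularFormClass.qCoeff f n ∧ φ a ≠ 0) →
      ∃ (ψ : (ZMod (N * ℓ))ˣ → k) (c : Additive (Gamma1 (N * ℓ)) →+ k),
        c ≠ 0 ∧ IsParabolicHom (Gamma1 (N * ℓ)) c ∧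
        (∀ (p : ℕ) [Fact p.Prime], ¬ p ∣ N * ℓ →
          tOp (N * ℓ) k (Gamma1 (N * ℓ)) k p c = φ (t p) • c) ∧
        (∀ u, dOp (N * ℓ) k (Gamma1 (N * ℓ)) k u c = ψ u • c) ∧
        ∀ (p : ℕ) [Fact p.Prime], ¬ p ∣ N * ℓ → (p : k) * ψ (pUnit (N * ℓ) p) = φ (e p)

end Fermat.Agent.X1

end
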