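import Fermat.Agent.X1.CharHecke
import Fermat.Agent.X1.Interface

/-!
# From a Galois action on characters to the Eichler--Shimura package
-/

set_option autoImplicit false

noncomputable section

open CongruenceSubgroup Matrix.SpecialLinearGroup
open scoped MatrixGroups ModularForm

namespace Fermat.Agent.X1

open Fermat.Agent.HeckePar ModularCurve.Period
open Fermat.Agent.DS (GQ)
open Fermat.Agent.X1Char (charGroup mem_charGroup)

/-! ### Roots of unity -/

section Root

variable (l : ℕ) [NeZero l]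

/-- a primitive `l`-th root of unity in `ℂˣ`. -/
def rootU : ℂˣ := ((Complex.isPrimitiveRoot_exp l (NeZero.ne l)).isUnit (NeZero.ne l)).unit

theorem rootU_prim : IsPrimitiveRoot (rootU l) l :=
  IsPrimitiveRoot.coe_units_iff.mp (Complex.isPrimitiveRoot_exp l (NeZero.ne l))

/-- the embedding `ℤ/l → ℂˣ`. -/
def expo : ZMod l →+ Additive ℂˣ :=
  (MonoidHom.toAdditive (Subgroup.zpowers (rootU l)).subtype).comp
    (rootU_prim l).zmodEquivZPowers.toAddMonoidHom

theorem expo_injective : Function.Injective (expo l) := by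
  intro a b h
  have h1 : (((rootU_prim l).zmodEquivZPowers a).toMul : ℂˣ) =
      (((rootU_prim l).zmodEquivZPowers b).toMul : ℂˣ) := congrArg Additive.toMul h
  exact (rootU_prim l).zmodEquivZPowers.injective (Additive.toMul.injective (Subtype.ext h1))

theorem expo_nsmul_eq_zero (a : ZMod l) : l • expo l a = 0 := by
  rw [← map_nsmul, nsmul_eq_mul, ZMod.natCast_self, zero_mul, map_zero]

theorem exists_expo {z : ℂˣ} (hz : z ^ l = 1) : ∃ a, expo l a = Additive.ofMul z := by
  have h1 : z ∈ Subgroup.zpowers (rootU l) := by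
    rw [(rootU_prim l).zpowers_eq]
    exact (mem_rootsOfUnity l z).mpr hz
  obtain ⟨a, ha⟩ := (rootU_prim l).zmodEquivZPowers.surjective (Additive.ofMul ⟨z, h1⟩)
  exact ⟨a, by
    show Additive.ofMul ((((rootU_prim l).zmodEquivZPowers a).toMul : ℂˣ)) = _
    rw [ha]; rfl⟩

end Root

/-! ### Homomorphisms and characters -/

section ToCharG

variable {l : ℕ} {Γ : Type*} [Group Γ] {B : Type*} [CommGroup B] (e : ZMod l →+ Additive B)

/-- the character attached to a homomorphism `Γ → ℤ/l`. -/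
def toCharG (c : Additive Γ →+ ZMod l) : Γ →* B :=
  MonoidHom.toAdditive.symm (e.comp c)

theorem toCharG_apply (c : Additive Γ →+ ZMod l) (g : Γ) :
    toCharG e c g = (e (c (Additive.ofMul g))).toMul := rfl

theorem toCharG_add (c d : Additive Γ →+ ZMod l) :
    toCharG e (c + d) = toCharG e c * toCharG e d := by
  refine MonoidHom.ext fun g => ?_
  rw [MonoidHom.mul_apply, toCharG_apply, toCharG_apply, toCharG_apply, AddMonoidHom.add_apply,
    map_add, toMul_add]

theorem toCharG_zero : toCharG e (0 : Additive Γ →+ ZMod l) = 1 := by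
  refine MonoidHom.ext fun g => ?_
  rw [toCharG_apply, AddMonoidHom.zero_apply, map_zero, MonoidHom.one_apply, toMul_zero]

theorem toCharG_neg (c : Additive Γ →+ ZMod l) : toCharG e (-c) = (toCharG e c)⁻¹ := by
  rw [eq_inv_iff_mul_eq_one, ← toCharG_add, neg_add_cancel, toCharG_zero]

theorem toCharG_sub (c d : Additive Γ →+ ZMod l) :
    toCharG e (c - d) = toCharG e c * (toCharG e d)⁻¹ := by
  rw [sub_eq_add_neg, toCharG_add, toCharG_neg]

theorem toCharG_nsmul (n : ℕ) (c : Additive Γ →+ ZMod l) :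
    toCharG e (n • c) = toCharG e c ^ n := by
  induction n with
  | zero => rw [zero_smul, pow_zero, toCharG_zero]
  | succ n ih => rw [succ_nsmul, pow_succ, toCharG_add, ih]

theorem toCharG_pow_eq_one (c : Additive Γ →+ ZMod l) : toCharG e c ^ l = 1 := by
  rw [← toCharG_nsmul]
  have : l • c = 0 := by
    refine AddMonoidHom.ext fun g => ?_
    rw [AddMonoidHom.smul_apply, nsmul_eq_mul, ZMod.natCast_self, zero_mul, AddMonoidHom.zero_apply]
  rw [this, toCharG_zero]

end ToCharG

section ToChar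

variable {l : ℕ} [NeZero l] {Γ : Type*} [Group Γ]

/-- the character attached to a homomorphism `Γ → ℤ/l`. -/
def toChar (c : Additive Γ →+ ZMod l) : Γ →* ℂˣ := toCharG (expo l) c

theorem addOf_toChar (c : Additive Γ →+ ZMod l) : addOf (toChar c) = (expo l).comp c := rfl

theorem toChar_apply (c : Additive Γ →+ ZMod l) (g : Γ) :
    toChar c g = (expo l (c (Additive.ofMul g))).toMul := rfl

theorem toChar_injective : Function.Injective (toChar : (Additive Γ →+ ZMod l) → (Γ →* ℂˣ)) := by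
  intro c d h
  refine AddMonoidHom.ext fun g => expo_injective l ?_
  have := DFunLike.congr_fun h g.toMul
  rw [toChar_apply, toChar_apply] at this
  exact Additive.toMul.injective this

theorem toChar_add (c d : Additive Γ →+ ZMod l) : toChar (c + d) = toChar c * toChar d :=
  toCharG_add _ c d

theorem toChar_zero : toChar (0 : Additive Γ →+ ZMod l) = 1 := toCharG_zero _

theorem toChar_neg (c : Additive Γ →+ ZMod l) : toChar (-c) = (toChar c)⁻¹ := toCharG_neg _ c

theorem toChar_sub (c d : Additive Γ →+ ZMod l) : toChar (c - d) = toChar c * (toChar d)⁻¹ :=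
  toCharG_sub _ c d

theorem toChar_nsmul (n : ℕ) (c : Additive Γ →+ ZMod l) : toChar (n • c) = toChar c ^ n :=
  toCharG_nsmul _ n c

theorem toChar_pow_eq_one (c : Additive Γ →+ ZMod l) : toChar c ^ l = 1 :=
  toCharG_pow_eq_one _ c

theorem toChar_apply_eq_one_iff (c : Additive Γ →+ ZMod l) (g : Γ) :
    toChar c g = 1 ↔ c (Additive.ofMul g) = 0 := by
  rw [toChar_apply]
  constructor
  · intro h
    apply expo_injective l
    rw [map_zero]
    exact Additive.toMul.injective h
  · intro h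
    rw [h, map_zero]
    rfl

theorem exists_toChar {χ : Γ →* ℂˣ} (h : χ ^ l = 1) :
    ∃ c : Additive Γ →+ ZMod l, toChar c = χ := by
  have h1 : ∀ g : Γ, ∃ a : ZMod l, expo l a = Additive.ofMul (χ g) := fun g =>
    exists_expo l (by
      have := DFunLike.congr_fun h g
      simpa using this)
  choose c hc using h1
  refine ⟨{ toFun := fun g => c g.toMul, map_zero' := ?_, map_add' := fun a b => ?_ }, ?_⟩
  · apply expo_injective l
    rw [map_zero (expo l)]
    show expo l (c (1 : Γ)) = 0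
    rw [hc, map_one, ofMul_one]
  · apply expo_injective l
    rw [map_add (expo l)]
    show expo l (c (a.toMul * b.toMul)) = expo l (c a.toMul) + expo l (c b.toMul)
    rw [hc, hc, hc, map_mul, ofMul_mul]
  · refine MonoidHom.ext fun g => ?_
    rw [toChar_apply]
    show (expo l (c g)).toMul = χ g
    rw [hc]
    rfl

end ToChar

/-! ### The module -/

section Module

variable (M : ℕ) (Γ : Subgroup SL(2, ℤ)) [hΓ : Between M Γ] (l : ℕ) [NeZero l]

variable {l} in
theorem toChar_tOp (p : ℕ) [Fact p.Prime] (c : Additive Γ →+ ZMod l) :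
    toChar (tOp M (ZMod l) Γ (ZMod l) p c) = tChar M Γ p (toChar c) := by
  apply addOf_injective
  rw [addOf_tChar, addOf_toChar, addOf_toChar]
  exact (tOp_comp M ℤ Γ p (expo l) c).symm

variable {l} in
theorem toChar_dOp (u : (ZMod M)ˣ) (c : Additive Γ →+ ZMod l) :
    toChar (dOp M (ZMod l) Γ (ZMod l) u c) = dChar M Γ u (toChar c) := by
  apply addOf_injective
  rw [addOf_dChar, addOf_toChar, addOf_toChar]
  exact (dOp_comp M ℤ Γ u (expo l) c).symm

/-- the module of homomorphisms `c : Γ → ℤ/l` with all diamond translates trivial on the stabiliser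
of infinity. -/
def modX : Submodule (ZMod l) (Additive Γ →+ ZMod l) :=
  AddSubgroup.toZModSubmodule l
    { carrier := {c | toChar c ∈ charX M Γ l}
      zero_mem' := by
        show toChar (0 : Additive Γ →+ ZMod l) ∈ charX M Γ l
        rw [toChar_zero]; exact one_mem _
      add_mem' := fun {a b} ha hb => by
        show toChar (a + b) ∈ charX M Γ l
        rw [toChar_add]; exact mul_mem ha hb
      neg_mem' := fun {a} ha => by
        show toChar (-a) ∈ charX M Γ l
        rw [toChar_neg]; exact inv_mem ha }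

variable {M Γ l}

theorem mem_modX {c : Additive Γ →+ ZMod l} : c ∈ modX M Γ l ↔ toChar c ∈ charX M Γ l := Iff.rfl

theorem mem_modX_of_parabolic {c : Additive Γ →+ ZMod l} (hc : IsParabolicHom Γ c) :
    c ∈ modX M Γ l := by
  rw [mem_modX]
  intro u
  rw [← toChar_dOp]
  refine mem_charGroup.mpr ⟨toChar_pow_eq_one _, fun γ hγ => ?_⟩
  rw [toChar_apply_eq_one_iff]
  refine isParabolicHom_dOp M (ZMod l) Γ u hc γ ?_
  have hdet := det_SL (γ : SL(2, ℤ))
  have hγ' : (γ : SL(2, ℤ)) 1 0 = 0 := hγ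
  rw [hγ', mul_zero, sub_zero] at hdet
  rw [Matrix.trace_fin_two]
  have h0 : ((γ : SL(2, ℤ)) : Matrix (Fin 2) (Fin 2) ℤ) 0 0 = (γ : SL(2, ℤ)) 0 0 := rfl
  have h1 : ((γ : SL(2, ℤ)) : Matrix (Fin 2) (Fin 2) ℤ) 1 1 = (γ : SL(2, ℤ)) 1 1 := rfl
  rw [h0, h1]
  rcases Int.eq_one_or_neg_one_of_mul_eq_one hdet with h | h
  · have : (γ : SL(2, ℤ)) 1 1 = 1 := by rw [h, one_mul] at hdet; exact hdet
    rw [h, this]; norm_num
  · have : (γ : SL(2, ℤ)) 1 1 = -1 := by rw [h] at hdet; linarith
    rw [h, this]; norm_num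

theorem tOp_mem_modX (p : ℕ) [Fact p.Prime] {c : Additive Γ →+ ZMod l} (hc : c ∈ modX M Γ l) :
    tOp M (ZMod l) Γ (ZMod l) p c ∈ modX M Γ l := by
  rw [mem_modX, toChar_tOp]
  exact tChar_mem_charX hc p

theorem dOp_mem_modX (u : (ZMod M)ˣ) {c : Additive Γ →+ ZMod l} (hc : c ∈ modX M Γ l) :
    dOp M (ZMod l) Γ (ZMod l) u c ∈ modX M Γ l := by
  rw [mem_modX, toChar_dOp]
  exact dChar_mem_charX hc u

variable (M Γ l) in
/-- the equivalence between homomorphisms and characters. -/
def theta : modX M Γ l ≃ charX M Γ l :=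
  Equiv.ofBijective (fun c => ⟨toChar c.1, c.2⟩) ⟨fun c d h =>
      Subtype.ext (toChar_injective (congrArg Subtype.val h)), fun χ => by
    obtain ⟨c, hc⟩ := exists_toChar (l := l) (mem_charGroup.mp (charX_le χ.2)).1
    exact ⟨⟨c, by rw [mem_modX, hc]; exact χ.2⟩, Subtype.ext hc⟩⟩

theorem theta_apply (c : modX M Γ l) : (theta M Γ l c).1 = toChar c.1 := rfl

theorem toChar_theta_symm (χ : charX M Γ l) : toChar ((theta M Γ l).symm χ).1 = χ.1 := by
  rw [← theta_apply, Equiv.apply_symm_apply]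

/-- transport of a map of characters. -/
def trans (f : charX M Γ l →* charX M Γ l) : modX M Γ l →ₗ[ZMod l] modX M Γ l :=
  AddMonoidHom.toZModLinearMap l
    { toFun := fun c => (theta M Γ l).symm (f (theta M Γ l c))
      map_zero' := by
        apply (theta M Γ l).injective
        rw [Equiv.apply_symm_apply]
        have : theta M Γ l 0 = 1 := Subtype.ext toChar_zero
        rw [this, map_one]
      map_add' := fun c d => by
        apply (theta M Γ l).injective
        rw [Equiv.apply_symm_apply]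
        have : theta M Γ l (c + d) = theta M Γ l c * theta M Γ l d := Subtype.ext (toChar_add _ _)
        rw [this, map_mul]
        refine Subtype.ext ?_
        rw [theta_apply, Submodule.coe_add, toChar_add, toChar_theta_symm, toChar_theta_symm]
        rfl }

theorem toChar_trans (f : charX M Γ l →* charX M Γ l) (c : modX M Γ l) :
    toChar (trans f c).1 = (f (theta M Γ l c)).1 := toChar_theta_symm _

theorem trans_one : trans (MonoidHom.id (charX M Γ l)) = 1 :=
  LinearMap.ext fun c => Subtype.ext (toChar_injective (by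
    rw [toChar_trans]; rfl))

theorem theta_trans (f : charX M Γ l →* charX M Γ l) (c : modX M Γ l) :
    theta M Γ l (trans f c) = f (theta M Γ l c) := Subtype.ext (toChar_trans f c)

theorem trans_comp (f g : charX M Γ l →* charX M Γ l) : trans (f.comp g) = trans f * trans g :=
  LinearMap.ext fun c => Subtype.ext (toChar_injective (by
    rw [toChar_trans, Module.End.mul_apply, toChar_trans, theta_trans]; rfl))

end Module

/-! ### The package -/

/-- A Galois action on the characters of `Γ₁(M)` with the Eichler--Shimura relation. -/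
structure CharES (M l : ℕ) [NeZero M] [NeZero l] where
  ρ : GQ →* MulAut (charGroup (Gamma1 M) l)
  finiteLevel : GaloisFactorsThroughFiniteLevel ρ
  dia : ∀ (σ : GQ) (u : (ZMod M)ˣ) (χ : charGroup (Gamma1 M) l)
    (h : dChar M (Gamma1 M) u χ.1 ∈ charGroup (Gamma1 M) l),
    dChar M (Gamma1 M) u (ρ σ χ).1 = (ρ σ ⟨dChar M (Gamma1 M) u χ.1, h⟩).1
  hecke : ∀ (σ : GQ) (p : ℕ) [Fact p.Prime], ¬ p ∣ M → ∀ (χ : charGroup (Gamma1 M) l)
    (hχ : χ.1 ∈ charX M (Gamma1 M) l),
    tChar M (Gamma1 M) p (ρ σ χ).1 =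
      (ρ σ ⟨tChar M (Gamma1 M) p χ.1, charX_le (tChar_mem_charX hχ p)⟩).1
  inertia : ∀ p : ℕ, p.Prime → ¬ p ∣ M → p ≠ l →
    ∀ A : ValuationSubring (AlgebraicClosure ℚ), A.LiesOverPrime p →
      ∀ σ ∈ A.inertiaSubgroupIn ℚ, ∀ χ : charGroup (Gamma1 M) l, χ.1 ∈ charX M (Gamma1 M) l →
        ρ σ χ = χ
  frobenius : ∀ (p : ℕ) [Fact p.Prime], ¬ p ∣ M → p ≠ l →
    ∀ A : ValuationSubring (AlgebraicClosure ℚ), A.LiesOverPrime p →
      ∀ φ : GQ, A.IsFrobeniusAt φ p → ∀ χ : charGroup (Gamma1 M) l, χ.1 ∈ charX M (Gamma1 M) l →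
        (ρ φ (ρ φ χ)).1 * (tChar M (Gamma1 M) p (ρ φ χ).1)⁻¹ *
          (dChar M (Gamma1 M) (pUnit M p) χ.1) ^ p = 1

namespace CharES

variable {M l : ℕ} [NeZero M] [NeZero l] (E : CharES M l)

theorem mem_charX (σ : GQ) (χ : charGroup (Gamma1 M) l) (h : χ.1 ∈ charX M (Gamma1 M) l) :
    (E.ρ σ χ).1 ∈ charX M (Gamma1 M) l := fun u => by
  rw [E.dia σ u χ (h u)]
  exact (E.ρ σ _).2

/-- the action on `charX` -/
def act (σ : GQ) : charX M (Gamma1 M) l →* charX M (Gamma1 M) l where
  toFun χ := ⟨(E.ρ σ ⟨χ.1, charX_le χ.2⟩).1, E.mem_charX σ _ χ.2⟩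
  map_one' := Subtype.ext (by
    have : (⟨(1 : charX M (Gamma1 M) l).1, charX_le (1 : charX M (Gamma1 M) l).2⟩ :
      charGroup (Gamma1 M) l) = 1 := rfl
    show (E.ρ σ _).1 = _
    rw [this, map_one]
    rfl)
  map_mul' χ ψ := Subtype.ext (by
    have : (⟨(χ * ψ : charX M (Gamma1 M) l).1, charX_le (χ * ψ : charX M (Gamma1 M) l).2⟩ :
      charGroup (Gamma1 M) l) = ⟨χ.1, charX_le χ.2⟩ * ⟨ψ.1, charX_le ψ.2⟩ := rfl
    show (E.ρ σ _).1 = _
    rw [this, map_mul]
    rfl)

theorem act_coe (σ : GQ) (χ : charX M (Gamma1 M) l) :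
    (E.act σ χ).1 = (E.ρ σ ⟨χ.1, charX_le χ.2⟩).1 := rfl

/-- the representation -/
def R : GQ →* Module.End (ZMod l) (modX M (Gamma1 M) l) where
  toFun σ := trans (E.act σ)
  map_one' := by
    rw [← trans_one]
    congr 1
    refine MonoidHom.ext fun χ => Subtype.ext ?_
    rw [act_coe, map_one]
    rfl
  map_mul' σ τ := by
    rw [← trans_comp]
    congr 1
    refine MonoidHom.ext fun χ => Subtype.ext ?_
    rw [act_coe, map_mul]
    rfl

theorem toChar_R (σ : GQ) (c : modX M (Gamma1 M) l) :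
    toChar (E.R σ c).1 = (E.ρ σ ⟨toChar c.1, charX_le c.2⟩).1 := toChar_trans _ c

end CharES

/-- **Transport**: a Galois action on characters gives the Eichler--Shimura package. -/
def CharES.toES1 {M l : ℕ} [NeZero M] [hl : Fact l.Prime] (E : CharES M l) : ES1 M l where
  V := modX M (Gamma1 M) l
  mem_of_parabolic _ hc := mem_modX_of_parabolic hc
  tOp_mem p _ _ _ hx := tOp_mem_modX p hx
  dOp_mem u _ hx := dOp_mem_modX u hx
  R := E.R
  R_tOp σ p _ hp x := by
    apply toChar_injective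
    rw [toChar_tOp, E.toChar_R, E.toChar_R]
    rw [E.hecke σ p hp ⟨toChar x.1, charX_le x.2⟩ x.2]
    have : (⟨toChar (tOp M (ZMod l) (Gamma1 M) (ZMod l) p x.1), charX_le (tOp_mem_modX p x.2)⟩ :
        charGroup (Gamma1 M) l) =
        ⟨tChar M (Gamma1 M) p (toChar x.1), charX_le (tChar_mem_charX x.2 p)⟩ :=
      Subtype.ext (toChar_tOp M (Gamma1 M) p x.1)
    exact congrArg (fun z => (E.ρ σ z).1) this
  R_dOp σ u x := by
    apply toChar_injective
    rw [toChar_dOp, E.toChar_R, E.toChar_R]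
    rw [E.dia σ u ⟨toChar x.1, charX_le x.2⟩ (x.2 u)]
    have : (⟨toChar (dOp M (ZMod l) (Gamma1 M) (ZMod l) u x.1), charX_le (dOp_mem_modX u x.2)⟩ :
        charGroup (Gamma1 M) l) = ⟨dChar M (Gamma1 M) u (toChar x.1), x.2 u⟩ :=
      Subtype.ext (toChar_dOp M (Gamma1 M) u x.1)
    exact congrArg (fun z => (E.ρ σ z).1) this
  finiteLevel := by
    obtain ⟨L, hL, h⟩ := E.finiteLevel
    refine ⟨L, hL, fun σ hσ => ?_⟩
    refine LinearMap.ext fun c => Subtype.ext (toChar_injective ?_)
    rw [E.toChar_R, h σ hσ]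
    rfl
  inertia p hp hpM hpl A hA σ hσ := by
    refine LinearMap.ext fun c => Subtype.ext (toChar_injective ?_)
    rw [E.toChar_R, E.inertia p hp hpM hpl A hA σ hσ ⟨toChar c.1, charX_le c.2⟩ c.2]
    rfl
  frobenius p _ hpM hpl A hA φ hφ x := by
    apply toChar_injective
    have h1 := E.frobenius p hpM hpl A hA φ hφ ⟨toChar x.1, charX_le x.2⟩ x.2
    have h2 : (⟨toChar (E.R φ x).1, charX_le (E.R φ x).2⟩ : charGroup (Gamma1 M) l) =
        E.ρ φ ⟨toChar x.1, charX_le x.2⟩ := Subtype.ext (E.toChar_R φ x)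
    rw [toChar_add, toChar_sub, toChar_zero, E.toChar_R, h2, toChar_tOp, E.toChar_R]
    have h3 : toChar ((p : ZMod l) • dOp M (ZMod l) (Gamma1 M) (ZMod l) (pUnit M p) x.1) =
        (dChar M (Gamma1 M) (pUnit M p) (toChar x.1)) ^ p := by
      rw [Nat.cast_smul_eq_nsmul, toChar_nsmul, toChar_dOp]
    rw [h3]
    exact h1

end Fermat.Agent.X1

end
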