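import Mathlib

/-!
# Characters of `Γ₁(M)` of order `l ≥ 5` trivial on `Γ₁(rM)`, `r = 2^a 3^b`
-/

set_option autoImplicit false

open CongruenceSubgroup Matrix.SpecialLinearGroup
open scoped MatrixGroups

namespace Fermat.Agent.X1

/-- `Γ₁(M)` membership by divisibility (the diagonal entry `a` is automatic). -/
theorem mem_Gamma1_iff_dvd {M : ℕ} {γ : SL(2, ℤ)} :
    γ ∈ Gamma1 M ↔ (M : ℤ) ∣ γ 1 0 ∧ (M : ℤ) ∣ γ 1 1 - 1 := by
  rw [Gamma1_mem]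
  constructor
  · rintro ⟨-, h1, h2⟩
    refine ⟨(ZMod.intCast_zmod_eq_zero_iff_dvd _ _).mp h2, ?_⟩
    rw [← ZMod.intCast_zmod_eq_zero_iff_dvd]
    push_cast
    rw [h1, sub_self]
  · rintro ⟨h1, h2⟩
    have e1 : ((γ 1 0 : ℤ) : ZMod M) = 0 := (ZMod.intCast_zmod_eq_zero_iff_dvd _ _).mpr h1
    have e2 : ((γ 1 1 : ℤ) : ZMod M) = 1 := by
      have := (ZMod.intCast_zmod_eq_zero_iff_dvd _ _).mpr h2
      push_cast at this
      exact sub_eq_zero.mp this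
    refine ⟨?_, e2, e1⟩
    have hdet := γ.2
    rw [Matrix.det_fin_two] at hdet
    have := congrArg (Int.cast : ℤ → ZMod M) hdet
    push_cast at this
    have e1' : ((γ.1 1 0 : ℤ) : ZMod M) = 0 := e1
    have e2' : ((γ.1 1 1 : ℤ) : ZMod M) = 1 := e2
    rw [e1', e2', mul_zero, mul_one, sub_zero] at this
    exact this

theorem dvd_sub_one_of_mem {M : ℕ} {γ : SL(2, ℤ)} (h : γ ∈ Gamma1 M) : (M : ℤ) ∣ γ 0 0 - 1 := by
  rw [← ZMod.intCast_zmod_eq_zero_iff_dvd]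
  push_cast
  rw [((Gamma1_mem M γ).mp h).1, sub_self]

theorem mul_10 (γ δ : SL(2, ℤ)) : (γ * δ) 1 0 = γ 1 0 * δ 0 0 + γ 1 1 * δ 1 0 := by
  simp [Matrix.mul_apply, Fin.sum_univ_two]

theorem mul_11 (γ δ : SL(2, ℤ)) : (γ * δ) 1 1 = γ 1 0 * δ 0 1 + γ 1 1 * δ 1 1 := by
  simp [Matrix.mul_apply, Fin.sum_univ_two]

/-- If `p ∣ M`, then `γ ^ p` has lower left entry divisible by `pM`, for `γ ∈ Γ₁(M)`. -/
theorem pow_10 {M p : ℕ} (hp : p ∣ M) {γ : SL(2, ℤ)} (h : γ ∈ Gamma1 M) (n : ℕ) :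
    ((p * M : ℕ) : ℤ) ∣ (γ ^ n) 1 0 - n * γ 1 0 := by
  induction n with
  | zero => simp
  | succ n ih =>
    have hn : γ ^ n ∈ Gamma1 M := Subgroup.pow_mem _ h n
    obtain ⟨c, hc⟩ := (mem_Gamma1_iff_dvd.mp h).1
    obtain ⟨c', hc'⟩ := (mem_Gamma1_iff_dvd.mp hn).1
    obtain ⟨d', hd'⟩ := (mem_Gamma1_iff_dvd.mp hn).2
    obtain ⟨a, ha⟩ := dvd_sub_one_of_mem h
    obtain ⟨m, rfl⟩ := hp
    rw [pow_succ, mul_10]
    have key : (γ ^ n) 1 0 * γ 0 0 + (γ ^ n) 1 1 * γ 1 0 - ((n + 1 : ℕ) : ℤ) * γ 1 0 =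
        ((γ ^ n) 1 0 - n * γ 1 0) + (γ ^ n) 1 0 * (γ 0 0 - 1) + ((γ ^ n) 1 1 - 1) * γ 1 0 := by
      push_cast; ring
    rw [key, hc', ha, hd', hc]
    rw [hc', hc] at ih
    refine dvd_add (dvd_add ih ?_) ?_
    · refine ⟨m * c' * a, ?_⟩
      push_cast; ring
    · refine ⟨m * d' * c, ?_⟩
      push_cast; ring

theorem pow_11 {M p : ℕ} (hp : p ∣ M) {γ : SL(2, ℤ)} (h : γ ∈ Gamma1 M)
    (hc : ((p * M : ℕ) : ℤ) ∣ γ 1 0) (n : ℕ) :
    ((p * M : ℕ) : ℤ) ∣ (γ ^ n) 1 0 ∧ ((p * M : ℕ) : ℤ) ∣ (γ ^ n) 1 1 - 1 - n * (γ 1 1 - 1) := by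
  induction n with
  | zero => simp
  | succ n ih =>
    have hn : γ ^ n ∈ Gamma1 M := Subgroup.pow_mem _ h n
    obtain ⟨d', hd'⟩ := (mem_Gamma1_iff_dvd.mp hn).2
    obtain ⟨d, hd⟩ := (mem_Gamma1_iff_dvd.mp h).2
    obtain ⟨m, rfl⟩ := hp
    rw [pow_succ, mul_10, mul_11]
    refine ⟨dvd_add (ih.1.mul_right _) (hc.mul_left _), ?_⟩
    have key : (γ ^ n) 1 0 * γ 0 1 + (γ ^ n) 1 1 * γ 1 1 - 1 - ((n + 1 : ℕ) : ℤ) * (γ 1 1 - 1) =
        (γ ^ n) 1 0 * γ 0 1 + ((γ ^ n) 1 1 - 1 - n * (γ 1 1 - 1)) +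
          ((γ ^ n) 1 1 - 1) * (γ 1 1 - 1) := by
      push_cast; ring
    rw [key]
    refine dvd_add (dvd_add (ih.1.mul_right _) ih.2) ?_
    rw [hd', hd]
    refine ⟨m * d' * d, ?_⟩
    push_cast; ring

/-- If `p ∣ M`, then `γ ^ (p * p) ∈ Γ₁(pM)` for `γ ∈ Γ₁(M)`. -/
theorem pow_mem_Gamma1_of_dvd {M p : ℕ} (hp : p ∣ M) {γ : SL(2, ℤ)} (h : γ ∈ Gamma1 M) :
    γ ^ (p * p) ∈ Gamma1 (p * M) := by
  have h1 : ((p * M : ℕ) : ℤ) ∣ (γ ^ p) 1 0 := by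
    have := pow_10 hp h p
    have h2 : ((p * M : ℕ) : ℤ) ∣ p * γ 1 0 := by
      obtain ⟨c, hc⟩ := (mem_Gamma1_iff_dvd.mp h).1
      exact ⟨c, by rw [hc]; push_cast; ring⟩
    exact (dvd_sub_left h2).mp this
  obtain ⟨h2, h3⟩ := pow_11 hp (Subgroup.pow_mem _ h p) h1 p
  rw [pow_mul, mem_Gamma1_iff_dvd]
  refine ⟨h2, ?_⟩
  have h4 : ((p * M : ℕ) : ℤ) ∣ p * ((γ ^ p) 1 1 - 1) := by
    obtain ⟨c, hc⟩ := (mem_Gamma1_iff_dvd.mp (Subgroup.pow_mem _ h p)).2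
    exact ⟨c, by rw [hc]; push_cast; ring⟩
  exact (dvd_sub_left h4).mp h3

theorem pow_six_eq_one : ∀ A : SL(2, ZMod 2), A ^ 6 = 1 := by decide

theorem pow_24_eq_one : ∀ A : SL(2, ZMod 3), A ^ 24 = 1 := by
  intro A
  have h : ∀ a b c d : ZMod 3, a * d - b * c = 1 →
      (!![a, b; c, d] : Matrix (Fin 2) (Fin 2) (ZMod 3)) ^ 24 = 1 := by
    have h4 : ∀ a b c d : ZMod 3, a * d - b * c = 1 →
      ((!![a, b; c, d] : Matrix (Fin 2) (Fin 2) (ZMod 3)) ^ 2) ^ 2 *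
        ((!![a, b; c, d] : Matrix (Fin 2) (Fin 2) (ZMod 3)) ^ 2) ^ 2 *
        (((!![a, b; c, d] : Matrix (Fin 2) (Fin 2) (ZMod 3)) ^ 2) ^ 2) = 1 := by decide
    intro a b c d hd
    have := h4 a b c d hd
    calc (!![a, b; c, d] : Matrix (Fin 2) (Fin 2) (ZMod 3)) ^ 24 =
        (((!![a, b; c, d] : Matrix (Fin 2) (Fin 2) (ZMod 3)) ^ 2) ^ 2 *
        ((!![a, b; c, d] : Matrix (Fin 2) (Fin 2) (ZMod 3)) ^ 2) ^ 2 *
        (((!![a, b; c, d] : Matrix (Fin 2) (Fin 2) (ZMod 3)) ^ 2) ^ 2)) ^ 2 := by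
          rw [← pow_mul, ← pow_add, ← pow_add, ← pow_mul]
      _ = 1 := by rw [this, one_pow]
  apply Subtype.ext
  have hA := A.2
  rw [Matrix.det_fin_two] at hA
  have := h (A.1 0 0) (A.1 0 1) (A.1 1 0) (A.1 1 1) hA
  rw [← Matrix.eta_fin_two] at this
  rw [Matrix.SpecialLinearGroup.coe_pow, Matrix.SpecialLinearGroup.coe_one]
  exact this

theorem mem_Gamma1_mul {M p : ℕ} (hcop : p.Coprime M) {γ : SL(2, ℤ)} (h1 : γ ∈ Gamma1 M)
    (h2 : γ ∈ Gamma1 p) : γ ∈ Gamma1 (p * M) := by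
  rw [mem_Gamma1_iff_dvd] at h1 h2 ⊢
  push_cast
  have hc : IsCoprime (p : ℤ) (M : ℤ) := Nat.isCoprime_iff_coprime.mpr hcop
  exact ⟨hc.mul_dvd h2.1 h1.1, hc.mul_dvd h2.2 h1.2⟩

theorem mem_Gamma1_of_map_eq_one {p : ℕ} {γ : SL(2, ℤ)}
    (h : Matrix.SpecialLinearGroup.map (Int.castRingHom (ZMod p)) γ = 1) : γ ∈ Gamma1 p := by
  have : γ ∈ Gamma p := h
  rw [Gamma_mem] at this
  rw [Gamma1_mem]
  exact ⟨this.1, this.2.2.2, this.2.2.1⟩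

/-- Every element of `Γ₁(M)` has a power `γ^m`, `m = 4, 6, 9, 24`, in `Γ₁(pM)`, `p = 2, 3`. -/
theorem exists_pow_mem {M p : ℕ} (hp : p = 2 ∨ p = 3) {γ : SL(2, ℤ)} (h : γ ∈ Gamma1 M) :
    ∃ m : ℕ, (m = 4 ∨ m = 6 ∨ m = 9 ∨ m = 24) ∧ γ ^ m ∈ Gamma1 (p * M) := by
  have hpp : p.Prime := by rcases hp with rfl | rfl <;> norm_num
  by_cases hd : p ∣ M
  · refine ⟨p * p, by rcases hp with rfl | rfl <;> norm_num, pow_mem_Gamma1_of_dvd hd h⟩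
  · have hc : p.Coprime M := (Nat.Prime.coprime_iff_not_dvd hpp).mpr hd
    rcases hp with rfl | rfl
    · refine ⟨6, by norm_num, mem_Gamma1_mul hc (Subgroup.pow_mem _ h 6) ?_⟩
      apply mem_Gamma1_of_map_eq_one
      rw [map_pow, pow_six_eq_one]
    · refine ⟨24, by norm_num, mem_Gamma1_mul hc (Subgroup.pow_mem _ h 24) ?_⟩
      apply mem_Gamma1_of_map_eq_one
      rw [map_pow, pow_24_eq_one]

/-- `5`-rough exponents: a homomorphism `ψ` on `Γ₁(M)` with `ψ^l = 1`, `l ≥ 5` prime, which is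
trivial on `Γ₁(pM)` for `p ∈ {2, 3}` is trivial. -/
theorem char_eq_one_of_prime {G : Type*} [CommGroup G] {M p l : ℕ} (hp : p = 2 ∨ p = 3)
    (hl : l.Prime) (h5 : 5 ≤ l) (ψ : Gamma1 M →* G) (hψ : ψ ^ l = 1)
    (h : ∀ γ : Gamma1 M, (γ : SL(2, ℤ)) ∈ Gamma1 (p * M) → ψ γ = 1) : ψ = 1 := by
  ext γ
  obtain ⟨m, hm, hmem⟩ := exists_pow_mem hp γ.2
  have h1 : ψ γ ^ m = 1 := by
    rw [← map_pow]
    exact h (γ ^ m) (by rw [Subgroup.coe_pow]; exact hmem)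
  have h2 : ψ γ ^ l = 1 := by
    have := DFunLike.congr_fun hψ γ
    simpa using this
  have hcop : Nat.Coprime m l := by
    rw [Nat.coprime_comm, Nat.Prime.coprime_iff_not_dvd hl]
    intro hdvd
    have h24 : l ∣ 2 ^ 3 * 3 ^ 2 := by
      rcases hm with rfl | rfl | rfl | rfl
      · exact hdvd.trans (by norm_num)
      · exact hdvd.trans (by norm_num)
      · exact hdvd.trans (by norm_num)
      · exact hdvd.trans (by norm_num)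
    rcases (Nat.Prime.dvd_mul hl).mp h24 with h | h
    · have := Nat.le_of_dvd (by norm_num) (hl.dvd_of_dvd_pow h); omega
    · have := Nat.le_of_dvd (by norm_num) (hl.dvd_of_dvd_pow h); omega
  have := orderOf_dvd_of_pow_eq_one h1
  have h3 := orderOf_dvd_of_pow_eq_one h2
  have h4 : orderOf (ψ γ) = 1 := Nat.eq_one_of_dvd_coprimes hcop this h3
  rw [MonoidHom.one_apply]
  exact orderOf_eq_one_iff.mp h4

/-- **Level change**: a character `ψ` of `Γ₁(M)` with `ψ^l = 1`, `l ≥ 5` prime, which is trivial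
on `Γ₁(rM)`, where `r` is a product of `2`s and `3`s, is trivial. -/
theorem char_eq_one_of_level {G : Type*} [CommGroup G] {M l : ℕ}
    (hl : l.Prime) (h5 : 5 ≤ l) (r : ℕ) (hr0 : r ≠ 0) (hr : ∀ p : ℕ, p.Prime → p ∣ r → p ≤ 3)
    (ψ : Gamma1 M →* G) (hψ : ψ ^ l = 1)
    (h : ∀ γ : Gamma1 M, (γ : SL(2, ℤ)) ∈ Gamma1 (r * M) → ψ γ = 1) : ψ = 1 := by
  induction r using Nat.recOnMul generalizing M with
  | zero => exact absurd rfl hr0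
  | one =>
    ext γ
    exact h γ (by rw [one_mul]; exact γ.2)
  | prime p hp =>
    have h3 := hr p hp dvd_rfl
    have h2 := hp.two_le
    exact char_eq_one_of_prime (by omega) hl h5 ψ hψ h
  | mul a b iha ihb =>
    have ha0 : a ≠ 0 := left_ne_zero_of_mul hr0
    have hb0 : b ≠ 0 := right_ne_zero_of_mul hr0
    have hle : Gamma1 (b * M) ≤ Gamma1 M := by
      intro γ hγ
      rw [mem_Gamma1_iff_dvd] at hγ ⊢
      have : (M : ℤ) ∣ ((b * M : ℕ) : ℤ) := by push_cast; exact dvd_mul_left _ _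
      exact ⟨this.trans hγ.1, this.trans hγ.2⟩
    refine ihb hb0 (fun p hp hd => hr p hp (hd.mul_left a)) ψ hψ ?_
    have key : ψ.comp (Subgroup.inclusion hle) = 1 := by
      refine iha ha0 (fun p hp hd => hr p hp (hd.mul_right b)) _ ?_ ?_
      · ext γ
        have := DFunLike.congr_fun hψ (Subgroup.inclusion hle γ)
        simpa using this
      · intro γ hγ
        refine h _ ?_
        rw [mul_assoc]
        exact hγ
    intro γ hγ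
    exact DFunLike.congr_fun key ⟨γ, hγ⟩

end Fermat.Agent.X1
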