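import Fermat.Agent.X1.KeyLast
import Fermat.Agent.X1Char.ES1

/-!
# KEY for modular functions with character, and the Eichler--Shimura package
-/

set_option autoImplicit false

open UpperHalfPlane hiding I
open ModularForm Matrix.SpecialLinearGroup Filter Asymptotics CongruenceSubgroup
open scoped MatrixGroups Manifold ModularForm Polynomial Topology

noncomputable section

namespace Fermat.Agent.X1Key

open Fermat.Agent.JLevelOne Fermat.Agent.X0Emb Fermat.Agent.ModFun ModularCurve Fermat.Agent.FG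
open Fermat.Agent.EisChar Fermat.Agent.S28aux Fermat.Agent.IntStruct
open Fermat.Agent.GaussVal Fermat.Agent.X1Char Fermat.Agent.HeckePar
open Fermat.Agent.DS (GQ)
open Fermat.Agent.X1 (Between)

/-- KEY in terms of functions with character (arbitrary group `Γ`). -/
def KeyCF (ι : Qbar →+* ℂ) (Γ : Subgroup SL(2, ℤ)) (n : ℕ) (A : ValuationSubring Qbar) : Prop :=
  ∀ ψ : Γ →* ℂˣ, ψ ^ n = 1 →
    (∀ γ : Γ, ((γ : SL(2, ℤ)) : Matrix (Fin 2) (Fin 2) ℤ) 1 0 = 0 → ψ γ = 1) →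
    ∀ (G H : ℍ → ℂ) (y : LaurentSeries Qbar) (Y Z : LaurentSeries A),
      IsCF ι Γ ψ G y → incl A Y = y ^ n → IsMF ι Γ 1 H (incl A Z) → redS A Z ≠ 0 →
      redS A Y = redS A Z ^ n → ψ = 1

theorem keyFun_of_keyCF {ι : Qbar →+* ℂ} {M : ℕ} {Γ : Subgroup SL(2, ℤ)} [Between M Γ] {n : ℕ}
    {A : ValuationSubring Qbar} (key : KeyCF ι Γ n A) : KeyFun ι M Γ n A := by
  intro ψ hψ G H y Y Z hG hY hH hZ hYZ
  have h := mem_charGroup.mp (xGroup_le n hψ)
  exact key ψ h.1 h.2 G H y Y Z hG hY hH hZ hYZ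

theorem KeyCF.of_le {ι : Qbar →+* ℂ} {Γ Γ' : Subgroup SL(2, ℤ)} (h : Γ' ≤ Γ) {n : ℕ}
    {A : ValuationSubring Qbar}
    (hψ : ∀ ψ : Γ →* ℂˣ, ψ ^ n = 1 → (∀ γ : Γ, (γ : SL(2, ℤ)) ∈ Γ' → ψ γ = 1) → ψ = 1)
    (key : KeyCF ι Γ' n A) : KeyCF ι Γ n A := by
  intro ψ hn hinf G H y Y Z hG hY hH hZ hYZ
  refine hψ ψ hn fun γ hγ => ?_
  have h1 := key (ψ.comp (Subgroup.inclusion h)) ?_ ?_ G H y Y Z
    ⟨hG.mdiff, fun γ τ => hG.char (Subgroup.inclusion h γ) τ, hG.growth, hG.lexp⟩ hY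
    (hH.mono h) hZ hYZ
  · exact DFunLike.congr_fun h1 ⟨γ, hγ⟩
  · refine MonoidHom.ext fun γ => ?_
    have := DFunLike.congr_fun hn (Subgroup.inclusion h γ)
    simpa using this
  · intro γ hγ
    exact hinf (Subgroup.inclusion h γ) hγ

theorem keyCF_Gamma1_of_mul {ι : Qbar →+* ℂ} {M l r : ℕ} (hl : l.Prime) (h5 : 5 ≤ l)
    (hr0 : r ≠ 0) (hr : ∀ p : ℕ, p.Prime → p ∣ r → p ≤ 3) {A : ValuationSubring Qbar}
    (key : KeyCF ι (Gamma1 (r * M)) l A) : KeyCF ι (Gamma1 M) l A := by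
  have hle : Gamma1 (r * M) ≤ Gamma1 M := by
    intro γ hγ
    rw [X1.mem_Gamma1_iff_dvd] at hγ ⊢
    have : (M : ℤ) ∣ ((r * M : ℕ) : ℤ) := by push_cast; exact dvd_mul_left _ _
    exact ⟨this.trans hγ.1, this.trans hγ.2⟩
  exact KeyCF.of_le hle (fun ψ h1 h2 => X1.char_eq_one_of_level hl h5 r hr0 hr ψ h1 h2) key

section

variable {M l : ℕ} [NeZero M] [hl : Fact l.Prime] (ι : Qbar →+* ℂ)

/-- **The mod `ℓ` Eichler--Shimura package on `Γ₁(M)` from KEY.** -/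
def es1_of_keyFun (key : ∀ (p : ℕ), p.Prime → ¬ p ∣ M → p ≠ l → ∀ A : ValuationSubring Qbar,
    A.LiesOverPrime p → KeyFun ι M (Gamma1 M) l A) : X1.ES1 M l where
  V := X1.modX M (Gamma1 M) l
  mem_of_parabolic _ hc := X1.mem_modX_of_parabolic hc
  tOp_mem p _ _ _ hx := X1.tOp_mem_modX p hx
  dOp_mem u _ hx := X1.dOp_mem_modX u hx
  R := RX ι
  R_tOp σ p _ hp x := by
    apply X1.toChar_injective
    rw [toChar_RX, xOf_tOp ι, galX_tX, X1.toChar_tOp, toChar_RX]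
    rfl
  R_dOp σ u x := by
    apply X1.toChar_injective
    rw [toChar_RX, xOf_dOp, galX_dX, X1.toChar_dOp, toChar_RX]
    rfl
  finiteLevel := by
    obtain ⟨L, hL, h⟩ := galX_finiteLevel (ι := ι) (M := M) (Γ := Gamma1 M) (n := l)
    refine ⟨L, hL, fun σ hσ => ?_⟩
    refine LinearMap.ext fun c => xOf_injective ?_
    rw [xOf_RX, h σ hσ]
    rfl
  inertia p hp hpM hpl A hA σ hσ := by
    refine LinearMap.ext fun c => xOf_injective ?_
    rw [xOf_RX, galX_inertia hp hA (key p hp hpM hpl A hA) hσ]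
    rfl
  frobenius p hp hpM hpl A hA φ hφ x := by
    apply X1.toChar_injective
    have h1 := galX_frobenius hpM hA (key p hp.out hpM hpl A hA) hφ (xOf x)
    rw [X1.toChar_add, X1.toChar_sub, X1.toChar_zero, toChar_RX, xOf_RX, X1.toChar_tOp, toChar_RX]
    have h3 : X1.toChar ((p : ZMod l) • X1.dOp M (ZMod l) (Gamma1 M) (ZMod l) (X1.pUnit M p) x.1) =
        ((dX M (Gamma1 M) l (X1.pUnit M p) (xOf x)) ^ p).1 := by
      rw [Nat.cast_smul_eq_nsmul, X1.toChar_nsmul, X1.toChar_dOp]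
      rfl
    rw [h3]
    have h4 := congrArg Subtype.val h1
    have h5 : X1.tChar M (Gamma1 M) p (galX ι M (Gamma1 M) l φ (xOf x)).1 =
        (tX ι M (Gamma1 M) l p (galX ι M (Gamma1 M) l φ (xOf x))).1 := rfl
    rw [h5, ← h4, Subgroup.coe_mul]
    exact mul_inv_mul_mul_cancel _ _

end

/-- **ES1 from KEY at auxiliary level** (functions with character): for every prime `p ∤ M ℓ` one
may replace `M` by `r M`, where `r` is any product of `2`s and `3`s. -/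
theorem es1_of_keyCF_level (ι : Qbar →+* ℂ) {M l : ℕ} [NeZero M] [hl : Fact l.Prime] (h5 : 5 ≤ l)
    (key : ∀ (p : ℕ), p.Prime → ¬ p ∣ M → p ≠ l → ∃ r : ℕ, r ≠ 0 ∧
      (∀ q : ℕ, q.Prime → q ∣ r → q ≤ 3) ∧ ∀ A : ValuationSubring Qbar, A.LiesOverPrime p →
        KeyCF ι (Gamma1 (r * M)) l A) : Nonempty (X1.ES1 M l) :=
  ⟨es1_of_keyFun ι fun p hp hpM hpl A hA => by
    obtain ⟨r, hr0, hr, h⟩ := key p hp hpM hpl
    exact keyFun_of_keyCF (keyCF_Gamma1_of_mul hl.out h5 hr0 hr (h A hA))⟩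

/-- **Reduction of `KeyCF`** to an approximation statement over number fields. -/
theorem keyCF_of_local {ι : Qbar →+* ℂ} {Γ : Subgroup SL(2, ℤ)}
    [GoodGroup Γ] [IntGroup Γ] {n : ℕ} (hn : n ≠ 0) {p : ℕ} (hp : p.Prime)
    {A : ValuationSubring Qbar} (hA : A.LiesOverPrime p)
    (key : ∀ (L : IntermediateField ℚ Qbar) [FiniteDimensional ℚ L] (π : L),
      (resPlace A L).valuation π < 1 → π ≠ 0 →
      (∀ c : L, c ≠ 0 → ∃ (m : ℤ) (u : L), (resPlace A L).valuation u = 1 ∧ c = π ^ m * u) →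
      ∀ (ψ : Γ →* ℂˣ), ψ ^ n = 1 →
      (∀ γ : Γ, ((γ : SL(2, ℤ)) : Matrix (Fin 2) (Fin 2) ℤ) 1 0 = 0 → ψ γ = 1) →
      ∀ (G H : ℍ → ℂ) (y : LaurentSeries Qbar)
      (a z : LaurentSeries (resPlace A L)), IsCF ι Γ ψ G y → y ≠ 0 →
      coeffMap (algebraMap L Qbar) (incl (resPlace A L) a) = y ^ n →
      IsMF (ι.comp (algebraMap L Qbar)) Γ 1 (G ^ n) (incl (resPlace A L) a) →
      IsMF (ι.comp (algebraMap L Qbar)) Γ 1 H (incl (resPlace A L) z) →
      redS (resPlace A L) z ≠ 0 → redS (resPlace A L) a = redS (resPlace A L) z ^ n →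
      ∃ (W : Submodule L (FG (ι.comp (algebraMap L Qbar)) Γ 1)) (_ : FiniteDimensional L W)
        (y₀ : FG (ι.comp (algebraMap L Qbar)) Γ 1),
        (y₀ : LaurentSeries L) = incl (resPlace A L) a / incl (resPlace A L) z ^ n ∧
        ∀ i : ℕ, ∃ f ∈ W, (f : LaurentSeries L) ∈ gaussSubring (resPlace A L) ∧
          ∃ t : FG (ι.comp (algebraMap L Qbar)) Γ 1,
            (t : LaurentSeries L) ∈ gaussSubring (resPlace A L) ∧
            f ^ n - y₀ = algebraMap L (FG (ι.comp (algebraMap L Qbar)) Γ 1) π ^ i * t) :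
    KeyCF ι Γ n A := by
  intro ψ hψ hψ' G H y Y Z hG hY hH hZ hYZ
  have hY0 : Y ≠ 0 := by
    rintro rfl
    rw [map_zero] at hYZ
    exact pow_ne_zero n hZ hYZ.symm
  have hy : y ≠ 0 := by
    rintro rfl
    rw [zero_pow hn] at hY
    exact hY0 (incl_injective A (by rw [hY, map_zero]))
  have hGn : IsMF ι Γ 1 (G ^ n) (y ^ n) := ((hG.pow n).char_congr hψ).toIsMF
  obtain ⟨L, hL, ⟨a, -, ha⟩, ⟨z, -, hz⟩⟩ := exists_numberField_two (mem_intAlg_of_isMF hGn)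
    (mem_intAlg_of_isMF hH)
  obtain ⟨a', ha', haY⟩ := exists_incl_res A (x := a) (X := Y) (by rw [ha, hY])
  obtain ⟨z', hz', hzZ⟩ := exists_incl_res A (x := z) (X := Z) hz
  have hinj : Function.Injective (coeffMap (resHom A (algebraMap L Qbar))) := coeffMap_injective _
  have hz0 : redS (resPlace A L) z' ≠ 0 := by
    intro h0
    apply hZ
    rw [← hzZ, redS_comapHom, h0, map_zero]
  have haz : redS (resPlace A L) a' = redS (resPlace A L) z' ^ n := by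
    apply hinj
    rw [map_pow, ← redS_comapHom, ← redS_comapHom, haY, hzZ, hYZ]
  obtain ⟨π, hπ1, hπ0, hπ⟩ := exists_uniformizer A hp hA L
  have hGn' : IsMF (ι.comp (algebraMap L Qbar)) Γ 1 (G ^ n) (incl (resPlace A L) a') := by
    rw [isMF_comp_iff, ha', ha]
    exact hGn
  have hH' : IsMF (ι.comp (algebraMap L Qbar)) Γ 1 H (incl (resPlace A L) z') := by
    rw [isMF_comp_iff, hz', hz]
    exact hH
  obtain ⟨W, hW, y₀, hy₀, happ⟩ := key L π hπ1 hπ0 hπ ψ hψ hψ' G H y a' z' hG hy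
    (by rw [ha', ha]) hGn' hH' hz0 haz
  exact psi_eq_one_of_approx hG hy hn (a := incl (resPlace A L) a') (z := incl (resPlace A L) z')
    (by rw [ha', ha]) hH'.mem_FG (incl_ne_zero hz0) (resPlace A L) hπ1 hπ0 hπ FG_le_intField W y₀ hy₀
    happ

end Fermat.Agent.X1Key

end
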