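import Fermat.Agent.X1.KeyDatum

/-!
# The projective line with coordinate `h`: definitions
-/

set_option autoImplicit false

noncomputable section

open Module Polynomial
open scoped IntermediateField

namespace Fermat.Agent.X1Key

variable {L F k κ : Type*} [Field L] [Field F] [Field k] [Field κ] [Algebra L F] [Algebra k κ]

/-- `O[u]` -/
def OX (B : ValuationSubring L) (u : F) : Subring F :=
  (eval₂RingHom ((algebraMap L F).comp B.subtype) u).range

variable (k) in
/-- `k[u]` -/
def KX (u : κ) : Subring κ := (aeval (R := k) u).toRingHom.range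

/-- `V` is a discrete valuation ring of `F ⊇ L(h)` inducing the Gauss valuation on `L(h)` -/
structure LineData (B : ValuationSubring L) (q₀ : B →+* k) (π : L) (V : Subring F) (red : V →+* κ)
    (h : F) : Prop where
  q_surj : Function.Surjective q₀
  q_ker : ∀ b : B, q₀ b = 0 ↔ B.valuation (b : L) < 1
  pi_lt : B.valuation π < 1
  pi_ne : π ≠ 0
  unif : ∀ c : L, c ≠ 0 → ∃ (m : ℤ) (u : L), B.valuation u = 1 ∧ c = π ^ m * u
  vring : VRing V (algebraMap L F π) red
  mem : ∀ b : B, algebraMap L F b ∈ V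
  red_eq : ∀ b : B, rd red (algebraMap L F b) = algebraMap k κ (q₀ b)
  h_mem : h ∈ V
  h_tr : Transcendental k (rd red h)
  fd : FiniteDimensional L⟮h⟯ F
  int : ∀ x ∈ V, ∃ p : F[X], p.Monic ∧ (∀ i, p.coeff i ∈ V ∧ p.coeff i ∈ L⟮h⟯) ∧ p.eval x = 0

end Fermat.Agent.X1Key

end
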