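import Mathlib
import Fermat.Agent.GaussVal.Field
import Fermat.Agent.X0Emb.LExp

/-!
# The Gauss ring is stable under `q ↦ ζ q` and `q ↦ q ^ e`
-/

set_option autoImplicit false

noncomputable section

open ModularCurve HahnSeries Polynomial
open Fermat.Agent.GaussVal Fermat.Agent.X0Emb

namespace Fermat.Agent.X1G

section Twist

variable {K : Type*} [Field K] {A : ValuationSubring K}

theorem twist_ne_zero {R : Type*} [CommRing R] (c : Rˣ) {G : LaurentSeries R} (hG : G ≠ 0) :
    twist c G ≠ 0 := by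
  obtain ⟨n, hn⟩ : ∃ n, G.coeff n ≠ 0 := by
    by_contra h
    push Not at h
    exact hG (HahnSeries.ext (funext h))
  intro h
  apply hn
  have h1 := congrArg (fun z : LaurentSeries R => z.coeff n) h
  simp only [twist_coeff, HahnSeries.coeff_zero] at h1
  rwa [Units.mul_right_eq_zero] at h1

/-- The Gauss ring is stable under `q ↦ ζ q` for a unit `ζ` of `A`. -/
theorem twist_mem_gaussSubring (c : Aˣ) {y : LaurentSeries K} (hy : y ∈ gaussSubring A) :
    twist (Units.map (A.subtype : A →* K) c) y ∈ gaussSubring A := by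
  obtain ⟨Y₁, Y₂, h2, h⟩ := hy
  have key : ∀ Y : LaurentSeries A, incl A (twist c Y) =
      twist (Units.map (A.subtype : A →* K) c) (incl A Y) := fun Y => twist_coeffMap _ _ _
  refine ⟨twist c Y₁, twist c Y₂, ?_, ?_⟩
  · have h3 : redS A (twist c Y₂) =
        twist (Units.map (IsLocalRing.residue A : A →* IsLocalRing.ResidueField A) c)
          (redS A Y₂) := twist_coeffMap _ _ _
    rw [h3]
    exact twist_ne_zero _ h2
  · rw [key, key, ← h, map_mul]

/-- A root of unity is a unit of `A`. -/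
theorem exists_unit_of_pow_eq_one {n : ℕ} (hn : n ≠ 0) {z : Kˣ} (hz : z ^ n = 1) :
    ∃ c : Aˣ, Units.map (A.subtype : A →* K) c = z := by
  have hmem : ∀ w : Kˣ, w ^ n = 1 → (w : K) ∈ A := by
    intro w hw
    rw [← ValuationSubring.valuation_le_one_iff]
    have h1 : A.valuation (w : K) ^ n = 1 := by
      rw [← map_pow, ← Units.val_pow_eq_pow_val, hw, Units.val_one, map_one]
    exact ((pow_eq_one_iff_of_nonneg zero_le hn).mp h1).le
  refine ⟨⟨⟨z, hmem z hz⟩, ⟨((z⁻¹ : Kˣ) : K), hmem _ (by rw [inv_pow, hz, inv_one])⟩, ?_, ?_⟩, ?_⟩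
  · exact Subtype.ext (by simp)
  · exact Subtype.ext (by simp)
  · ext; rfl

end Twist

section Expand

variable {K : Type*} [Field K] {A : ValuationSubring K}

theorem coeffMap_qExpand'' {R S : Type*} [CommRing R] [CommRing S] (f : R →+* S) (n : ℕ)
    [NeZero n] (x : LaurentSeries R) :
    coeffMap f (qExpand R n x) = qExpand S n (coeffMap f x) := by
  ext k
  rw [coeffMap_coeff]
  by_cases hk : (n : ℤ) ∣ k
  · obtain ⟨m, rfl⟩ := hk
    rw [qExpand_coeff_mul, qExpand_coeff_mul, coeffMap_coeff]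
  · rw [qExpand_coeff_of_not_dvd _ _ hk, qExpand_coeff_of_not_dvd _ _ hk, map_zero]

theorem qExpand_mem_gaussSubring (e : ℕ) [NeZero e] {y : LaurentSeries K}
    (hy : y ∈ gaussSubring A) : qExpand K e y ∈ gaussSubring A := by
  obtain ⟨Y₁, Y₂, h2, h⟩ := hy
  refine ⟨qExpand A e Y₁, qExpand A e Y₂, ?_, ?_⟩
  · have h3 : redS A (qExpand A e Y₂) = qExpand _ e (redS A Y₂) := coeffMap_qExpand'' _ _ _
    rw [h3]
    intro h4
    apply h2
    apply qExpand_injective (R := IsLocalRing.ResidueField A) (N := e)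
    rw [h4, map_zero]
  · have h3 : ∀ Y : LaurentSeries A, incl A (qExpand A e Y) = qExpand K e (incl A Y) :=
      fun Y => coeffMap_qExpand'' _ _ _
    rw [h3, h3, ← h, map_mul]

variable [CharZero K] [Algebra.IsAlgebraic ℚ K] {ℓ : ℕ}

theorem mem_gaussSubring_of_qExpand (hℓ : ℓ.Prime) (hA : A.LiesOverPrime ℓ) (e : ℕ) [NeZero e]
    {y : LaurentSeries K} (hy : y ∈ intField K) (hq : qExpand K e y ∈ gaussSubring A) :
    y ∈ gaussSubring A := by
  by_contra hcon
  rcases eq_or_ne y 0 with rfl | hy0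
  · exact hcon (zero_mem _)
  have hinv : y⁻¹ ∈ gaussSubring A := (mem_or_inv_mem hℓ hA hy).resolve_left hcon
  obtain ⟨Z₁, Z₂, hZ2, hZ⟩ := hinv
  have hZ1 : redS A Z₁ = 0 := by
    by_contra h1
    apply hcon
    refine ⟨Z₂, Z₁, h1, ?_⟩
    rw [← hZ, ← mul_assoc, mul_inv_cancel₀ hy0, one_mul]
  obtain ⟨Y₁, Y₂, hY2, hY⟩ := hq
  -- `Z₁(q^e) Y₁ = Z₂(q^e) Y₂`
  have h3 : ∀ Y : LaurentSeries A, incl A (qExpand A e Y) = qExpand K e (incl A Y) :=
    fun Y => coeffMap_qExpand'' _ _ _
  have h4 : qExpand A e Z₁ * Y₁ = qExpand A e Z₂ * Y₂ := by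
    apply incl_injective A
    rw [map_mul, map_mul, h3, h3, ← hZ, ← hY, map_mul, map_inv₀]
    have : qExpand K e y ≠ 0 := by
      intro h
      exact hy0 (qExpand_injective (R := K) (N := e) (by rw [h, map_zero]))
    field_simp
  have h5 := congrArg (redS A) h4
  have h6 : ∀ Y : LaurentSeries A, redS A (qExpand A e Y) = qExpand _ e (redS A Y) :=
    fun Y => coeffMap_qExpand'' _ _ _
  rw [map_mul, map_mul, h6, h6, hZ1, map_zero, zero_mul, eq_comm, mul_eq_zero] at h5
  rcases h5 with h5 | h5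
  · apply hZ2
    apply qExpand_injective (R := IsLocalRing.ResidueField A) (N := e)
    rw [h5, map_zero]
  · exact hY2 h5

end Expand

end Fermat.Agent.X1G
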