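import Mathlib
import Fermat.Agent.FG.Galois
import Fermat.Agent.FG.SepCong
import Fermat.Agent.X1.GaussTwist
import Fermat.Agent.X0Emb.Hermite
import Fermat.Agent.ModFun.JN

/-!
# `F(Mτ)` for a modular function on `Γ(M)`; modular functions on `Γ(M)` have expansions in the
field generated by series with integral coefficients
-/

set_option autoImplicit false
set_option linter.dupNamespace false

open UpperHalfPlane hiding I
open ModularForm Matrix.SpecialLinearGroup Filter Asymptotics CongruenceSubgroup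
open scoped MatrixGroups Manifold ModularForm Topology IntermediateField

noncomputable section

namespace Fermat.Agent.X1G

open Fermat.Agent.JLevelOne Fermat.Agent.X0Emb Fermat.Agent.ModFun ModularCurve
open Fermat.Agent.FG Fermat.Agent.GaussVal

local notation "𝕢" => Function.Periodic.qParam

theorem growthInf_comp_aff {F : ℍ → ℂ} (hF : GrowthInf F) (a b d : ℕ) [NeZero a] [NeZero d] :
    GrowthInf (fun τ => F (aff a b d τ)) := by
  obtain ⟨m, hm⟩ := hF
  have ha : (0 : ℝ) < a := by exact_mod_cast Nat.pos_of_ne_zero (NeZero.ne a)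
  have hd : (0 : ℝ) < d := by exact_mod_cast Nat.pos_of_ne_zero (NeZero.ne d)
  have hd1 : (1 : ℝ) ≤ d := by exact_mod_cast Nat.one_le_iff_ne_zero.mpr (NeZero.ne d)
  have him : ∀ τ : ℍ, (aff a b d τ).im = a * τ.im / d := by
    intro τ
    have : (aff a b d τ).im = ((aff a b d τ : ℍ) : ℂ).im := rfl
    rw [this, coe_aff, Complex.div_natCast_im]
    simp
  have htend : Tendsto (fun τ : ℍ => aff a b d τ) atImInfty atImInfty := by
    rw [atImInfty, tendsto_comap_iff]
    have h1 : (UpperHalfPlane.im ∘ fun τ : ℍ => aff a b d τ) = fun τ : ℍ => a / d * τ.im := by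
      funext τ
      rw [Function.comp_apply, him]
      ring
    rw [h1]
    exact Tendsto.const_mul_atTop (div_pos ha hd) tendsto_comap
  refine ⟨m * a, (hm.comp_tendsto htend).trans (IsBigO.of_norm_le fun τ => ?_)⟩
  simp only [Function.comp_apply, Real.norm_eq_abs, Real.abs_exp]
  refine Real.exp_le_exp.mpr ?_
  rw [him]
  push_cast
  have h1 : (m : ℝ) * (a * τ.im / d) = (m * a * τ.im) / d := by ring
  rw [h1]
  exact div_le_self (by have := τ.im_pos; positivity) hd1

theorem modGrowth_comp_aff {F : ℍ → ℂ} (hF : ModGrowth F) (M : ℕ) [NeZero M] :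
    ModGrowth (fun τ => F (aff M 0 1 τ)) := by
  intro σ
  obtain ⟨a, b, d, ha, hd, g', -, -, h3⟩ := exists_hermite M σ
  have h1 : (fun τ : ℍ => F (aff M 0 1 (σ • τ))) = fun τ => F (g' • aff a b d τ) := by
    funext τ
    rw [h3]
  rw [h1]
  exact growthInf_comp_aff (F := fun τ => F (g' • τ)) (hF g') a b d

theorem lexp_comp_aff {M : ℕ} [NeZero M] {F : ℍ → ℂ} {G : LaurentSeries ℂ} (hF : LExp M F G) :
    LExp 1 (fun τ => F (aff M 0 1 τ)) G := by
  intro τ
  have h1 := hF (aff M 0 1 τ)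
  have hM : (M : ℂ) ≠ 0 := by exact_mod_cast NeZero.ne M
  have h2 : 𝕢 M ((aff M 0 1 τ : ℍ) : ℂ) = 𝕢 1 (τ : ℂ) := by
    rw [Function.Periodic.qParam, Function.Periodic.qParam, coe_aff]
    congr 1
    push_cast
    field_simp
    ring
  rw [h2] at h1
  exact h1

/-- Conjugation by `diag(M, 1)` of `Γ₁(M²)` into `Γ(M)`. -/
theorem exists_aff_smul_of_mem_Gamma1 (M : ℕ) [NeZero M] (g : SL(2, ℤ))
    (hg : g ∈ Gamma1 (M * M)) :
    ∃ g' ∈ Gamma M, ∀ τ : ℍ, aff M 0 1 (g • τ) = g' • aff M 0 1 τ := by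
  rw [Gamma1_mem] at hg
  obtain ⟨h00, h11, h10⟩ := hg
  have hM : (M : ℤ) ≠ 0 := by exact_mod_cast NeZero.ne M
  have h1 : ((M * M : ℕ) : ℤ) ∣ g 1 0 := (ZMod.intCast_zmod_eq_zero_iff_dvd _ _).mp h10
  obtain ⟨c, hc⟩ := h1
  push_cast at hc
  let g' : SL(2, ℤ) := ⟨!![g 0 0, M * g 0 1; M * c, g 1 1], by
    rw [Matrix.det_fin_two_of]
    have hdet := sl_det g
    linear_combination hdet + g 0 1 * hc⟩
  have e00 : g' 0 0 = g 0 0 := rfl
  have e01 : g' 0 1 = M * g 0 1 := rfl
  have e10 : g' 1 0 = M * c := rfl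
  have e11 : g' 1 1 = g 1 1 := rfl
  have hred : ∀ x : ℤ, (x : ZMod (M * M)) = 1 → (x : ZMod M) = 1 := by
    intro x hx
    have h2 := congrArg (ZMod.castHom (Dvd.intro M rfl : M ∣ M * M) (ZMod M)) hx
    rwa [map_intCast, map_one] at h2
  refine ⟨g', ?_, aff_smul_eq M 0 1 M 0 1 g g' ?_ ?_ ?_ ?_⟩
  · rw [Gamma_mem, e00, e01, e10, e11]
    refine ⟨hred _ h00, ?_, ?_, hred _ h11⟩ <;> simp
  · rw [e00]; push_cast; ring
  · rw [e00, e01]; push_cast; ring
  · rw [e10]; push_cast; linear_combination hc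
  · rw [e10, e11]; push_cast; ring

variable {K : Type*} [Field K] {ι : K →+* ℂ} {F : ℍ → ℂ} {y : LaurentSeries K}

/-- `F(Mτ)` is a modular function on `Γ₁(M²)` if `F` is one on `Γ(M)`. -/
theorem isMF_scale {M : ℕ} [NeZero M] (hF : IsMF ι (Gamma M) M F y) :
    IsMF ι (Gamma1 (M * M)) 1 (fun τ => F (aff M 0 1 τ)) y where
  mdiff := mdiff_comp_aff hF.mdiff M 0 1
  inv γ hγ τ := by
    obtain ⟨g', hg', h⟩ := exists_aff_smul_of_mem_Gamma1 M γ hγ
    rw [h, hF.inv g' hg']
  growth := modGrowth_comp_aff hF.growth M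
  lexp := by
    have := lexp_comp_aff hF.lexp
    simpa using this

theorem AG_scale (M : ℕ) [NeZero M] : AG ι (Gamma M) M ≤ AG ι (Gamma1 (M * M)) 1 :=
  fun _ ⟨_, hF⟩ => (isMF_scale hF).mem_AG

theorem FG_scale (M : ℕ) [NeZero M] : FG ι (Gamma M) M ≤ FG ι (Gamma1 (M * M)) 1 :=
  IntermediateField.adjoin.mono _ _ _ (AG_scale M)

/-- The field of modular functions on `Γ₁(N)` is generated by series with integral
coefficients. -/
theorem FG_Gamma1_le_intField (N : ℕ) [NeZero N] : FG ι (Gamma1 N) 1 ≤ intField K := by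
  rw [(sepG1 ι N).FG_eq, IntermediateField.adjoin_le_iff]
  rintro x (rfl | rfl)
  · exact jqd_mem_intField 1
  · rw [sepG1_y]
    exact coeffMap_int_mem_intField _

theorem FG_Gamma_le_intField (M : ℕ) [NeZero M] : FG ι (Gamma M) M ≤ intField K := by
  have : NeZero (M * M) := ⟨mul_ne_zero (NeZero.ne M) (NeZero.ne M)⟩
  exact (FG_scale M).trans (FG_Gamma1_le_intField (M * M))

end Fermat.Agent.X1G
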