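import Mathlib

/-!
# Conjugacy of the extensions of a valuation ring in a Galois extension
-/

set_option autoImplicit false

noncomputable section

open Polynomial
open scoped Pointwise

namespace Fermat.Agent.X1G

section Horner

variable {F : Type*} [Field F] {R : Type*} [CommRing R] [Algebra R F]

/-- An element lying in all valuation rings above `R` is integral over `R`. -/
theorem isIntegral_of_forall {x : F}
    (h : ∀ W : ValuationSubring F, (∀ a : R, algebraMap R F a ∈ W) → x ∈ W) : IsIntegral R x := by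
  by_contra hx
  let C : Subring F := (integralClosure R F).toSubring
  have hC : IsIntegrallyClosedIn C F := by
    have : IsIntegrallyClosedIn (integralClosure R F) F := inferInstance
    exact this
  have hxC : x ∉ C := hx
  obtain ⟨W, hW, hxW⟩ := Subring.exists_le_valuationSubring_of_isIntegrallyClosedIn hxC
  refine hxW (h W fun a => hW ?_)
  exact isIntegral_algebraMap (R := R) (A := F) (x := a)

/-- **Horner's trick**. -/
theorem exists_integral_mul (O : ValuationSubring F) (p : R[X]) (x : F) (hx : x ∈ O) (hp : aeval x p = 0)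
    (hu : ∃ i, algebraMap R F (p.coeff i) ∉ O.nonunits) :
    ∃ y : F, IsIntegral R y ∧ IsIntegral R (x * y) ∧ y ∉ O.nonunits := by
  classical
  set a : ℕ → F := fun i => algebraMap R F (p.coeff i) with ha
  have haR : ∀ (W : ValuationSubring F), (∀ a : R, algebraMap R F a ∈ W) → ∀ i, a i ∈ W :=
    fun W hW i => hW _
  set n := p.natDegree + 1 with hn
  have hbig : ∀ i, n ≤ i → a i = 0 := by
    intro i hi
    rw [ha]
    simp only
    rw [Polynomial.coeff_eq_zero_of_natDegree_lt (by omega), map_zero]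
  have h0 : (0 : F) ∈ O.nonunits := by simp
  -- the largest index with a unit coefficient
  obtain ⟨r, hr, hrmax⟩ : ∃ r, a r ∉ O.nonunits ∧ ∀ i, r < i → a i ∈ O.nonunits := by
    obtain ⟨i, hi⟩ := hu
    have hin : i < n := by
      by_contra hcon
      apply hi
      change a i ∈ O.nonunits
      rw [hbig i (by omega)]
      exact h0
    obtain ⟨r, hr, hmax⟩ := Finset.exists_max_image ((Finset.range n).filter
      (fun i => a i ∉ O.nonunits)) id ⟨i, by simpa using ⟨hin, hi⟩⟩
    rw [Finset.mem_filter] at hr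
    refine ⟨r, hr.2, fun i hi => ?_⟩
    by_contra hcon
    have hin' : i < n := by
      by_contra hcon'
      apply hcon
      rw [hbig i (by omega)]
      exact h0
    have := hmax i (by simpa using ⟨hin', hcon⟩)
    simp at this
    omega
  set y : F := ∑ i ∈ Finset.range n, a (r + i) * x ^ i with hy
  have hrel : ∑ i ∈ Finset.range r, a i * x ^ i + x ^ r * y = 0 := by
    have h1 : aeval x p = ∑ i ∈ Finset.range (r + n), a i * x ^ i := by
      rw [Polynomial.aeval_eq_sum_range' (n := r + n) (by omega)]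
      exact Finset.sum_congr rfl fun i _ => by rw [Algebra.smul_def]
    rw [hp, Finset.sum_range_add] at h1
    rw [h1, hy, Finset.mul_sum]
    congr 1
    refine Finset.sum_congr rfl fun i _ => ?_
    rw [pow_add]
    ring
  refine ⟨y, ?_, ?_, ?_⟩
  · -- `y` is integral
    apply isIntegral_of_forall
    intro W hW
    rcases W.mem_or_inv_mem x with hxW | hxW
    · exact sum_mem fun i _ => mul_mem (haR W hW _) (pow_mem hxW i)
    · rcases eq_or_ne x 0 with rfl | hx0
      · exact sum_mem fun i _ => mul_mem (haR W hW _) (pow_mem (zero_mem _) i)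
      have h1 : y = - ∑ i ∈ Finset.range r, a i * (x⁻¹) ^ (r - i) := by
        have h2 : x ^ r * y = x ^ r * (- ∑ i ∈ Finset.range r, a i * (x⁻¹) ^ (r - i)) := by
          rw [eq_neg_of_add_eq_zero_right hrel, mul_neg, Finset.mul_sum]
          congr 1
          refine Finset.sum_congr rfl fun i hi => ?_
          rw [Finset.mem_range] at hi
          have h3 : x ^ r = x ^ i * x ^ (r - i) := by rw [← pow_add]; congr 1; omega
          rw [h3, inv_pow]
          field_simp
        exact mul_left_cancel₀ (pow_ne_zero _ hx0) h2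
      rw [h1]
      exact neg_mem (sum_mem fun i _ => mul_mem (haR W hW _) (pow_mem hxW _))
  · apply isIntegral_of_forall
    intro W hW
    rcases W.mem_or_inv_mem x with hxW | hxW
    · exact mul_mem hxW (sum_mem fun i _ => mul_mem (haR W hW _) (pow_mem hxW i))
    · rcases eq_or_ne x 0 with rfl | hx0
      · rw [zero_mul]; exact zero_mem _
      have h1 : x * y = - ∑ i ∈ Finset.range r, a i * (x⁻¹) ^ (r - 1 - i) := by
        have h2 : x ^ r * (x * y) =
            x ^ r * (- ∑ i ∈ Finset.range r, a i * (x⁻¹) ^ (r - 1 - i)) := by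
          rw [mul_left_comm, eq_neg_of_add_eq_zero_right hrel, mul_neg, mul_neg, Finset.mul_sum,
            Finset.mul_sum]
          congr 1
          refine Finset.sum_congr rfl fun i hi => ?_
          rw [Finset.mem_range] at hi
          have h3 : x ^ r = x ^ i * x ^ (r - 1 - i) * x := by
            rw [← pow_add, ← pow_succ]; congr 1; omega
          rw [h3, inv_pow]
          field_simp
        exact mul_left_cancel₀ (pow_ne_zero _ hx0) h2
      rw [h1]
      exact neg_mem (sum_mem fun i _ => mul_mem (haR W hW _) (pow_mem hxW _))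
  · -- `y` is a unit of `O`
    intro hyn
    apply hr
    have h1 : y = a r + ∑ i ∈ Finset.range p.natDegree, a (r + (i + 1)) * x ^ (i + 1) := by
      rw [hy, hn, Finset.sum_range_succ', add_comm]
      simp
    have h2 : ∑ i ∈ Finset.range p.natDegree, a (r + (i + 1)) * x ^ (i + 1) ∈ O.nonunits := by
      rw [ValuationSubring.mem_nonunits_iff]
      apply Valuation.map_sum_lt _ one_ne_zero
      intro i _
      rw [map_mul, map_pow]
      have h3 : O.valuation (a (r + (i + 1))) < 1 :=
        (ValuationSubring.mem_nonunits_iff _).mp (hrmax _ (by omega))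
      have h4 : O.valuation x ^ (i + 1) ≤ 1 :=
        pow_le_one₀ zero_le ((ValuationSubring.valuation_le_one_iff _ _).mpr hx)
      calc _ ≤ O.valuation (a (r + (i + 1))) * 1 := mul_le_mul_right h4 _
        _ < 1 := by rwa [mul_one]
    have h3 : a r = y - ∑ i ∈ Finset.range p.natDegree, a (r + (i + 1)) * x ^ (i + 1) := by
      rw [h1]; ring
    rw [h3, ValuationSubring.mem_nonunits_iff]
    exact Valuation.map_sub_lt _ ((ValuationSubring.mem_nonunits_iff _).mp hyn)
      ((ValuationSubring.mem_nonunits_iff _).mp h2)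

end Horner

section Galois

variable {E F : Type*} [Field E] [Field F] [Algebra E F]

/-- Scaling an algebraic relation. -/
theorem exists_unit_coeff (V : ValuationSubring E) (O : ValuationSubring F) {x : F} (hx : IsAlgebraic E x) :
    ∃ p : V[X], aeval x p = 0 ∧ ∃ i, algebraMap V F (p.coeff i) ∉ O.nonunits := by
  classical
  obtain ⟨p, hp0, hp⟩ := hx
  obtain ⟨i₀, hi₀, hmax⟩ := Finset.exists_max_image p.support
    (fun i => V.valuation (p.coeff i)) (Polynomial.support_nonempty.mpr hp0)
  have hc0 : p.coeff i₀ ≠ 0 := Polynomial.mem_support_iff.mp hi₀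
  have hmem : ∀ i, (p.coeff i₀)⁻¹ * p.coeff i ∈ V := by
    intro i
    by_cases h0 : p.coeff i = 0
    · rw [h0, mul_zero]; exact zero_mem _
    · rw [← ValuationSubring.valuation_le_one_iff, map_mul, map_inv₀, ← div_eq_inv_mul]
      exact div_le_one_of_le₀ (hmax i (Polynomial.mem_support_iff.mpr h0)) zero_le
  obtain ⟨q, hq⟩ : ∃ q : V[X], q.map (algebraMap V E) = C (p.coeff i₀)⁻¹ * p := by
    have : C (p.coeff i₀)⁻¹ * p ∈ Polynomial.lifts (algebraMap V E) := by
      rw [Polynomial.lifts_iff_coeff_lifts]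
      intro n
      rw [Polynomial.coeff_C_mul]
      exact ⟨⟨_, hmem n⟩, rfl⟩
    exact (Polynomial.mem_lifts _).mp this
  refine ⟨q, ?_, i₀, ?_⟩
  · have h1 : aeval x q = aeval x (q.map (algebraMap V E)) := by
      rw [aeval_map_algebraMap]
    rw [h1, hq, map_mul, hp, mul_zero]
  · have h1 : (algebraMap V E (q.coeff i₀)) = 1 := by
      have := congrArg (fun r : E[X] => r.coeff i₀) hq
      simp only [Polynomial.coeff_map, Polynomial.coeff_C_mul] at this
      rw [this, inv_mul_cancel₀ hc0]
    rw [IsScalarTower.algebraMap_apply V E F, h1, map_one, ValuationSubring.mem_nonunits_iff,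
      map_one]
    exact lt_irrefl _

theorem mem_of_isIntegral {V : ValuationSubring E} (O : ValuationSubring F)
    (hV : ∀ a : E, algebraMap E F a ∈ O ↔ a ∈ V) {x : F} (hx : IsIntegral V x) : x ∈ O := by
  have h1 : IsIntegral O x := by
    obtain ⟨p, hp, hpx⟩ := hx
    let φ : V →+* O :=
      { toFun := fun a => ⟨algebraMap E F a, (hV _).mpr a.2⟩
        map_one' := Subtype.ext (map_one _)
        map_mul' := fun _ _ => Subtype.ext (map_mul _ _ _)
        map_zero' := Subtype.ext (map_zero _)
        map_add' := fun _ _ => Subtype.ext (map_add _ _ _) }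
    refine ⟨p.map φ, hp.map φ, ?_⟩
    rw [eval₂_map]
    exact hpx
  obtain ⟨y, hy⟩ := IsIntegrallyClosed.isIntegral_iff.mp h1
  rw [← hy]
  exact y.2

/-- The inclusion of the integral closure in a valuation ring -/
def toO {V : ValuationSubring E} (O : ValuationSubring F)
    (hV : ∀ a : E, algebraMap E F a ∈ O ↔ a ∈ V) : integralClosure V F →+* O where
  toFun x := ⟨x, mem_of_isIntegral O hV x.2⟩
  map_one' := rfl
  map_mul' _ _ := rfl
  map_zero' := rfl
  map_add' _ _ := rfl

/-- The centre of a valuation ring on the integral closure -/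
def centre {V : ValuationSubring E} (O : ValuationSubring F)
    (hV : ∀ a : E, algebraMap E F a ∈ O ↔ a ∈ V) : Ideal (integralClosure V F) :=
  (IsLocalRing.maximalIdeal O).comap (toO O hV)

instance {V : ValuationSubring E} (O : ValuationSubring F)
    (hV : ∀ a : E, algebraMap E F a ∈ O ↔ a ∈ V) : (centre O hV).IsPrime :=
  Ideal.comap_isPrime _ _

theorem mem_centre {V : ValuationSubring E} (O : ValuationSubring F)
    (hV : ∀ a : E, algebraMap E F a ∈ O ↔ a ∈ V) (x : integralClosure V F) :
    x ∈ centre O hV ↔ (x : F) ∈ O.nonunits := by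
  rw [centre, Ideal.mem_comap, ValuationSubring.mem_nonunits_iff]
  exact O.valuation_lt_one_iff _

theorem mem_nonunits_iff_inv_notMem {L : Type*} [Field L] (W : ValuationSubring L) {x : L}
    (hx : x ≠ 0) : x ∈ W.nonunits ↔ x⁻¹ ∉ W := by
  rw [ValuationSubring.mem_nonunits_iff, ← ValuationSubring.valuation_le_one_iff, map_inv₀,
    not_le, one_lt_inv₀ (zero_lt_iff.mpr ((Valuation.ne_zero_iff _).mpr hx))]

theorem mem_nonunits_iff_of_hV {V : ValuationSubring E} (O : ValuationSubring F)
    (hV : ∀ a : E, algebraMap E F a ∈ O ↔ a ∈ V) (a : E) :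
    algebraMap E F a ∈ O.nonunits ↔ a ∈ V.nonunits := by
  rcases eq_or_ne a 0 with rfl | ha
  · simp
  rw [mem_nonunits_iff_inv_notMem O ((_root_.map_ne_zero _).mpr ha),
    mem_nonunits_iff_inv_notMem V ha, ← map_inv₀, hV]

theorem div_mem_of_notMem_nonunits (O : ValuationSubring F) {x y : F} (hxy : x * y ∈ O)
    (hy : y ∉ O.nonunits) : x ∈ O := by
  rw [ValuationSubring.mem_nonunits_iff, not_lt] at hy
  rw [← ValuationSubring.valuation_le_one_iff] at hxy ⊢
  rw [map_mul] at hxy
  by_contra hx
  rw [not_le] at hx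
  have := one_lt_mul_of_lt_of_le hx hy
  exact absurd hxy (not_le.mpr this)

/-- **Conjugacy of the extensions of a valuation ring**. -/
theorem exists_conj [FiniteDimensional E F] [IsGalois E F] (V : ValuationSubring E)
    (O O' : ValuationSubring F) (hO : ∀ a : E, algebraMap E F a ∈ O ↔ a ∈ V)
    (hO' : ∀ a : E, algebraMap E F a ∈ O' ↔ a ∈ V) :
    ∃ σ : F ≃ₐ[E] F, ∀ x, σ x ∈ O' ↔ x ∈ O := by
  let B := integralClosure V F
  have : IsFractionRing B F := integralClosure.isFractionRing_of_finite_extension E F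
  let := IsIntegralClosure.MulSemiringAction V E F B
  have : Algebra.IsInvariant V B (F ≃ₐ[E] F) := Algebra.isInvariant_of_isGalois V E F B
  have hsmul : ∀ (g : F ≃ₐ[E] F) (b : B), ((g • b : B) : F) = g (b : F) := by
    intro g b
    exact algebraMap_galRestrict_apply V g b
  have : SMulCommClass (F ≃ₐ[E] F) V B := by
    refine ⟨fun g a b => Subtype.ext ?_⟩
    rw [hsmul, Subalgebra.coe_smul, Subalgebra.coe_smul, hsmul, Algebra.smul_def,
      Algebra.smul_def, map_mul]
    congr 1
    rw [IsScalarTower.algebraMap_apply V E F, AlgEquiv.commutes]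
  have hunder : (centre O hO).under V = (centre O' hO').under V := by
    ext a
    rw [Ideal.mem_under, Ideal.mem_under, mem_centre, mem_centre]
    have h1 : ((algebraMap V B a : B) : F) = algebraMap E F a := rfl
    rw [h1, mem_nonunits_iff_of_hV O hO, mem_nonunits_iff_of_hV O' hO']
  obtain ⟨g, hg⟩ := Algebra.IsInvariant.exists_smul_of_under_eq V B (F ≃ₐ[E] F)
    (centre O hO) (centre O' hO') hunder
  have hg' : ∀ b : B, g • b ∈ centre O' hO' ↔ b ∈ centre O hO := by
    intro b
    rw [hg, Ideal.smul_mem_pointwise_smul_iff]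
  refine ⟨g, fun x => ⟨fun hx => ?_, fun hx => ?_⟩⟩
  · obtain ⟨p, hp, hpu⟩ := exists_unit_coeff V O' (x := g x)
      (Algebra.IsAlgebraic.isAlgebraic _)
    obtain ⟨y, hy, hxy, hyu⟩ := exists_integral_mul O' p (g x) hx hp hpu
    let b : B := g⁻¹ • (⟨y, hy⟩ : B)
    have hb : g (b : F) = y := by
      rw [← hsmul, smul_inv_smul]
    let c : B := g⁻¹ • (⟨g x * y, hxy⟩ : B)
    have hc : g (c : F) = g x * y := by
      rw [← hsmul, smul_inv_smul]
    have hbu : (b : F) ∉ O.nonunits := by
      rw [← mem_centre O hO, ← hg', mem_centre, hsmul, hb]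
      exact hyu
    apply div_mem_of_notMem_nonunits O (y := (b : F)) _ hbu
    have : x * (b : F) = (c : F) := by
      apply g.injective
      rw [map_mul, hb, hc]
    rw [this]
    exact mem_of_isIntegral O hO c.2
  · obtain ⟨p, hp, hpu⟩ := exists_unit_coeff V O (x := x)
      (Algebra.IsAlgebraic.isAlgebraic _)
    obtain ⟨y, hy, hxy, hyu⟩ := exists_integral_mul O p x hx hp hpu
    have hbu : g y ∉ O'.nonunits := by
      have h1 := hsmul g (⟨y, hy⟩ : B)
      rw [← h1, ← mem_centre O' hO', hg', mem_centre]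
      exact hyu
    apply div_mem_of_notMem_nonunits O' (y := g y) _ hbu
    rw [← map_mul]
    have h1 := hsmul g (⟨x * y, hxy⟩ : B)
    rw [← h1]
    exact mem_of_isIntegral O' hO' (g • (⟨x * y, hxy⟩ : B)).2

/-- If `O ∩ F₀` is integral over `V` then every extension of `V` to `F` agrees with `O` on
`F₀`. -/
theorem mem_iff_of_integral {V : ValuationSubring E} {O O' : ValuationSubring F}
    (hO : ∀ a : E, algebraMap E F a ∈ O ↔ a ∈ V) (hO' : ∀ a : E, algebraMap E F a ∈ O' ↔ a ∈ V)
    (F₀ : IntermediateField E F) (hint : ∀ x ∈ F₀, x ∈ O → IsIntegral V x) {x : F}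
    (hx : x ∈ F₀) : x ∈ O' ↔ x ∈ O := by
  refine ⟨fun hxO' => ?_, fun hxO => mem_of_isIntegral O' hO' (hint x hx hxO)⟩
  by_contra hxO
  have hx0 : x ≠ 0 := by
    rintro rfl
    exact hxO (zero_mem _)
  -- the valuation ring of `F₀`
  let B₀ : Subring F := O.toSubring ⊓ F₀.toSubfield.toSubring
  have hB₀ : ∀ z : B₀, (z : F) ∈ O' := fun z => mem_of_isIntegral O' hO' (hint z z.2.2 z.2.1)
  let φ : V →+* B₀ :=
    { toFun := fun a => ⟨algebraMap E F a, (hO _).mpr a.2, F₀.algebraMap_mem _⟩
      map_one' := Subtype.ext (map_one _)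
      map_mul' := fun _ _ => Subtype.ext (map_mul _ _ _)
      map_zero' := Subtype.ext (map_zero _)
      map_add' := fun _ _ => Subtype.ext (map_add _ _ _) }
  have hφ : φ.IsIntegral := by
    intro z
    obtain ⟨p, hp, hpz⟩ := hint z z.2.2 z.2.1
    refine ⟨p, hp, Subtype.ext ?_⟩
    have h1 := Polynomial.hom_eval₂ p φ B₀.subtype z
    rw [ZeroMemClass.coe_zero, ← hpz]
    exact h1
  let ψ : B₀ →+* O' :=
    { toFun := fun z => ⟨z, hB₀ z⟩
      map_one' := rfl
      map_mul' := fun _ _ => rfl
      map_zero' := rfl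
      map_add' := fun _ _ => rfl }
  let P : Ideal B₀ := (IsLocalRing.maximalIdeal O').comap ψ
  have hP : ∀ z : B₀, z ∈ P ↔ (z : F) ∈ O'.nonunits := by
    intro z
    rw [Ideal.mem_comap, ValuationSubring.mem_nonunits_iff]
    exact O'.valuation_lt_one_iff _
  have : P.IsPrime := Ideal.comap_isPrime _ _
  have hcomap : P.comap φ = IsLocalRing.maximalIdeal V := by
    ext a
    rw [Ideal.mem_comap, hP]
    change algebraMap E F (a : E) ∈ O'.nonunits ↔ _
    rw [mem_nonunits_iff_of_hV O' hO', ValuationSubring.mem_nonunits_iff]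
    exact (V.valuation_lt_one_iff _).symm
  have hmax : P.IsMaximal := Ideal.isMaximal_of_isIntegral_of_isMaximal_comap' φ hφ P
    (hcomap ▸ IsLocalRing.maximalIdeal.isMaximal V)
  -- `B₀` is local with maximal ideal the nonunits of `O`
  let ψ₀ : B₀ →+* O :=
    { toFun := fun z => ⟨z, z.2.1⟩
      map_one' := rfl
      map_mul' := fun _ _ => rfl
      map_zero' := rfl
      map_add' := fun _ _ => rfl }
  let Q : Ideal B₀ := (IsLocalRing.maximalIdeal O).comap ψ₀
  have hQ : ∀ z : B₀, z ∈ Q ↔ (z : F) ∈ O.nonunits := by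
    intro z
    rw [Ideal.mem_comap, ValuationSubring.mem_nonunits_iff]
    exact O.valuation_lt_one_iff _
  have hPQ : P ≤ Q := by
    intro z hz
    rw [hQ]
    by_contra hcon
    rcases eq_or_ne (z : F) 0 with h0 | h0
    · rw [h0] at hcon; exact hcon (by simp)
    have hinv : (z : F)⁻¹ ∈ O := by
      rw [mem_nonunits_iff_inv_notMem O h0, not_not] at hcon
      exact hcon
    have h1 : (1 : B₀) ∈ P := by
      have : (1 : B₀) = ⟨(z : F)⁻¹, hinv, F₀.inv_mem z.2.2⟩ * z :=
        Subtype.ext (inv_mul_cancel₀ h0).symm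
      rw [this]
      exact P.mul_mem_left _ hz
    exact hmax.ne_top ((Ideal.eq_top_iff_one P).mpr h1)
  have hQP : Q = P := by
    refine (hmax.eq_of_le ?_ hPQ).symm
    intro htop
    have h1 : (1 : B₀) ∈ Q := htop ▸ Submodule.mem_top
    rw [hQ, ValuationSubring.mem_nonunits_iff] at h1
    simp at h1
  have hinv : x⁻¹ ∈ O := (O.mem_or_inv_mem x).resolve_left hxO
  have h1 : x⁻¹ ∈ O.nonunits := by
    rw [mem_nonunits_iff_inv_notMem O (inv_ne_zero hx0), inv_inv]
    exact hxO
  have h2 : (⟨x⁻¹, hinv, F₀.inv_mem hx⟩ : B₀) ∈ P := by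
    rw [← hQP, hQ]
    exact h1
  rw [hP, mem_nonunits_iff_inv_notMem O' (inv_ne_zero hx0), inv_inv] at h2
  exact h2 hxO'

/-- If moreover `F/E` is Galois, then the conjugating automorphism can be chosen to fix `F₀`. -/
theorem exists_conj_fixing [FiniteDimensional E F] [IsGalois E F] {V : ValuationSubring E}
    {O O' : ValuationSubring F} (hO : ∀ a : E, algebraMap E F a ∈ O ↔ a ∈ V)
    (hO' : ∀ a : E, algebraMap E F a ∈ O' ↔ a ∈ V)
    (F₀ : IntermediateField E F) (hint : ∀ x ∈ F₀, x ∈ O → IsIntegral V x) :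
    ∃ σ : F ≃ₐ[E] F, (∀ x ∈ F₀, σ x = x) ∧ ∀ x, σ x ∈ O' ↔ x ∈ O := by
  obtain ⟨σ, hσ⟩ := exists_conj (E := F₀) (O.comap (algebraMap F₀ F)) O O'
    (fun a => Iff.rfl) (fun a => by
      rw [ValuationSubring.mem_comap]
      exact mem_iff_of_integral hO hO' F₀ hint a.2)
  exact ⟨σ.restrictScalars E, fun x hx => σ.commutes ⟨x, hx⟩, hσ⟩

/-- A valuation ring stable under the Galois group is integral over its restriction. -/
theorem isIntegral_of_stable [FiniteDimensional E F] [IsGalois E F] {V : ValuationSubring E}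
    {O : ValuationSubring F} (hO : ∀ a : E, algebraMap E F a ∈ O ↔ a ∈ V)
    (hst : ∀ (σ : F ≃ₐ[E] F) (x : F), x ∈ O → σ x ∈ O) {x : F} (hx : x ∈ O) :
    IsIntegral V x := by
  classical
  have hinv : Algebra.IsInvariant E F (F ≃ₐ[E] F) := by
    refine ⟨fun b hb => ?_⟩
    have h1 : b ∈ IntermediateField.fixedField (⊤ : Subgroup (F ≃ₐ[E] F)) := by
      rintro ⟨g, -⟩
      exact hb g
    have h2 := ((IsGalois.tfae (F := E) (E := F)).out 0 1).mp (inferInstance : IsGalois E F)
    rw [h2, IntermediateField.mem_bot] at h1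
    exact h1
  set P := MulSemiringAction.charpoly (F ≃ₐ[E] F) x with hP
  have hcoeff : ∀ i, ∃ a : V, algebraMap V F a = P.coeff i := by
    intro i
    obtain ⟨a, ha⟩ := (Polynomial.lifts_iff_coeff_lifts _).mp
      (Algebra.IsInvariant.charpoly_mem_lifts E F (F ≃ₐ[E] F) x) i
    have hPO : P.coeff i ∈ O := by
      have h2 : P = (∏ g : F ≃ₐ[E] F, (X - C (⟨g x, hst g x hx⟩ : O))).map O.subtype := by
        rw [hP, MulSemiringAction.charpoly_eq, Polynomial.map_prod]
        refine Finset.prod_congr rfl fun g _ => ?_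
        rw [Polynomial.map_sub, Polynomial.map_X, Polynomial.map_C]
        rfl
      rw [h2, Polynomial.coeff_map]
      exact Subtype.property _
    refine ⟨⟨a, (hO a).mp ?_⟩, ha⟩
    rw [ha]
    exact hPO
  obtain ⟨p, hp1, -, hp2⟩ := Polynomial.lifts_and_natDegree_eq_and_monic
    ((Polynomial.lifts_iff_coeff_lifts (f := algebraMap V F) P).mpr hcoeff)
    (MulSemiringAction.monic_charpoly _ x)
  refine ⟨p, hp2, ?_⟩
  rw [← eval_map, hp1]
  exact MulSemiringAction.eval_charpoly _ x

end Galois

end Fermat.Agent.X1G
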