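import Mathlib
import Fermat.Agent.X1.GaussConj
import Fermat.Agent.FF.Orbits

/-!
# Integrality over `A[y]`
-/

set_option autoImplicit false

noncomputable section

open Polynomial
open scoped IntermediateField

namespace Fermat.Agent.X1G

variable {K F : Type*} [Field K] [Field F] [Algebra K F]

/-- evaluation at `y` of polynomials with coefficients in `A` -/
def evA (A : ValuationSubring K) (y : F) : A[X] →+* F :=
  eval₂RingHom ((algebraMap K F).comp A.subtype) y

theorem evA_eq (A : ValuationSubring K) (y : F) (p : A[X]) :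
    evA A y p = aeval y (p.map A.subtype) := by
  rw [evA, coe_eval₂RingHom, aeval_def, eval₂_map]

open scoped IntermediateField.algebraAdjoinAdjoin in
/-- An element integral over `K[y]` and over the valuation ring `V` of `K(y)` is integral over
`A[y]`. -/
theorem exists_monic {A : ValuationSubring K} {y : F} (hy : Transcendental K y)
    [Algebra.IsAlgebraic K⟮y⟯ F] (V : ValuationSubring K⟮y⟯)
    (hV : ∀ (p : K[X]) (z : K⟮y⟯), (z : F) = aeval y p → z ∈ V → ∀ n, p.coeff n ∈ A)
    {x : F} (hxV : IsIntegral V x) (hxy : IsIntegral (Algebra.adjoin K {y}) x) :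
    ∃ P : A[X][X], P.Monic ∧ eval₂ (evA A y) x P = 0 := by
  have hpid := FFOrb.isPrincipalIdealRing_adjoin y hy
  have h1 := minpoly.isIntegrallyClosed_eq_field_fractions' (R := V) K⟮y⟯ hxV
  have h2 := minpoly.isIntegrallyClosed_eq_field_fractions' (R := Algebra.adjoin K {y}) K⟮y⟯ hxy
  have hcoeff : ∀ n, ∃ q : A[X], evA A y q = ((minpoly K⟮y⟯ x).map (algebraMap K⟮y⟯ F)).coeff n := by
    intro n
    have h3 : (minpoly K⟮y⟯ x).coeff n ∈ V := by
      rw [h1, coeff_map]
      exact Subtype.property _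
    have h4 : (((minpoly K⟮y⟯ x).coeff n : K⟮y⟯) : F) ∈ Algebra.adjoin K {y} := by
      rw [h2, coeff_map]
      have h6 := IsScalarTower.algebraMap_apply (Algebra.adjoin K {y}) K⟮y⟯ F
        ((minpoly (Algebra.adjoin K {y}) x).coeff n)
      have h7 : ((algebraMap (Algebra.adjoin K {y}) K⟮y⟯
        ((minpoly (Algebra.adjoin K {y}) x).coeff n) : K⟮y⟯) : F) =
          (((minpoly (Algebra.adjoin K {y}) x).coeff n : Algebra.adjoin K {y}) : F) := h6.symm
      rw [h7]
      exact Subtype.property _
    rw [Algebra.adjoin_singleton_eq_range_aeval] at h4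
    obtain ⟨p, hp⟩ := h4
    have h5 := hV p _ hp.symm h3
    obtain ⟨q, hq⟩ : ∃ q : A[X], q.map A.subtype = p := by
      have : p ∈ Polynomial.lifts A.subtype := by
        rw [Polynomial.lifts_iff_coeff_lifts]
        intro n
        exact ⟨⟨_, h5 n⟩, rfl⟩
      exact (Polynomial.mem_lifts _).mp this
    refine ⟨q, ?_⟩
    rw [evA_eq, hq, coeff_map]
    exact hp
  have hxE : IsIntegral K⟮y⟯ x := Algebra.IsIntegral.isIntegral x
  obtain ⟨P, hP1, -, hP2⟩ := Polynomial.lifts_and_natDegree_eq_and_monic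
    ((Polynomial.lifts_iff_coeff_lifts (f := evA A y) _).mpr hcoeff)
    ((minpoly.monic hxE).map _)
  refine ⟨P, hP2, ?_⟩
  rw [← eval_map, hP1, eval_map]
  exact minpoly.aeval _ _

end Fermat.Agent.X1G
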