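import Mathlib
import Fermat.Agent.X1.GaussUV
import Fermat.Agent.X1.GaussTwist
import Fermat.Agent.GoodRed.Embed
import Fermat.Agent.GaussVal.Modular

/-!
# The Gauss ring of `X₀(M)` is integral over the Gauss ring of `K(j)`
-/

set_option autoImplicit false

noncomputable section

open ModularCurve HahnSeries Polynomial Module
open Fermat.Agent.GaussVal Fermat.Agent.X0Emb Fermat.Agent.GoodRed
open scoped IntermediateField

namespace Fermat.Agent.X1G

section VY

variable {K F : Type*} [Field K] [Field F] [Algebra K F]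

/-- the ring `{p(y)/q(y) : q̄ ≠ 0}` -/
def VY (A : ValuationSubring K) (y : F) : Subring F where
  carrier := {a | ∃ p q : A[X], q.map (IsLocalRing.residue A) ≠ 0 ∧ evA A y q * a = evA A y p}
  zero_mem' := ⟨0, 1, by simp, by simp⟩
  one_mem' := ⟨1, 1, by simp, by simp⟩
  add_mem' := by
    rintro a b ⟨p, q, hq, h⟩ ⟨p', q', hq', h'⟩
    refine ⟨p * q' + q * p', q * q', ?_, ?_⟩
    · rw [Polynomial.map_mul]; exact mul_ne_zero hq hq'
    · rw [map_mul, map_add, map_mul, map_mul, ← h, ← h']; ring
  mul_mem' := by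
    rintro a b ⟨p, q, hq, h⟩ ⟨p', q', hq', h'⟩
    refine ⟨p * p', q * q', ?_, ?_⟩
    · rw [Polynomial.map_mul]; exact mul_ne_zero hq hq'
    · rw [map_mul, map_mul, ← h, ← h']; ring
  neg_mem' := by
    rintro a ⟨p, q, hq, h⟩
    exact ⟨-p, q, hq, by rw [map_neg, ← h]; ring⟩

theorem mem_VY {A : ValuationSubring K} {y a : F} : a ∈ VY A y ↔
    ∃ p q : A[X], q.map (IsLocalRing.residue A) ≠ 0 ∧ evA A y q * a = evA A y p := Iff.rfl

theorem map_evA {L : Type*} [Field L] [Algebra K L] (A : ValuationSubring K) (f : F →+* L)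
    (hf : ∀ c : K, f (algebraMap K F c) = algebraMap K L c) (y : F) (p : A[X]) :
    f (evA A y p) = evA A (f y) p := by
  rw [evA, evA, coe_eval₂RingHom, coe_eval₂RingHom, hom_eval₂]
  congr 1
  ext a
  exact hf a

theorem map_mem_VY {L : Type*} [Field L] [Algebra K L] {A : ValuationSubring K} (f : F →+* L)
    (hf : ∀ c : K, f (algebraMap K F c) = algebraMap K L c) {y a : F} (ha : a ∈ VY A y) :
    f a ∈ VY A (f y) := by
  obtain ⟨p, q, hq, h⟩ := ha
  exact ⟨p, q, hq, by rw [← map_evA A f hf, ← map_evA A f hf, ← h, map_mul]⟩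

/-- Transport of integrality. -/
theorem isIntegral_map {L : Type*} [Field L] {F : Type*} [Field F] (R : Subring F) (S : Subring L)
    (f : F →+* L) (hf : ∀ a ∈ R, f a ∈ S) {x : F} (hx : IsIntegral R x) : IsIntegral S (f x) := by
  obtain ⟨p, hp, hpx⟩ := hx
  let φ : R →+* S :=
    { toFun := fun a => ⟨f a, hf a a.2⟩
      map_one' := Subtype.ext (map_one _)
      map_mul' := fun _ _ => Subtype.ext (map_mul _ _ _)
      map_zero' := Subtype.ext (map_zero _)
      map_add' := fun _ _ => Subtype.ext (map_add _ _ _) }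
  refine ⟨p.map φ, hp.map φ, ?_⟩
  rw [eval₂_map]
  have h1 := congrArg f hpx
  rw [map_zero, hom_eval₂] at h1
  exact h1

end VY

section Modular

variable {K : Type*} [Field K] {A : ValuationSubring K} {ℓ : ℕ}
variable [CharZero K] [Algebra.IsAlgebraic ℚ K]

/-- **`Γ₀(M)`**: an element of the function field in the Gauss ring is integral over the Gauss
ring of `K(j)`. -/
theorem gamma0_integral (hℓ : ℓ.Prime) (hA : A.LiesOverPrime ℓ)
    {E : IntermediateField K (LaurentSeries K)} {M : ℕ} (hE : E = modularFunctionFieldFullC K M)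
    [FiniteDimensional K⟮jEl K E M hE⟯ E]
    [FiniteDimensional (IsLocalRing.ResidueField A)⟮jEl (IsLocalRing.ResidueField A) _ M rfl⟯
        (modularFunctionFieldFullC (IsLocalRing.ResidueField A) M)]
    (hdeg : finrank K⟮jEl K E M hE⟯ E = finrank
      (IsLocalRing.ResidueField A)⟮jEl (IsLocalRing.ResidueField A) _ M rfl⟯
        (modularFunctionFieldFullC (IsLocalRing.ResidueField A) M))
    {x : LaurentSeries K} (hx : x ∈ E) (hxA : x ∈ gaussSubring A) :
    IsIntegral (VY A (jqModC K)) x := by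
  let G := modGauss hℓ hA E M hE hdeg.le
  obtain ⟨hj, hj'⟩ := modGauss_ρ_incl (hℓ := hℓ) (hA := hA) (hE := hE) (hdeg := hdeg.le)
    (x := jEl K E M hE) (Y := jqModC A) (by
      rw [coe_jEl]
      exact (coeffMap_jqModC _).symm)
  have hρ : G.ρ ⟨jEl K E M hE, hj⟩ = jEl (IsLocalRing.ResidueField A) _ M rfl := by
    apply Subtype.ext
    rw [hj']
    exact coeffMap_jqModC _
  have hfd : FiniteDimensional (IsLocalRing.ResidueField A)⟮G.ρ ⟨jEl K E M hE, hj⟩⟯
      (modularFunctionFieldFullC (IsLocalRing.ResidueField A) M) := by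
    rw [hρ]; infer_instance
  have h1 := GoodRed.isIntegral_of_mem G (y := jEl K E M hE) hj (by
    rw [hρ]
    exact transcendental_jEl _ _ _ _) (by
    rw [hρ]
    exact hdeg) (f := ⟨x, hx⟩) hxA
  have h2 := isIntegral_map (L := LaurentSeries K) (Ry G (jEl K E M hE)) (VY A (jqModC K))
    (algebraMap E (LaurentSeries K)) (by
      rintro a ⟨p, q, hq, h⟩
      refine ⟨p, q, hq, ?_⟩
      have h3 : ∀ p : A[X], algebraMap E (LaurentSeries K) (ev G (jEl K E M hE) p) =
          evA A (jqModC K) p := fun p =>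
        map_evA A (algebraMap E (LaurentSeries K)) (fun c => rfl) (jEl K E M hE) p
      have h4 := congrArg (algebraMap E (LaurentSeries K)) h
      rw [map_mul] at h4
      exact (congrArg (· * algebraMap E (LaurentSeries K) a) (h3 q).symm).trans
        (h4.trans (h3 p))) h1
  exact h2

end Modular

end Fermat.Agent.X1G
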