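import Mathlib

/-!
# A subgroup of `SL(2,ℤ)` containing `Γ(M)`, `T` and meeting all cosets of `Γ₀(M)` is everything
-/

set_option autoImplicit false

open CongruenceSubgroup ModularGroup Matrix Matrix.SpecialLinearGroup
open scoped MatrixGroups

namespace Fermat.Agent.X1G

theorem T_zpow_coe' (n : ℤ) : ((T ^ n : SL(2, ℤ)) : Matrix (Fin 2) (Fin 2) ℤ) = !![1, n; 0, 1] :=
  coe_T_zpow n

/-- The key group theoretic lemma. -/
theorem eq_top_of_forall_coset {M : ℕ} (D : Subgroup SL(2, ℤ)) (hM : Gamma M ≤ D) (hT : T ∈ D)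
    (h : ∀ g : SL(2, ℤ), ∃ b ∈ Gamma0 M, g * b ∈ D) : D = ⊤ := by
  obtain ⟨b, hb, hδ⟩ := h S
  set n : ℤ := (b 1 1) ^ 2 with hn
  have hc : ((b 1 0 : ℤ) : ZMod M) = 0 := Gamma0_mem.mp hb
  have hdet : (b 0 0 : ZMod M) * (b 1 1 : ZMod M) = 1 := by
    have h1 := b.det_coe
    rw [Matrix.det_fin_two] at h1
    have h2 := congrArg (fun z : ℤ => (z : ZMod M)) h1
    push_cast at h2
    rw [hc, mul_zero, sub_zero] at h2
    exact h2
  have key : (b * T ^ n * b⁻¹) * T⁻¹ ∈ Gamma M := by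
    rw [Gamma_mem']
    have h1 : SpecialLinearGroup.map (Int.castRingHom (ZMod M)) (b * T ^ n) =
        SpecialLinearGroup.map (Int.castRingHom (ZMod M)) (T * b) := by
      apply Subtype.ext
      have e1 : ((b * T ^ n : SL(2, ℤ)) : Matrix (Fin 2) (Fin 2) ℤ) =
          !![b 0 0, b 0 0 * n + b 0 1; b 1 0, b 1 0 * n + b 1 1] := by
        rw [Matrix.SpecialLinearGroup.coe_mul, coe_T_zpow]
        ext i j
        fin_cases i <;> fin_cases j <;> simp [Matrix.mul_apply, Fin.sum_univ_two]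
      have e2 : ((T * b : SL(2, ℤ)) : Matrix (Fin 2) (Fin 2) ℤ) =
          !![b 0 0 + b 1 0, b 0 1 + b 1 1; b 1 0, b 1 1] := by
        rw [Matrix.SpecialLinearGroup.coe_mul, coe_T]
        ext i j
        fin_cases i <;> fin_cases j <;> simp [Matrix.mul_apply, Fin.sum_univ_two]
      rw [SpecialLinearGroup.map_apply_coe, SpecialLinearGroup.map_apply_coe, e1, e2]
      ext i j
      fin_cases i <;> fin_cases j
      · simp [hc]
      · simp only [RingHom.mapMatrix_apply, Matrix.map_apply]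
        simp only [Fin.zero_eta, Fin.isValue, Fin.mk_one, of_apply, cons_val', cons_val_one,
          cons_val_zero, cons_val_fin_one, map_add, map_mul, eq_intCast, hn]
        push_cast
        linear_combination (b 1 1 : ZMod M) * hdet
      · simp
      · simp [hc]
    rw [_root_.map_mul, _root_.map_mul (SpecialLinearGroup.map (Int.castRingHom (ZMod M))) (b * T ^ n), h1,
      _root_.map_mul, _root_.map_inv, _root_.map_inv, mul_inv_cancel_right, mul_inv_cancel]
  -- the conjugate of `T` under `S`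
  have h1 : S * T * S⁻¹ ∈ D := by
    have h2 : (S * b) * T ^ n * (S * b)⁻¹ ∈ D :=
      mul_mem (mul_mem hδ (zpow_mem hT n)) (inv_mem hδ)
    have h3 : (S * b) * T ^ n * (S * b)⁻¹ = (S * ((b * T ^ n * b⁻¹) * T⁻¹) * S⁻¹) * (S * T * S⁻¹) := by
      group
    rw [h3] at h2
    have h4 : S * ((b * T ^ n * b⁻¹) * T⁻¹) * S⁻¹ ∈ D :=
      hM ((Gamma_normal M).conj_mem _ key S)
    exact (Subgroup.mul_mem_cancel_left _ h4).mp h2
  have h2 : S = T⁻¹ * (S * T * S⁻¹)⁻¹ * T⁻¹ := by decide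
  have hS : S ∈ D := by
    rw [h2]
    exact mul_mem (mul_mem (inv_mem hT) (inv_mem h1)) (inv_mem hT)
  rw [eq_top_iff, ← SpecialLinearGroup.SL2Z_generators, Subgroup.closure_le]
  rintro x (rfl | rfl)
  · exact hS
  · exact hT

end Fermat.Agent.X1G
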