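import Mathlib
import Fermat.Agent.X1.GaussConj
import Fermat.Agent.X1.GaussGroup

/-!
# Uniqueness of the extension of a valuation ring from the `Γ₀(M)`-case and the action of `T`
-/

set_option autoImplicit false

open CongruenceSubgroup ModularGroup
open scoped MatrixGroups

namespace Fermat.Agent.X1G

variable {E F : Type*} [Field E] [Field F] [Algebra E F]

/-- The decomposition group, pulled back to `SL(2,ℤ)`. -/
def decomp (O : ValuationSubring F) (φ : SL(2, ℤ) →* (F ≃ₐ[E] F)) : Subgroup SL(2, ℤ) where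
  carrier := {g | ∀ x, φ g x ∈ O ↔ x ∈ O}
  mul_mem' := by
    intro a b ha hb x
    rw [map_mul, AlgEquiv.mul_apply, ha, hb]
  one_mem' := by
    intro x
    rw [map_one, AlgEquiv.one_apply]
  inv_mem' := by
    intro a ha x
    rw [← ha, ← AlgEquiv.mul_apply, ← map_mul, mul_inv_cancel, map_one, AlgEquiv.one_apply]

theorem mem_decomp {O : ValuationSubring F} {φ : SL(2, ℤ) →* (F ≃ₐ[E] F)} {g : SL(2, ℤ)} :
    g ∈ decomp O φ ↔ ∀ x, φ g x ∈ O ↔ x ∈ O := Iff.rfl

/-- The decomposition group is everything. -/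
theorem decomp_eq_top [FiniteDimensional E F] [IsGalois E F] {V : ValuationSubring E}
    {O : ValuationSubring F} (hO : ∀ a : E, algebraMap E F a ∈ O ↔ a ∈ V) {M : ℕ}
    (φ : SL(2, ℤ) →* (F ≃ₐ[E] F)) (hM : ∀ g ∈ Gamma M, φ g = 1)
    (F₀ : IntermediateField E F)
    (hF₀ : ∀ σ : F ≃ₐ[E] F, (∀ x ∈ F₀, σ x = x) → ∃ b ∈ Gamma0 M, φ b = σ)
    (hint : ∀ x ∈ F₀, x ∈ O → IsIntegral V x) (hT : ∀ x ∈ O, φ T x ∈ O) :
    decomp O φ = ⊤ := by
  apply eq_top_of_forall_coset (M := M)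
  · intro g hg x
    rw [hM g hg, AlgEquiv.one_apply]
  · -- `T`
    intro x
    refine ⟨fun h => ?_, hT x⟩
    have hpow : ∀ (n : ℕ) (y : F), y ∈ O → (φ T ^ n) y ∈ O := by
      intro n
      induction n with
      | zero => intro y hy; simpa using hy
      | succ n ih =>
        intro y hy
        rw [pow_succ, AlgEquiv.mul_apply]
        exact ih _ (hT y hy)
    have hord : 0 < orderOf (φ T) := orderOf_pos _
    have h1 : (φ T ^ (orderOf (φ T) - 1)) (φ T x) = x := by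
      rw [← AlgEquiv.mul_apply, ← pow_succ, Nat.sub_add_cancel hord, pow_orderOf_eq_one,
        AlgEquiv.one_apply]
    rw [← h1]
    exact hpow _ _ h
  · intro g
    obtain ⟨σ, hσ₀, hσ⟩ := exists_conj_fixing hO
      (O' := O.comap ((φ g : F ≃ₐ[E] F) : F →+* F)) (fun a => by
        rw [ValuationSubring.mem_comap]
        have : ((φ g : F ≃ₐ[E] F) : F →+* F) (algebraMap E F a) = algebraMap E F a :=
          AlgEquiv.commutes _ _
        rw [this, hO]) F₀ hint
    obtain ⟨b, hb, rfl⟩ := hF₀ σ hσ₀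
    refine ⟨b, hb, fun x => ?_⟩
    rw [map_mul, AlgEquiv.mul_apply, ← hσ x]
    exact Iff.rfl

/-- **Uniqueness of the Gauss valuation**: if the part of `O` in `F₀` is integral over `V`, then
`O` is integral over `V`. -/
theorem isIntegral_of_gamma0 [FiniteDimensional E F] [IsGalois E F] {V : ValuationSubring E}
    {O : ValuationSubring F} (hO : ∀ a : E, algebraMap E F a ∈ O ↔ a ∈ V) {M : ℕ}
    (φ : SL(2, ℤ) →* (F ≃ₐ[E] F)) (hφ : Function.Surjective φ) (hM : ∀ g ∈ Gamma M, φ g = 1)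
    (F₀ : IntermediateField E F)
    (hF₀ : ∀ σ : F ≃ₐ[E] F, (∀ x ∈ F₀, σ x = x) → ∃ b ∈ Gamma0 M, φ b = σ)
    (hint : ∀ x ∈ F₀, x ∈ O → IsIntegral V x) (hT : ∀ x ∈ O, φ T x ∈ O) :
    (∀ (σ : F ≃ₐ[E] F) (x : F), σ x ∈ O ↔ x ∈ O) ∧ ∀ x ∈ O, IsIntegral V x := by
  have h : ∀ (σ : F ≃ₐ[E] F) (x : F), σ x ∈ O ↔ x ∈ O := by
    intro σ x
    obtain ⟨g, rfl⟩ := hφ σ
    have : g ∈ decomp O φ := by
      rw [decomp_eq_top hO φ hM F₀ hF₀ hint hT]
      exact Subgroup.mem_top _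
    exact this x
  exact ⟨h, fun x hx => isIntegral_of_stable hO (fun σ x hx => (h σ x).mpr hx) hx⟩

end Fermat.Agent.X1G
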