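import Mathlib
import Fermat.Agent.X1.GaussUnique
import Fermat.Agent.X1.GaussGamma0

/-!
# Uniqueness of the Gauss valuation on the function field of `X(M)` and integrality over `A[j]`
-/

set_option autoImplicit false

noncomputable section

open ModularCurve HahnSeries Polynomial Module CongruenceSubgroup
open Fermat.Agent.GaussVal Fermat.Agent.X0Emb Fermat.Agent.GoodRed
open scoped IntermediateField MatrixGroups

namespace Fermat.Agent.X1G

variable {K : Type*} [Field K] {A : ValuationSubring K} {ℓ : ℕ}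
variable [CharZero K] [Algebra.IsAlgebraic ℚ K]

omit [CharZero K] [Algebra.IsAlgebraic ℚ K] in
/-- Gauss property of the reduction of `p(j)`. -/
theorem coeff_mem_of_aeval_mem {y : LaurentSeries K} {Y : LaurentSeries A} (hY : incl A Y = y)
    (htr : Transcendental (IsLocalRing.ResidueField A) (redS A Y)) (p : K[X])
    (hp : aeval y p ∈ gaussSubring A) (n : ℕ) : p.coeff n ∈ A := by
  classical
  by_contra hcon
  have hp0 : p ≠ 0 := by rintro rfl; exact hcon (by simp)
  obtain ⟨c, Q, hc0, hQ, i, hi⟩ := exists_scale_poly A (n := 1) (fun _ => p) ⟨0, hp0⟩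
  set q := Q 0 with hq
  have hi' : q.map (IsLocalRing.residue A) ≠ 0 := by
    have : i = 0 := Subsingleton.elim _ _
    rw [this] at hi; exact hi
  have hcA : c ∉ A := by
    intro hc
    apply hcon
    have h1 := congrArg (fun r : K[X] => r.coeff n) (hQ 0)
    simp only [coeff_C_mul, coeff_map] at h1
    rw [h1]
    exact mul_mem hc (q.coeff n).2
  -- `q(y)` is a unit of the Gauss ring
  set Z : LaurentSeries A := eval₂ HahnSeries.C Y q with hZ
  have h1 : aeval y (q.map A.subtype) = incl A Z := by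
    rw [hZ, ← hY, aeval_def, eval₂_map, hom_eval₂]
    congr 1
    ext a : 1
    rw [RingHom.comp_apply, RingHom.comp_apply, algebraMap_laurentSeries_eq_single]
    exact (coeffMap_single _ _ _).symm
  have h2 : redS A Z ≠ 0 := by
    have h3 : redS A Z = aeval (redS A Y) (q.map (IsLocalRing.residue A)) := by
      rw [hZ, aeval_def, eval₂_map, hom_eval₂]
      congr 1
      ext a : 1
      rw [RingHom.comp_apply, RingHom.comp_apply, algebraMap_laurentSeries_eq_single]
      exact coeffMap_single _ _ _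
    rw [h3]
    intro h4
    exact htr ⟨_, hi', h4⟩
  have h3 : algebraMap K (LaurentSeries K) c ∈ gaussSubring A := by
    have h4 : aeval y p = algebraMap K (LaurentSeries K) c * incl A Z := by
      rw [← h1, ← aeval_C (x := y) c, ← map_mul, ← hQ 0]
    have h5 : algebraMap K (LaurentSeries K) c = aeval y p * (incl A Z)⁻¹ := by
      rw [h4, mul_assoc, mul_inv_cancel₀ (incl_ne_zero h2), mul_one]
    rw [h5]
    exact mul_mem hp (inv_mem_of_primitive h2)
  exact hcA (algebraMap_mem_gaussSubring_iff.mp h3)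

theorem transcendental_qExpand_jqModC (k : Type*) [Field k] (M : ℕ) [NeZero M] :
    Transcendental k (qExpand k M (jqModC k)) := by
  rintro ⟨p, hp0, hp⟩
  refine transcendental_jqModC k ⟨p, hp0, ?_⟩
  apply qExpand_injective (R := k) (N := M)
  rw [map_zero, ← hp]
  exact (Polynomial.aeval_algHom_apply (qExpandAlgHomC k M) (jqModC k) p).symm

omit [CharZero K] [Algebra.IsAlgebraic ℚ K] in
theorem incl_j (A : ValuationSubring K) (M : ℕ) [NeZero M] :
    incl A (qExpand A M (jqModC A)) = qExpand K M (jqModC K) := by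
  rw [incl, coeffMap_qExpand'', coeffMap_jqModC]

omit [CharZero K] [Algebra.IsAlgebraic ℚ K] in
theorem redS_j (A : ValuationSubring K) (M : ℕ) [NeZero M] :
    redS A (qExpand A M (jqModC A)) = qExpand _ M (jqModC _) := by
  rw [redS, coeffMap_qExpand'', coeffMap_jqModC]

omit [CharZero K] [Algebra.IsAlgebraic ℚ K] in
/-- elements of the Gauss ring of `K(j)` -/
theorem mem_of_mem_VY {M : ℕ} [NeZero M] {a : LaurentSeries K}
    (ha : a ∈ VY A (qExpand K M (jqModC K))) :
    a ∈ gaussSubring A ∧ a ∈ K⟮qExpand K M (jqModC K)⟯ := by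
  obtain ⟨p, q, hq, h⟩ := ha
  have hev : ∀ p : A[X], evA A (qExpand K M (jqModC K)) p =
      incl A (eval₂ HahnSeries.C (qExpand A M (jqModC A)) p) := by
    intro p
    rw [evA, coe_eval₂RingHom, hom_eval₂, incl_j]
    congr 1
    ext a : 1
    rw [RingHom.comp_apply, RingHom.comp_apply, algebraMap_laurentSeries_eq_single]
    exact (coeffMap_single _ _ _).symm
  have hred : redS A (eval₂ HahnSeries.C (qExpand A M (jqModC A)) q) ≠ 0 := by
    have h3 : redS A (eval₂ HahnSeries.C (qExpand A M (jqModC A)) q) =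
        aeval (redS A (qExpand A M (jqModC A))) (q.map (IsLocalRing.residue A)) := by
      rw [aeval_def, eval₂_map, hom_eval₂]
      congr 1
      ext a : 1
      rw [RingHom.comp_apply, RingHom.comp_apply, algebraMap_laurentSeries_eq_single]
      exact coeffMap_single _ _ _
    rw [h3, redS_j]
    intro h4
    exact transcendental_qExpand_jqModC _ M ⟨_, hq, h4⟩
  have hq0 : evA A (qExpand K M (jqModC K)) q ≠ 0 := by
    rw [hev]
    exact incl_ne_zero hred
  have hmem : ∀ p : A[X], evA A (qExpand K M (jqModC K)) p ∈ K⟮qExpand K M (jqModC K)⟯ := by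
    intro p
    rw [evA_eq]
    exact IntermediateField.algebra_adjoin_le_adjoin K {qExpand K M (jqModC K)}
      (aeval_mem_adjoin_singleton K _)
  have ha' : a = evA A (qExpand K M (jqModC K)) p / evA A (qExpand K M (jqModC K)) q := by
    rw [← h, mul_div_cancel_left₀ _ hq0]
  constructor
  · rw [ha', div_eq_mul_inv, hev, hev]
    exact mul_mem (incl_mem _) (inv_mem_of_primitive hred)
  · rw [ha']
    exact div_mem (hmem _) (hmem _)

section Main

variable {M : ℕ} [NeZero M] {F : Type*} [Field F] [Algebra K F] (ιF : F →ₐ[K] LaurentSeries K)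

/-- The part of `F` coming from `X₀(M)`. -/
def F0K (M : ℕ) [NeZero M] : IntermediateField K F :=
  ((modularFunctionFieldFullC K M).map (qExpandAlgHomC K M)).comap ιF

omit [CharZero K] [Algebra.IsAlgebraic ℚ K] in
theorem mem_F0K {x : F} : x ∈ F0K ιF M ↔
    ∃ x₀ ∈ modularFunctionFieldFullC K M, qExpand K M x₀ = ιF x :=
  Iff.rfl

omit [CharZero K] [Algebra.IsAlgebraic ℚ K] in
theorem adjoin_le_F0K {jF : F} (hj : ιF jF = qExpand K M (jqModC K)) :
    K⟮jF⟯ ≤ F0K ιF M := by
  rw [IntermediateField.adjoin_simple_le_iff, mem_F0K]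
  exact ⟨jqModC K, jqModC_mem_full K M, hj.symm⟩

variable (hℓ : ℓ.Prime) (hA : A.LiesOverPrime ℓ) (hF : ∀ x, ιF x ∈ intField K)

variable {ιF hℓ hA hF}

set_option synthInstance.maxHeartbeats 200000 in
/-- **Uniqueness of the Gauss valuation** on the function field `F ⊆ K((q_M))` of `X(M)`. -/
theorem gauss_unique (jF : F) (hj : ιF jF = qExpand K M (jqModC K))
    [FiniteDimensional K⟮jF⟯ F] [IsGalois K⟮jF⟯ F]
    (φ : SL(2, ℤ) →* (F ≃ₐ[K⟮jF⟯] F)) (hφ : Function.Surjective φ) (hM : ∀ g ∈ Gamma M, φ g = 1)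
    (z : Kˣ) (hz : z ^ M = 1) (hT : ∀ x : F, ιF (φ ModularGroup.T x) = twist z (ιF x))
    (hfix : ∀ σ : F ≃ₐ[K⟮jF⟯] F, (∀ x ∈ F0K ιF M, σ x = x) → ∃ b ∈ Gamma0 M, φ b = σ)
    (hint0 : ∀ x ∈ modularFunctionFieldFullC K M, x ∈ gaussSubring A →
      IsIntegral (VY A (jqModC K)) x) :
    (∀ (σ : F ≃ₐ[K⟮jF⟯] F) (x : F), σ x ∈ gaussVal hℓ hA ιF hF ↔ x ∈ gaussVal hℓ hA ιF hF) ∧
      ∀ x ∈ gaussVal hℓ hA ιF hF,
        IsIntegral ((gaussVal hℓ hA ιF hF).comap (algebraMap K⟮jF⟯ F)) x := by
  refine isIntegral_of_gamma0 (E := K⟮jF⟯) (F := F)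
    (V := (gaussVal hℓ hA ιF hF).comap (algebraMap K⟮jF⟯ F)) (M := M)
    (fun a => Iff.rfl) φ hφ hM
    (IntermediateField.extendScalars (adjoin_le_F0K ιF hj)) ?_ ?_ ?_
  · intro σ hσ
    exact hfix σ fun x hx => hσ x hx
  · -- the part coming from `X₀(M)`
    intro x hx hxO
    obtain ⟨x₀, hx₀, hx₀'⟩ := (mem_F0K ιF).mp hx
    have hx₁ : x₀ ∈ gaussSubring A := by
      apply mem_gaussSubring_of_qExpand hℓ hA M (fullC_le_intField M hx₀)
      rw [hx₀']
      exact hxO
    have h1 := isIntegral_map (VY A (jqModC K)) (VY A (qExpand K M (jqModC K)))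
      (qExpand K M) (fun a ha => map_mem_VY (qExpand K M)
        (fun c => (qExpandAlgHomC K M).commutes c) ha) (hint0 x₀ hx₀ hx₁)
    rw [hx₀'] at h1
    -- transport to `F`
    obtain ⟨P, hP, hPx⟩ := h1
    have hK : ∀ a ∈ K⟮qExpand K M (jqModC K)⟯, ∃ b : K⟮jF⟯, ιF (b : F) = a := by
      intro a ha
      rw [← hj] at ha
      have h2 : K⟮ιF jF⟯ = (K⟮jF⟯).map ιF := by
        rw [IntermediateField.adjoin_map, Set.image_singleton]
      rw [h2] at ha
      obtain ⟨b, hb, hb'⟩ := ha
      exact ⟨⟨b, hb⟩, hb'⟩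
    have hVY : ∀ a : VY A (qExpand K M (jqModC K)), ∃ b : (gaussVal hℓ hA ιF hF).comap
        (algebraMap K⟮jF⟯ F), ιF ((b : K⟮jF⟯) : F) = a := by
      intro a
      obtain ⟨h2, h3⟩ := mem_of_mem_VY a.2
      obtain ⟨b, hb⟩ := hK a h3
      refine ⟨⟨b, ?_⟩, hb⟩
      rw [ValuationSubring.mem_comap]
      change ιF (b : F) ∈ gaussSubring A
      rw [hb]
      exact h2
    have hinj : Function.Injective (fun b : (gaussVal hℓ hA ιF hF).comap (algebraMap K⟮jF⟯ F) =>
        ιF ((b : K⟮jF⟯) : F)) := by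
      intro a b hab
      exact Subtype.ext (Subtype.ext (ιF.injective hab))
    choose f hf using hVY
    let ψ : VY A (qExpand K M (jqModC K)) →+*
        (gaussVal hℓ hA ιF hF).comap (algebraMap K⟮jF⟯ F) :=
      { toFun := f
        map_one' := hinj (by simp only [hf]; push_cast; rw [map_one])
        map_mul' := fun a b => hinj (by
          simp only [hf]
          push_cast
          rw [map_mul, hf, hf])
        map_zero' := hinj (by simp only [hf]; push_cast; rw [map_zero])
        map_add' := fun a b => hinj (by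
          simp only [hf]
          push_cast
          rw [map_add, hf, hf]) }
    refine ⟨P.map ψ, hP.map ψ, ?_⟩
    rw [eval₂_map]
    apply (ιF : F →+* LaurentSeries K).injective
    rw [map_zero, hom_eval₂, ← hPx]
    congr 1
    ext a : 1
    exact hf a
  · intro x hx
    obtain ⟨c, hc⟩ := exists_unit_of_pow_eq_one (A := A) (NeZero.ne M) hz
    rw [mem_gaussVal, hT, ← hc]
    exact twist_mem_gaussSubring c hx

omit [CharZero K] [Algebra.IsAlgebraic ℚ K] in
/-- transport of an integral equation along a homomorphism. -/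
theorem map_eval₂_evA {L L' : Type*} [Field L] [Algebra K L] [Field L'] [Algebra K L']
    (f : L →+* L') (hf : ∀ c : K, f (algebraMap K L c) = algebraMap K L' c) (y x : L)
    (P : A[X][X]) : f (eval₂ (evA A y) x P) = eval₂ (evA A (f y)) (f x) P := by
  rw [hom_eval₂]
  congr 1
  exact RingHom.ext fun a => map_evA A f hf y a

set_option synthInstance.maxHeartbeats 200000 in
/-- **(UV)** for `X(M)`: a function with `A`-integral expansion (or just in the Gauss ring) and
integral over `K[j]` is integral over `A[j]`. -/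
theorem exists_monic_of_gauss (jF : F) (hj : ιF jF = qExpand K M (jqModC K))
    [FiniteDimensional K⟮jF⟯ F] [IsGalois K⟮jF⟯ F]
    (φ : SL(2, ℤ) →* (F ≃ₐ[K⟮jF⟯] F)) (hφ : Function.Surjective φ) (hM : ∀ g ∈ Gamma M, φ g = 1)
    (z : Kˣ) (hz : z ^ M = 1) (hT : ∀ x : F, ιF (φ ModularGroup.T x) = twist z (ιF x))
    (hfix : ∀ σ : F ≃ₐ[K⟮jF⟯] F, (∀ x ∈ F0K ιF M, σ x = x) → ∃ b ∈ Gamma0 M, φ b = σ)
    (hint0 : ∀ x ∈ modularFunctionFieldFullC K M, x ∈ gaussSubring A →
      IsIntegral (VY A (jqModC K)) x)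
    (hℓ : ℓ.Prime) (hA : A.LiesOverPrime ℓ) (hF : ∀ x, ιF x ∈ intField K) {x : F}
    (hx : ιF x ∈ gaussSubring A) (hxj : IsIntegral (Algebra.adjoin K {jF}) x) :
    ∃ P : A[X][X], P.Monic ∧ eval₂ (evA A (qExpand K M (jqModC K))) (ιF x) P = 0 := by
  have htr : Transcendental K jF := by
    intro h
    apply transcendental_qExpand_jqModC K M
    rw [← hj]
    exact h.algHom ιF
  obtain ⟨P, hP, hPx⟩ := exists_monic (A := A) htr
    ((gaussVal hℓ hA ιF hF).comap (algebraMap K⟮jF⟯ F)) (fun p z hz hzV n => by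
      refine coeff_mem_of_aeval_mem (A := A) (incl_j A M) ?_ p ?_ n
      · rw [redS_j]
        exact transcendental_qExpand_jqModC _ M
      · have h1 : ιF (z : F) ∈ gaussSubring A := hzV
        rw [hz, ← Polynomial.aeval_algHom_apply, hj] at h1
        exact h1)
    ((gauss_unique (hℓ := hℓ) (hA := hA) (hF := hF) jF hj φ hφ hM z hz hT hfix hint0).2 x hx) hxj
  refine ⟨P, hP, ?_⟩
  have h1 := map_eval₂_evA (A := A) (ιF : F →+* LaurentSeries K) (fun c => ιF.commutes c) jF x P
  rw [hPx, map_zero] at h1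
  rw [← hj]
  exact h1.symm

omit [CharZero K] [Algebra.IsAlgebraic ℚ K] in
/-- Descent to `K((q))`. -/
theorem eval₂_of_qExpand {y : LaurentSeries K} {P : A[X][X]}
    (h : eval₂ (evA A (qExpand K M (jqModC K))) (qExpand K M y) P = 0) :
    eval₂ (evA A (jqModC K)) y P = 0 := by
  have h1 := map_eval₂_evA (A := A) (qExpand K M) (fun c => (qExpandAlgHomC K M).commutes c)
    (jqModC K) y P
  rw [h] at h1
  exact qExpand_injective (R := K) (N := M) (by rw [h1, map_zero])

end Main

end Fermat.Agent.X1G
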