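import Mathlib
import Fermat.Agent.X1.GaussWire
import Fermat.Agent.X1.GaussScale
import Fermat.Agent.X0Emb.Emb
import Fermat.Agent.Igusa.Degree

/-!
# Integrality over `A[j]` of modular functions with `A`-integral expansion
-/

set_option autoImplicit false
set_option linter.dupNamespace false

open UpperHalfPlane hiding I
open ModularForm Matrix.SpecialLinearGroup Filter Asymptotics CongruenceSubgroup
open scoped MatrixGroups Manifold ModularForm Topology IntermediateField Polynomial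
open scoped Fermat.Agent.GaussVal

noncomputable section

namespace Fermat.Agent.X1G

open Fermat.Agent.JLevelOne Fermat.Agent.X0Emb Fermat.Agent.ModFun ModularCurve
open Fermat.Agent.FG Fermat.Agent.GaussVal

section Act

instance normal_Gamma (M : ℕ) : (Gamma M).Normal := Gamma_normal M

variable {K : Type*} [Field K] [IsAlgClosed K] {ι : K →+* ℂ} {M : ℕ} [NeZero M]

/-- a primitive `M`-th root of unity in `K`, corresponding to `exp (2 π i / M)`. -/
theorem exists_zeta (ι : K →+* ℂ) (M : ℕ) [NeZero M] :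
    ∃ z : Kˣ, Units.map (ι : K →* ℂ) z = zetaU 1 M ∧ z ^ M = 1 := by
  have : CharZero K := ⟨fun a b h => by
    have h1 := congrArg ι h
    rw [map_natCast, map_natCast] at h1
    exact_mod_cast h1⟩
  have hM : NeZero ((M : ℕ) : K) := ⟨by exact_mod_cast NeZero.ne M⟩
  obtain ⟨z, hz⟩ := HasEnoughRootsOfUnity.exists_primitiveRoot K M
  have hz' : IsPrimitiveRoot (ι z) M := hz.map_of_injective ι.injective
  have hc : (((zetaU 1 M : ℂˣ)) : ℂ) ^ M = 1 := by
    have := Complex.isPrimitiveRoot_exp M (NeZero.ne M)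
    rw [zetaU, Units.val_mk0]
    simpa using this.pow_eq_one
  obtain ⟨i, -, hi⟩ := hz'.eq_pow_of_pow_eq_one hc
  have hu : IsUnit z := hz.isUnit (NeZero.ne M)
  refine ⟨hu.unit ^ i, ?_, ?_⟩
  · apply Units.ext
    rw [← hi]
    simp
  · rw [← pow_mul, mul_comm, pow_mul]
    have : hu.unit ^ M = 1 := Units.ext (by simpa using hz.pow_eq_one)
    rw [this, one_pow]

variable (ι M) in
def zt : Kˣ := (exists_zeta ι M).choose

theorem map_zt : Units.map (ι : K →* ℂ) (zt ι M) = zetaU 1 M := (exists_zeta ι M).choose_spec.1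

theorem zt_pow : zt ι M ^ M = 1 := (exists_zeta ι M).choose_spec.2

/-- `T` acts by `q ↦ ζ⁻¹ q`. -/
theorem actHom_T (x : FG ι (Gamma M) M) :
    ((actHom ι (T_pow_mem_Gamma M) ModularGroup.T x : FG ι (Gamma M) M) : LaurentSeries K) =
      twist (zt ι M)⁻¹ (x : LaurentSeries K) := by
  have key : ∀ a : AG ι (Gamma M) M,
      ((actHom ι (T_pow_mem_Gamma M) ModularGroup.T (algebraMap (AG ι (Gamma M) M) _ a) :
        FG ι (Gamma M) M) : LaurentSeries K) = twist (zt ι M)⁻¹ (a : LaurentSeries K) := by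
    intro a
    have h1 := actHom_isMF (T_pow_mem_Gamma M) ModularGroup.T (fn_spec a)
    have h2 := (fn_spec a).lexp.T
    have hM : (0 : ℝ) < M := by exact_mod_cast Nat.pos_of_ne_zero (NeZero.ne M)
    have h3 := h1.lexp.unique hM h2
    apply FG.coeffMap_injective ι
    rw [twist_coeffMap, map_inv, map_zt]
    exact h3
  obtain ⟨a, b, -, rfl⟩ := exists_div x
  rw [map_div₀]
  push_cast
  rw [key, key, map_div₀]
  rfl

/-- The fixing group of the `X₀(M)`-part. -/
theorem mem_Gamma0_of_fix {γ : SL(2, ℤ)}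
    (h : ∀ x ∈ F0K (FG ι (Gamma M) M).val M, actHom ι (T_pow_mem_Gamma M) γ x = x) :
    γ ∈ Gamma0 M := by
  have h1 : IsMF ι (Gamma0 M) 1 (jd M) (qExpand K M (jqModC K)) :=
    { mdiff := jd_mdiff M
      inv := fun γ hγ τ => jd_inv dvd_rfl γ hγ τ
      growth := jd_growth M
      lexp := by
        rw [coeffMap_qExpand', coeffMap_jqModC]
        have := lexp_jd M
        simpa using this }
  have hle : Gamma M ≤ Gamma0 M := by
    intro g hg
    rw [Gamma_mem] at hg
    rw [Gamma0_mem]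
    exact hg.2.2.1
  have h2 : IsMF ι (Gamma M) M (jd M) (qExpand K M (qExpand K M (jqModC K))) := by
    have := (h1.mono hle).expand M
    rwa [mul_one] at this
  have h3 := actHom_isMF (T_pow_mem_Gamma M) γ h2
  rw [h ⟨_, h2.mem_FG⟩] at h3
  · have h4 := h3.funext' h2
    have h5 : γ⁻¹ ∈ Gamma0 M := mem_Gamma0_of_jd M _ fun τ => congrFun h4 τ
    simpa using inv_mem h5
  · rw [mem_F0K]
    exact ⟨qExpand K M (jqModC K),
      IntermediateField.subset_adjoin _ _ ⟨M, inferInstance, dvd_rfl, rfl⟩, rfl⟩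

end Act

section Deg

variable {K : Type*} [Field K] {A : ValuationSubring K} {ℓ : ℕ}

theorem natCast_residue_ne_zero (hℓ : ℓ.Prime) (hA : A.LiesOverPrime ℓ) {M : ℕ} (hM : ¬ ℓ ∣ M) :
    (M : IsLocalRing.ResidueField A) ≠ 0 := by
  intro h0
  have h1 : Nat.Coprime ℓ M := (Nat.Prime.coprime_iff_not_dvd hℓ).mpr hM
  have h2 : ((ℓ : ℕ) : IsLocalRing.ResidueField A) = 0 := by
    have h3 : ((ℓ : ℕ) : K) ∈ A.nonunits := hA
    rw [ValuationSubring.mem_nonunits_iff_exists_mem_maximalIdeal] at h3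
    obtain ⟨h4, h5⟩ := h3
    have h6 := (IsLocalRing.residue_eq_zero_iff _).mpr h5
    have h7 : (⟨((ℓ : ℕ) : K), h4⟩ : A) = ((ℓ : ℕ) : A) := Subtype.ext (by simp)
    rw [h7, map_natCast] at h6
    exact h6
  obtain ⟨a, b, hab⟩ := Int.isCoprime_iff_gcd_eq_one.mpr (by simpa using h1 :
    Int.gcd (ℓ : ℤ) (M : ℤ) = 1)
  have h8 := congrArg (Int.cast : ℤ → IsLocalRing.ResidueField A) hab
  push_cast at h8
  rw [h0, h2] at h8
  simp at h8

variable [CharZero K] [Algebra.IsAlgebraic ℚ K]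

theorem dedekindPsi_pos' {N : ℕ} (hN : N ≠ 0) : 0 < dedekindPsi N := by
  rw [dedekindPsi]
  refine Finset.sum_pos' (fun _ _ => Nat.zero_le _) ⟨1, ?_, ?_⟩
  · rw [Finset.mem_filter, Nat.mem_divisors]
    exact ⟨⟨one_dvd N, hN⟩, squarefree_one⟩
  · rw [Nat.div_one]
    exact Nat.pos_of_ne_zero hN

/-- **`Γ₀(M)`**: integrality over the Gauss ring of `K(j)`. -/
theorem gamma0_integral' (hℓ : ℓ.Prime) (hA : A.LiesOverPrime ℓ) {M : ℕ} [NeZero M]
    (hM : ¬ ℓ ∣ M) (x : LaurentSeries K) (hx : x ∈ modularFunctionFieldFullC K M)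
    (hxA : x ∈ gaussSubring A) : IsIntegral (VY A (jqModC K)) x := by
  have e1 : Module.finrank K⟮jEl K (modularFunctionFieldFullC K M) M rfl⟯
      (modularFunctionFieldFullC K M) = dedekindPsi M :=
    Igusa.finrank_full K M (by exact_mod_cast NeZero.ne M)
  have e2 : Module.finrank (IsLocalRing.ResidueField A)⟮jEl (IsLocalRing.ResidueField A)
      (modularFunctionFieldFullC (IsLocalRing.ResidueField A) M) M rfl⟯
      (modularFunctionFieldFullC (IsLocalRing.ResidueField A) M) = dedekindPsi M :=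
    Igusa.finrank_full (IsLocalRing.ResidueField A) M (natCast_residue_ne_zero hℓ hA hM)
  have hpos := dedekindPsi_pos' (NeZero.ne M)
  have f1 : FiniteDimensional K⟮jEl K (modularFunctionFieldFullC K M) M rfl⟯
      (modularFunctionFieldFullC K M) := FiniteDimensional.of_finrank_pos (by rw [e1]; exact hpos)
  have f2 : FiniteDimensional (IsLocalRing.ResidueField A)⟮jEl (IsLocalRing.ResidueField A)
      (modularFunctionFieldFullC (IsLocalRing.ResidueField A) M) M rfl⟯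
      (modularFunctionFieldFullC (IsLocalRing.ResidueField A) M) :=
    FiniteDimensional.of_finrank_pos (by rw [e2]; exact hpos)
  exact gamma0_integral hℓ hA (E := modularFunctionFieldFullC K M) rfl (by rw [e1, e2]) hx hxA

end Deg

section UV

variable {K : Type*} [Field K] {ι : K →+* ℂ} {Γ : Subgroup SL(2, ℤ)} {h : ℕ}

theorem isIntegral_adjoin_of_isMF [NeZero h] [Γ.FiniteIndex] {F : ℍ → ℂ} {y : LaurentSeries K}
    (hF : IsMF ι Γ h F y) :
    IsIntegral (Algebra.adjoin K {jG ι Γ h}) (⟨y, hF.mem_FG⟩ : FG ι Γ h) := by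
  obtain ⟨P, hPm, -, hP⟩ := hF.exists_monic_FG
  let f : Polynomial K →+* Algebra.adjoin K {jG ι Γ h} :=
    ((Polynomial.aeval (jG ι Γ h) : Polynomial K →ₐ[K] FG ι Γ h).codRestrict
      (Algebra.adjoin K {jG ι Γ h}) (fun p => Polynomial.aeval_mem_adjoin_singleton K _)).toRingHom
  refine ⟨P.map f, hPm.map f, ?_⟩
  rw [Polynomial.eval₂_map]
  exact hP

variable [CharZero K] [Algebra.IsAlgebraic ℚ K] [IsAlgClosed K] {A : ValuationSubring K} {ℓ : ℕ}

set_option maxHeartbeats 1000000 in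
set_option synthInstance.maxHeartbeats 200000 in
/-- **(UV) for `Γ(M)`**: a modular function on `Γ(M)`, holomorphic on `ℍ`, with expansion in the
Gauss ring of `A`, is integral over `A[j]`. -/
theorem uv_Gamma (hℓ : ℓ.Prime) (hA : A.LiesOverPrime ℓ) {M : ℕ} [NeZero M] (hM : ¬ ℓ ∣ M)
    {y : LaurentSeries K} (hy : y ∈ AG ι (Gamma M) M) (hyA : y ∈ gaussSubring A) :
    ∃ P : A[X][X], P.Monic ∧ P.eval₂ (evA A (jE K M)) y = 0 := by
  obtain ⟨S⟩ := exists_sepGamma (ι := ι) M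
  have hT := T_pow_mem_Gamma M
  obtain ⟨hgal, hsurj⟩ := S.galois hT
  have hfd := S.finiteDimensional
  obtain ⟨F, hF⟩ := hy
  exact exists_monic_of_gauss (K := K) (A := A) (M := M) (F := FG ι (Gamma M) M)
    (ιF := (FG ι (Gamma M) M).val) (jF := jG ι (Gamma M) M) rfl (galHom ι hT) hsurj
    (fun g hg => by
      apply AlgEquiv.ext
      intro x
      rw [galHom_apply, actHom_of_mem hT (le_pm _ hg), AlgEquiv.one_apply])
    (zt ι M)⁻¹ (by rw [inv_pow, zt_pow, inv_one])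
    (fun x => actHom_T x)
    (fun σ hσ => by
      obtain ⟨γ, rfl⟩ := hsurj σ
      exact ⟨γ, mem_Gamma0_of_fix fun x hx => hσ x hx, rfl⟩)
    (fun x hx hxA => gamma0_integral' hℓ hA hM x hx hxA) hℓ hA
    (fun x => FG_Gamma_le_intField M x.2) (x := ⟨y, hF.mem_FG⟩) hyA
    (isIntegral_adjoin_of_isMF hF)

omit [CharZero K] [Algebra.IsAlgebraic ℚ K] [IsAlgClosed K] in
/-- Descent of an integral equation. -/
theorem eval₂_of_qExpand' {e : ℕ} [NeZero e] [NeZero h] {y : LaurentSeries K} {P : A[X][X]}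
    (hP : P.eval₂ (evA A (jE K (e * h))) (qExpand K e y) = 0) :
    P.eval₂ (evA A (jE K h)) y = 0 := by
  have h1 := map_eval₂_evA (A := A) (qExpand K e) (fun c => (qExpandAlgHomC K e).commutes c)
    (jE K h) y P
  rw [qExpand_jE, hP] at h1
  exact qExpand_injective (R := K) (N := e) (by rw [h1, map_zero])

/-- **(UV)**: for a subgroup `Γ ⊇ Γ(M)` and a prime `ℓ ∤ M`, a modular function on `Γ`,
holomorphic on `ℍ`, with expansion (of width `h ∣ M`) in the Gauss ring of `A ∣ ℓ`, is integral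
over `A[j]`. -/
theorem uv_of_dvd (hℓ : ℓ.Prime) (hA : A.LiesOverPrime ℓ) {M : ℕ} [NeZero M] (hM : ¬ ℓ ∣ M)
    (hΓ : Gamma M ≤ Γ) [NeZero h] (hh : h ∣ M) {y : LaurentSeries K} (hy : y ∈ AG ι Γ h)
    (hyA : y ∈ gaussSubring A) :
    ∃ P : A[X][X], P.Monic ∧ P.eval₂ (evA A (jE K h)) y = 0 := by
  obtain ⟨e, rfl⟩ := hh
  obtain ⟨F, hF⟩ := hy
  have he : NeZero e := ⟨fun h0 => NeZero.ne (h * e) (by rw [h0, mul_zero])⟩
  have : NeZero (e * h) := ⟨by rw [mul_comm]; exact NeZero.ne (h * e)⟩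
  rw [mul_comm] at hM hΓ
  have h1 : qExpand K e y ∈ AG ι (Gamma (e * h)) (e * h) := ((hF.mono hΓ).expand e).mem_AG
  obtain ⟨P, hP, hP'⟩ := uv_Gamma hℓ hA hM h1 (qExpand_mem_gaussSubring e hyA)
  exact ⟨P, hP, eval₂_of_qExpand' hP'⟩

/-- **(UV)**, width one. -/
theorem uv (hℓ : ℓ.Prime) (hA : A.LiesOverPrime ℓ) {M : ℕ} [NeZero M] (hM : ¬ ℓ ∣ M)
    (hΓ : Gamma M ≤ Γ) {y : LaurentSeries K} (hy : y ∈ AG ι Γ 1) (hyA : y ∈ gaussSubring A) :
    ∃ P : A[X][X], P.Monic ∧ P.eval₂ (evA A (jqModC K)) y = 0 := by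
  obtain ⟨P, hP, hP'⟩ := uv_of_dvd hℓ hA hM hΓ (one_dvd M) hy hyA
  refine ⟨P, hP, ?_⟩
  rw [jE, qExpand_one_apply] at hP'
  exact hP'

end UV

end Fermat.Agent.X1G
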