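import Mathlib
import Fermat.Agent.X1.GaussFG

/-!
# The Gauss ring of `FG ι Γ 1` is integral over the Gauss ring of `K(j)`
-/

set_option autoImplicit false
set_option linter.dupNamespace false

noncomputable section

open ModularCurve HahnSeries Polynomial Module CongruenceSubgroup
open Fermat.Agent.GaussVal Fermat.Agent.X0Emb Fermat.Agent.GoodRed Fermat.Agent.FG
open scoped IntermediateField MatrixGroups

namespace Fermat.Agent.X1G

variable {K : Type*} [Field K] {A : ValuationSubring K} {ℓ : ℕ}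

/-- `p(Y)` for `p ∈ A[X]`, `Y ∈ A((q))`. -/
theorem evA_incl (Y : LaurentSeries A) (p : A[X]) :
    evA A (incl A Y) p = incl A (eval₂ HahnSeries.C Y p) := by
  rw [evA, coe_eval₂RingHom, hom_eval₂]
  congr 1
  ext a : 1
  rw [RingHom.comp_apply, RingHom.comp_apply, algebraMap_laurentSeries_eq_single]
  exact (coeffMap_single _ _ _).symm

theorem redS_eval₂ (Y : LaurentSeries A) (p : A[X]) :
    redS A (eval₂ HahnSeries.C Y p) =
      aeval (redS A Y) (p.map (IsLocalRing.residue A)) := by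
  rw [aeval_def, eval₂_map, hom_eval₂]
  congr 1
  ext a : 1
  rw [RingHom.comp_apply, RingHom.comp_apply, algebraMap_laurentSeries_eq_single]
  exact coeffMap_single _ _ _

/-- **Gauss lemma**: the Gauss ring of `K(y)`. -/
theorem mem_VY_of_mem_gauss {Y : LaurentSeries A}
    (htr : Transcendental (IsLocalRing.ResidueField A) (redS A Y)) {a : LaurentSeries K}
    (ha : a ∈ K⟮incl A Y⟯) (haA : a ∈ gaussSubring A) : a ∈ VY A (incl A Y) := by
  classical
  rcases eq_or_ne a 0 with rfl | ha0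
  · exact zero_mem _
  obtain ⟨r, s, hrs⟩ := IntermediateField.mem_adjoin_simple_iff K a |>.mp ha
  have hs0 : aeval (incl A Y) s ≠ 0 := by
    intro h0
    rw [h0, div_zero] at hrs
    exact ha0 hrs
  have hs : s ≠ 0 := by
    rintro rfl
    exact hs0 (map_zero _)
  obtain ⟨c, Q, hc0, hQ, i, hi⟩ := exists_scale_poly A (n := 2) ![r, s] ⟨1, hs⟩
  have h0 : r = Polynomial.C c * (Q 0).map A.subtype := hQ 0
  have h1 : s = Polynomial.C c * (Q 1).map A.subtype := hQ 1
  have hev : ∀ p : A[X], evA A (incl A Y) p = aeval (incl A Y) (p.map A.subtype) := fun p =>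
    evA_eq _ _ _
  have hmul : evA A (incl A Y) (Q 1) * a = evA A (incl A Y) (Q 0) := by
    have h2 : aeval (incl A Y) s * a = aeval (incl A Y) r := by
      rw [hrs, mul_div_cancel₀ _ hs0]
    rw [h0, h1, map_mul, map_mul, aeval_C, mul_assoc] at h2
    rw [hev, hev]
    exact mul_left_cancel₀ (by simpa using hc0) h2
  refine ⟨Q 0, Q 1, ?_, hmul⟩
  intro hQ1
  have hQ0 : (Q 0).map (IsLocalRing.residue A) ≠ 0 := by
    fin_cases i
    · exact hi
    · exact absurd hQ1 hi
  obtain ⟨Y₁, Y₂, hY2, hY⟩ := haA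
  rw [evA_incl, evA_incl] at hmul
  have h2 : eval₂ HahnSeries.C Y (Q 1) * Y₁ = eval₂ HahnSeries.C Y (Q 0) * Y₂ := by
    apply incl_injective A
    rw [map_mul, map_mul, ← hY, ← hmul]
    ring
  have h3 := congrArg (redS A) h2
  rw [map_mul, map_mul, redS_eval₂, redS_eval₂, hQ1, map_zero, zero_mul, eq_comm,
    mul_eq_zero] at h3
  rcases h3 with h3 | h3
  · exact htr ⟨_, hQ0, h3⟩
  · exact hY2 h3

/-- Transport of integrality along a surjection of subrings. -/
theorem isIntegral_of_map {L L' : Type*} [Field L] [Field L'] (f : L →+* L') (R : Subring L)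
    (S : Subring L') (hS : ∀ b ∈ S, ∃ a ∈ R, f a = b) {x : L} (hx : IsIntegral S (f x)) :
    IsIntegral R x := by
  obtain ⟨P, hP, hPx⟩ := hx
  choose g hg hfg using fun b : S => hS b b.2
  let ψ : S →+* R :=
    { toFun := fun b => ⟨g b, hg b⟩
      map_one' := Subtype.ext (f.injective (by rw [hfg]; simp))
      map_mul' := fun a b => Subtype.ext (f.injective (by
        rw [hfg]; simp only [Subring.coe_mul, map_mul, hfg]))
      map_zero' := Subtype.ext (f.injective (by rw [hfg]; simp))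
      map_add' := fun a b => Subtype.ext (f.injective (by
        rw [hfg]; simp only [Subring.coe_add, map_add, hfg])) }
  refine ⟨P.map ψ, hP.map ψ, f.injective ?_⟩
  rw [map_zero, eval₂_map, hom_eval₂, ← hPx]
  congr 1
  ext b : 1
  exact hfg b

section Final

variable {ι : K →+* ℂ} {Γ : Subgroup SL(2, ℤ)}
variable [CharZero K] [Algebra.IsAlgebraic ℚ K] [IsAlgClosed K]

set_option maxHeartbeats 1000000 in
set_option synthInstance.maxHeartbeats 200000 in
/-- The Gauss ring of the function field of `X(M)` is integral over the Gauss ring of `K(j)`. -/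
theorem isIntegral_VY_Gamma (hℓ : ℓ.Prime) (hA : A.LiesOverPrime ℓ) {M : ℕ} [NeZero M]
    (hM : ¬ ℓ ∣ M) {x : LaurentSeries K} (hx : x ∈ FG ι (Gamma M) M) (hxA : x ∈ gaussSubring A) :
    IsIntegral (VY A (jE K M)) x := by
  obtain ⟨S⟩ := exists_sepGamma (ι := ι) M
  have hT := T_pow_mem_Gamma M
  obtain ⟨hgal, hsurj⟩ := S.galois hT
  have hfd := S.finiteDimensional
  have h1 := (gauss_unique (K := K) (A := A) (M := M) (F := FG ι (Gamma M) M)
    (ιF := (FG ι (Gamma M) M).val) (hℓ := hℓ) (hA := hA)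
    (hF := fun x => FG_Gamma_le_intField M x.2) (jG ι (Gamma M) M) rfl (galHom ι hT) hsurj
    (fun g hg => by
      apply AlgEquiv.ext
      intro x
      rw [galHom_apply, actHom_of_mem hT (le_pm _ hg), AlgEquiv.one_apply])
    (zt ι M)⁻¹ (by rw [inv_pow, zt_pow, inv_one])
    (fun x => actHom_T x)
    (fun σ hσ => by
      obtain ⟨γ, rfl⟩ := hsurj σ
      exact ⟨γ, mem_Gamma0_of_fix fun x hx => hσ x hx, rfl⟩)
    (fun x hx hxA => gamma0_integral' hℓ hA hM x hx hxA)).2 ⟨x, hx⟩ hxA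
  obtain ⟨P, hP, hPx⟩ := h1
  have hmem : ∀ b : (gaussVal hℓ hA (FG ι (Gamma M) M).val
      (fun x => FG_Gamma_le_intField M x.2)).comap (algebraMap K⟮jG ι (Gamma M) M⟯ _),
      (((b : K⟮jG ι (Gamma M) M⟯) : FG ι (Gamma M) M) : LaurentSeries K) ∈ VY A (jE K M) := by
    intro b
    have hb2 : (((b : K⟮jG ι (Gamma M) M⟯) : FG ι (Gamma M) M) : LaurentSeries K) ∈
        gaussSubring A := b.2
    have hb1 : (((b : K⟮jG ι (Gamma M) M⟯) : FG ι (Gamma M) M) : LaurentSeries K) ∈
        K⟮jE K M⟯ := by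
      have h2 : K⟮(FG ι (Gamma M) M).val (jG ι (Gamma M) M)⟯ =
          (K⟮jG ι (Gamma M) M⟯).map (FG ι (Gamma M) M).val := by
        rw [IntermediateField.adjoin_map, Set.image_singleton]
      have h3 : (((b : K⟮jG ι (Gamma M) M⟯) : FG ι (Gamma M) M) : LaurentSeries K) ∈
          (K⟮jG ι (Gamma M) M⟯).map (FG ι (Gamma M) M).val := ⟨_, b.1.2, rfl⟩
      rw [← h2] at h3
      exact h3
    have h4 : incl A (qExpand A M (jqModC A)) = jE K M := incl_j A M
    rw [← h4] at hb1 ⊢
    refine mem_VY_of_mem_gauss ?_ hb1 hb2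
    rw [redS_j]
    exact transcendental_qExpand_jqModC _ M
  let ψ : (gaussVal hℓ hA (FG ι (Gamma M) M).val
      (fun x => FG_Gamma_le_intField M x.2)).comap (algebraMap K⟮jG ι (Gamma M) M⟯ _) →+*
      VY A (jE K M) :=
    { toFun := fun b => ⟨_, hmem b⟩
      map_one' := rfl
      map_mul' := fun _ _ => rfl
      map_zero' := rfl
      map_add' := fun _ _ => rfl }
  refine ⟨P.map ψ, hP.map ψ, ?_⟩
  rw [eval₂_map]
  have h5 := congrArg (FG ι (Gamma M) M).val hPx
  rw [map_zero] at h5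
  exact (hom_eval₂ P _ ((FG ι (Gamma M) M).val : FG ι (Gamma M) M →+* LaurentSeries K) _).symm.trans
    h5

/-- **(UV), valuation form**: for `Γ ⊇ Γ(M)` and a prime `ℓ ∤ M`, an element of the function field
of `Γ` in the Gauss ring is integral over the Gauss ring of `K(j)`. -/
theorem isIntegral_VY_of_FG (hℓ : ℓ.Prime) (hA : A.LiesOverPrime ℓ) {M : ℕ} [NeZero M]
    (hM : ¬ ℓ ∣ M) (hΓ : Gamma M ≤ Γ) {x : LaurentSeries K} (hx : x ∈ FG ι Γ 1)
    (hxA : x ∈ gaussSubring A) : IsIntegral (VY A (jqModC K)) x := by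
  have h1 : qExpand K M x ∈ FG ι (Gamma M) M := by
    obtain ⟨a, ⟨F, hF⟩, b, ⟨G, hG⟩, hb0, rfl⟩ := mem_FG_iff.mp hx
    have key : ∀ {y : LaurentSeries K} {H : UpperHalfPlane → ℂ}, IsMF ι Γ 1 H y →
        qExpand K M y ∈ FG ι (Gamma M) M := by
      intro y H hH
      have := ((hH.mono hΓ).expand M).mem_FG
      rwa [mul_one] at this
    rw [map_div₀]
    exact div_mem (key hF) (key hG)
  have h2 := isIntegral_VY_Gamma hℓ hA hM h1 (qExpand_mem_gaussSubring M hxA)
  refine isIntegral_of_map (qExpand K M) _ _ ?_ h2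
  rintro b ⟨p, q, hq, hb⟩
  -- `b = p(j(q^M)) / q(j(q^M))`
  have hq0 : evA A (jE K M) q ≠ 0 := by
    have h4 : incl A (qExpand A M (jqModC A)) = jE K M := incl_j A M
    rw [← h4, evA_incl]
    apply incl_ne_zero
    rw [redS_eval₂, redS_j]
    exact fun h5 => transcendental_qExpand_jqModC _ M ⟨_, hq, h5⟩
  have hev : ∀ p : A[X], qExpand K M (evA A (jqModC K) p) = evA A (jE K M) p := fun p =>
    map_evA A (qExpand K M) (fun c => (qExpandAlgHomC K M).commutes c) (jqModC K) p
  have hq1 : evA A (jqModC K) q ≠ 0 := by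
    intro h0
    apply hq0
    rw [← hev, h0, map_zero]
  refine ⟨evA A (jqModC K) p / evA A (jqModC K) q, ⟨p, q, hq, by field_simp⟩, ?_⟩
  rw [map_div₀, hev, hev, ← hb]
  field_simp

end Final

end Fermat.Agent.X1G
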