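import Fermat.Agent.GaussVal.Discrete
import Fermat.Agent.LocE.K0

/-!
# The restriction of a place of `ℚ̄` to a number field is discrete with perfect residue field
-/

set_option autoImplicit false

noncomputable section

namespace Fermat.Agent.X1Key

variable {K : Type*} [Field K] (A : ValuationSubring K)

section Comap

variable {L : Type*} [Field L] (ι : L →+* K)

theorem valuation_comap_le_one_iff {x : L} :
    (A.comap ι).valuation x ≤ 1 ↔ A.valuation (ι x) ≤ 1 := by
  rw [ValuationSubring.valuation_le_one_iff, ValuationSubring.valuation_le_one_iff,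
    ValuationSubring.mem_comap]

theorem valuation_comap_lt_one_iff {x : L} :
    (A.comap ι).valuation x < 1 ↔ A.valuation (ι x) < 1 := by
  by_cases hx : x = 0
  · simp [hx]
  have hx' : ι x ≠ 0 := (map_ne_zero ι).mpr hx
  have h1 : ∀ {F : Type _} [Field F] (B : ValuationSubring F) (y : F), y ≠ 0 →
      (B.valuation y < 1 ↔ ¬ B.valuation y⁻¹ ≤ 1) := by
    intro F _ B y hy
    have hy' : 0 < B.valuation y := zero_lt_iff.mpr ((Valuation.ne_zero_iff _).mpr hy)
    rw [map_inv₀, inv_le_one₀ hy', not_le]
  have h2 : (A.comap ι).valuation x < 1 ↔ ¬ (A.comap ι).valuation x⁻¹ ≤ 1 := h1 _ x hx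
  have h3 : A.valuation (ι x) < 1 ↔ ¬ A.valuation (ι x)⁻¹ ≤ 1 := by
    have hy' : 0 < A.valuation (ι x) := zero_lt_iff.mpr ((Valuation.ne_zero_iff _).mpr hx')
    rw [map_inv₀, inv_le_one₀ hy', not_le]
  rw [h2, h3, valuation_comap_le_one_iff, map_inv₀]

theorem valuation_comap_eq_one_iff {x : L} :
    (A.comap ι).valuation x = 1 ↔ A.valuation (ι x) = 1 := by
  constructor
  · intro h
    refine le_antisymm ((valuation_comap_le_one_iff A ι).mp h.le) (not_lt.mp fun h2 => ?_)
    exact absurd ((valuation_comap_lt_one_iff A ι).mpr h2) (not_lt.mpr h.ge)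
  · intro h
    refine le_antisymm ((valuation_comap_le_one_iff A ι).mpr h.le) (not_lt.mp fun h2 => ?_)
    exact absurd ((valuation_comap_lt_one_iff A ι).mp h2) (not_lt.mpr h.ge)

theorem liesOverPrime_comap {p : ℕ} (hA : A.LiesOverPrime p) : (A.comap ι).LiesOverPrime p := by
  rw [ValuationSubring.LiesOverPrime, ValuationSubring.mem_nonunits_iff] at hA ⊢
  rw [valuation_comap_lt_one_iff, map_natCast]
  exact hA

end Comap

section NumberField

variable [CharZero K] {p : ℕ}

/-- The restriction of a place to a number field is discrete. -/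
theorem exists_uniformizer (hp : p.Prime) (hA : A.LiesOverPrime p)
    (L : IntermediateField ℚ K) [FiniteDimensional ℚ L] :
    ∃ π : L, (A.comap (algebraMap L K)).valuation π < 1 ∧ π ≠ 0 ∧
      ∀ c : L, c ≠ 0 → ∃ (m : ℤ) (u : L), (A.comap (algebraMap L K)).valuation u = 1 ∧
        c = π ^ m * u := by
  have hl0 : A.valuation (p : K) ≠ 0 := GaussVal.val_prime_ne_zero A hp
  have hl1 : A.valuation (p : K) < 1 := GaussVal.val_prime_lt_one A hA
  have hlpos : 0 < A.valuation (p : K) := zero_lt_iff.mpr hl0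
  obtain ⟨π, hπS, hπ0, hπmax⟩ := GaussVal.exists_max A hp hA L {x | x ∈ L ∧ A.valuation x < 1}
    (fun x hx => hx.1) (c := 1) L.one_mem (fun x hx => by rw [map_one]; exact hx.2.le)
    ⟨(p : K), ⟨natCast_mem L p, hl1⟩, by exact_mod_cast hp.ne_zero⟩
  have hπpos : 0 < A.valuation π := zero_lt_iff.mpr ((Valuation.ne_zero_iff _).mpr hπ0)
  refine ⟨⟨π, hπS.1⟩, ?_, ?_, fun c hc => ?_⟩
  · rw [valuation_comap_lt_one_iff]
    exact hπS.2
  · intro h
    exact hπ0 (congrArg Subtype.val h)
  · set n := (Module.finrank ℚ L).factorial with hn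
    have hn0 : n ≠ 0 := Nat.factorial_ne_zero _
    have hc0 : (c : K) ≠ 0 := fun h => hc (Subtype.ext h)
    obtain ⟨k, hk⟩ := GaussVal.exists_pow_factorial A hp hA L c.2 hc0
    obtain ⟨j, hj⟩ := GaussVal.exists_pow_factorial A hp hA L hπS.1 hπ0
    rw [← hn] at hk hj
    have hj0 : 0 < j := by
      by_contra hcon
      push Not at hcon
      have h1 : A.valuation π ^ n < 1 := pow_lt_one₀ zero_le hπS.2 hn0
      rw [hj] at h1
      have h2 : (1 : _) ≤ A.valuation (p : K) ^ j := by
        rw [← zpow_zero (A.valuation (p : K))]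
        exact (zpow_le_zpow_iff_right_of_lt_one₀ hlpos hl1).mpr hcon
      exact absurd h1 (not_lt.mpr h2)
    -- the largest `m` with `v(c) ≤ v(π)^m`
    have hiff : ∀ m : ℤ, A.valuation (c : K) ≤ A.valuation π ^ m ↔ j * m ≤ k := by
      intro m
      have h1 : A.valuation (c : K) ≤ A.valuation π ^ m ↔
          A.valuation (c : K) ^ n ≤ (A.valuation π ^ m) ^ n :=
        (pow_le_pow_iff_left₀ zero_le zero_le hn0).symm
      rw [h1, hk, ← zpow_natCast (A.valuation π ^ m), ← zpow_mul, mul_comm m, zpow_mul,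
        zpow_natCast, hj, ← zpow_mul]
      exact zpow_le_zpow_iff_right_of_lt_one₀ hlpos hl1
    set m := k / j with hm
    have hm1 : j * m ≤ k := Int.mul_ediv_self_le hj0.ne'
    have hm2 : ¬ j * (m + 1) ≤ k := by
      rw [not_le]
      exact Int.lt_mul_ediv_self_add hj0 |>.trans_le (by rw [mul_add, mul_one])
    have h1 := (hiff m).mpr hm1
    have h2 : A.valuation π ^ (m + 1) < A.valuation (c : K) := by
      rw [← not_le, hiff]
      exact hm2
    set u : K := (c : K) * (π ^ m)⁻¹ with hu
    have huL : u ∈ L := mul_mem c.2 (inv_mem (zpow_mem hπS.1 m))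
    have hpm : 0 < A.valuation π ^ m := zpow_pos hπpos m
    have hvu : A.valuation u = A.valuation (c : K) / A.valuation π ^ m := by
      rw [hu, map_mul, map_inv₀, map_zpow₀, div_eq_mul_inv]
    have hu1 : A.valuation u ≤ 1 := by
      rw [hvu]
      exact (div_le_one₀ hpm).mpr h1
    have hu2 : ¬ A.valuation u < 1 := by
      intro hlt
      have h3 := hπmax u ⟨huL, hlt⟩
      rw [hvu, div_le_iff₀ hpm, ← zpow_one_add₀ hπpos.ne', add_comm] at h3
      exact absurd h2 (not_lt.mpr h3)
    refine ⟨m, ⟨u, huL⟩, ?_, ?_⟩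
    · rw [valuation_comap_eq_one_iff]
      exact le_antisymm hu1 (not_lt.mp hu2)
    · apply (algebraMap L K).injective
      rw [map_mul, map_zpow₀]
      show (c : K) = π ^ m * u
      rw [hu, mul_comm ((c : K)), mul_inv_cancel_left₀ (zpow_ne_zero _ hπ0)]

end NumberField

/-! ### The residue field -/

section Residue

variable {L : Type*} [Field L] (B : ValuationSubring (AlgebraicClosure ℚ))
  (ι : L →+* AlgebraicClosure ℚ)

/-- The map of valuation rings. -/
def comapHom : B.comap ι →+* B where
  toFun x := ⟨ι x, x.2⟩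
  map_one' := Subtype.ext (map_one ι)
  map_mul' _ _ := Subtype.ext (map_mul ι _ _)
  map_zero' := Subtype.ext (map_zero ι)
  map_add' _ _ := Subtype.ext (map_add ι _ _)

instance isLocalHom_comapHom : IsLocalHom (comapHom B ι) where
  map_nonunit x hx :=
    (ValuationSubring.valuation_eq_one_iff _ x).mpr
      ((valuation_comap_eq_one_iff B ι).mpr ((ValuationSubring.valuation_eq_one_iff _ _).mp hx))

/-- The map of residue fields. -/
def resHom : IsLocalRing.ResidueField (B.comap ι) →+* IsLocalRing.ResidueField B :=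
  IsLocalRing.ResidueField.map (comapHom B ι)

theorem resHom_residue (x : B.comap ι) :
    resHom B ι (IsLocalRing.residue _ x) = IsLocalRing.residue _ (comapHom B ι x) := rfl

variable {p : ℕ}

theorem charP_residue_comap (hp : p.Prime) (hB : B.LiesOverPrime p) :
    CharP (IsLocalRing.ResidueField (B.comap ι)) p := by
  have := FrobDensity.charP_residue hp hB
  exact (RingHom.charP_iff (resHom B ι) (resHom B ι).injective p).mpr this

theorem perfectRing_residue_comap (hp : p.Prime) (hB : B.LiesOverPrime p) :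
    letI := charP_residue_comap B ι hp hB
    haveI : Fact p.Prime := ⟨hp⟩
    PerfectRing (IsLocalRing.ResidueField (B.comap ι)) p := by
  have := charP_residue_comap B ι hp hB
  have : Fact p.Prime := ⟨hp⟩
  refine PerfectRing.ofSurjective _ p fun y => ?_
  by_cases hy : y = 0
  · exact ⟨0, by rw [map_zero, hy]⟩
  obtain ⟨n, hn, hpn, h1⟩ := LocE.exists_pow_eq_one hp hB (resHom B ι y)
    ((map_ne_zero _).mpr hy)
  have h2 : y ^ n = 1 := (resHom B ι).injective (by rw [map_pow, h1, map_one])
  have hcop : Nat.Coprime p n := (Nat.Prime.coprime_iff_not_dvd hp).mpr hpn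
  have hcop' : Nat.Coprime p (orderOf y) := hcop.coprime_dvd_right (orderOf_dvd_of_pow_eq_one h2)
  obtain ⟨a, ha⟩ := exists_pow_eq_self_of_coprime hcop'
  refine ⟨y ^ a, ?_⟩
  rw [frobenius_def, ← pow_mul, mul_comm a p, pow_mul, ha]

theorem perfectField_residue_comap (hp : p.Prime) (hB : B.LiesOverPrime p) :
    PerfectField (IsLocalRing.ResidueField (B.comap ι)) := by
  have := charP_residue_comap B ι hp hB
  have : Fact p.Prime := ⟨hp⟩
  have := perfectRing_residue_comap B ι hp hB
  exact PerfectRing.toPerfectField _ p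

end Residue

end Fermat.Agent.X1Key

end
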