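import Mathlib
import Fermat.Agent.X1.GaussFGVal
import Fermat.Agent.X1.KeyDVR
import Fermat.Agent.Deuring.Degree

/-!
# Descent of the integrality theorem to subfields of `ℚ̄`
-/

set_option autoImplicit false
set_option linter.dupNamespace false

noncomputable section

open ModularCurve HahnSeries Module CongruenceSubgroup
open Fermat.Agent.GaussVal Fermat.Agent.X0Emb Fermat.Agent.GoodRed Fermat.Agent.FG
open scoped IntermediateField MatrixGroups Polynomial

namespace Fermat.Agent.X1G

section Comap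

variable {L K : Type*} [Field L] [Field K] (A : ValuationSubring K) (f : L →+* K)

/-- The map of valuation rings. -/
def cHom : A.comap f →+* A where
  toFun x := ⟨f x, x.2⟩
  map_one' := Subtype.ext (map_one f)
  map_mul' _ _ := Subtype.ext (map_mul f _ _)
  map_zero' := Subtype.ext (map_zero f)
  map_add' _ _ := Subtype.ext (map_add f _ _)

@[simp] theorem coe_cHom (x : A.comap f) : ((cHom A f x : A) : K) = f x := rfl

instance isLocalHom_cHom : IsLocalHom (cHom A f) where
  map_nonunit x hx :=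
    (ValuationSubring.valuation_eq_one_iff _ x).mpr
      ((X1Key.valuation_comap_eq_one_iff A f).mpr
        ((ValuationSubring.valuation_eq_one_iff _ _).mp hx))

/-- The map of residue fields. -/
def rHom : IsLocalRing.ResidueField (A.comap f) →+* IsLocalRing.ResidueField A :=
  IsLocalRing.ResidueField.map (cHom A f)

theorem rHom_residue (x : A.comap f) :
    rHom A f (IsLocalRing.residue _ x) = IsLocalRing.residue _ (cHom A f x) := rfl

theorem incl_coeffMap_cHom (Y : LaurentSeries (A.comap f)) :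
    incl A (coeffMap (cHom A f) Y) = coeffMap f (incl (A.comap f) Y) := by
  ext n
  simp only [incl, coeffMap_coeff]
  rfl

theorem redS_coeffMap_cHom (Y : LaurentSeries (A.comap f)) :
    redS A (coeffMap (cHom A f) Y) = coeffMap (rHom A f) (redS (A.comap f) Y) := by
  ext n
  simp only [redS, coeffMap_coeff]
  rfl

theorem coeffMap_mem_gaussSubring {x : LaurentSeries L} (hx : x ∈ gaussSubring (A.comap f)) :
    coeffMap f x ∈ gaussSubring A := by
  obtain ⟨Y₁, Y₂, h2, h⟩ := hx
  refine ⟨coeffMap (cHom A f) Y₁, coeffMap (cHom A f) Y₂, ?_, ?_⟩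
  · rw [redS_coeffMap_cHom]
    exact (map_ne_zero _).mpr h2
  · rw [incl_coeffMap_cHom, incl_coeffMap_cHom, ← h, map_mul]

theorem map_residue_ne_zero {q : (A.comap f)[X]}
    (hq : q.map (IsLocalRing.residue (A.comap f)) ≠ 0) :
    (q.map (cHom A f)).map (IsLocalRing.residue A) ≠ 0 := by
  have h1 : (q.map (cHom A f)).map (IsLocalRing.residue A) =
      (q.map (IsLocalRing.residue (A.comap f))).map (rHom A f) := by
    rw [Polynomial.map_map, Polynomial.map_map]
    rfl
  rw [h1]
  exact (Polynomial.map_ne_zero_iff (rHom A f).injective).mpr hq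

end Comap

section LinDisj

variable {k₀ k L₀ L : Type*} [Field k₀] [Field k] [Field L₀] [Field L]
variable [Algebra k₀ L₀] [Algebra k L] (f : k₀ →+* k) (σ : L₀ →+* L)

theorem map_adjoin_simple' (hσ : ∀ a, σ (algebraMap k₀ L₀ a) = algebraMap k L (f a)) (y₀ : L₀)
    {c : L₀} (hc : c ∈ k₀⟮y₀⟯) : σ c ∈ k⟮σ y₀⟯ := by
  induction hc using IntermediateField.adjoin_induction with
  | mem x hx =>
    rw [Set.mem_singleton_iff] at hx
    rw [hx]
    exact IntermediateField.mem_adjoin_simple_self k _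
  | algebraMap a =>
    rw [hσ]
    exact IntermediateField.algebraMap_mem _ _
  | add x y _ _ hx hy => rw [map_add]; exact add_mem hx hy
  | mul x y _ _ hx hy => rw [map_mul]; exact mul_mem hx hy
  | inv x _ hx => rw [map_inv₀]; exact inv_mem hx

theorem linInd_baseChange
    (hdisj : ∀ (ι : Type) [Fintype ι] (e : ι → L₀), LinearIndependent k₀ e →
      LinearIndependent k (fun i => σ (e i)))
    {y₀ : L₀} (hy : Transcendental k₀ y₀) {n : ℕ} (e : Fin n → L₀)
    (he : LinearIndependent k₀⟮y₀⟯ e) : LinearIndependent k⟮σ y₀⟯ (fun i => σ (e i)) := by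
  rw [Deuring.linearIndependent_adjoin_iff] at he ⊢
  intro p hp i
  -- a common bound for the degrees
  obtain ⟨M, hM⟩ : ∃ M : ℕ, ∀ i, (p i).natDegree < M :=
    ⟨(Finset.univ.sup fun i => (p i).natDegree) + 1, fun i =>
      Nat.lt_succ_of_le (Finset.le_sup (f := fun i => (p i).natDegree) (Finset.mem_univ i))⟩
  have h1 : LinearIndependent k₀ (fun ia : Fin n × Fin M => y₀ ^ (ia.2 : ℕ) * e ia.1) := by
    rw [Fintype.linearIndependent_iff]
    intro g hg ⟨i, a⟩
    have h2 := he (fun i => ∑ a : Fin M, Polynomial.monomial (a : ℕ) (g (i, a))) (by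
      rw [← hg, Fintype.sum_prod_type]
      apply Finset.sum_congr rfl
      intro i _
      rw [map_sum, Finset.sum_mul]
      apply Finset.sum_congr rfl
      intro a _
      rw [Polynomial.aeval_monomial, Algebra.smul_def, mul_assoc]) i
    have h3 : (∑ a : Fin M, Polynomial.monomial (a : ℕ) (g (i, a))) = 0 := by
      by_contra h4
      exact hy ⟨_, h4, h2⟩
    have h4 := congrArg (fun q => Polynomial.coeff q (a : ℕ)) h3
    simp only [Polynomial.finsetSum_coeff, Polynomial.coeff_monomial, Polynomial.coeff_zero] at h4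
    rw [Finset.sum_eq_single a (fun b _ hb => if_neg (fun h => hb (Fin.ext h)))
      (fun h => absurd (Finset.mem_univ a) h), if_pos rfl] at h4
    exact h4
  have h2 := hdisj _ _ h1
  rw [Fintype.linearIndependent_iff] at h2
  have h3 := h2 (fun ia => (p ia.1).coeff (ia.2 : ℕ)) (by
    rw [← hp, Fintype.sum_prod_type]
    apply Finset.sum_congr rfl
    intro i _
    rw [Polynomial.aeval_eq_sum_range' (hM i), Finset.sum_mul, ← Fin.sum_univ_eq_sum_range
      (fun a => (p i).coeff a • σ y₀ ^ a * σ (e i)) M]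
    apply Finset.sum_congr rfl
    intro a _
    rw [map_mul, map_pow, smul_mul_assoc])
  have h4 : p i = 0 := by
    ext a
    rw [Polynomial.coeff_zero]
    by_cases ha : a < M
    · exact h3 (i, ⟨a, ha⟩)
    · exact Polynomial.coeff_eq_zero_of_natDegree_lt (lt_of_lt_of_le (hM i) (not_lt.mp ha))
  rw [h4, map_zero]

end LinDisj

section LaurentLD

variable {k₀ k : Type*} [Field k₀] [Field k]

/-- `k` and `k₀((q))` are linearly disjoint over `k₀` inside `k((q))`. -/
theorem linInd_coeffMap [Algebra k₀ k] {ι : Type*} [Fintype ι]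
    (e : ι → LaurentSeries k₀)
    (he : ∀ g : ι → k₀, ∑ i, algebraMap k₀ (LaurentSeries k₀) (g i) * e i = 0 → ∀ i, g i = 0)
    (g : ι → k)
    (hg : ∑ i, algebraMap k (LaurentSeries k) (g i) * coeffMap (algebraMap k₀ k) (e i) = 0)
    (i : ι) : g i = 0 := by
  rw [← Module.forall_dual_apply_eq_zero_iff k₀]
  intro φ
  refine he (fun i => φ (g i)) ?_ i
  ext n
  have h1 := congrArg (fun z : LaurentSeries k => φ (z.coeff n)) hg
  simp only [HahnSeries.coeff_sum, HahnSeries.coeff_zero, map_zero, map_sum,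
    GaussVal.coeff_algebraMap_mul, coeffMap_coeff] at h1 ⊢
  rw [← h1]
  apply Finset.sum_congr rfl
  intro i _
  rw [mul_comm (g i), ← Algebra.smul_def, map_smul, smul_eq_mul, mul_comm]

end LaurentLD

section Descend

variable {L K : Type*} [Field L] [Field K] [Algebra L K] {A : ValuationSubring K}

theorem evA_coeffMap (y : LaurentSeries L) (p : (A.comap (algebraMap L K))[X]) :
    evA A (coeffMap (algebraMap L K) y) (p.map (cHom A (algebraMap L K))) =
      coeffMap (algebraMap L K) (evA (A.comap (algebraMap L K)) y p) := by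
  rw [evA, evA, Polynomial.coe_eval₂RingHom, Polynomial.coe_eval₂RingHom, Polynomial.eval₂_map,
    Polynomial.hom_eval₂]
  congr 1
  ext a : 1
  simp only [RingHom.comp_apply, algebraMap_laurentSeries_eq_single, coeffMap_single]
  rfl

/-- Gauss lemma over a subfield. -/
theorem mem_VY_of_coeffMap {Y : LaurentSeries A}
    (htr : Transcendental (IsLocalRing.ResidueField A) (redS A Y)) {y : LaurentSeries L}
    (hy : coeffMap (algebraMap L K) y = incl A Y) {a : LaurentSeries L} (ha : a ∈ L⟮y⟯)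
    (haA : coeffMap (algebraMap L K) a ∈ gaussSubring A) :
    a ∈ VY (A.comap (algebraMap L K)) y := by
  classical
  set AL := A.comap (algebraMap L K) with hAL
  rcases eq_or_ne a 0 with rfl | ha0
  · exact zero_mem _
  obtain ⟨r, s, hrs⟩ := IntermediateField.mem_adjoin_simple_iff L a |>.mp ha
  have hs0 : Polynomial.aeval y s ≠ 0 := by
    intro h0
    rw [h0, div_zero] at hrs
    exact ha0 hrs
  have hs : s ≠ 0 := by
    rintro rfl
    exact hs0 (map_zero _)
  obtain ⟨c, Q, hc0, hQ, i, hi⟩ := exists_scale_poly AL (n := 2) ![r, s] ⟨1, hs⟩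
  have h0 : r = Polynomial.C c * (Q 0).map AL.subtype := hQ 0
  have h1 : s = Polynomial.C c * (Q 1).map AL.subtype := hQ 1
  have hmul : evA AL y (Q 1) * a = evA AL y (Q 0) := by
    have h2 : Polynomial.aeval y s * a = Polynomial.aeval y r := by
      rw [hrs, mul_div_cancel₀ _ hs0]
    rw [h0, h1, map_mul, map_mul, Polynomial.aeval_C, mul_assoc] at h2
    rw [evA_eq, evA_eq]
    exact mul_left_cancel₀ (by simpa using hc0) h2
  refine ⟨Q 0, Q 1, ?_, hmul⟩
  intro hQ1
  have hQ0 : (Q 0).map (IsLocalRing.residue AL) ≠ 0 := by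
    fin_cases i
    · exact hi
    · exact absurd hQ1 hi
  obtain ⟨Y₁, Y₂, hY2, hY⟩ := haA
  have hmul' := congrArg (coeffMap (algebraMap L K)) hmul
  rw [map_mul, ← evA_coeffMap, ← evA_coeffMap, hy, evA_incl, evA_incl] at hmul'
  have h2 : Polynomial.eval₂ HahnSeries.C Y ((Q 1).map (cHom A (algebraMap L K))) * Y₁ =
      Polynomial.eval₂ HahnSeries.C Y ((Q 0).map (cHom A (algebraMap L K))) * Y₂ := by
    apply incl_injective A
    rw [map_mul, map_mul, ← hY, ← hmul']
    ring
  have h3 := congrArg (redS A) h2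
  have hQ1' : ((Q 1).map (cHom A (algebraMap L K))).map (IsLocalRing.residue A) = 0 := by
    have h4 : ((Q 1).map (cHom A (algebraMap L K))).map (IsLocalRing.residue A) =
        ((Q 1).map (IsLocalRing.residue AL)).map (rHom A (algebraMap L K)) := by
      rw [Polynomial.map_map, Polynomial.map_map]
      rfl
    rw [h4, hQ1, Polynomial.map_zero]
  rw [map_mul, map_mul, redS_eval₂, redS_eval₂, hQ1', map_zero, zero_mul, eq_comm,
    mul_eq_zero] at h3
  rcases h3 with h3 | h3
  · exact htr ⟨_, map_residue_ne_zero A _ hQ0, h3⟩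
  · exact hY2 h3

end Descend

section AbsDescend

variable {k₀ k L₀ L : Type*} [Field k₀] [Field k] [Field L₀] [Field L]
variable [Algebra k₀ L₀] [Algebra k L] (f : k₀ →+* k) (σ : L₀ →+* L)

/-- Descent of integrality, abstract version. -/
theorem isIntegral_descend_abs (hσ : ∀ a, σ (algebraMap k₀ L₀ a) = algebraMap k L (f a))
    (hdisj' : ∀ (ι : Type) [Fintype ι] (e : ι → L₀),
      (∀ g : ι → k₀, ∑ i, algebraMap k₀ L₀ (g i) * e i = 0 → ∀ i, g i = 0) →
      ∀ g : ι → k, ∑ i, algebraMap k L (g i) * σ (e i) = 0 → ∀ i, g i = 0)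
    {y₀ : L₀} (hy : Transcendental k₀ y₀) {x : L₀} (halg : IsAlgebraic k₀⟮y₀⟯ x)
    (R : Subring L₀) (R' : Subring L) (hR' : ∀ a ∈ R', a ∈ k⟮σ y₀⟯)
    (hR : ∀ c ∈ k₀⟮y₀⟯, IsIntegral R' (σ c) → c ∈ R) (hx : IsIntegral R' (σ x)) :
    IsIntegral R x := by
  classical
  have hdisj : ∀ (ι : Type) [Fintype ι] (e : ι → L₀), LinearIndependent k₀ e →
      LinearIndependent k (fun i => σ (e i)) := by
    intro ι _ e he
    rw [Fintype.linearIndependent_iff] at he ⊢
    intro g hg i
    refine hdisj' ι e ?_ g ?_ i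
    · intro g' hg'
      exact he g' (by simpa only [Algebra.smul_def] using hg')
    · simpa only [Algebra.smul_def] using hg
  have hxint : IsIntegral k₀⟮y₀⟯ x := halg.isIntegral
  let g : k₀⟮y₀⟯ →+* k⟮σ y₀⟯ :=
    { toFun := fun c => ⟨σ c, map_adjoin_simple' f σ hσ _ c.2⟩
      map_one' := Subtype.ext (map_one σ)
      map_mul' := fun _ _ => Subtype.ext (map_mul σ _ _)
      map_zero' := Subtype.ext (map_zero σ)
      map_add' := fun _ _ => Subtype.ext (map_add σ _ _) }
  have hg : ∀ c, ((g c : k⟮σ y₀⟯) : L) = σ c := fun c => rfl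
  set p := minpoly k₀⟮y₀⟯ x with hp
  have hpm : p.Monic := minpoly.monic hxint
  set m := minpoly k⟮σ y₀⟯ (σ x) with hm
  have hq0 : Polynomial.aeval (σ x) (p.map g) = 0 := by
    have h1 : Polynomial.aeval x p = 0 := minpoly.aeval _ _
    have h2 := congrArg σ h1
    rw [map_zero, Polynomial.aeval_def, Polynomial.hom_eval₂] at h2
    rw [Polynomial.aeval_def, Polynomial.eval₂_map, ← h2]
    rfl
  have hxint' : IsIntegral k⟮σ y₀⟯ (σ x) := ⟨p.map g, hpm.map g, hq0⟩
  have hmm : m.Monic := minpoly.monic hxint'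
  have hdvd : m ∣ p.map g := minpoly.dvd _ _ hq0
  have hLD := linInd_baseChange σ hdisj hy (fun i : Fin p.natDegree => x ^ (i : ℕ))
    (linearIndependent_pow x)
  have hdeg : p.natDegree ≤ m.natDegree := by
    by_contra hlt
    push Not at hlt
    rw [Fintype.linearIndependent_iff] at hLD
    have h1 : Polynomial.aeval (σ x) m = 0 := minpoly.aeval _ _
    have h2 := hLD (fun i => m.coeff i) (by
      rw [← h1, Polynomial.aeval_eq_sum_range' hlt, ← Fin.sum_univ_eq_sum_range
        (fun i => m.coeff i • σ x ^ i) p.natDegree]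
      refine Finset.sum_congr rfl fun i _ => ?_
      rw [map_pow]) ⟨m.natDegree, hlt⟩
    have h3 : m.coeff m.natDegree = 1 := hmm
    exact one_ne_zero (h3.symm.trans h2)
  have hmp : p.map g = m := by
    apply Polynomial.eq_of_monic_of_dvd_of_natDegree_le hmm (hpm.map g) hdvd
    rw [hpm.natDegree_map]
    exact hdeg
  -- the coefficients of `m` are integral
  obtain ⟨P, hP, hPx⟩ := hx
  let ψ : R' →+* k⟮σ y₀⟯ :=
    { toFun := fun a => ⟨a, hR' a a.2⟩
      map_one' := rfl
      map_mul' := fun _ _ => rfl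
      map_zero' := rfl
      map_add' := fun _ _ => rfl }
  have hdvd2 : m ∣ P.map ψ := by
    apply minpoly.dvd
    rw [Polynomial.aeval_def, Polynomial.eval₂_map]
    exact hPx
  have hint : ∀ i, IsIntegral R' ((m.coeff i : k⟮σ y₀⟯) : L) := by
    intro i
    have h1 := Polynomial.isIntegral_coeff_of_dvd (R := R')
      (S := L) P (m.map (algebraMap k⟮σ y₀⟯ L)) hP
      (hmm.map _) (by
        have h2 := Polynomial.map_dvd (algebraMap k⟮σ y₀⟯ L) hdvd2
        rw [Polynomial.map_map] at h2
        exact h2) i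
    rw [Polynomial.coeff_map] at h1
    exact h1
  -- descent of the coefficients
  have hcoef : ∀ i, ((p.coeff i : k₀⟮y₀⟯) : L₀) ∈ R := by
    intro i
    have h1 := hint i
    rw [← hmp, Polynomial.coeff_map, hg] at h1
    exact hR _ (p.coeff i).2 h1
  -- the equation
  have h1 : p.map (algebraMap k₀⟮y₀⟯ L₀) ∈ Polynomial.lifts (algebraMap R L₀) := by
    rw [Polynomial.lifts_iff_coeff_lifts]
    intro i
    rw [Polynomial.coeff_map]
    exact ⟨⟨_, hcoef i⟩, rfl⟩
  obtain ⟨Q, hQ, -, hQm⟩ := Polynomial.lifts_and_natDegree_eq_and_monic h1 (hpm.map _)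
  refine ⟨Q, hQm, ?_⟩
  have h2 : Polynomial.aeval x p = 0 := minpoly.aeval _ _
  rw [← Polynomial.eval_map, hQ, Polynomial.eval_map]
  exact h2

end AbsDescend

section AbsGauss

variable {K : Type*} [Field K] {A : ValuationSubring K} {ℓ : ℕ}

theorem mem_gauss_of_isIntegral_abs [CharZero K] [Algebra.IsAlgebraic ℚ K] (hℓ : ℓ.Prime)
    (hA : A.LiesOverPrime ℓ) {F : Type*} [Field F] [Algebra K F] (ιF : F →ₐ[K] LaurentSeries K)
    (hF : ∀ x, ιF x ∈ intField K) (R : Subring (LaurentSeries K))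
    (hR : ∀ a ∈ R, a ∈ gaussSubring A ∧ ∃ b : F, ιF b = a) {y : F}
    (h : IsIntegral R (ιF y)) : ιF y ∈ gaussSubring A := by
  obtain ⟨P, hP, hPy⟩ := h
  choose g hg using fun a : R => (hR a a.2).2
  have hgO : ∀ a : R, g a ∈ gaussVal hℓ hA ιF hF := by
    intro a
    rw [mem_gaussVal, hg]
    exact (hR a a.2).1
  let ψ : R →+* gaussVal hℓ hA ιF hF :=
    { toFun := fun a => ⟨g a, hgO a⟩
      map_one' := Subtype.ext (ιF.injective (by
        change ιF (g 1) = ιF 1
        rw [hg, map_one]; rfl))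
      map_mul' := fun a b => Subtype.ext (ιF.injective (by
        change ιF (g (a * b)) = ιF (g a * g b)
        rw [hg, map_mul, hg, hg]; rfl))
      map_zero' := Subtype.ext (ιF.injective (by
        change ιF (g 0) = ιF 0
        rw [hg, map_zero]; rfl))
      map_add' := fun a b => Subtype.ext (ιF.injective (by
        change ιF (g (a + b)) = ιF (g a + g b)
        rw [hg, map_add, hg, hg]; rfl)) }
  have h1 : IsIntegral (gaussVal hℓ hA ιF hF) y := by
    refine ⟨P.map ψ, hP.map ψ, ?_⟩
    apply ιF.injective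
    rw [map_zero, Polynomial.eval₂_map, ← hPy]
    refine (Polynomial.hom_eval₂ P _ (ιF : F →+* LaurentSeries K) _).trans ?_
    congr 1
    exact RingHom.ext fun a => hg a
  obtain ⟨z, hz⟩ := (IsIntegrallyClosed.isIntegral_iff (R := gaussVal hℓ hA ιF hF) (K := F)).mp h1
  have h2 : y ∈ gaussVal hℓ hA ιF hF := by
    rw [← hz]
    exact z.2
  exact h2

end AbsGauss

section Main

variable {L K : Type*} [Field L] [Field K] [Algebra L K] {A : ValuationSubring K} {ℓ : ℕ}

theorem mem_adjoin_j_of_mem_VY {a : LaurentSeries K} (ha : a ∈ VY A (jqModC K)) :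
    a ∈ gaussSubring A ∧ a ∈ K⟮jqModC K⟯ := by
  have h1 : a ∈ VY A (qExpand K 1 (jqModC K)) := by
    rw [qExpand_one_apply]
    exact ha
  have h2 := mem_of_mem_VY h1
  rw [qExpand_one_apply] at h2
  exact h2

theorem adjoin_j_le_intField (K : Type*) [Field K] : K⟮jqModC K⟯ ≤ intField K := by
  rw [IntermediateField.adjoin_simple_le_iff]
  have := jqd_mem_intField (K := K) 1
  rwa [qExpand_one_apply] at this

/-- Descent of integrality. -/
theorem isIntegral_descend [CharZero K] [Algebra.IsAlgebraic ℚ K] (hℓ : ℓ.Prime)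
    (hA : A.LiesOverPrime ℓ) {x : LaurentSeries L} (halg : IsAlgebraic L⟮jqModC L⟯ x)
    (hx : IsIntegral (VY A (jqModC K)) (coeffMap (algebraMap L K) x)) :
    IsIntegral (VY (A.comap (algebraMap L K)) (jqModC L)) x := by
  have hj : coeffMap (algebraMap L K) (jqModC L) = jqModC K := coeffMap_jqModC _
  refine isIntegral_descend_abs (algebraMap L K) (coeffMap (algebraMap L K)) ?_ ?_
    (GaussVal.transcendental_jqModC L) halg _ (VY A (jqModC K)) ?_ ?_ hx
  · intro a
    rw [algebraMap_laurentSeries_eq_single, algebraMap_laurentSeries_eq_single, coeffMap_single]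
  · intro ι _ e he g hg i
    exact linInd_coeffMap (k₀ := L) (k := K) e he g hg i
  · intro a ha
    rw [hj]
    exact (mem_adjoin_j_of_mem_VY ha).2
  · intro c hc hint
    have hcK : coeffMap (algebraMap L K) c ∈ K⟮jqModC K⟯ := by
      rw [← hj]
      refine map_adjoin_simple' (algebraMap L K) (coeffMap (algebraMap L K)) ?_ _ hc
      intro a
      rw [algebraMap_laurentSeries_eq_single, algebraMap_laurentSeries_eq_single,
        coeffMap_single]
    have h3 := mem_gauss_of_isIntegral_abs hℓ hA (K⟮jqModC K⟯).val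
      (fun x => adjoin_j_le_intField K x.2) (VY A (jqModC K))
      (fun a ha => ⟨(mem_adjoin_j_of_mem_VY ha).1, ⟨a, (mem_adjoin_j_of_mem_VY ha).2⟩, rfl⟩)
      (y := ⟨_, hcK⟩) hint
    refine mem_VY_of_coeffMap (A := A) (Y := jqModC A) ?_ ?_ hc h3
    · have h4 : redS A (jqModC A) = jqModC _ := coeffMap_jqModC _
      rw [h4]
      exact GaussVal.transcendental_jqModC _
    · exact (coeffMap_jqModC _).trans (coeffMap_jqModC _).symm

open scoped UpperHalfPlane in
/-- Base change of modular functions. -/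
theorem isMF_baseChange {ι : K →+* ℂ} {Γ : Subgroup SL(2, ℤ)} {h : ℕ} {F : UpperHalfPlane → ℂ}
    {y : LaurentSeries L} (hF : IsMF (ι.comp (algebraMap L K)) Γ h F y) :
    IsMF ι Γ h F (coeffMap (algebraMap L K) y) where
  mdiff := hF.mdiff
  inv := hF.inv
  growth := hF.growth
  lexp := by
    rw [coeffMap_comp']
    exact hF.lexp

theorem FG_baseChange {ι : K →+* ℂ} {Γ : Subgroup SL(2, ℤ)} {h : ℕ} {x : LaurentSeries L}
    (hx : x ∈ FG (ι.comp (algebraMap L K)) Γ h) : coeffMap (algebraMap L K) x ∈ FG ι Γ h := by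
  obtain ⟨a, ⟨F, hF⟩, b, ⟨G, hG⟩, hb0, rfl⟩ := mem_FG_iff.mp hx
  rw [map_div₀]
  exact div_mem (isMF_baseChange hF).mem_FG (isMF_baseChange hG).mem_FG

theorem isAlgebraic_of_mem_FG {ι : L →+* ℂ} {Γ : Subgroup SL(2, ℤ)} [Γ.FiniteIndex]
    {x : LaurentSeries L} (hx : x ∈ FG ι Γ 1) : IsAlgebraic L⟮jqModC L⟯ x := by
  have key : ∀ {y : LaurentSeries L} {F : UpperHalfPlane → ℂ}, IsMF ι Γ 1 F y →
      IsAlgebraic L⟮jqModC L⟯ y := by
    intro y F hF
    obtain ⟨P, hPm, -, hP, -⟩ := hF.exists_monic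
    rw [jE, qExpand_one_apply] at hP
    refine IsIntegral.isAlgebraic ?_
    let f : Polynomial L →+* L⟮jqModC L⟯ :=
      ((Polynomial.aeval (jqModC L) : Polynomial L →ₐ[L] LaurentSeries L).codRestrict
        L⟮jqModC L⟯.toSubalgebra (fun p =>
          IntermediateField.algebra_adjoin_le_adjoin L _
            (Polynomial.aeval_mem_adjoin_singleton L _))).toRingHom
    refine ⟨P.map f, hPm.map f, ?_⟩
    rw [Polynomial.eval₂_map]
    exact hP
  obtain ⟨a, ⟨F, hF⟩, b, ⟨G, hG⟩, hb0, rfl⟩ := mem_FG_iff.mp hx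
  rw [div_eq_mul_inv]
  exact (key hF).mul (key hG).inv

/-- **(UV), valuation form, over a subfield `L`**: for `Γ ⊇ Γ(M)` and a prime `ℓ ∤ M`, an element
of the function field of `Γ` over `L` in the Gauss ring is integral over the Gauss ring of
`L(j)`. -/
theorem isIntegral_VY_of_FG_sub [CharZero K] [Algebra.IsAlgebraic ℚ K] [IsAlgClosed K]
    {ι : K →+* ℂ} {Γ : Subgroup SL(2, ℤ)} (hℓ : ℓ.Prime) (hA : A.LiesOverPrime ℓ) {M : ℕ}
    [NeZero M] (hM : ¬ ℓ ∣ M) (hΓ : Gamma M ≤ Γ) {x : LaurentSeries L}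
    (hx : x ∈ FG (ι.comp (algebraMap L K)) Γ 1)
    (hxA : x ∈ gaussSubring (A.comap (algebraMap L K))) :
    IsIntegral (VY (A.comap (algebraMap L K)) (jqModC L)) x := by
  have : Γ.FiniteIndex := Subgroup.finiteIndex_of_le hΓ
  exact isIntegral_descend hℓ hA (isAlgebraic_of_mem_FG hx)
    (isIntegral_VY_of_FG hℓ hA hM hΓ (FG_baseChange hx)
      (coeffMap_mem_gaussSubring A (algebraMap L K) hxA))

end Main

end Fermat.Agent.X1G
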