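import Mathlib
import Fermat.Agent.X1.KeyLineDef
import Fermat.Agent.X1.KeyUV
import Fermat.Agent.Igusa.Separable

/-!
# The Gauss valuation ring of a function field over a discretely valued field
-/

set_option autoImplicit false
set_option linter.dupNamespace false

noncomputable section

open ModularCurve HahnSeries Module CongruenceSubgroup
open Fermat.Agent.GaussVal Fermat.Agent.X0Emb
open scoped IntermediateField MatrixGroups Polynomial

namespace Fermat.Agent.X1Key

section Def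

variable {L : Type*} [Field L] (B : ValuationSubring L) (F : IntermediateField L (LaurentSeries L))

/-- The Gauss ring of `F`. -/
def Vg : Subring F := (gaussSubring B).comap (algebraMap F (LaurentSeries L))

theorem mem_Vg {x : F} : x ∈ Vg B F ↔ (x : LaurentSeries L) ∈ gaussSubring B := Iff.rfl

/-- The residue field of the Gauss ring of `F`. -/
def κg : IntermediateField (IsLocalRing.ResidueField B)
    (LaurentSeries (IsLocalRing.ResidueField B)) where
  carrier := {y | ∃ x : gaussSubring B, (x : LaurentSeries L) ∈ F ∧ gaussRed B x = y}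
  mul_mem' := by
    rintro _ _ ⟨x, hx, rfl⟩ ⟨y, hy, rfl⟩
    exact ⟨x * y, mul_mem hx hy, map_mul _ _ _⟩
  one_mem' := ⟨1, one_mem F, map_one _⟩
  add_mem' := by
    rintro _ _ ⟨x, hx, rfl⟩ ⟨y, hy, rfl⟩
    exact ⟨x + y, add_mem hx hy, map_add _ _ _⟩
  zero_mem' := ⟨0, zero_mem F, map_zero _⟩
  algebraMap_mem' := by
    intro c
    obtain ⟨b, rfl⟩ := IsLocalRing.residue_surjective c
    exact ⟨⟨algebraMap L (LaurentSeries L) b, algebraMap_mem_gaussSubring b.2⟩,
      F.algebraMap_mem _, gaussRed_algebraMap b.2⟩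
  inv_mem' := by
    rintro _ ⟨x, hx, rfl⟩
    by_cases h0 : gaussRed B x = 0
    · rw [h0, inv_zero]
      exact ⟨0, zero_mem F, map_zero _⟩
    · refine ⟨⟨_, inv_mem_of_gaussRed_ne_zero h0⟩, inv_mem hx, ?_⟩
      have hx0 : (x : LaurentSeries L) ≠ 0 := by
        intro h1
        apply h0
        have : x = 0 := Subtype.ext h1
        rw [this, map_zero]
      apply eq_inv_of_mul_eq_one_left
      rw [← map_mul, ← map_one (gaussRed B)]
      congr 1
      apply Subtype.ext
      push_cast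
      exact inv_mul_cancel₀ hx0

theorem mem_κg {y : LaurentSeries (IsLocalRing.ResidueField B)} :
    y ∈ κg B F ↔ ∃ x : gaussSubring B, (x : LaurentSeries L) ∈ F ∧ gaussRed B x = y := Iff.rfl

/-- The inclusion of the Gauss ring of `F` in the Gauss ring. -/
def toG : Vg B F →+* gaussSubring B :=
  ((algebraMap F (LaurentSeries L)).comp (Vg B F).subtype).codRestrict (gaussSubring B)
    (fun x => x.2)

theorem coe_toG (x : Vg B F) : ((toG B F x : gaussSubring B) : LaurentSeries L) = (x : F) := rfl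

/-- The reduction map of the Gauss ring of `F`. -/
def redg : Vg B F →+* κg B F :=
  ((gaussRed B).comp (toG B F)).codRestrict (κg B F) (fun x => ⟨toG B F x, x.1.2, rfl⟩)

theorem coe_redg (x : Vg B F) :
    ((redg B F x : κg B F) : LaurentSeries (IsLocalRing.ResidueField B)) =
      gaussRed B ⟨algebraMap F (LaurentSeries L) x, x.2⟩ := rfl

theorem redg_surjective : Function.Surjective (redg B F) := by
  rintro ⟨y, x, hx, rfl⟩
  exact ⟨⟨⟨x, hx⟩, x.2⟩, rfl⟩

theorem algebraMap_mem_Vg {b : L} (hb : b ∈ B) : algebraMap L F b ∈ Vg B F :=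
  algebraMap_mem_gaussSubring (A := B) hb

theorem redg_algebraMap (b : B) :
    redg B F ⟨algebraMap L F b, algebraMap_mem_Vg B F b.2⟩ =
      algebraMap (IsLocalRing.ResidueField B) (κg B F) (IsLocalRing.residue B b) :=
  Subtype.ext (gaussRed_algebraMap (A := B) b.2)

end Def

section VRing

variable {L : Type*} [Field L] {B : ValuationSubring L}
  {F : IntermediateField L (LaurentSeries L)}

theorem residue_eq_zero_iff' (b : B) : IsLocalRing.residue B b = 0 ↔ B.valuation (b : L) < 1 := by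
  rw [IsLocalRing.residue_eq_zero_iff, ValuationSubring.valuation_lt_one_iff]

/-- Division of a series by the uniformizer. -/
theorem exists_div_pi {π : L} (h0 : π ≠ 0)
    (hπ : ∀ c : L, c ≠ 0 → ∃ (m : ℤ) (u : L), B.valuation u = 1 ∧ c = π ^ m * u)
    (h1 : B.valuation π < 1) (Y : LaurentSeries B) (hY : redS B Y = 0) :
    ∃ Z : LaurentSeries B, incl B Y = algebraMap L (LaurentSeries L) π * incl B Z := by
  have hmem : ∀ n, (incl B Y).coeff n / π ∈ B := by
    intro n
    have h2 : IsLocalRing.residue B (Y.coeff n) = 0 := by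
      have := congrArg (fun z : LaurentSeries (IsLocalRing.ResidueField B) => z.coeff n) hY
      simpa using this
    rw [residue_eq_zero_iff'] at h2
    have h3 : (incl B Y).coeff n = (Y.coeff n : L) := rfl
    rw [h3]
    by_cases h4 : (Y.coeff n : L) = 0
    · rw [h4, zero_div]; exact zero_mem _
    obtain ⟨m, u, hu, hm⟩ := hπ _ h4
    have hpos : 0 < B.valuation π := zero_lt_iff.mpr ((Valuation.ne_zero_iff _).mpr h0)
    have hm1 : 1 ≤ m := by
      by_contra hcon
      push Not at hcon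
      have h5 : B.valuation (Y.coeff n : L) = B.valuation π ^ m := by
        rw [hm, map_mul, map_zpow₀, hu, mul_one]
      rw [h5] at h2
      have h6 : (1 : _) ≤ B.valuation π ^ m := by
        rw [← zpow_zero (B.valuation π)]
        exact (zpow_le_zpow_iff_right_of_lt_one₀ hpos h1).mpr (by omega)
      exact absurd h2 (not_lt.mpr h6)
    rw [hm, ← ValuationSubring.valuation_le_one_iff, map_div₀, map_mul, map_zpow₀, hu, mul_one]
    have h7 : B.valuation π ^ m / B.valuation π = B.valuation π ^ (m - 1) := by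
      rw [zpow_sub_one₀ hpos.ne', div_eq_mul_inv]
    rw [h7]
    obtain ⟨k, hk⟩ := Int.eq_ofNat_of_zero_le (by omega : 0 ≤ m - 1)
    rw [hk, zpow_natCast]
    exact pow_le_one₀ zero_le h1.le
  obtain ⟨Z, hZ⟩ := exists_incl_of_coeff_mem (A := B)
    (y := algebraMap L (LaurentSeries L) π⁻¹ * incl B Y) (by
      intro n
      rw [coeff_algebraMap_mul, mul_comm, ← div_eq_mul_inv]
      exact hmem n)
  refine ⟨Z, ?_⟩
  rw [hZ, ← mul_assoc, ← map_mul, mul_inv_cancel₀ h0, map_one, one_mul]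

/-- An element of the Gauss ring with reduction zero is divisible by `π`. -/
theorem exists_pi_mul {π : L} (h0 : π ≠ 0)
    (hπ : ∀ c : L, c ≠ 0 → ∃ (m : ℤ) (u : L), B.valuation u = 1 ∧ c = π ^ m * u)
    (h1 : B.valuation π < 1) (y : gaussSubring B) (hy : gaussRed B y = 0) :
    ∃ z : gaussSubring B, (y : LaurentSeries L) = algebraMap L (LaurentSeries L) π * z := by
  obtain ⟨Y₁, Y₂, h2, hY⟩ := y.2
  rw [gaussRed_eq h2 hY, div_eq_zero_iff, or_iff_left h2] at hy
  obtain ⟨Z, hZ⟩ := exists_div_pi h0 hπ h1 Y₁ hy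
  have h3 := incl_ne_zero h2
  refine ⟨⟨incl B Z * (incl B Y₂)⁻¹, mul_mem (incl_mem _) (inv_mem_of_primitive h2)⟩, ?_⟩
  apply mul_right_cancel₀ h3
  rw [hY, hZ]
  field_simp

/-- A nonzero element of `intField` is a power of `π` times a unit of the Gauss ring. -/
theorem exists_pi_pow_mul [CharZero L] [Algebra.IsAlgebraic ℚ L] {ℓ : ℕ} (hℓ : ℓ.Prime)
    (hB : B.LiesOverPrime ℓ) {π : L}
    (hπ : ∀ c : L, c ≠ 0 → ∃ (m : ℤ) (u : L), B.valuation u = 1 ∧ c = π ^ m * u)
    {x : LaurentSeries L} (hx : x ∈ intField L) (hx0' : x ≠ 0) :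
    ∃ (m : ℤ) (w : gaussSubring B), gaussRed B w ≠ 0 ∧
      x = algebraMap L (LaurentSeries L) π ^ m * w := by
  obtain ⟨a, ha, b, hb, hb0, hab⟩ := exists_div_of_mem_intField hx
  have ha0 : a ≠ 0 := by
    rw [← hab]; exact mul_ne_zero hx0' hb0
  obtain ⟨c, Y, _, hc0, hcY, hY, _⟩ := (scalable_of_mem_intAlg hℓ hB ha ha0).exists_primitive
  obtain ⟨d, Z, _, hd0, hdZ, hZ, _⟩ := (scalable_of_mem_intAlg hℓ hB hb hb0).exists_primitive
  have hd0' : algebraMap L (LaurentSeries L) d ≠ 0 :=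
    (map_ne_zero_iff _ (algebraMap L (LaurentSeries L)).injective).mpr hd0
  have hxeq : x = algebraMap L (LaurentSeries L) (c / d) * (incl B Y * (incl B Z)⁻¹) := by
    have h1 : x = a / b := by rw [← hab, mul_div_cancel_right₀ _ hb0]
    rw [h1, ← hcY, ← hdZ, map_div₀]
    field_simp
  obtain ⟨m, u, hu, hm⟩ := hπ (c / d) (div_ne_zero hc0 hd0)
  have hu0 : u ≠ 0 := by
    rintro rfl
    rw [map_zero] at hu
    exact zero_ne_one hu
  have huB : u ∈ B := (ValuationSubring.valuation_le_one_iff _ _).mp hu.le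
  have huB' : u⁻¹ ∈ B := by
    rw [← ValuationSubring.valuation_le_one_iff, map_inv₀, hu, inv_one]
  have hwV : algebraMap L (LaurentSeries L) u * (incl B Y * (incl B Z)⁻¹) ∈ gaussSubring B :=
    mul_mem (algebraMap_mem_gaussSubring huB)
      (mul_mem (incl_mem _) (inv_mem_of_primitive hZ))
  refine ⟨m, ⟨_, hwV⟩, ?_, ?_⟩
  · have hw0 : algebraMap L (LaurentSeries L) u * (incl B Y * (incl B Z)⁻¹) ≠ 0 := by
      refine mul_ne_zero ?_ (mul_ne_zero (incl_ne_zero hY) (inv_ne_zero (incl_ne_zero hZ)))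
      exact (map_ne_zero_iff _ (algebraMap L (LaurentSeries L)).injective).mpr hu0
    refine gaussRed_ne_zero_of_inv_mem (y := ⟨_, hwV⟩) hw0 ?_
    change (algebraMap L (LaurentSeries L) u * (incl B Y * (incl B Z)⁻¹))⁻¹ ∈ gaussSubring B
    rw [mul_inv, mul_inv, inv_inv, ← map_inv₀]
    exact mul_mem (algebraMap_mem_gaussSubring huB')
      (mul_mem (inv_mem_of_primitive hY) (incl_mem _))
  · rw [hxeq, hm, map_mul, map_zpow₀, mul_assoc]

/-- The Gauss ring of `F` is a discrete valuation ring. -/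
theorem vring_gauss [CharZero L] [Algebra.IsAlgebraic ℚ L] {ℓ : ℕ} (hℓ : ℓ.Prime)
    (hB : B.LiesOverPrime ℓ) (hF : F ≤ intField L) {π : L} (h1 : B.valuation π < 1) (h0 : π ≠ 0)
    (hπ : ∀ c : L, c ≠ 0 → ∃ (m : ℤ) (u : L), B.valuation u = 1 ∧ c = π ^ m * u) :
    VRing (Vg B F) (algebraMap L F π) (redg B F) := by
  have hπB : π ∈ B := (ValuationSubring.valuation_le_one_iff _ _).mp h1.le
  have hmem : algebraMap L F π ∈ Vg B F := algebraMap_mem_Vg B F hπB
  have hπF : algebraMap L F π ≠ 0 := (map_ne_zero_iff _ (algebraMap L F).injective).mpr h0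
  have hπL : algebraMap L (LaurentSeries L) π ≠ 0 :=
    (map_ne_zero_iff _ (algebraMap L (LaurentSeries L)).injective).mpr h0
  have hrd : ∀ (x : F) (hx : x ∈ Vg B F), rd (redg B F) x = 0 ↔
      gaussRed B (toG B F ⟨x, hx⟩) = 0 := by
    intro x hx
    rw [rd_of_mem _ hx]
    exact (Subtype.ext_iff (a1 := redg B F ⟨x, hx⟩) (a2 := 0))
  refine
    { mem := hmem
      ne := hπF
      red_pi := ?_
      surj := redg_surjective B F
      ker := ?_
      scale := ?_ }
  · rw [rd_of_mem _ hmem]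
    have h2 := redg_algebraMap B F ⟨π, hπB⟩
    rw [(residue_eq_zero_iff' (B := B) ⟨π, hπB⟩).mpr h1, map_zero] at h2
    exact h2
  · intro x hx hred
    obtain ⟨z, hz⟩ := exists_pi_mul h0 hπ h1 _ ((hrd x hx).mp hred)
    rw [coe_toG] at hz
    have hzF : (z : LaurentSeries L) ∈ F := by
      have h3 : (z : LaurentSeries L) =
          (algebraMap L (LaurentSeries L) π)⁻¹ * (x : LaurentSeries L) := by
        have h4 : ((⟨x, hx⟩ : Vg B F) : F) = x := rfl
        rw [h4] at hz
        rw [hz, inv_mul_cancel_left₀ hπL]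
      rw [h3, ← map_inv₀]
      exact mul_mem (F.algebraMap_mem _) x.2
    exact ⟨⟨z, hzF⟩, z.2, Subtype.ext hz⟩
  · intro x hx0
    have hx0' : (x : LaurentSeries L) ≠ 0 := fun h => hx0 (Subtype.ext h)
    obtain ⟨m, w, hw, hwx⟩ := exists_pi_pow_mul hℓ hB hπ (hF x.2) hx0'
    have hwF : (w : LaurentSeries L) ∈ F := by
      have h3 : (w : LaurentSeries L) =
          (algebraMap L (LaurentSeries L) π ^ m)⁻¹ * (x : LaurentSeries L) := by
        rw [hwx, inv_mul_cancel_left₀ (zpow_ne_zero _ hπL)]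
      rw [h3, ← map_zpow₀, ← map_inv₀]
      exact mul_mem (F.algebraMap_mem _) x.2
    have hwV : (⟨w, hwF⟩ : F) ∈ Vg B F := w.2
    refine ⟨m, ⟨w, hwF⟩, hwV, ?_, Subtype.ext ?_⟩
    · intro h2
      exact hw ((hrd _ hwV).mp h2)
    · rw [hwx]
      push_cast
      rfl

end VRing

section Coe

variable {L : Type*} [Field L] {B : ValuationSubring L}
  {F : IntermediateField L (LaurentSeries L)}

/-- The reduction of an element with integral expansion. -/
theorem coe_rd_redg {x : F} {Y : LaurentSeries B} (hY : (x : LaurentSeries L) = incl B Y) :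
    ((rd (redg B F) x : κg B F) : LaurentSeries (IsLocalRing.ResidueField B)) = redS B Y := by
  have hx : x ∈ Vg B F := by
    rw [mem_Vg, hY]
    exact incl_mem Y
  rw [rd_of_mem _ hx, coe_redg]
  have h1 : gaussRed B ⟨incl B Y, incl_mem Y⟩ = redS B Y := gaussRed_incl Y _
  rw [← h1]
  congr 1
  exact Subtype.ext hY

theorem mem_Vg_of_incl {x : F} {Y : LaurentSeries B} (hY : (x : LaurentSeries L) = incl B Y) :
    x ∈ Vg B F := by
  rw [mem_Vg, hY]
  exact incl_mem Y

theorem coe_rd_redg_of_mem {x : F} (hx : x ∈ Vg B F) :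
    ((rd (redg B F) x : κg B F) : LaurentSeries (IsLocalRing.ResidueField B)) =
      gaussRed B ⟨(x : LaurentSeries L), hx⟩ := by
  rw [rd_of_mem _ hx]
  rfl

theorem transcendental_κg {u : κg B F}
    (h : Transcendental (IsLocalRing.ResidueField B)
      (u : LaurentSeries (IsLocalRing.ResidueField B))) :
    Transcendental (IsLocalRing.ResidueField B) u := by
  intro h1
  exact h (h1.algHom (κg B F).val)

end Coe

section Sep

theorem isSeparable_of_val {k E : Type*} [Field k] [Field E] [Algebra k E]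
    (M : IntermediateField k E) (u : M) (hfd : FiniteDimensional k⟮u⟯ M)
    (H : ∀ y : E, IsIntegral k⟮(u : E)⟯ y → (minpoly k⟮(u : E)⟯ y).Separable) :
    Algebra.IsSeparable k⟮u⟯ M := by
  have hmap : k⟮M.val u⟯ = (k⟮u⟯).map M.val := by
    rw [IntermediateField.adjoin_map, Set.image_singleton]
  have hmem : ∀ c : k⟮u⟯, (((c : M)) : E) ∈ k⟮(u : E)⟯ := by
    intro c
    have h1 : (((c : M)) : E) ∈ (k⟮u⟯).map M.val := ⟨_, c.2, rfl⟩
    rw [← hmap] at h1
    exact h1
  let φ : k⟮u⟯ →+* k⟮(u : E)⟯ :=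
    { toFun := fun c => ⟨((c : M) : E), hmem c⟩
      map_one' := rfl
      map_mul' := fun _ _ => rfl
      map_zero' := rfl
      map_add' := fun _ _ => rfl }
  have hφ : Function.Surjective φ := by
    rintro ⟨c, hc⟩
    have h1 : c ∈ k⟮M.val u⟯ := hc
    rw [hmap] at h1
    obtain ⟨d, hd, hdc⟩ := h1
    exact ⟨⟨d, hd⟩, Subtype.ext hdc⟩
  let e : k⟮u⟯ ≃+* k⟮(u : E)⟯ := RingEquiv.ofBijective φ ⟨φ.injective, hφ⟩
  have he : ∀ c : k⟮(u : E)⟯, ((((e.symm c : k⟮u⟯) : M)) : E) = c := by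
    intro c
    have h1 : φ (e.symm c) = c := e.apply_symm_apply c
    exact congrArg Subtype.val h1
  refine ⟨fun y => ?_⟩
  have hy : IsIntegral k⟮u⟯ y := Algebra.IsIntegral.isIntegral y
  have hy' : IsIntegral k⟮(u : E)⟯ (y : E) := by
    obtain ⟨P, hP, hPy⟩ := hy
    refine ⟨P.map φ, hP.map φ, ?_⟩
    rw [Polynomial.eval₂_map]
    have h1 := congrArg M.val hPy
    rw [map_zero] at h1
    exact (Polynomial.hom_eval₂ P _ (M.val : M →+* E) y).symm.trans h1
  have h1 := H _ hy'
  set q := minpoly k⟮(u : E)⟯ (y : E) with hq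
  have h2 : (q.map (e.symm : k⟮(u : E)⟯ →+* k⟮u⟯)).Separable := h1.map
  refine h2.of_dvd (minpoly.dvd _ _ ?_)
  apply M.val.injective
  rw [map_zero, Polynomial.aeval_def, Polynomial.eval₂_map]
  have h3 : Polynomial.aeval (y : E) q = 0 := minpoly.aeval _ _
  rw [← h3]
  refine (Polynomial.hom_eval₂ q _ (M.val : M →+* E) y).trans ?_
  rw [Polynomial.aeval_def]
  congr 1
  exact RingHom.ext fun c => he c

/-- Separability of the residue field extension. -/
theorem sep_gauss {L : Type*} [Field L] (B : ValuationSubring L)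
    (F : IntermediateField L (LaurentSeries L)) [PerfectField (IsLocalRing.ResidueField B)]
    (u : κg B F)
    (ht : Igusa.theta (u : LaurentSeries (IsLocalRing.ResidueField B)) ≠ 0)
    (htr : Transcendental (IsLocalRing.ResidueField B)
      (u : LaurentSeries (IsLocalRing.ResidueField B)))
    (hfd : FiniteDimensional (IsLocalRing.ResidueField B)⟮u⟯ (κg B F)) :
    Algebra.IsSeparable (IsLocalRing.ResidueField B)⟮u⟯ (κg B F) :=
  isSeparable_of_val (κg B F) u hfd fun _ hy => Igusa.separable_minpoly ht htr hy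

end Sep

section Line

variable {L K : Type*} [Field L] [Field K] [Algebra L K] {A : ValuationSubring K} {ℓ : ℕ}

open Fermat.Agent.FG Fermat.Agent.X1G

/-- **(UV)** over `L`, polynomial form. -/
theorem exists_monic_of_FG [CharZero K] [Algebra.IsAlgebraic ℚ K] [IsAlgClosed K]
    {ι : K →+* ℂ} {Γ : Subgroup SL(2, ℤ)} (hℓ : ℓ.Prime) (hA : A.LiesOverPrime ℓ) {M : ℕ}
    [NeZero M] (hM : ¬ ℓ ∣ M) (hΓ : Gamma M ≤ Γ) {x : LaurentSeries L}
    (hx : x ∈ FG (ι.comp (algebraMap L K)) Γ 1)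
    (hxA : x ∈ gaussSubring (A.comap (algebraMap L K))) :
    ∃ p : (LaurentSeries L)[X], p.Monic ∧
      (∀ i, p.coeff i ∈ gaussSubring (A.comap (algebraMap L K)) ∧ p.coeff i ∈ L⟮jqModC L⟯) ∧
      p.eval x = 0 := by
  obtain ⟨P, hP, hPx⟩ := isIntegral_VY_of_FG_sub hℓ hA hM hΓ hx hxA
  refine ⟨P.map (algebraMap _ _), hP.map _, fun i => ?_, ?_⟩
  · rw [Polynomial.coeff_map]
    exact mem_adjoin_j_of_mem_VY (P.coeff i).2
  · rw [Polynomial.eval_map]
    exact hPx

/-- The line data of the Gauss ring. -/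
theorem lineData_of_gauss [CharZero L] [Algebra.IsAlgebraic ℚ L] {B : ValuationSubring L}
    (hℓ : ℓ.Prime) (hB : B.LiesOverPrime ℓ) {F : IntermediateField L (LaurentSeries L)}
    (hF : F ≤ intField L)
    (hint : ∀ x ∈ F, x ∈ gaussSubring B → ∃ p : (LaurentSeries L)[X], p.Monic ∧
      (∀ i, p.coeff i ∈ gaussSubring B ∧ p.coeff i ∈ L⟮jqModC L⟯) ∧ p.eval x = 0)
    {π : L} (h1 : B.valuation π < 1) (h0 : π ≠ 0)
    (hπ : ∀ c : L, c ≠ 0 → ∃ (m : ℤ) (u : L), B.valuation u = 1 ∧ c = π ^ m * u)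
    (h : F) (hhV : h ∈ Vg B F) (hj : jqModC L ∈ L⟮(h : LaurentSeries L)⟯)
    (htr : Transcendental (IsLocalRing.ResidueField B) (rd (redg B F) h))
    (hfd : FiniteDimensional L⟮h⟯ F) :
    LineData B (IsLocalRing.residue B) π (Vg B F) (redg B F) h := by
  refine
    { q_surj := IsLocalRing.residue_surjective
      q_ker := residue_eq_zero_iff'
      pi_lt := h1
      pi_ne := h0
      unif := hπ
      vring := vring_gauss hℓ hB hF h1 h0 hπ
      mem := fun b => algebraMap_mem_Vg B F b.2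
      red_eq := fun b => ?_
      h_mem := hhV
      h_tr := htr
      fd := hfd
      int := ?_ }
  · rw [rd_of_mem _ (algebraMap_mem_Vg B F b.2)]
    exact redg_algebraMap B F b
  · intro x hx
    obtain ⟨p, hp, hpc, hpx⟩ := hint x x.2 hx
    have hjle : L⟮jqModC L⟯ ≤ L⟮(h : LaurentSeries L)⟯ := by
      rwa [IntermediateField.adjoin_simple_le_iff]
    have hhle : L⟮(h : LaurentSeries L)⟯ ≤ F := by
      rw [IntermediateField.adjoin_simple_le_iff]
      exact h.2
    have hlift : p ∈ Polynomial.lifts (algebraMap F (LaurentSeries L)) := by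
      rw [Polynomial.lifts_iff_coeff_lifts]
      intro i
      exact ⟨⟨_, hhle (hjle (hpc i).2)⟩, rfl⟩
    obtain ⟨p', hp', -, hpm'⟩ := Polynomial.lifts_and_natDegree_eq_and_monic hlift hp
    have hco : ∀ i, ((p'.coeff i : F) : LaurentSeries L) = p.coeff i := by
      intro i
      rw [← hp', Polynomial.coeff_map]
      rfl
    refine ⟨p', hpm', fun i => ⟨?_, ?_⟩, ?_⟩
    · rw [mem_Vg, hco]
      exact (hpc i).1
    · have h2 : L⟮F.val h⟯ = (L⟮h⟯).map F.val := by
        rw [IntermediateField.adjoin_map, Set.image_singleton]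
      have h3 : ((p'.coeff i : F) : LaurentSeries L) ∈ L⟮F.val h⟯ := by
        rw [hco]
        exact hjle (hpc i).2
      rw [h2] at h3
      obtain ⟨d, hd, hdc⟩ := h3
      have h4 : d = p'.coeff i := Subtype.ext hdc
      rw [← h4]
      exact hd
    · apply F.val.injective
      rw [map_zero, ← hpx, ← hp', Polynomial.eval_map]
      exact Polynomial.hom_eval₂ p' (RingHom.id F) (F.val : F →+* LaurentSeries L) x

set_option maxHeartbeats 400000 in
/-- The line data of the function field of `Γ ⊇ Γ(M)` over a subfield `L` of `K`. -/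
theorem lineData_FG [CharZero L] [Algebra.IsAlgebraic ℚ L] [CharZero K] [Algebra.IsAlgebraic ℚ K]
    [IsAlgClosed K] {ι : K →+* ℂ} {Γ : Subgroup SL(2, ℤ)} (hℓ : ℓ.Prime)
    (hA : A.LiesOverPrime ℓ) {M : ℕ} [NeZero M] (hM : ¬ ℓ ∣ M) (hΓ : Gamma M ≤ Γ)
    (hF : FG (ι.comp (algebraMap L K)) Γ 1 ≤ intField L) {π : L}
    (h1 : (A.comap (algebraMap L K)).valuation π < 1) (h0 : π ≠ 0)
    (hπ : ∀ c : L, c ≠ 0 → ∃ (m : ℤ) (u : L), (A.comap (algebraMap L K)).valuation u = 1 ∧
      c = π ^ m * u)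
    (h : FG (ι.comp (algebraMap L K)) Γ 1)
    (hhV : h ∈ Vg (A.comap (algebraMap L K)) (FG (ι.comp (algebraMap L K)) Γ 1))
    (hj : jqModC L ∈ L⟮(h : LaurentSeries L)⟯)
    (htr : Transcendental (IsLocalRing.ResidueField (A.comap (algebraMap L K)))
      (rd (redg (A.comap (algebraMap L K)) (FG (ι.comp (algebraMap L K)) Γ 1)) h))
    (hfd : FiniteDimensional L⟮h⟯ (FG (ι.comp (algebraMap L K)) Γ 1)) :
    LineData (A.comap (algebraMap L K)) (IsLocalRing.residue (A.comap (algebraMap L K))) π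
      (Vg (A.comap (algebraMap L K)) (FG (ι.comp (algebraMap L K)) Γ 1))
      (redg (A.comap (algebraMap L K)) (FG (ι.comp (algebraMap L K)) Γ 1)) h :=
  lineData_of_gauss hℓ (liesOverPrime_comap A (algebraMap L K) hA) hF
    (fun _ hx hxA => exists_monic_of_FG hℓ hA hM hΓ hx hxA) h1 h0 hπ h hhV hj htr hfd

end Line

end Fermat.Agent.X1Key
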