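import Fermat.Agent.X1.KeyLineGlue

/-!
# The projective line with coordinate `h`: lifting in the chart `O[h]`
-/

set_option autoImplicit false

noncomputable section

open Module Polynomial
open scoped IntermediateField

namespace Fermat.Agent.X1Key

universe u

variable {L F k : Type*} {κ : Type u} [Field L] [Field F] [Field k] [Field κ] [Algebra L F]
  [Algebra k κ]

section KX

/-- evaluation as an isomorphism `k[X] ≃ k[u]` -/
lemma bijective_toKX {u : κ} (hu : Transcendental k u) :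
    Function.Bijective ((aeval (R := k) u).toRingHom.rangeRestrict : k[X] →+* KX k u) :=
  ⟨fun _ _ hab => transcendental_iff_injective.mp hu (congrArg Subtype.val hab),
    RingHom.rangeRestrict_surjective _⟩

/-- the isomorphism `k[X] ≃ k[u]` -/
def equivKX {u : κ} (hu : Transcendental k u) : k[X] ≃+* KX k u :=
  RingEquiv.ofBijective _ (bijective_toKX hu)

lemma coe_equivKX {u : κ} (hu : Transcendental k u) (P : k[X]) :
    (equivKX hu P : κ) = aeval u P := rfl

lemma isPrincipalIdealRing_KX {u : κ} (hu : Transcendental k u) : IsPrincipalIdealRing (KX k u) :=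
  IsPrincipalIdealRing.of_surjective _ (equivKX hu).surjective

lemma isIntegrallyClosed_KX {u : κ} (hu : Transcendental k u) : IsIntegrallyClosed (KX k u) :=
  IsIntegrallyClosed.of_equiv (equivKX hu)

/-- the inclusion `k[u] → k(u)` -/
def inclKX (k : Type*) [Field k] [Algebra k κ] (u : κ) : KX k u →+* k⟮u⟯ where
  toFun x := ⟨x, by
    obtain ⟨P, hP⟩ := mem_KX_iff.mp x.2
    rw [← hP]
    exact (IntermediateField.mem_adjoin_simple_iff k _).mpr ⟨P, 1, by rw [map_one, div_one]⟩⟩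
  map_one' := rfl
  map_zero' := rfl
  map_mul' _ _ := rfl
  map_add' _ _ := rfl

lemma exists_frac_KX {u : κ} (z : k⟮u⟯) : ∃ x y : KX k u, z = inclKX k u x / inclKX k u y := by
  obtain ⟨r, s, hz⟩ := (IntermediateField.mem_adjoin_simple_iff k _).mp z.2
  exact ⟨⟨aeval u r, mem_KX_iff.mpr ⟨r, rfl⟩⟩, ⟨aeval u s, mem_KX_iff.mpr ⟨s, rfl⟩⟩, Subtype.ext hz⟩

lemma RadEl.map_equiv {R S : Type*} [CommRing R] [CommRing S] (e : R ≃+* S) {w : R} (hw : RadEl w) :
    RadEl (e w) := by
  refine ⟨fun h0 => hw.1 (e.injective (by rw [h0, map_zero])), fun N r hr => ?_⟩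
  have h1 : w ∣ e.symm r ^ N := by
    obtain ⟨c, hc⟩ := hr
    refine ⟨e.symm c, ?_⟩
    rw [← map_pow, hc, map_mul, e.symm_apply_apply]
  obtain ⟨c, hc⟩ := hw.2 N _ h1
  refine ⟨e c, ?_⟩
  rw [← map_mul, ← hc, e.apply_symm_apply]

end KX

namespace LineData

variable {B : ValuationSubring L} {q₀ : B →+* k} {π : L} {V : Subring F} {red : V →+* κ} {h : F}
  (D : LineData B q₀ π V red h)

include D

/-- reduction of polynomials -/
def qX : OX B h →+* KX k (rd red h) where
  toFun x := ⟨rd red (x : F), D.rd_mem_KX x.2⟩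
  map_one' := Subtype.ext (rd_one red)
  map_zero' := Subtype.ext (rd_zero red)
  map_mul' a b := Subtype.ext (rd_mul red (D.OX_le a.2) (D.OX_le b.2))
  map_add' a b := Subtype.ext (rd_add red (D.OX_le a.2) (D.OX_le b.2))

lemma qX_evB (P : B[X]) : D.qX ⟨evB B h P, mem_OX.mpr ⟨P, rfl⟩⟩ = equivKX D.h_tr (P.map q₀) :=
  Subtype.ext (D.rd_evB P)

lemma qX_surjective : Function.Surjective D.qX := by
  rintro ⟨x, hx⟩
  obtain ⟨P, rfl⟩ := mem_KX_iff.mp hx
  obtain ⟨Q, rfl⟩ := Polynomial.map_surjective q₀ D.q_surj P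
  exact ⟨⟨evB B h Q, mem_OX.mpr ⟨Q, rfl⟩⟩, Subtype.ext (D.rd_evB Q)⟩

lemma mem_KX_of_pi_mul {y : F} (hy : algebraMap L F π * y ∈ KX L h) : y ∈ KX L h := by
  have h2 : algebraMap L F π⁻¹ ∈ KX L h := mem_KX_iff.mpr ⟨C π⁻¹, aeval_C _ _⟩
  have h4 : y = algebraMap L F π⁻¹ * (algebraMap L F π * y) := by
    rw [← mul_assoc, ← map_mul, inv_mul_cancel₀ D.pi_ne, map_one, one_mul]
  rw [h4]
  exact mul_mem h2 hy

lemma exists_red (e : L⟮h⟯) (he : algebraMap L⟮h⟯ F e ∈ V) :
    ∃ eb : k⟮rd red h⟯, rd red (algebraMap L⟮h⟯ F e) = algebraMap k⟮rd red h⟯ κ eb := by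
  obtain ⟨r, s, hz⟩ := (IntermediateField.mem_adjoin_simple_iff L _).mp e.2
  have hz' : algebraMap L⟮h⟯ F e = aeval h r / aeval h s := hz
  by_cases hr : r = 0
  · refine ⟨0, ?_⟩
    rw [hz', hr, map_zero, zero_div, rd_zero, map_zero]
  by_cases hs : s = 0
  · refine ⟨0, ?_⟩
    rw [hz', hs, map_zero, div_zero, rd_zero, map_zero]
  obtain ⟨m, Q, hQ, hQ0⟩ := D.exists_primitive hr
  obtain ⟨m', Q', hQ', hQ'0⟩ := D.exists_primitive hs
  have hπ := D.vring.ne
  have h1 := D.rd_evB_ne hQ'0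
  have h2 := D.rd_evB_ne hQ0
  have h3 : algebraMap L⟮h⟯ F e = algebraMap L F π ^ (m - m') * (evB B h Q * (evB B h Q')⁻¹) := by
    rw [hz', aeval_eq hQ, aeval_eq hQ', zpow_sub₀ hπ]
    have := VRing.ne_zero_of_red h1
    have h5 := zpow_ne_zero m' hπ
    field_simp
  have h4 : evB B h Q * (evB B h Q')⁻¹ ∈ V :=
    mul_mem (D.evB_mem Q) (D.vring.inv_mem (D.evB_mem Q') h1)
  have h5 : rd red (evB B h Q * (evB B h Q')⁻¹) =
      aeval (rd red h) (Q.map q₀) / aeval (rd red h) (Q'.map q₀) := by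
    rw [rd_mul red (D.evB_mem Q) (D.vring.inv_mem (D.evB_mem Q') h1),
      D.vring.red_inv (D.evB_mem Q') h1, D.rd_evB, D.rd_evB, div_eq_mul_inv]
  have h6 : rd red (evB B h Q * (evB B h Q')⁻¹) ≠ 0 := by
    rw [rd_mul red (D.evB_mem Q) (D.vring.inv_mem (D.evB_mem Q') h1),
      D.vring.red_inv (D.evB_mem Q') h1]
    exact mul_ne_zero h2 (inv_ne_zero h1)
  rw [h3] at he ⊢
  have hm := D.vring.nonneg_of_mem h6 he
  rcases hm.eq_or_lt with h0 | h0
  · rw [← h0, zpow_zero, one_mul, h5]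
    exact ⟨⟨_, (IntermediateField.mem_adjoin_simple_iff k _).mpr ⟨_, _, rfl⟩⟩, rfl⟩
  · refine ⟨0, ?_⟩
    rw [D.vring.red_pow_mul h0 h4, map_zero]

/-- **[G2a]** the residue field extension is finite. -/
theorem fdb : FiniteDimensional k⟮rd red h⟯ κ := by
  have := D.fd
  have key : Module.rank k⟮rd red h⟯ κ ≤ Module.finrank L⟮h⟯ F := by
    refine rank_le fun s hs => ?_
    choose x hx using fun i : s => D.vring.surj (i : κ)
    have hrd : ∀ i, rd red (x i : F) = (i : κ) := fun i => by rw [rd_coe, hx]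
    have hli : LinearIndependent L⟮h⟯ (fun i => (x i : F)) := by
      rw [Fintype.linearIndependent_iff]
      by_contra hcon
      push Not at hcon
      obtain ⟨c, hc, i₀, hi₀⟩ := hcon
      obtain ⟨m, hm, i, hi⟩ := D.vring.exists_scale_family (fun i => algebraMap L⟮h⟯ F (c i))
        ⟨i₀, fun h0 => hi₀ ((algebraMap L⟮h⟯ F).injective (by rw [h0, map_zero]))⟩
      have hπE : ∀ j, algebraMap L⟮h⟯ F (algebraMap L L⟮h⟯ π ^ m * c j) =
          algebraMap L F π ^ m * algebraMap L⟮h⟯ F (c j) := by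
        intro j
        rw [map_mul, map_zpow₀, ← IsScalarTower.algebraMap_apply]
      choose eb heb using fun j => D.exists_red (algebraMap L L⟮h⟯ π ^ m * c j)
        (by rw [hπE]; exact hm j)
      have h1 : ∑ j, eb j • (j : κ) = 0 := by
        have h2 : ∑ j, (algebraMap L F π ^ m * algebraMap L⟮h⟯ F (c j)) * (x j : F) = 0 := by
          have h3 : ∑ j, (algebraMap L F π ^ m * algebraMap L⟮h⟯ F (c j)) * (x j : F) =
              algebraMap L F π ^ m * ∑ j, c j • (x j : F) := by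
            rw [Finset.mul_sum]
            refine Finset.sum_congr rfl fun j _ => ?_
            rw [Algebra.smul_def]; ring
          rw [h3, hc, mul_zero]
        have h4 := congrArg (rd red) h2
        rw [rd_zero, rd_sum red _ _ fun j _ => mul_mem (hm j) (x j).2] at h4
        rw [← h4]
        refine Finset.sum_congr rfl fun j _ => ?_
        rw [rd_mul red (hm j) (x j).2, hrd, Algebra.smul_def, ← heb, hπE]
      have h5 := Fintype.linearIndependent_iff.mp hs _ h1 i
      apply hi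
      have h6 := heb i
      rw [h5, map_zero, hπE] at h6
      exact h6
    have := hli.fintype_card_le_finrank
    simpa using this
  exact Module.rank_lt_aleph0_iff.mp (key.trans_lt Cardinal.natCast_lt_aleph0)

section Lift

variable [CharZero L] [Algebra.IsSeparable k⟮rd red h⟯ κ]

/-- **[G2a]** lifting of residual sections in the chart `O[h]`. -/
theorem lift {n : ℕ} (hn : n ≠ 0) {y₀ : F} (hyV : y₀ ∈ V) (hy : rd red y₀ = 1) (w : B[X])
    (hw : RadEl (w.map q₀))
    (hdual : ∀ x : F, (∀ m : F, RadMem (icl (KX L h)) (aeval h (w.map B.subtype))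
        ((aeval h (w.map B.subtype) * m) ^ n * y₀) →
      algebraMap L⟮h⟯ F (Algebra.trace L⟮h⟯ F (x * m)) ∈ KX L h) →
        x ^ n * y₀⁻¹ ∈ (icl (KX L h) : Subring F))
    {a : κ} (ha : IsIntegral (KX k (rd red h)) a) :
    ∃ x ∈ V, x ^ n * y₀⁻¹ ∈ (icl (OX B h) : Subring F) ∧ rd red x = a := by
  let _ : Algebra (OX B h) L⟮h⟯ := (inclE B h).toAlgebra
  have : IsScalarTower (OX B h) L⟮h⟯ F := IsScalarTower.of_algebraMap_eq fun _ => rfl
  let _ : Algebra (KX k (rd red h)) k⟮rd red h⟯ := (inclKX k (rd red h)).toAlgebra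
  have : IsScalarTower (KX k (rd red h)) k⟮rd red h⟯ κ := IsScalarTower.of_algebraMap_eq fun _ => rfl
  have : FaithfulSMul (KX k (rd red h)) k⟮rd red h⟯ :=
    (faithfulSMul_iff_algebraMap_injective _ _).mpr
      fun a b hab => Subtype.ext (congrArg (fun z : k⟮rd red h⟯ => (z : κ)) hab)
  have : IsFractionRing (KX k (rd red h)) k⟮rd red h⟯ := IsFractionRing.of_field _ _ fun z => by
    obtain ⟨x, y, hxy⟩ := exists_frac_KX z
    exact ⟨x, y, hxy⟩
  have := D.fd
  have := D.fdb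
  have := isPrincipalIdealRing_KX D.h_tr
  have := isIntegrallyClosed_KX D.h_tr
  have : CharZero L⟮h⟯ := charZero_of_injective_algebraMap (algebraMap L L⟮h⟯).injective
  have : Algebra.IsSeparable L⟮h⟯ F := inferInstance
  have hI : IChart V (algebraMap L F π) red L⟮h⟯ k⟮rd red h⟯ (OX B h) (KX k (rd red h)) D.qX :=
    { vring := D.vring
      mem := fun r => D.OX_le r.2
      surj := D.qX_surjective
      red_eq := fun r => rfl
      unif := ⟨⟨_, D.pi_mem_OX⟩, rfl⟩
      sat := fun r hr => by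
        obtain ⟨y, hyV, hy⟩ := D.vring.ker (r : F) (D.OX_le r.2) (congrArg Subtype.val hr)
        have h1 : y ∈ OX B h := D.mem_OX_of_mem hyV
          (D.mem_KX_of_pi_mul (by rw [← hy]; exact OX_le_KX B h r.2))
        exact ⟨⟨y, h1⟩, hy⟩
      injF := Subtype.val_injective
      injK := Subtype.val_injective
      frac := fun e => by
        obtain ⟨x, y, hxy⟩ := D.exists_frac e
        by_cases hy : y = 0
        · refine ⟨1, 0, one_ne_zero, ?_⟩
          rw [hxy, hy, map_zero, div_zero, mul_zero, map_zero]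
        · refine ⟨y, x, hy, ?_⟩
          have hy' : inclE B h y ≠ 0 := fun h0 => hy (Subtype.ext
            (congrArg (fun z : L⟮h⟯ => (z : F)) h0))
          show inclE B h y * e = inclE B h x
          rw [hxy, mul_div_cancel₀ _ hy']
      fracb := fun e => by
        obtain ⟨x, y, hxy⟩ := exists_frac_KX e
        by_cases hy : y = 0
        · refine ⟨1, 0, one_ne_zero, ?_⟩
          rw [hxy, hy, map_zero, div_zero, mul_zero, map_zero]
        · refine ⟨y, x, hy, ?_⟩
          have hy' : inclKX k (rd red h) y ≠ 0 := fun h0 => hy (Subtype.ext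
            (congrArg (fun z : k⟮rd red h⟯ => (z : κ)) h0))
          show inclKX k (rd red h) y * e = inclKX k (rd red h) x
          rw [hxy, mul_div_cancel₀ _ hy']
      satI := fun z hz hz' => D.sat hz hz'
      noeth := D.noeth
      fin := D.fin_alg.1
      alg := D.fin_alg.2
      icb := fun e he => by
        obtain ⟨r, hr⟩ := IsIntegrallyClosed.isIntegral_iff.mp he
        exact ⟨r, hr⟩ }
  have hyi : y₀⁻¹ ∈ V := D.vring.inv_mem hyV (by rw [hy]; exact one_ne_zero)
  have hyi1 : rd red y₀⁻¹ = 1 := by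
    rw [D.vring.red_inv hyV (by rw [hy]; exact one_ne_zero), hy, inv_one]
  have hw' : RadEl (D.qX ⟨evB B h w, mem_OX.mpr ⟨w, rfl⟩⟩) := by
    rw [D.qX_evB]
    exact hw.map_equiv _
  have hwF : algebraMap (OX B h) F ⟨evB B h w, mem_OX.mpr ⟨w, rfl⟩⟩ =
      aeval h (w.map B.subtype) := evB_eq B h w
  refine hI.lift hn hw' hyi hyi1 (fun x hxV hx => ?_) ha
  rw [inv_inv] at hx
  have hfin : x ^ n * y₀⁻¹ ∈ (icl (KX L h) : Subring F) := by
    refine hdual x fun m hm => ?_
    obtain ⟨N, hN, b, hb, hNb⟩ := hm.mono_pow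
    obtain ⟨N₁, h1⟩ := D.exists_pow_isIntegral (x := (aeval h (w.map B.subtype) * m) ^ n * y₀) hm.1
    obtain ⟨N₂, h2⟩ := D.exists_pow_isIntegral (x := b) hb
    have hn1 : 1 ≤ n := Nat.pos_of_ne_zero hn
    have e1 : (aeval h (w.map B.subtype) * (algebraMap L F π ^ (N₁ + N₂) * m)) ^ n * y₀ =
        algebraMap L F π ^ ((N₁ + N₂) * n) * ((aeval h (w.map B.subtype) * m) ^ n * y₀) := by
      rw [pow_mul]; ring
    have h3 : RadMem (icl (OX B h) : Subring F)
        (algebraMap (OX B h) F ⟨evB B h w, mem_OX.mpr ⟨w, rfl⟩⟩)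
        ((algebraMap (OX B h) F ⟨evB B h w, mem_OX.mpr ⟨w, rfl⟩⟩ *
          (algebraMap L F π ^ (N₁ + N₂) * m)) ^ n * y₀) := by
      rw [hwF, e1]
      refine ⟨h1 _ ?_, N, algebraMap L F π ^ ((N₁ + N₂) * n * N) * b, h2 _ ?_, ?_⟩
      · calc N₁ ≤ (N₁ + N₂) * 1 := by omega
          _ ≤ (N₁ + N₂) * n := Nat.mul_le_mul_left _ hn1
      · calc N₂ ≤ (N₁ + N₂) * 1 * 1 := by omega
          _ ≤ (N₁ + N₂) * n * N := Nat.mul_le_mul (Nat.mul_le_mul_left _ hn1) hN
      · rw [mul_pow, hNb, ← pow_mul]; ring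
    obtain ⟨r, hr⟩ := hx _ h3
    have h4 : algebraMap L⟮h⟯ F (Algebra.trace L⟮h⟯ F (x * (algebraMap L F π ^ (N₁ + N₂) * m))) =
        algebraMap L F π ^ (N₁ + N₂) * algebraMap L⟮h⟯ F (Algebra.trace L⟮h⟯ F (x * m)) := by
      have h5 : x * (algebraMap L F π ^ (N₁ + N₂) * m) = (algebraMap L L⟮h⟯ π ^ (N₁ + N₂)) • (x * m) := by
        rw [Algebra.smul_def, map_pow, ← IsScalarTower.algebraMap_apply]; ring
      rw [h5, map_smul, smul_eq_mul, map_mul, map_pow, ← IsScalarTower.algebraMap_apply]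
    rw [hr] at h4
    have h5 : algebraMap L F π ^ (N₁ + N₂) * algebraMap L⟮h⟯ F (Algebra.trace L⟮h⟯ F (x * m)) ∈
        KX L h := by
      rw [← h4]
      exact OX_le_KX B h r.2
    have h6 : ∀ (j : ℕ) (z : F), algebraMap L F π ^ j * z ∈ KX L h → z ∈ KX L h := by
      intro j
      induction j with
      | zero => intro z hz; simpa using hz
      | succ j ih =>
        intro z hz
        refine ih z (D.mem_KX_of_pi_mul ?_)
        rw [← mul_assoc, ← pow_succ']; exact hz
    exact h6 _ _ h5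
  exact D.isIntegral_of_KX (mul_mem (pow_mem hxV _) hyi) hfin

end Lift

end LineData

end Fermat.Agent.X1Key

end
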