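import Fermat.Agent.X1.KeyOrd
import Fermat.Agent.X1Char.Basic

/-!
# Orders of the function `G ^ n / H ^ n`
-/

set_option autoImplicit false

open UpperHalfPlane hiding I
open ModularForm Matrix.SpecialLinearGroup Filter Asymptotics
open scoped MatrixGroups Manifold ModularForm Topology IntermediateField

noncomputable section

namespace Fermat.Agent.X1Key

open Fermat.Agent.JLevelOne Fermat.Agent.X0Emb Fermat.Agent.ModFun ModularCurve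
  Fermat.Agent.IntStruct Fermat.Agent.FG

variable {K : Type*} [Field K] {ι : K →+* ℂ} {Γ : Subgroup SL(2, ℤ)} {h : ℕ}

/-- The meromorphic function of a modular function. -/
theorem toMerH_mk_isMF [NeZero h] {F : ℍ → ℂ} {y : LaurentSeries K} (hF : IsMF ι Γ h F y) :
    toMerH (⟨y, hF.mem_FG⟩ : FG ι Γ h) = algebraMap Hol MerH ⟨F, hF.mdiff⟩ := by
  rw [show (⟨y, hF.mem_FG⟩ : FG ι Γ h) = algebraMap (AG ι Γ h) (FG ι Γ h) ⟨y, hF.mem_AG⟩ from rfl,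
    toMerH_algebraMap]
  congr 1
  exact Subtype.ext (fn_eq (a := ⟨y, hF.mem_AG⟩) hF)

theorem valH_exp (z : ℍ) {f : Hol} (hf : f ≠ 0) : ∃ m : ℤ, valH z f = WithZero.exp m :=
  ⟨WithZero.log (valH z f), (WithZero.exp_log fun h0 => hf ((valH_eq_zero_iff z f).mp h0)).symm⟩

/-- **The `y`-side.** -/
theorem exists_val_pow [NeZero h] {G H : ℍ → ℂ} (hG : MDiff G) (hG0 : G ≠ 0) {n : ℕ}
    {a z : LaurentSeries K} (hGn : IsMF ι Γ h (G ^ n) a) (hH : IsMF ι Γ h H z) (hz : z ≠ 0)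
    (y₀ : FG ι Γ h) (hy₀ : (y₀ : LaurentSeries K) = a / z ^ n) :
    y₀ ≠ 0 ∧ (∀ τ : ℍ, ∃ m : ℤ, valM τ (toMerH y₀) = WithZero.exp m ^ n) ∧
      ∀ τ : ℍ, ∃ m : ℤ, valM τ (toMerH y₀⁻¹) = WithZero.exp m ^ n := by
  have hH0 : H ≠ 0 := fun h0 => hz (hH.eq_zero_iff.mp h0)
  have hGn0 : G ^ n ≠ 0 := by
    have h1 : (⟨G, hG⟩ : Hol) ≠ 0 := fun h0 => hG0 (congrArg Subtype.val h0)
    intro h2
    exact pow_ne_zero n h1 (Subtype.ext h2)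
  have ha : a ≠ 0 := fun h0 => hGn0 (hGn.eq_zero_iff.mpr h0)
  have hy : y₀ ≠ 0 := by
    rintro rfl
    exact div_ne_zero ha (pow_ne_zero n hz) hy₀.symm
  have hyF : y₀ = (⟨a, hGn.mem_FG⟩ : FG ι Γ h) / (⟨z, hH.mem_FG⟩ : FG ι Γ h) ^ n :=
    Subtype.ext hy₀
  have h1 : ∀ τ : ℍ, ∃ m : ℤ, valM τ (toMerH y₀) = WithZero.exp m ^ n := by
    intro τ
    obtain ⟨m, hm⟩ := valH_exp τ (f := ⟨G, hG⟩) fun h0 => hG0 (congrArg Subtype.val h0)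
    obtain ⟨k, hk⟩ := valH_exp τ (f := ⟨H, hH.mdiff⟩) fun h0 => hH0 (congrArg Subtype.val h0)
    refine ⟨m - k, ?_⟩
    have h2 : (⟨G ^ n, hGn.mdiff⟩ : Hol) = (⟨G, hG⟩ : Hol) ^ n := Subtype.ext rfl
    rw [hyF, map_div₀, map_pow, toMerH_mk_isMF hGn, toMerH_mk_isMF hH, map_div₀, map_pow,
      valM_algebraMap, valM_algebraMap, h2, map_pow, hm, hk, ← div_pow, WithZero.exp_sub]
  refine ⟨hy, h1, fun τ => ?_⟩
  obtain ⟨m, hm⟩ := h1 τ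
  refine ⟨-m, ?_⟩
  rw [map_inv₀, map_inv₀, hm, WithZero.exp_neg, inv_pow]

/-- The `y`-side, for functions with character. -/
theorem exists_val_pow_of_isCF {K' : Type*} [Field K'] {ι' : K' →+* ℂ} [NeZero h]
    {ψ : Γ →* ℂˣ} {G H : ℍ → ℂ} {y : LaurentSeries K'}
    (hG : Fermat.Agent.X1Char.IsCF ι' Γ ψ G y) (hy : y ≠ 0) {n : ℕ}
    {a z : LaurentSeries K} (hGn : IsMF ι Γ h (G ^ n) a) (hH : IsMF ι Γ h H z) (hz : z ≠ 0)
    (y₀ : FG ι Γ h) (hy₀ : (y₀ : LaurentSeries K) = a / z ^ n) :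
    y₀ ≠ 0 ∧ (∀ τ : ℍ, ∃ m : ℤ, valM τ (toMerH y₀) = WithZero.exp m ^ n) ∧
      ∀ τ : ℍ, ∃ m : ℤ, valM τ (toMerH y₀⁻¹) = WithZero.exp m ^ n :=
  exists_val_pow hG.mdiff
    (fun h0 => hy ((Fermat.Agent.X1Char.IsCF.eq_zero_iff hG.lexp).mp h0)) hGn hH hz y₀ hy₀

end Fermat.Agent.X1Key

end
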