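import Fermat.Agent.X1.KeyPoint2
import Fermat.Agent.X1.KeyGauss
import Fermat.Agent.X1.KeyLine
import Fermat.Agent.X1.KeyES
import Fermat.Agent.X1.KeyY

/-!
# KEY from a base coordinate
-/

set_option autoImplicit false

open UpperHalfPlane hiding I
open ModularForm Matrix.SpecialLinearGroup Filter Asymptotics CongruenceSubgroup
open scoped MatrixGroups Manifold ModularForm Polynomial Topology IntermediateField

noncomputable section

namespace Fermat.Agent.X1Key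

open Fermat.Agent.JLevelOne Fermat.Agent.X0Emb Fermat.Agent.ModFun ModularCurve Fermat.Agent.FG
open Fermat.Agent.GaussVal Fermat.Agent.IntStruct Fermat.Agent.X1Char
open Polynomial Module WithZero

section Coord

variable {K : Type*} [Field K] {ι : K →+* ℂ} {Γ : Subgroup SL(2, ℤ)} {p : ℕ}

/-- `j ∈ K(h)` -/
theorem Base.jG_mem (B : Base Γ p) : jG ι Γ 1 ∈ K⟮B.h ι⟯ := by
  have hh := B.h_ne_zero (ι := ι)
  have h1 : jG ι Γ 1 = aeval (B.h ι) (B.P.map (Int.castRingHom K)) /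
      aeval (B.h ι) (Polynomial.X ^ B.a : K[X]) := by
    rw [map_pow, aeval_X, eq_div_iff (pow_ne_zero _ hh), B.rel_field]
  exact (IntermediateField.mem_adjoin_simple_iff K _).mpr ⟨_, _, h1⟩

theorem Base.j_mem (B : Base Γ p) (ι : K →+* ℂ) : jqModC K ∈ K⟮B.X K⟯ := by
  have h1 := B.jG_mem (ι := ι)
  have h2 : K⟮(FG ι Γ 1).val (B.h ι)⟯ = (K⟮B.h ι⟯).map (FG ι Γ 1).val := by
    rw [IntermediateField.adjoin_map, Set.image_singleton]
  have h3 : ((jG ι Γ 1 : FG ι Γ 1) : LaurentSeries K) ∈ (K⟮B.h ι⟯).map (FG ι Γ 1).val :=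
    ⟨_, h1, rfl⟩
  rw [← h2, coe_jG] at h3
  have h4 : jE K 1 = jqModC K := qExpand_one_apply _
  rw [h4] at h3
  exact h3

/-- `F` is finite over `K(h)` -/
theorem Base.finiteDimensional (B : Base Γ p) [Γ.FiniteIndex] (S : SepData ι Γ 1) :
    FiniteDimensional K⟮B.h ι⟯ (FG ι Γ 1) := by
  have h1 := S.finiteDimensional
  have h2 : K⟮jG ι Γ 1⟯ ≤ K⟮B.h ι⟯ := by
    rw [IntermediateField.adjoin_simple_le_iff]
    exact B.jG_mem
  let _ : Algebra K⟮jG ι Γ 1⟯ K⟮B.h ι⟯ := (IntermediateField.inclusion h2).toRingHom.toAlgebra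
  have : IsScalarTower K⟮jG ι Γ 1⟯ K⟮B.h ι⟯ (FG ι Γ 1) :=
    IsScalarTower.of_algebraMap_eq fun _ => rfl
  exact Module.Finite.of_restrictScalars_finite K⟮jG ι Γ 1⟯ K⟮B.h ι⟯ (FG ι Γ 1)

end Coord

section Gauss

variable {L : Type*} [Field L] {O : ValuationSubring L} {ι : L →+* ℂ} {Γ : Subgroup SL(2, ℤ)}
  {p : ℕ} (B : Base Γ p)

theorem Base.X_eq_incl (O : ValuationSubring L) :
    B.X L = incl O (coeffMap (Int.castRingHom O) B.T) := by
  ext n
  rw [Base.X, coeffMap_coeff, incl, coeffMap_coeff, coeffMap_coeff]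
  simp

theorem Base.redS_X (O : ValuationSubring L) :
    redS O (coeffMap (Int.castRingHom O) B.T) = B.X (IsLocalRing.ResidueField O) := by
  ext n
  rw [Base.X, redS, coeffMap_coeff, coeffMap_coeff, coeffMap_coeff]
  simp

theorem Base.h_mem_Vg : B.h ι ∈ Vg O (FG ι Γ 1) :=
  mem_Vg_of_incl (B.coe_h.trans (B.X_eq_incl O))

theorem Base.coe_rd_h : ((rd (redg O (FG ι Γ 1)) (B.h ι) : κg O (FG ι Γ 1)) :
    LaurentSeries (IsLocalRing.ResidueField O)) = B.X (IsLocalRing.ResidueField O) := by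
  rw [coe_rd_redg (B.coe_h.trans (B.X_eq_incl O)), B.redS_X]

theorem Base.transcendental_rd_h :
    Transcendental (IsLocalRing.ResidueField O) (rd (redg O (FG ι Γ 1)) (B.h ι)) := by
  apply transcendental_κg
  rw [B.coe_rd_h]
  exact B.transcendental_X _

/-- The quotient `a / z ^ n` is a unit of the Gauss ring with reduction `1`. -/
theorem rd_div_pow {F : IntermediateField L (LaurentSeries L)} {π : F}
    (hV : VRing (Vg O F) π (redg O F)) {n : ℕ} {a z : LaurentSeries O} {y₀ a' z' : F}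
    (ha : (a' : LaurentSeries L) = incl O a) (hz : (z' : LaurentSeries L) = incl O z)
    (hy : y₀ = a' / z' ^ n) (hz0 : redS O z ≠ 0) (haz : redS O a = redS O z ^ n) :
    y₀ ∈ Vg O F ∧ rd (redg O F) y₀ = 1 := by
  have h1 := mem_Vg_of_incl ha
  have h2 := mem_Vg_of_incl hz
  have h3 : rd (redg O F) z' ≠ 0 := by
    intro h0
    apply hz0
    rw [← coe_rd_redg hz, h0]
    rfl
  have h4 : rd (redg O F) (z' ^ n) ≠ 0 := by
    rw [rd_pow _ h2]
    exact pow_ne_zero _ h3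
  have h5 : rd (redg O F) a' = rd (redg O F) (z' ^ n) := by
    rw [rd_pow _ h2]
    apply Subtype.ext
    rw [SubmonoidClass.coe_pow, coe_rd_redg ha, coe_rd_redg hz, haz]
  have h6 := pow_mem h2 n
  refine ⟨by rw [hy, div_eq_mul_inv]; exact mul_mem h1 (hV.inv_mem h6 h4), ?_⟩
  rw [hy, div_eq_mul_inv, rd_mul _ h1 (hV.inv_mem h6 h4), hV.red_inv h6 h4, h5,
    mul_inv_cancel₀ h4]

end Gauss

section Approx

variable {L : Type*} [Field L] [CharZero L] {O : ValuationSubring L} {ι : L →+* ℂ}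
  {Γ : Subgroup SL(2, ℤ)} {p : ℕ} {B : Base Γ p}

theorem Base.c_ne (B : Base Γ p) (k : Type*) [Field k] [CharP k p] : (B.c : k) ≠ 0 := by
  intro h0
  exact B.hc ((CharP.intCast_eq_zero_iff k p B.c).mp h0)

theorem theta_inv_ne {k : Type*} [Field k] {x : LaurentSeries k} (hx : Igusa.theta x ≠ 0) :
    Igusa.theta x⁻¹ ≠ 0 := by
  intro h0
  have hx0 : x ≠ 0 := by
    rintro rfl
    exact hx Igusa.theta_zero
  have h1 := Igusa.theta_mul x x⁻¹
  rw [mul_inv_cancel₀ hx0, Igusa.theta_one, h0, mul_zero, add_zero] at h1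
  exact mul_ne_zero hx (inv_ne_zero hx0) h1.symm

/-- lifting of residual sections in the chart `h` -/
theorem lift1 [Γ.FiniteIndex] (hch : CharP (IsLocalRing.ResidueField O) p)
    [PerfectField (IsLocalRing.ResidueField O)] {π : L}
    (D : LineData O (IsLocalRing.residue O) π (Vg O (FG ι Γ 1)) (redg O (FG ι Γ 1)) (B.h ι))
    {n : ℕ} (hn : n ≠ 0) {y₀ : FG ι Γ 1} (hy0 : y₀ ≠ 0)
    (hval : ∀ z : ℍ, ∃ a : ℤ, vz z y₀ = exp a ^ n) (hyV : y₀ ∈ Vg O (FG ι Γ 1))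
    (hy1 : rd (redg O (FG ι Γ 1)) y₀ = 1) {a : κg O (FG ι Γ 1)}
    (ha : IsIntegral (KX (IsLocalRing.ResidueField O) (rd (redg O (FG ι Γ 1)) (B.h ι))) a) :
    ∃ x ∈ Vg O (FG ι Γ 1), x ^ n * y₀⁻¹ ∈ (icl (OX O (B.h ι)) : Subring (FG ι Γ 1)) ∧
      rd (redg O (FG ι Γ 1)) x = a := by
  have hfd := D.fd
  have hfdb := D.fdb
  have hsep : Algebra.IsSeparable
      (IsLocalRing.ResidueField O)⟮rd (redg O (FG ι Γ 1)) (B.h ι)⟯ (κg O (FG ι Γ 1)) :=
    sep_gauss O (FG ι Γ 1) _ (by rw [B.coe_rd_h]; exact B.theta_ne _)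
      (by rw [B.coe_rd_h]; exact B.transcendental_X _) hfdb
  have hW : (B.W1.map (Int.castRingHom O)).map O.subtype = B.W1.map (Int.castRingHom L) := by
    rw [Polynomial.map_map]
    congr 1
  have hW' : (B.W1.map (Int.castRingHom O)).map (IsLocalRing.residue O) =
      B.W1.map (Int.castRingHom (IsLocalRing.ResidueField O)) := by
    rw [Polynomial.map_map]
    congr 1
  refine D.lift hn hyV hy1 (B.W1.map (Int.castRingHom O)) ?_ ?_ ha
  · rw [hW']
    exact B.radEl_W1 (B.c_ne _)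
  · rw [hW]
    exact fun x hx => B.dual1 hn hy0 hval x hx

/-- lifting of residual sections in the chart `h⁻¹` -/
theorem lift2 [Γ.FiniteIndex] (hch : CharP (IsLocalRing.ResidueField O) p)
    [PerfectField (IsLocalRing.ResidueField O)] {π : L}
    (D : LineData O (IsLocalRing.residue O) π (Vg O (FG ι Γ 1)) (redg O (FG ι Γ 1)) (B.h ι)⁻¹)
    {n : ℕ} (hn : n ≠ 0) {y₀ : FG ι Γ 1} (hy0 : y₀ ≠ 0)
    (hval : ∀ z : ℍ, ∃ a : ℤ, vz z y₀ = exp a ^ n) (hyV : y₀ ∈ Vg O (FG ι Γ 1))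
    (hy1 : rd (redg O (FG ι Γ 1)) y₀ = 1) {a : κg O (FG ι Γ 1)}
    (ha : IsIntegral (KX (IsLocalRing.ResidueField O) (rd (redg O (FG ι Γ 1)) (B.h ι)⁻¹)) a) :
    ∃ x ∈ Vg O (FG ι Γ 1), x ^ n * y₀⁻¹ ∈ (icl (OX O (B.h ι)⁻¹) : Subring (FG ι Γ 1)) ∧
      rd (redg O (FG ι Γ 1)) x = a := by
  have hfd := D.fd
  have hfdb := D.fdb
  have hne : rd (redg O (FG ι Γ 1)) (B.h ι) ≠ 0 := by
    intro h0
    have := B.transcendental_rd_h (O := O) (ι := ι)
    rw [h0] at this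
    exact this isAlgebraic_zero
  have hrd : ((rd (redg O (FG ι Γ 1)) (B.h ι)⁻¹ : κg O (FG ι Γ 1)) :
      LaurentSeries (IsLocalRing.ResidueField O)) = (B.X (IsLocalRing.ResidueField O))⁻¹ := by
    rw [D.vring.red_inv B.h_mem_Vg hne, ← B.coe_rd_h (O := O) (ι := ι)]
    rfl
  have hsep : Algebra.IsSeparable
      (IsLocalRing.ResidueField O)⟮rd (redg O (FG ι Γ 1)) (B.h ι)⁻¹⟯ (κg O (FG ι Γ 1)) :=
    sep_gauss O (FG ι Γ 1) _ (by rw [hrd]; exact theta_inv_ne (B.theta_ne _))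
      (by rw [hrd]; exact transcendental_inv (B.transcendental_X _)) hfdb
  have hW : (B.W2.map (Int.castRingHom O)).map O.subtype = B.W2.map (Int.castRingHom L) := by
    rw [Polynomial.map_map]
    congr 1
  have hW' : (B.W2.map (Int.castRingHom O)).map (IsLocalRing.residue O) =
      B.W2.map (Int.castRingHom (IsLocalRing.ResidueField O)) := by
    rw [Polynomial.map_map]
    congr 1
  refine D.lift hn hyV hy1 (B.W2.map (Int.castRingHom O)) ?_ ?_ ha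
  · rw [hW']
    exact B.radEl_W2 (B.c_ne _)
  · rw [hW]
    exact fun x hx => B.dual2 hn hy0 hval x hx

theorem exists_approx_of_lineData [Γ.FiniteIndex] (hp : p.Prime) (hch : CharP (IsLocalRing.ResidueField O) p)
    [PerfectField (IsLocalRing.ResidueField O)] {n : ℕ} (hn : n ≠ 0) (hpn : ¬ p ∣ n) {π : L}
    (D : LineData O (IsLocalRing.residue O) π (Vg O (FG ι Γ 1)) (redg O (FG ι Γ 1)) (B.h ι))
    {G H : ℍ → ℂ} (hG : MDiff G) (hG0 : G ≠ 0) {a z : LaurentSeries O}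
    (hGn : IsMF ι Γ 1 (G ^ n) (incl O a)) (hH : IsMF ι Γ 1 H (incl O z)) (hz : redS O z ≠ 0)
    (haz : redS O a = redS O z ^ n) :
    ∃ (W : Submodule L (FG ι Γ 1)) (_ : FiniteDimensional L W) (y₀ : FG ι Γ 1),
      (y₀ : LaurentSeries L) = incl O a / incl O z ^ n ∧
      ∀ i : ℕ, ∃ f ∈ W, (f : LaurentSeries L) ∈ gaussSubring O ∧
        ∃ t : FG ι Γ 1, (t : LaurentSeries L) ∈ gaussSubring O ∧
          f ^ n - y₀ = algebraMap L (FG ι Γ 1) π ^ i * t := by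
  have hfd := D.fd
  obtain ⟨y₀, hy₀⟩ : ∃ y₀ : FG ι Γ 1,
      y₀ = (⟨incl O a, hGn.mem_FG⟩ : FG ι Γ 1) / (⟨incl O z, hH.mem_FG⟩ : FG ι Γ 1) ^ n :=
    ⟨_, rfl⟩
  have hy₀' : (y₀ : LaurentSeries L) = incl O a / incl O z ^ n := by rw [hy₀]; rfl
  obtain ⟨hy0, hval, -⟩ := exists_val_pow hG hG0 hGn hH (incl_ne_zero hz) y₀ hy₀'
  obtain ⟨hyV, hy1⟩ := rd_div_pow D.vring (y₀ := y₀) rfl rfl hy₀ hz haz
  have hchκ : CharP (κg O (FG ι Γ 1)) p :=
    charP_of_injective_algebraMap (algebraMap (IsLocalRing.ResidueField O) _).injective p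
  obtain ⟨w, hw⟩ := D.glue.exists_approx (n := n) hn
    (fun h0 => hpn ((CharP.cast_eq_zero_iff _ p n).mp h0)) ⟨p, hp.pos, CharP.cast_eq_zero _ p⟩
    hyV hy1 (fun a ha => lift1 hch D hn hy0 hval hyV hy1 ha)
    (fun a ha => lift2 hch D.inv hn hy0 hval hyV hy1 ha)
  obtain ⟨W, hW, hWf⟩ := exists_finDim_OX O B.transcendental_h (inv_ne_zero hy0) hn w
  refine ⟨W, hW, y₀, hy₀', fun i => ?_⟩
  obtain ⟨f, hfV, hf1, hf2, t, htV, ht⟩ := hw i
  exact ⟨f, hWf f hf1 hf2, hfV, t, htV, ht⟩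

end Approx

section Final

open Fermat.Agent.X1 (Between)
open Fermat.Agent.S28aux

theorem keyCF_of_base {ι : Qbar →+* ℂ} {Γ : Subgroup SL(2, ℤ)} [GoodGroup Γ] [IntGroup Γ]
    (S : ∀ (L : IntermediateField ℚ Qbar), SepData (ι.comp (algebraMap L Qbar)) Γ 1) {M : ℕ}
    [NeZero M] (hΓ : Gamma M ≤ Γ) {p : ℕ} (hp : p.Prime) (hM : ¬ p ∣ M) (B : Base Γ p) {n : ℕ}
    (hn : n ≠ 0) (hpn : ¬ p ∣ n) {A : ValuationSubring Qbar} (hA : A.LiesOverPrime p) :
    KeyCF ι Γ n A := by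
  refine keyCF_of_local hn hp hA ?_
  intro L hL π hπ1 hπ0 hπ ψ hψ hψ' G H y a z hG hy hay hGn hH hz haz
  have hch := charP_residue_comap A (algebraMap L Qbar) hp hA
  have hperf := perfectField_residue_comap A (algebraMap L Qbar) hp hA
  have hfd := B.finiteDimensional (S L)
  have hQ := isAlgebraic_Qbar
  have hLQ : Algebra.IsAlgebraic ℚ L := Algebra.IsAlgebraic.of_finite ℚ L
  have D := lineData_FG (ι := ι) hp hA hM hΓ FG_le_intField hπ1 hπ0 hπ
    (B.h (ι.comp (algebraMap L Qbar))) B.h_mem_Vg (B.j_mem (ι.comp (algebraMap L Qbar)))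
    B.transcendental_rd_h hfd
  exact exists_approx_of_lineData hp hch hn hpn D hG.mdiff
    (fun h0 => hy ((IsCF.eq_zero_iff hG.lexp).mp h0)) hGn hH hz haz

end Final

end Fermat.Agent.X1Key

end
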