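import Fermat.Agent.X1.FinalKey
import Fermat.Agent.X1.KeyMain
import Fermat.Agent.FG.SepCong

/-!
# KEY at all primes, and Deligne--Serre
-/

set_option autoImplicit false

open CongruenceSubgroup UpperHalfPlane ModularFormClass
open scoped MatrixGroups

noncomputable section

namespace Fermat.Agent.X1Key

open Fermat.Agent.FG Fermat.Agent.X1Char Fermat.Agent.EisChar

theorem Gamma1_mul_le_Gamma0 (r M : ℕ) : Gamma1 (r * M) ≤ Gamma0 r := by
  intro γ hγ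
  rw [X1.mem_Gamma1_iff_dvd] at hγ
  have h1 : ((r * M : ℕ) : ℤ) ∣ (γ : Matrix (Fin 2) (Fin 2) ℤ) 1 0 := hγ.1
  rw [Gamma0_mem]
  have : (r : ℤ) ∣ (γ : Matrix (Fin 2) (Fin 2) ℤ) 1 0 := (Dvd.intro _ (by push_cast; rfl)).trans h1
  exact (ZMod.intCast_zmod_eq_zero_iff_dvd _ _).mpr this

theorem Gamma_le_Gamma1' (N : ℕ) : Gamma N ≤ Gamma1 N := by
  intro γ hγ
  rw [Gamma_mem] at hγ
  rw [Gamma1_mem]
  exact ⟨hγ.1, hγ.2.2.2, hγ.2.2.1⟩

theorem keyCF_of_level {ι : Qbar →+* ℂ} {p : ℕ} (hp : p.Prime) {r : ℕ} (hr : ¬ p ∣ r)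
    (hr0 : r ≠ 0) {M l : ℕ} [NeZero M] (hB : Nonempty (Base (Gamma1 (r * M)) p))
    (hl : l.Prime) (hpM : ¬ p ∣ M) (hpl : p ≠ l)
    {A : ValuationSubring Qbar} (hA : A.LiesOverPrime p) : KeyCF ι (Gamma1 (r * M)) l A := by
  have : NeZero (r * M) := ⟨mul_ne_zero hr0 (NeZero.ne M)⟩
  obtain ⟨B⟩ := hB
  refine keyCF_of_base (fun L => sepG1 _ (r * M)) (M := r * M) (Gamma_le_Gamma1' _) hp ?_ B
    hl.ne_zero ?_ hA
  · exact fun h => (hp.dvd_mul.mp h).elim hr hpM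
  · exact fun h => hpl ((Nat.prime_dvd_prime_iff_eq hp hl).mp h)

theorem exists_keyCF (ι : Qbar →+* ℂ) (p : ℕ) (hp : p.Prime) : ∃ r : ℕ, r ≠ 0 ∧
      (∀ q : ℕ, q.Prime → q ∣ r → q ≤ 3) ∧ ∀ (M l : ℕ) [NeZero M], l.Prime → 5 ≤ l → ¬ p ∣ M →
        p ≠ l → ∀ A : ValuationSubring Qbar, A.LiesOverPrime p →
        KeyCF ι (Gamma1 (r * M)) l A := by
  have hcases : p = 2 ∨ p = 3 ∨ 5 ≤ p := by
    have h2 := hp.two_le
    by_contra hcon
    push Not at hcon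
    have h4 : p = 4 := by omega
    rw [h4] at hp
    exact absurd hp (by norm_num)
  rcases hcases with rfl | rfl | h5
  · refine ⟨3, by norm_num, fun q _ h => Nat.le_of_dvd (by norm_num) h, ?_⟩
    intro M l _ hl _ hpM hpl A hA
    exact keyCF_of_level hp (by norm_num) (by norm_num)
      (exists_base_three (Gamma1_mul_le_Gamma0 3 M)) hl hpM hpl hA
  · refine ⟨2, by norm_num, fun q _ h => (Nat.le_of_dvd (by norm_num) h).trans (by norm_num), ?_⟩
    intro M l _ hl _ hpM hpl A hA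
    exact keyCF_of_level hp (by norm_num) (by norm_num)
      (exists_base_two (Gamma1_mul_le_Gamma0 2 M)) hl hpM hpl hA
  · refine ⟨1, by norm_num, fun q _ h => (Nat.le_of_dvd (by norm_num) h).trans (by norm_num), ?_⟩
    intro M l _ hl _ hpM hpl A hA
    exact keyCF_of_level hp (fun h => by have := Nat.le_of_dvd one_pos h; omega) one_ne_zero
      (exists_base_one _ hp h5) hl hpM hpl hA

end Fermat.Agent.X1Key

end
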