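import Fermat.Agent.X1.HeckeCoeff
import Fermat.Agent.DS.Interface

/-!
# Forms `F` with `F(τ)` and `F(pτ)` of level prime to `p` vanish; the nebentypus of a weight one form

-/

set_option autoImplicit false

noncomputable section

open CongruenceSubgroup Matrix.SpecialLinearGroup UpperHalfPlane Function
open scoped MatrixGroups ModularForm Manifold

namespace Fermat.Agent.X1

open Fermat.Agent.HeckePar ModularCurve.Period ModularFormClass

variable {M : ℕ}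

/-- The slash of a `Γ₁(M)`-invariant function by an element of `Γ₀(M)` only depends on the lower
right entry. -/
theorem slash_eq_dia {k : ℤ} {f : ℍ → ℂ} (hf : ∀ g : Gamma1 M, f ∣[k] iotaG (Gamma1 M) g = f)
    (g : SL(2, ℤ)) (hg : g ∈ Gamma0 M) (u : (ZMod M)ˣ) (h : ((g 1 1 : ℤ) : ZMod M) = u) :
    f ∣[k] g = f ∣[k] diaMat M u := by
  have h1 : g * (diaMat M u)⁻¹ ∈ Gamma1 M := by
    refine mem_gamma1_of_mem_gamma0 (mul_mem hg (inv_mem (diaMat_mem u))) ?_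
    rw [mul_inv_00 hg (diaMat_mem u), diaMat_11, ← h]
    exact gamma0_00_mul_11 hg
  have h2 := hf ⟨_, h1⟩
  have h3 : (f ∣[k] (g * (diaMat M u)⁻¹ : SL(2, ℤ))) = f := h2
  calc f ∣[k] g = f ∣[k] ((g * (diaMat M u)⁻¹) * diaMat M u : SL(2, ℤ)) := by
        rw [inv_mul_cancel_right]
    _ = f ∣[k] diaMat M u := by rw [SlashAction.slash_mul, h3]

theorem diag_mul (p : ℕ) (hp : p ≠ 0) (s s' : SL(2, ℤ)) (h00 : s' 0 0 = s 0 0)
    (h01 : s' 0 1 = p * s 0 1) (h10 : s 1 0 = p * s' 1 0) (h11 : s' 1 1 = s 1 1) :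
    ModularForm.heckeDiagMatrix p * mapGL ℝ s = mapGL ℝ s' * ModularForm.heckeDiagMatrix p := by
  rw [← Units.val_inj, Units.val_mul, Units.val_mul, val_mapGL, val_mapGL,
    ModularForm.val_heckeDiagMatrix hp]
  ext i j
  fin_cases i <;> fin_cases j
  · simp [Matrix.mul_apply, Fin.sum_univ_two, h00, mul_comm]
  · simp [Matrix.mul_apply, Fin.sum_univ_two, h01]
  · simp [Matrix.mul_apply, Fin.sum_univ_two, h10, mul_comm]
  · simp [Matrix.mul_apply, Fin.sum_univ_two, h11]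

section

variable (Γ : Subgroup SL(2, ℤ)) [hΓ : Between M Γ] [Γ.FiniteIndex] {k : ℤ}

theorem dia_diag [NeZero M] (p : ℕ) [hp : Fact p.Prime] (u : (ZMod M)ˣ) (X Y : CuspForm Γ k)
    (h : (Y : ℍ → ℂ) = (X : ℍ → ℂ) ∣[k] ModularForm.heckeDiagMatrix p) :
    (dCusp M Γ k u Y : ℍ → ℂ) =
      (dCusp M Γ k u X : ℍ → ℂ) ∣[k] ModularForm.heckeDiagMatrix p := by
  have hp0 : p ≠ 0 := hp.out.ne_zero
  have : NeZero (M * p) := ⟨mul_ne_zero (NeZero.ne M) hp0⟩
  obtain ⟨v, hv⟩ := ZMod.unitsMap_surjective (dvd_mul_right M p) u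
  set s := diaMat (M * p) v with hs
  have h10 : ((M * p : ℕ) : ℤ) ∣ s 1 0 :=
    (ZMod.intCast_zmod_eq_zero_iff_dvd _ _).mp (diaMat_10 v)
  have h11 : ((s 1 1 : ℤ) : ZMod M) = u := by
    rw [← hv, ZMod.unitsMap_val]
    rw [← diaMat_11 v, ZMod.cast_intCast (dvd_mul_right M p)]
  obtain ⟨c, hc⟩ := h10
  have hdet := det_SL s
  let s' : SL(2, ℤ) := ⟨!![s 0 0, p * s 0 1; M * c, s 1 1], by
    rw [Matrix.det_fin_two_of]
    have h12 := hdet
    rw [hc] at h12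
    push_cast at h12
    linear_combination h12⟩
  have hs0 : s ∈ Gamma0 M := by
    rw [Gamma0_mem, hc]; push_cast; rw [ZMod.natCast_self]; ring
  have hs0' : s' ∈ Gamma0 M := by
    rw [Gamma0_mem]
    show (((M * c : ℤ)) : ZMod M) = 0
    push_cast; rw [ZMod.natCast_self]; ring
  rw [coe_dCusp, coe_dCusp, ← slash_eq_dia (inv_gamma1 Γ k Y) s hs0 u h11,
    ← slash_eq_dia (inv_gamma1 Γ k X) s' hs0' u h11, h]
  have h1 := diag_mul p hp0 s s' rfl rfl (by
    show s 1 0 = p * (M * c)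
    rw [hc]; push_cast; ring) rfl
  show ((X : ℍ → ℂ) ∣[k] ModularForm.heckeDiagMatrix p) ∣[k] mapGL ℝ s =
    ((X : ℍ → ℂ) ∣[k] mapGL ℝ s') ∣[k] ModularForm.heckeDiagMatrix p
  rw [← SlashAction.slash_mul, h1, SlashAction.slash_mul]

theorem exists_diag_diag [NeZero M] (p : ℕ) [hp : Fact p.Prime] (hpM : ¬ p ∣ M)
    (X Y : CuspForm Γ k)
    (h : (Y : ℍ → ℂ) = (X : ℍ → ℂ) ∣[k] ModularForm.heckeDiagMatrix p) :
    ∃ Z : CuspForm Γ k, (Z : ℍ → ℂ) = (Y : ℍ → ℂ) ∣[k] ModularForm.heckeDiagMatrix p := by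
  have hp0 : p ≠ 0 := hp.out.ne_zero
  have hX := qGood_of_modularFormClass M Γ k X
  have hY := qGood_of_modularFormClass M Γ k Y
  have h1 : ModularForm.heckeU k p (Y : ℍ → ℂ) = ((p : ℂ) ^ (k - 1)) • (X : ℍ → ℂ) := by
    have hX' : QGood (((p : ℂ) ^ (k - 1)) • (X : ℍ → ℂ)) := by
      rw [← FunLike.coe_smul]
      exact qGood_of_modularFormClass M Γ k (((p : ℂ) ^ (k - 1)) • X)
    refine (hY.heckeU k p).ext hX' fun n => ?_
    rw [hY.qCoeff_heckeU k hp0, h, hX.qCoeff_diag k hp0, if_pos (dvd_mul_left p n),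
      Nat.mul_div_cancel _ hp.out.pos, hX.qCoeff_smul]
  set W := dCusp M Γ k (pUnit M p) Y with hW
  set Z := tCusp M Γ k p Y - ((p : ℂ) ^ (k - 1)) • X with hZ
  have h2 : (Z : ℍ → ℂ) = (W : ℍ → ℂ) ∣[k] ModularForm.heckeDiagMatrix p := by
    rw [hZ, FunLike.coe_sub, FunLike.coe_smul, coe_tCusp, slashSum_hecke k p hpM, h1,
      add_sub_cancel_left, hW, coe_dCusp]
  refine ⟨dCusp M Γ k (pUnit M p)⁻¹ Z, ?_⟩
  rw [dia_diag Γ p _ W Z h2, hW, ← dCusp_mul, inv_mul_cancel, dCusp_one]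

/-- If `X(τ)` and `X(pτ)` are both cusp forms for `Γ₁(M) ≤ Γ ≤ Γ₀(M)`, `p ∤ M`, then `X = 0`. -/
theorem eq_zero_of_diag [NeZero M] (p : ℕ) [hp : Fact p.Prime] (hpM : ¬ p ∣ M)
    (X Y : CuspForm Γ k)
    (h : (Y : ℍ → ℂ) = (X : ℍ → ℂ) ∣[k] ModularForm.heckeDiagMatrix p) : X = 0 := by
  have hp0 : p ≠ 0 := hp.out.ne_zero
  have hpC : (p : ℂ) ≠ 0 := by exact_mod_cast hp0
  have key : ∀ j : ℕ, ∃ Z Z' : CuspForm Γ k,
      (Z' : ℍ → ℂ) = (Z : ℍ → ℂ) ∣[k] ModularForm.heckeDiagMatrix p ∧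
      (∀ n, qCoeff Z n ≠ 0 → p ^ j ∣ n) ∧ (Z = 0 → X = 0) := by
    intro j
    induction j with
    | zero => exact ⟨X, Y, h, fun n _ => by simp, fun h => h⟩
    | succ j ih =>
      obtain ⟨Z, Z', h1, h2, h3⟩ := ih
      obtain ⟨Z'', h4⟩ := exists_diag_diag Γ p hpM Z Z' h1
      have hZ := qGood_of_modularFormClass M Γ k Z
      have hq : ∀ n, qCoeff Z' n = if p ∣ n then (p : ℂ) ^ (k - 1) * qCoeff Z (n / p) else 0 := by
        intro n
        rw [h1, hZ.qCoeff_diag k hp0]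
      refine ⟨Z', Z'', h4, fun n hn => ?_, fun h5 => h3 ?_⟩
      · rw [hq] at hn
        split_ifs at hn with hpn
        · have h6 := h2 (n / p) (right_ne_zero_of_mul hn)
          obtain ⟨m, rfl⟩ := hpn
          rw [Nat.mul_div_cancel_left _ hp.out.pos] at h6
          rw [pow_succ']
          exact mul_dvd_mul_left p h6
        · exact absurd rfl hn
      · refine DFunLike.coe_injective (hZ.ext (qGood_of_modularFormClass M Γ k (0 : CuspForm Γ k))
          fun n => ?_)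
        have h6 := hq (p * n)
        rw [if_pos (dvd_mul_right p n), Nat.mul_div_cancel_left _ hp.out.pos, h5] at h6
        have h7 : ∀ m, qCoeff ⇑(0 : CuspForm Γ k) m = 0 := fun m => (qLin M Γ k m).map_zero
        rw [h7] at h6 ⊢
        exact (mul_eq_zero.mp h6.symm).resolve_left (zpow_ne_zero _ hpC)
  obtain ⟨B, hB⟩ := exists_sturm M Γ k
  obtain ⟨Z, Z', -, h2, h3⟩ := key (B + 1)
  refine h3 (hB Z fun n hn => ?_)
  by_contra hne
  have h4 := h2 n hne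
  rcases Nat.eq_zero_or_pos n with rfl | hn0
  · exact hne (qCoeff_cusp_zero' M Γ k Z)
  · have h5 := Nat.le_of_dvd hn0 h4
    have h6 := Nat.lt_pow_self hp.out.one_lt (n := B + 1)
    omega

end

/-! ### The nebentypus of a weight one form -/

section Weight

variable (Γ : Subgroup SL(2, ℤ)) [hΓ : Between M Γ] [Γ.FiniteIndex] {k : ℤ}

/-- If the `q`-coefficients of `f` satisfy the Hecke relation at `p ∤ M` with character value `e`,
then `⟨p⟩ f = e f`. -/
theorem dCusp_pUnit_eq [NeZero M] (p : ℕ) [hp : Fact p.Prime] (hpM : ¬ p ∣ M)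
    (f : CuspForm Γ k) (e t : ℂ)
    (h : ∀ n : ℕ, qCoeff f (p * n) + e * (p : ℂ) ^ (k - 1) *
      (if p ∣ n then qCoeff f (n / p) else 0) = t * qCoeff f n) :
    dCusp M Γ k (pUnit M p) f = e • f := by
  have hp0 : p ≠ 0 := hp.out.ne_zero
  set X := dCusp M Γ k (pUnit M p) f - e • f with hX
  set Y := tCusp M Γ k p f - t • f with hY
  have hXg := qGood_of_modularFormClass M Γ k X
  have hYg := qGood_of_modularFormClass M Γ k Y
  have hlin : ∀ (a b : CuspForm Γ k) (c : ℂ) (n : ℕ),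
      qCoeff ⇑(a - c • b) n = qCoeff a n - c * qCoeff b n := by
    intro a b c n
    have h1 := map_sub (qLin M Γ k n) a (c • b)
    rw [map_smul] at h1
    exact h1
  have hXY : (Y : ℍ → ℂ) = (X : ℍ → ℂ) ∣[k] ModularForm.heckeDiagMatrix p := by
    refine hYg.ext (hXg.diag k p) fun n => ?_
    rw [hXg.qCoeff_diag k hp0, hY, hlin, qCoeff_tCusp Γ k p hpM, ← h n, hX, hlin, mul_comm n p]
    split_ifs with hpn
    · ring
    · ring
  exact sub_eq_zero.mp (eq_zero_of_diag Γ p hpM X Y hXY)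

/-- The nebentypus is determined by primes. -/
theorem dCusp_eq_of_primes [NeZero M] (f : CuspForm Γ k) (χ : DirichletCharacter ℂ M)
    (h : ∀ p : ℕ, p.Prime → ¬ p ∣ M → dCusp M Γ k (pUnit M p) f = χ (p : ZMod M) • f)
    (u : (ZMod M)ˣ) : dCusp M Γ k u f = χ (u : ZMod M) • f := by
  obtain ⟨p, -, hp, hpu⟩ := Nat.forall_exists_prime_gt_and_eq_mod u.isUnit 0
  have hc : p.Coprime M := by
    rw [← ZMod.isUnit_iff_coprime, hpu]
    exact u.isUnit
  have hpM : ¬ p ∣ M := (Nat.Prime.coprime_iff_not_dvd hp).mp hc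
  have h1 := h p hp hpM
  have h2 : pUnit M p = u := Units.ext (by rw [coe_pUnit hc, hpu])
  rw [h2, hpu] at h1
  exact h1

theorem dCusp_neg_one (f : CuspForm Γ k) : dCusp M Γ k (-1) f = ((-1 : ℂ) ^ k) • f := by
  refine DFunLike.coe_injective ?_
  rw [coe_dCusp, FunLike.coe_smul]
  have h0 : (-1 : SL(2, ℤ)) ∈ Gamma0 M := by
    rw [Gamma0_mem]
    simp
  rw [← slash_eq_dia (inv_gamma1 Γ k f) (-1) h0 (-1) (by simp)]
  ext z
  rw [ModularForm.SL_slash_apply]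
  have h1 : (-1 : SL(2, ℤ)) • z = z := by
    rw [ModularGroup.SL_neg_smul, one_smul]
  have h2 : denom (-1 : SL(2, ℤ)) z = -1 := by
    rw [ModularGroup.denom_apply]
    simp
  rw [h1, h2, Pi.smul_apply, smul_eq_mul, mul_comm, zpow_neg, ← inv_zpow, inv_neg, inv_one]

theorem oddChar (N : ℕ) [NeZero N] : DS.OddChar N := by
  intro ε f t hf h
  have h1 : ∀ u : (ZMod N)ˣ, dCusp N (Gamma1 N) 1 u f = ε (u : ZMod N) • f := by
    refine dCusp_eq_of_primes (Gamma1 N) f ε fun p hp hpN => ?_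
    have : Fact p.Prime := ⟨hp⟩
    refine dCusp_pUnit_eq (Gamma1 N) p hpN f _ (t p) fun n => ?_
    have h2 := h p hp hpN n
    simpa using h2
  have h2 := h1 (-1)
  rw [dCusp_neg_one, zpow_one] at h2
  have h3 : ((-1 : ℂ) - ε (((-1 : (ZMod N)ˣ) : ZMod N))) • f = 0 := by
    rw [sub_smul, h2, sub_self]
  have h4 := (smul_eq_zero.mp h3).resolve_right hf
  rw [sub_eq_zero] at h4
  rw [h4]
  simp

end Weight

end Fermat.Agent.X1

end
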