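import Fermat.Agent.X1.HeckeQ
import Fermat.Prelude.Thm_ModularForm_isBoundedAtImInfty_heckeU
import Fermat.Prelude.Thm_ModularForm_isBoundedAtImInfty_heckeT
import Fermat.Prelude.Thm_ModularForm_mdifferentiable_heckeU
import Fermat.Prelude.Thm_ModularForm_mdifferentiable_heckeT
import Fermat.Prelude.Thm_ModularForm_periodic_heckeU_comp_ofComplex
import Fermat.Prelude.Thm_ModularForm_periodic_heckeT_comp_ofComplex
import Fermat.Prelude.Thm_UpperHalfPlane_eq_of_forall_qCoeff_eq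

/-!
# `q`-coefficients of Hecke operators on `Γ₁(M) ≤ Γ ≤ Γ₀(M)`
-/

set_option autoImplicit false

noncomputable section

open CongruenceSubgroup Matrix.SpecialLinearGroup UpperHalfPlane Function
open scoped MatrixGroups ModularForm Manifold

namespace Fermat.Agent.X1

open Fermat.Agent.HeckePar ModularCurve.Period ModularFormClass

/-- functions on `ℍ` having a `q`-expansion. -/
structure QGood (f : ℍ → ℂ) : Prop where
  per : Periodic (f ∘ ofComplex) 1
  mdiff : MDiff f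
  bdd : IsBoundedAtImInfty f

namespace QGood

variable {f g : ℍ → ℂ}

theorem analyticAt (hf : QGood f) : AnalyticAt ℂ (cuspFunction 1 f) 0 :=
  analyticAt_cuspFunction_zero one_pos hf.per hf.mdiff hf.bdd

theorem qCoeff_add (hf : QGood f) (hg : QGood g) (n : ℕ) :
    qCoeff (f + g) n = qCoeff f n + qCoeff g n := by
  rw [qCoeff, qCoeff, qCoeff, UpperHalfPlane.qExpansion_add hf.analyticAt hg.analyticAt, map_add]

theorem qCoeff_sub (hf : QGood f) (hg : QGood g) (n : ℕ) :
    qCoeff (f - g) n = qCoeff f n - qCoeff g n := by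
  rw [qCoeff, qCoeff, qCoeff, UpperHalfPlane.qExpansion_sub hf.analyticAt hg.analyticAt, map_sub]

theorem qCoeff_smul (c : ℂ) (hf : QGood f) (n : ℕ) :
    qCoeff (c • f) n = c * qCoeff f n := by
  rw [qCoeff, qCoeff, UpperHalfPlane.qExpansion_smul hf.analyticAt]
  simp

theorem heckeU (k : ℤ) (p : ℕ) (hf : QGood f) : QGood (ModularForm.heckeU k p f) :=
  ⟨ModularForm.periodic_heckeU_comp_ofComplex hf.per k p,
    ModularForm.mdifferentiable_heckeU hf.mdiff k p,
    ModularForm.isBoundedAtImInfty_heckeU hf.bdd k p⟩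

theorem heckeT (k : ℤ) (p : ℕ) (hf : QGood f) : QGood (ModularForm.heckeT k p f) :=
  ⟨ModularForm.periodic_heckeT_comp_ofComplex hf.per k p,
    ModularForm.mdifferentiable_heckeT hf.mdiff k p,
    ModularForm.isBoundedAtImInfty_heckeT hf.bdd k p⟩

theorem sub (hf : QGood f) (hg : QGood g) : QGood (f - g) where
  per := fun z => by
    have h1 := hf.per z
    have h2 := hg.per z
    simp only [comp_apply, Pi.sub_apply] at h1 h2 ⊢
    rw [h1, h2]
  mdiff := hf.mdiff.sub hg.mdiff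
  bdd := hf.bdd.sub hg.bdd

theorem add (hf : QGood f) (hg : QGood g) : QGood (f + g) where
  per := fun z => by
    have h1 := hf.per z
    have h2 := hg.per z
    simp only [comp_apply, Pi.add_apply] at h1 h2 ⊢
    rw [h1, h2]
  mdiff := hf.mdiff.add hg.mdiff
  bdd := hf.bdd.add hg.bdd

theorem ext (hf : QGood f) (hg : QGood g) (h : ∀ n, qCoeff f n = qCoeff g n) : f = g :=
  UpperHalfPlane.eq_of_forall_qCoeff_eq hf.per hf.mdiff hf.bdd hg.per hg.mdiff hg.bdd h

theorem diag_eq (k : ℤ) (p : ℕ) (f : ℍ → ℂ) :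
    f ∣[k] ModularForm.heckeDiagMatrix p =
      ModularForm.heckeT k p f - ModularForm.heckeU k p f := by
  rw [ModularForm.heckeT_eq_heckeU_add, add_sub_cancel_left]

theorem diag (k : ℤ) (p : ℕ) (hf : QGood f) : QGood (f ∣[k] ModularForm.heckeDiagMatrix p) := by
  rw [diag_eq]
  exact (hf.heckeT k p).sub (hf.heckeU k p)

theorem qCoeff_heckeU (k : ℤ) {p : ℕ} (hp : p ≠ 0) (hf : QGood f) (n : ℕ) :
    qCoeff (ModularForm.heckeU k p f) n = qCoeff f (n * p) := by
  rw [UpperHalfPlane.qCoeff_heckeU hf.per hf.mdiff hf.bdd k hp n]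
  rfl

theorem qCoeff_diag (k : ℤ) {p : ℕ} (hp : p ≠ 0) (hf : QGood f) (n : ℕ) :
    qCoeff (f ∣[k] ModularForm.heckeDiagMatrix p) n =
      if p ∣ n then (p : ℂ) ^ (k - 1) * qCoeff f (n / p) else 0 := by
  rw [diag_eq, (hf.heckeT k p).qCoeff_sub (hf.heckeU k p),
    UpperHalfPlane.qCoeff_heckeT hf.per hf.mdiff hf.bdd k hp n, hf.qCoeff_heckeU k hp,
    ModularForm.coeffHeckeT_apply, add_sub_cancel_left]

end QGood

section Forms

variable {M : ℕ} (Γ : Subgroup SL(2, ℤ)) [hΓ : Between M Γ] (k : ℤ)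

include hΓ in
theorem T_mem : ModularGroup.T ∈ Γ := by
  refine hΓ.ge ?_
  rw [Gamma1_mem]
  simp [ModularGroup.T]

variable (M) in
include hΓ in
theorem one_mem_strictPeriods : (1 : ℝ) ∈ (Γ : Subgroup (GL (Fin 2) ℝ)).strictPeriods := by
  rw [Subgroup.strictPeriods_eq_zmultiples_one_of_T_mem (T_mem (M := M) Γ)]
  exact AddSubgroup.mem_zmultiples 1

variable (M) in
include hΓ in
theorem qGood_of_modularFormClass {F : Type*} [FunLike F ℍ ℂ]
    [ModularFormClass F (Γ : Subgroup (GL (Fin 2) ℝ)) k] (f : F) : QGood f where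
  per := SlashInvariantFormClass.periodic_comp_ofComplex f (one_mem_strictPeriods M Γ)
  mdiff := ModularFormClass.holo f
  bdd := by
    have : Fact (IsCusp OnePoint.infty (Γ : Subgroup (GL (Fin 2) ℝ))) :=
      ⟨Subgroup.isCusp_of_mem_strictPeriods one_pos (one_mem_strictPeriods M Γ)⟩
    exact ModularFormClass.bdd_at_infty f

variable [Γ.FiniteIndex]

theorem qCoeff_tCusp (p : ℕ) [hp : Fact p.Prime] (hpM : ¬ p ∣ M) (f : CuspForm Γ k) (n : ℕ) :
    qCoeff (tCusp M Γ k p f) n = qCoeff f (n * p) +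
      if p ∣ n then (p : ℂ) ^ (k - 1) * qCoeff (dCusp M Γ k (pUnit M p) f) (n / p) else 0 := by
  have hf := qGood_of_modularFormClass M Γ k f
  have hd := qGood_of_modularFormClass M Γ k (dCusp M Γ k (pUnit M p) f)
  rw [coe_tCusp, slashSum_hecke k p hpM, ← coe_dCusp Γ k (pUnit M p) f,
    (hf.heckeU k p).qCoeff_add (hd.diag k p), hf.qCoeff_heckeU k hp.out.ne_zero,
    hd.qCoeff_diag k hp.out.ne_zero]

theorem qCoeff_tCusp_of_dvd (p : ℕ) [hp : Fact p.Prime] (hpM : p ∣ M) (f : CuspForm Γ k)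
    (n : ℕ) : qCoeff (tCusp M Γ k p f) n = qCoeff f (n * p) := by
  have hf := qGood_of_modularFormClass M Γ k f
  rw [coe_tCusp, slashSum_hecke_of_dvd k p hpM, hf.qCoeff_heckeU k hp.out.ne_zero]

theorem qCoeff_tMod (p : ℕ) [hp : Fact p.Prime] (hpM : ¬ p ∣ M) (f : ModularForm Γ k) (n : ℕ) :
    qCoeff (tMod M Γ k p f) n = qCoeff f (n * p) +
      if p ∣ n then (p : ℂ) ^ (k - 1) * qCoeff (dMod M Γ k (pUnit M p) f) (n / p) else 0 := by
  have hf := qGood_of_modularFormClass M Γ k f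
  have hd := qGood_of_modularFormClass M Γ k (dMod M Γ k (pUnit M p) f)
  rw [coe_tMod, slashSum_hecke k p hpM, ← coe_dMod Γ k (pUnit M p) f,
    (hf.heckeU k p).qCoeff_add (hd.diag k p), hf.qCoeff_heckeU k hp.out.ne_zero,
    hd.qCoeff_diag k hp.out.ne_zero]

theorem qCoeff_tMod_of_dvd (p : ℕ) [hp : Fact p.Prime] (hpM : p ∣ M) (f : ModularForm Γ k)
    (n : ℕ) : qCoeff (tMod M Γ k p f) n = qCoeff f (n * p) := by
  have hf := qGood_of_modularFormClass M Γ k f
  rw [coe_tMod, slashSum_hecke_of_dvd k p hpM, hf.qCoeff_heckeU k hp.out.ne_zero]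

variable (M) in
omit [Γ.FiniteIndex] in
include hΓ in
theorem qCoeff_cusp_add (f g : CuspForm Γ k) (n : ℕ) :
    qCoeff ⇑(f + g) n = qCoeff f n + qCoeff g n := by
  rw [FunLike.coe_add]
  exact (qGood_of_modularFormClass M Γ k f).qCoeff_add (qGood_of_modularFormClass M Γ k g) n

variable (M) in
omit [Γ.FiniteIndex] in
include hΓ in
theorem qCoeff_cusp_smul (c : ℂ) (f : CuspForm Γ k) (n : ℕ) :
    qCoeff ⇑(c • f) n = c * qCoeff f n := by
  rw [FunLike.coe_smul]
  exact (qGood_of_modularFormClass M Γ k f).qCoeff_smul c n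

variable (M) in
/-- the `n`-th coefficient as a linear form -/
def qLin (n : ℕ) : CuspForm Γ k →ₗ[ℂ] ℂ where
  toFun f := qCoeff f n
  map_add' f g := qCoeff_cusp_add M Γ k f g n
  map_smul' c f := qCoeff_cusp_smul M Γ k c f n

omit [Γ.FiniteIndex] in
@[simp] theorem qLin_apply (n : ℕ) (f : CuspForm Γ k) : qLin M Γ k n f = qCoeff f n := rfl

variable (M) in
omit [Γ.FiniteIndex] in
include hΓ in
theorem qCoeff_cusp_zero' (f : CuspForm Γ k) : qCoeff f 0 = 0 :=
  CuspFormClass.qExpansion_coeff_zero f one_pos (one_mem_strictPeriods M Γ)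

variable (M) in
include hΓ in
/-- Sturm bound -/
theorem exists_sturm : ∃ B : ℕ, ∀ f : CuspForm Γ k, (∀ n ≤ B, qCoeff f n = 0) → f = 0 := by
  refine ⟨(k * (Γ : Subgroup (GL (Fin 2) ℝ)).relIndex 𝒮ℒ).toNat / 12, fun f hf => ?_⟩
  have hmf : (ModularFormClass.modularForm f : ModularForm Γ k) = 0 := by
    refine ModularForm.sturm_bound_of_isArithmetic (one_mem_strictPeriods M Γ) ?_
    refine lt_of_lt_of_le ?_ (PowerSeries.nat_le_order _
      ((k * (Γ : Subgroup (GL (Fin 2) ℝ)).relIndex 𝒮ℒ).toNat / 12 + 1) (fun i hi => ?_))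
    · exact_mod_cast Nat.lt_succ_self _
    · exact hf i (Nat.lt_succ_iff.mp hi)
  have hcoe : (⇑f : UpperHalfPlane → ℂ) = 0 := by
    have := congrArg (fun F : ModularForm Γ k ↦ (⇑F : UpperHalfPlane → ℂ)) hmf
    simpa using this
  exact DFunLike.coe_injective (hcoe.trans FunLike.coe_zero.symm)

end Forms

end Fermat.Agent.X1

end
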