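import Fermat.Agent.X1.HeckeQ
import Fermat.Agent.GenES.Period

/-!
# Hecke equivariance of the period map for `Γ₁(M) ≤ Γ ≤ Γ₀(M)`
-/

set_option autoImplicit false

noncomputable section

open UpperHalfPlane Filter Topology Complex Function CongruenceSubgroup Matrix.SpecialLinearGroup
open scoped MatrixGroups ModularForm Manifold

namespace Fermat.Agent.X1

open Fermat.Agent.HeckePar Fermat.Agent.S21per Fermat.Agent.GenES ModularCurve.Period

theorem isPrim_smulGL {f F : ℍ → ℂ} (hF : IsPrim f F) (A : GL (Fin 2) ℝ)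
    (hA : 0 < A.det.val) : IsPrim (f ∣[(2 : ℤ)] A) (fun w ↦ F (A • w)) := by
  intro τ
  have hdet : (0 : ℝ) < A.val.det := by
    rw [← Matrix.GeneralLinearGroup.val_det_apply]; exact hA
  have h1 : HasDerivAt (fun w ↦ ((A • ofComplex w : ℍ) : ℂ) : ℂ → ℂ)
      ((A.val.det : ℂ) / denom A τ ^ 2) (τ : ℂ) :=
    (hasStrictDerivAt_smul hdet τ).hasDerivAt
  have h2 : HasDerivAt (F ∘ ofComplex) (f (A • τ)) ((A • ofComplex (τ : ℂ) : ℍ) : ℂ) := by
    rw [ofComplex_apply]; exact hF (A • τ)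
  have h3 := h2.comp (τ : ℂ) h1
  have h4 : (F ∘ ofComplex) ∘ (fun w : ℂ ↦ ((A • ofComplex w : ℍ) : ℂ)) =
      (fun w ↦ F (A • w)) ∘ ofComplex := by
    ext w
    simp only [Function.comp_apply, ofComplex_apply]
  rw [h4] at h3
  refine h3.congr_deriv ?_
  rw [ModularForm.slash_apply]
  have hσ : UpperHalfPlane.σ A = .refl ℝ ℂ := by
    rw [UpperHalfPlane.σ, if_pos hA]
  rw [hσ, ContinuousAlgEquiv.refl_apply, abs_of_pos hA, Matrix.GeneralLinearGroup.val_det_apply,
    zpow_neg, show (2 : ℤ) - 1 = 1 from rfl, zpow_one, div_eq_mul_inv, mul_assoc]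
  rfl

theorem isPrim_finset_sum {ι : Type*} (s : Finset ι) (f F : ι → ℍ → ℂ)
    (h : ∀ i ∈ s, IsPrim (f i) (F i)) : IsPrim (∑ i ∈ s, f i) (∑ i ∈ s, F i) := by
  classical
  induction s using Finset.induction_on with
  | empty =>
    intro τ
    simp only [Finset.sum_empty]
    exact hasDerivAt_const _ _
  | insert a s ha ih =>
    rw [Finset.sum_insert ha, Finset.sum_insert ha]
    exact (h a (Finset.mem_insert_self a s)).add
      (ih fun i hi => h i (Finset.mem_insert_of_mem hi))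

theorem per_eq_of_isPrim {Γ : Subgroup SL(2, ℤ)} [Γ.FiniteIndex]
    {f : CuspForm (Γ : Subgroup (GL (Fin 2) ℝ)) 2} {F : ℍ → ℂ} (hF : IsPrim f F) (γ : Γ)
    (z : ℍ) : per f (Additive.ofMul γ) = F ((γ : SL(2, ℤ)) • z) - F z := by
  have h1 := (prm_spec f).per_apply γ z
  have h2 := (prm_spec f).prim.sub_eq_sub hF ((γ : SL(2, ℤ)) • z) z
  rw [h1]
  linear_combination h2

variable {M : ℕ}

section

variable {n : ℤ} {a : ZMod M} {X : Type*} [Fintype X] (S : IntSys M n a X)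
  (Γ : Subgroup SL(2, ℤ)) [hΓ : Between M Γ] [Γ.FiniteIndex]

theorem isPrim_slashSum {f F : ℍ → ℂ} (hF : IsPrim f F) :
    IsPrim (S.slashSum 2 f) ((S.sys Γ).addOp F) := by
  have h1 := isPrim_finset_sum (Finset.univ : Finset X) (fun x => f ∣[(2 : ℤ)] S.glRep x)
    (fun x τ => F (S.glRep x • τ)) fun x _ => isPrim_smulGL hF _ (S.det_glRep_pos x)
  have h2 : (S.sys Γ).addOp F = ∑ x : X, fun τ => F (S.glRep x • τ) := by
    ext τ
    simp [CosetSys.addOp]
  rw [h2]
  exact h1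

/-- Equivariance of the period map. -/
theorem per_cuspLin (f : CuspForm Γ 2) :
    per (S.cuspLin Γ 2 f) = (S.sys Γ).addTransfer (per f) := by
  have hF := (prm_spec f).prim
  have h1 : IsPrim (S.cuspLin Γ 2 f) ((S.sys Γ).addOp (prm f)) := isPrim_slashSum S Γ hF
  refine AddMonoidHom.ext fun γ => ?_
  obtain ⟨γ, rfl⟩ := Additive.ofMul.surjective γ
  rw [per_eq_of_isPrim h1 γ UpperHalfPlane.I]
  have h2 := (S.sys Γ).addOp_smul (per f) (prm f) (fun g τ => by
    have h3 := per_eq_of_isPrim hF g τ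
    have h4 : iotaG Γ g • τ = (g : SL(2, ℤ)) • τ := rfl
    rw [h3, h4]; ring) γ UpperHalfPlane.I
  have h3 : iotaG Γ γ • UpperHalfPlane.I = (γ : SL(2, ℤ)) • UpperHalfPlane.I := rfl
  rw [h3] at h2
  rw [h2]; ring

end

section

variable (Γ : Subgroup SL(2, ℤ)) [hΓ : Between M Γ] [Γ.FiniteIndex]

theorem per_tCusp (p : ℕ) [Fact p.Prime] (f : CuspForm Γ 2) :
    per (tCusp M Γ 2 p f) = tOp M ℂ Γ ℂ p (per f) := per_cuspLin (hSys M p) Γ f

theorem per_dCusp (u : (ZMod M)ˣ) (f : CuspForm Γ 2) :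
    per (dCusp M Γ 2 u f) = dOp M ℂ Γ ℂ u (per f) := per_cuspLin (diaSys M u) Γ f

end

theorem per_injective (Γ : Subgroup SL(2, ℤ)) [Γ.FiniteIndex] :
    Function.Injective (fun f : CuspForm Γ 2 => per f) := by
  intro f g h
  have h1 : perLin Γ (f - g) = 0 := by
    rw [map_sub, sub_eq_zero]; exact h
  have h2 : f - g = 0 := by
    refine eq_zero_of_re_per (f := f - g) fun γ => ?_
    have h3 := DFunLike.congr_fun h1 (Additive.ofMul γ)
    have h4 : per (f - g) (Additive.ofMul γ) = 0 := h3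
    rw [h4, Complex.zero_re]
  exact sub_eq_zero.mp h2

end Fermat.Agent.X1

end
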