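import Fermat.Agent.X1.HeckeDecomp
import Fermat.Agent.X1.HeckePeriod
import Fermat.Agent.X1.HeckeCoeff
import Mathlib.RingTheory.Ideal.GoingUp

/-!
# Mod `ℓ` eigenclasses attached to weight two forms which are eigenforms mod `ℓ`
-/

set_option autoImplicit false

noncomputable section

open UpperHalfPlane CongruenceSubgroup Matrix.SpecialLinearGroup
open scoped MatrixGroups ModularForm

namespace Fermat.Agent.X1

open Fermat.Agent.HeckePar Fermat.Agent.GenES ModularCurve.Period ModularFormClass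

/-- algebraic integers in `ℂ` -/
abbrev Zbar : Type := integralClosure ℤ ℂ

instance : IsAddTorsionFree Zbar :=
  Function.Injective.isAddTorsionFree (integralClosure ℤ ℂ).val.toAddMonoidHom
    Subtype.val_injective

theorem ker_isMaximal {k : Type*} [Field k] (l : ℕ) [hl : Fact l.Prime] [CharP k l]
    (φ : Zbar →+* k) : (RingHom.ker φ).IsMaximal := by
  have hprime : (RingHom.ker φ).IsPrime := RingHom.ker_isPrime φ
  have : Algebra.IsIntegral ℤ Zbar := inferInstance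
  refine Ideal.isMaximal_of_isIntegral_of_isMaximal_comap (R := ℤ) (RingHom.ker φ) ?_
  have h1 : (RingHom.ker φ).comap (algebraMap ℤ Zbar) = Ideal.span {(l : ℤ)} := by
    ext n
    rw [Ideal.mem_comap, RingHom.mem_ker, Ideal.mem_span_singleton, eq_intCast, map_intCast]
    exact CharP.intCast_eq_zero_iff k l n
  rw [h1]
  exact PrincipalIdealRing.isMaximal_of_irreducible
    (Int.prime_iff_natAbs_prime.mpr (by simpa using hl.out)).irreducible

section Lattice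

variable {M : ℕ} (Γ : Subgroup SL(2, ℤ)) [hΓ : Between M Γ] [Γ.FiniteIndex]
  {k : Type*} [Field k] (φ : Zbar →+* k) (ψ : (ZMod M)ˣ → Zbar)

/-- Forms with nebentypus `ψ` whose coefficients are algebraic integers in the kernel of `φ`. -/
def latt : AddSubgroup (CuspForm Γ 2) where
  carrier := {h | (∀ u, dCusp M Γ 2 u h = (ψ u : ℂ) • h) ∧
    ∀ n, ∃ a : Zbar, (a : ℂ) = qCoeff h n ∧ φ a = 0}
  zero_mem' := by
    refine ⟨fun u => by rw [map_zero, smul_zero], fun n => ⟨0, ?_, map_zero φ⟩⟩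
    exact ((qLin M Γ 2 n).map_zero).symm
  add_mem' := by
    rintro x y ⟨hx1, hx2⟩ ⟨hy1, hy2⟩
    refine ⟨fun u => by rw [map_add, smul_add, hx1, hy1], fun n => ?_⟩
    obtain ⟨a, ha, ha'⟩ := hx2 n
    obtain ⟨b, hb, hb'⟩ := hy2 n
    refine ⟨a + b, ?_, by rw [map_add, ha', hb', add_zero]⟩
    have h1 := (qLin M Γ 2 n).map_add x y
    simp only [qLin_apply] at h1
    rw [h1, ← ha, ← hb]
    rfl
  neg_mem' := by
    rintro x ⟨hx1, hx2⟩
    refine ⟨fun u => by rw [map_neg, smul_neg, hx1], fun n => ?_⟩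
    obtain ⟨a, ha, ha'⟩ := hx2 n
    refine ⟨-a, ?_, by rw [map_neg, ha', neg_zero]⟩
    have h1 := (qLin M Γ 2 n).map_neg x
    simp only [qLin_apply] at h1
    rw [h1, ← ha]
    rfl

variable {Γ φ ψ}

theorem smul_mem_latt (c : Zbar) {h : CuspForm Γ 2} (hh : h ∈ latt Γ φ ψ) :
    (c : ℂ) • h ∈ latt Γ φ ψ := by
  obtain ⟨h1, h2⟩ := hh
  refine ⟨fun u => by rw [map_smul, h1, smul_comm], fun n => ?_⟩
  obtain ⟨a, ha, ha'⟩ := h2 n
  refine ⟨c * a, ?_, by rw [map_mul, ha', mul_zero]⟩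
  have h3 := (qLin M Γ 2 n).map_smul (c : ℂ) h
  simp only [qLin_apply] at h3
  rw [h3, ← ha]
  rfl

theorem dCusp_mem_latt (u : (ZMod M)ˣ) {h : CuspForm Γ 2} (hh : h ∈ latt Γ φ ψ) :
    dCusp M Γ 2 u h ∈ latt Γ φ ψ := by
  rw [hh.1 u]
  exact smul_mem_latt (ψ u) hh

theorem qCoeff_tCusp_of_eigen (p : ℕ) [hp : Fact p.Prime] (hpM : ¬ p ∣ M) {h : CuspForm Γ 2}
    (hh : ∀ u, dCusp M Γ 2 u h = (ψ u : ℂ) • h) (n : ℕ) :
    qCoeff (tCusp M Γ 2 p h) n = qCoeff h (n * p) +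
      if p ∣ n then (p : ℂ) * ((ψ (pUnit M p) : ℂ) * qCoeff h (n / p)) else 0 := by
  rw [qCoeff_tCusp Γ 2 p hpM, hh]
  have h3 := (qLin M Γ 2 (n / p)).map_smul (ψ (pUnit M p) : ℂ) h
  simp only [qLin_apply] at h3
  rw [h3]
  norm_num

theorem tCusp_mem_latt (p : ℕ) [hp : Fact p.Prime] {h : CuspForm Γ 2} (hh : h ∈ latt Γ φ ψ) :
    tCusp M Γ 2 p h ∈ latt Γ φ ψ := by
  refine ⟨fun u => by rw [dCusp_tCusp_comm, hh.1 u, map_smul], fun n => ?_⟩
  by_cases hpM : p ∣ M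
  · rw [qCoeff_tCusp_of_dvd Γ 2 p hpM]
    exact hh.2 _
  · obtain ⟨a, ha, ha'⟩ := hh.2 (n * p)
    obtain ⟨b, hb, hb'⟩ := hh.2 (n / p)
    rw [qCoeff_tCusp_of_eigen p hpM hh.1]
    split_ifs with hpn
    · refine ⟨a + (p : Zbar) * (ψ (pUnit M p) * b), ?_, ?_⟩
      · rw [← ha, ← hb]; push_cast; rfl
      · rw [map_add, map_mul, map_mul, ha', hb']; ring
    · exact ⟨a, by rw [ha, add_zero], ha'⟩

end Lattice

section Main

variable {M : ℕ} (Γ : Subgroup SL(2, ℤ)) [hΓ : Between M Γ] [Γ.FiniteIndex]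

/-- inclusion of coefficients -/
def inclC : (Additive Γ →+ Zbar) → (Additive Γ →+ ℂ) :=
  fun c => ((integralClosure ℤ ℂ).val.toAddMonoidHom).comp c

/-- Hecke operators on integral parabolic homs. -/
def tL (p : ℕ) [Fact p.Prime] : Module.End Zbar (parabolicHoms Zbar Γ Zbar) :=
  (tOp M Zbar Γ Zbar p).restrict fun _ hx => isParabolicHom_tOp M Zbar Γ p hx

/-- diamond operators on integral parabolic homs. -/
def dL (u : (ZMod M)ˣ) : Module.End Zbar (parabolicHoms Zbar Γ Zbar) :=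
  (dOp M Zbar Γ Zbar u).restrict fun _ hx => isParabolicHom_dOp M Zbar Γ u hx

/-- index set: primes in `P`, and units of `ZMod M`. -/
abbrev GIdx (M : ℕ) (P : Set ℕ) : Type := {p : Nat.Primes // (p : ℕ) ∈ P} ⊕ (ZMod M)ˣ

variable (P : Set ℕ)

/-- the generators acting on integral parabolic homs. -/
def genL : GIdx M P → Module.End Zbar (parabolicHoms Zbar Γ Zbar)
  | Sum.inl p => haveI : Fact (p.1 : ℕ).Prime := ⟨p.1.2⟩; tL (M := M) Γ (p.1 : ℕ)
  | Sum.inr u => dL (M := M) Γ u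

/-- the generators acting on complex homs. -/
def genC : GIdx M P → Module.End ℂ (Additive Γ →+ ℂ)
  | Sum.inl p => haveI : Fact (p.1 : ℕ).Prime := ⟨p.1.2⟩; tOp M ℂ Γ ℂ (p.1 : ℕ)
  | Sum.inr u => dOp M ℂ Γ ℂ u

/-- the generators acting on cusp forms. -/
def genG : GIdx M P → Module.End ℂ (CuspForm Γ 2)
  | Sum.inl p => haveI : Fact (p.1 : ℕ).Prime := ⟨p.1.2⟩; tCusp M Γ 2 (p.1 : ℕ)
  | Sum.inr u => dCusp M Γ 2 u

/-- the system of eigenvalues -/
def genA (t : ℕ → Zbar) (ψ : (ZMod M)ˣ → Zbar) : GIdx M P → Zbar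
  | Sum.inl p => t (p.1 : ℕ)
  | Sum.inr u => ψ u

omit [Γ.FiniteIndex] in
theorem genL_comm (i j : GIdx M P) : genL Γ P i * genL Γ P j = genL Γ P j * genL Γ P i := by
  refine LinearMap.ext fun x => Subtype.ext ?_
  rcases i with p | u <;> rcases j with q | v
  · have : Fact (p.1 : ℕ).Prime := ⟨p.1.2⟩
    have : Fact (q.1 : ℕ).Prime := ⟨q.1.2⟩
    exact tOp_comm M Zbar Γ Zbar (p.1 : ℕ) (q.1 : ℕ) (x : Additive Γ →+ Zbar)
  · have : Fact (p.1 : ℕ).Prime := ⟨p.1.2⟩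
    exact (dOp_tOp_comm M Zbar Γ Zbar v (p.1 : ℕ) (x : Additive Γ →+ Zbar)).symm
  · have : Fact (q.1 : ℕ).Prime := ⟨q.1.2⟩
    exact dOp_tOp_comm M Zbar Γ Zbar u (q.1 : ℕ) (x : Additive Γ →+ Zbar)
  · exact dOp_comm M Zbar Γ Zbar u v (x : Additive Γ →+ Zbar)

omit [Γ.FiniteIndex] in
theorem genC_incl (i : GIdx M P) (c : parabolicHoms Zbar Γ Zbar) :
    genC Γ P i (inclC Γ c) = inclC Γ (genL Γ P i c : parabolicHoms Zbar Γ Zbar) := by
  rcases i with p | u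
  · have : Fact (p.1 : ℕ).Prime := ⟨p.1.2⟩
    exact ((hSys M (p.1 : ℕ)).sys Γ).addTransfer_comp _ _
  · exact ((diaSys M u).sys Γ).addTransfer_comp _ _

theorem per_genG (i : GIdx M P) (h : CuspForm Γ 2) :
    per (genG Γ P i h) = genC Γ P i (per h) := by
  rcases i with p | u
  · have : Fact (p.1 : ℕ).Prime := ⟨p.1.2⟩
    exact per_tCusp Γ (p.1 : ℕ) h
  · exact per_dCusp Γ u h

theorem genG_mem_latt {k : Type*} [Field k] {φ : Zbar →+* k} {ψ : (ZMod M)ˣ → Zbar}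
    (i : GIdx M P) {h : CuspForm Γ 2} (hh : h ∈ latt Γ φ ψ) : genG Γ P i h ∈ latt Γ φ ψ := by
  rcases i with p | u
  · have : Fact (p.1 : ℕ).Prime := ⟨p.1.2⟩
    exact tCusp_mem_latt (p.1 : ℕ) hh
  · exact dCusp_mem_latt u hh

omit [Γ.FiniteIndex] hΓ in
/-- a `ℂ`-linear operator killing integral parabolic classes kills the complex ones. -/
theorem eq_zero_of_incl (hfg : Group.FG Γ) (sC : (Additive Γ →+ ℂ) →ₗ[ℂ] (Additive Γ →+ ℂ))
    (h : ∀ c : parabolicHoms Zbar Γ Zbar, sC (inclC Γ c) = 0) (x : Additive Γ →+ ℂ)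
    (hx : IsParabolicHom Γ x) : sC x = 0 := by
  obtain ⟨n, c, l, hl, hd⟩ := exists_par_decomposition x hx
  have h1 : x = ∑ i, c i • inclC Γ (extHom Zbar Γ (l i)) := by
    refine AddMonoidHom.ext fun y => ?_
    rw [hd, AddMonoidHom.finsetSum_apply]
    refine Finset.sum_congr rfl fun i _ => ?_
    rw [AddMonoidHom.smul_apply, zsmul_eq_mul, smul_eq_mul, mul_comm]
    rfl
  rw [h1, map_sum]
  refine Finset.sum_eq_zero fun i _ => ?_
  rw [map_smul, h ⟨extHom Zbar Γ (l i), isParabolicHom_extHom (hl i)⟩, smul_zero]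

/-- the predicate carried along the subalgebra generated by the Hecke operators. -/
def Good {k : Type*} [Field k] (φ : Zbar →+* k) (ψ : (ZMod M)ˣ → Zbar) (g : CuspForm Γ 2)
    (s : Module.End Zbar (parabolicHoms Zbar Γ Zbar) × Zbar) : Prop :=
  ∃ (sC : (Additive Γ →+ ℂ) →ₗ[ℂ] (Additive Γ →+ ℂ)) (sG : CuspForm Γ 2 →ₗ[ℂ] CuspForm Γ 2),
    (∀ c : parabolicHoms Zbar Γ Zbar, sC (inclC Γ c) = inclC Γ (s.1 c : parabolicHoms Zbar Γ Zbar)) ∧
    (∀ h, per (sG h) = sC (per h)) ∧ (∀ h ∈ latt Γ φ ψ, sG h ∈ latt Γ φ ψ) ∧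
    sG g - (s.2 : ℂ) • g ∈ latt Γ φ ψ

variable {Γ P}

omit [Γ.FiniteIndex] in
theorem inclC_add (a b : Additive Γ →+ Zbar) : inclC Γ (a + b) = inclC Γ a + inclC Γ b := by
  refine AddMonoidHom.ext fun y => ?_
  show (((a + b) y : Zbar) : ℂ) = ((a y : Zbar) : ℂ) + ((b y : Zbar) : ℂ)
  rw [AddMonoidHom.add_apply]
  push_cast
  rfl

omit [Γ.FiniteIndex] in
theorem inclC_smul (c : Zbar) (a : Additive Γ →+ Zbar) :
    inclC Γ (c • a) = (c : ℂ) • inclC Γ a := by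
  refine AddMonoidHom.ext fun y => ?_
  show (((c • a) y : Zbar) : ℂ) = (c : ℂ) * ((a y : Zbar) : ℂ)
  rw [AddMonoidHom.smul_apply]
  rfl

variable {k : Type*} [Field k] {φ : Zbar →+* k} {ψ : (ZMod M)ˣ → Zbar} {g : CuspForm Γ 2}

theorem good_algebraMap (c : Zbar) :
    Good Γ φ ψ g (algebraMap Zbar (Module.End Zbar (parabolicHoms Zbar Γ Zbar) × Zbar) c) := by
  refine ⟨(c : ℂ) • LinearMap.id, (c : ℂ) • LinearMap.id, fun x => ?_, fun h => ?_, fun h hh => ?_, ?_⟩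
  · rw [LinearMap.smul_apply, LinearMap.id_apply, ← inclC_smul]
    rfl
  · rw [LinearMap.smul_apply, LinearMap.id_apply, LinearMap.smul_apply, LinearMap.id_apply]
    exact (perLin Γ).map_smul (c : ℂ) h
  · rw [LinearMap.smul_apply, LinearMap.id_apply]
    exact smul_mem_latt c hh
  · rw [LinearMap.smul_apply, LinearMap.id_apply]
    have : (((algebraMap Zbar (Module.End Zbar (parabolicHoms Zbar Γ Zbar) × Zbar) c).2 : Zbar) : ℂ)
      = (c : ℂ) := rfl
    rw [this, sub_self]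
    exact zero_mem _

theorem good_add {s s' : Module.End Zbar (parabolicHoms Zbar Γ Zbar) × Zbar}
    (hs : Good Γ φ ψ g s) (hs' : Good Γ φ ψ g s') : Good Γ φ ψ g (s + s') := by
  obtain ⟨sC, sG, h1, h2, h3, h4⟩ := hs
  obtain ⟨sC', sG', h1', h2', h3', h4'⟩ := hs'
  refine ⟨sC + sC', sG + sG', fun x => ?_, fun h => ?_, fun h hh => ?_, ?_⟩
  · rw [LinearMap.add_apply, h1, h1', ← inclC_add]
    rfl
  · rw [LinearMap.add_apply, LinearMap.add_apply, ← h2, ← h2']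
    exact (perLin Γ).map_add _ _
  · rw [LinearMap.add_apply]
    exact add_mem (h3 h hh) (h3' h hh)
  · have h5 : (((s + s').2 : Zbar) : ℂ) = (s.2 : ℂ) + (s'.2 : ℂ) := rfl
    rw [LinearMap.add_apply, h5, add_smul, add_sub_add_comm]
    exact add_mem h4 h4'

theorem good_mul {s s' : Module.End Zbar (parabolicHoms Zbar Γ Zbar) × Zbar}
    (hs : Good Γ φ ψ g s) (hs' : Good Γ φ ψ g s') : Good Γ φ ψ g (s * s') := by
  obtain ⟨sC, sG, h1, h2, h3, h4⟩ := hs
  obtain ⟨sC', sG', h1', h2', h3', h4'⟩ := hs'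
  refine ⟨sC ∘ₗ sC', sG ∘ₗ sG', fun x => ?_, fun h => ?_, fun h hh => ?_, ?_⟩
  · rw [LinearMap.comp_apply, h1', h1]
    rfl
  · rw [LinearMap.comp_apply, LinearMap.comp_apply, h2, h2']
  · exact h3 _ (h3' h hh)
  · have h5 : (((s * s').2 : Zbar) : ℂ) = (s'.2 : ℂ) * (s.2 : ℂ) := by
      rw [mul_comm]; rfl
    have h6 := add_mem (h3 _ h4') (smul_mem_latt s'.2 h4)
    rw [map_sub, map_smul] at h6
    rw [LinearMap.comp_apply, h5, mul_smul]
    convert h6 using 1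
    rw [smul_sub]
    abel

variable (Γ P φ ψ g)

/-- **Mod `ℓ` eigenclasses.** -/
theorem exists_eigenclass (l : ℕ) [Fact l.Prime] [CharP k l]
    (hψ : ∀ u, dCusp M Γ 2 u g = (ψ u : ℂ) • g)
    (hint : ∀ n, ∃ a : Zbar, (a : ℂ) = qCoeff g n)
    (hne : ∃ (n : ℕ) (a : Zbar), (a : ℂ) = qCoeff g n ∧ φ a ≠ 0)
    (t : ℕ → Zbar)
    (hT : ∀ (p : ℕ) [Fact p.Prime], p ∈ P → ∀ (n : ℕ) (b c : Zbar),
      (b : ℂ) = qCoeff (tCusp M Γ 2 p g) n → (c : ℂ) = qCoeff g n → φ b = φ (t p) * φ c) :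
    ∃ c : Additive Γ →+ k, c ≠ 0 ∧ IsParabolicHom Γ c ∧
      (∀ (p : ℕ) [Fact p.Prime], p ∈ P → tOp M k Γ k p c = φ (t p) • c) ∧
      ∀ u, dOp M k Γ k u c = φ (ψ u) • c := by
  have hfg : Group.FG Γ := fg_of_finiteIndex Γ
  have hmax : (RingHom.ker φ).IsMaximal := ker_isMaximal l φ
  -- the generators are good
  have hgen : ∀ i : GIdx M P, Good Γ φ ψ g (genL Γ P i, genA P t ψ i) := by
    intro i
    refine ⟨genC Γ P i, genG Γ P i, genC_incl Γ P i, per_genG Γ P i,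
      fun h hh => genG_mem_latt Γ P i hh, ?_⟩
    rcases i with p | u
    · have : Fact (p.1 : ℕ).Prime := ⟨p.1.2⟩
      show tCusp M Γ 2 (p.1 : ℕ) g - (t (p.1 : ℕ) : ℂ) • g ∈ latt Γ φ ψ
      refine ⟨fun u => ?_, fun n => ?_⟩
      · rw [map_sub, map_smul, dCusp_tCusp_comm, hψ, map_smul, smul_sub, smul_comm]
      · obtain ⟨c, hc⟩ := hint n
        obtain ⟨c1, hc1⟩ := hint (n * (p.1 : ℕ))
        obtain ⟨c2, hc2⟩ := hint (n / (p.1 : ℕ))
        have hb : ∃ b : Zbar, (b : ℂ) = qCoeff (tCusp M Γ 2 (p.1 : ℕ) g) n := by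
          by_cases hpM : (p.1 : ℕ) ∣ M
          · exact ⟨c1, by rw [qCoeff_tCusp_of_dvd Γ 2 _ hpM, hc1]⟩
          · rw [qCoeff_tCusp_of_eigen (ψ := ψ) (p.1 : ℕ) hpM hψ]
            split_ifs with hpn
            · refine ⟨c1 + ((p.1 : ℕ) : Zbar) * (ψ (pUnit M (p.1 : ℕ)) * c2), ?_⟩
              rw [← hc1, ← hc2]; push_cast; rfl
            · exact ⟨c1, by rw [hc1, add_zero]⟩
        obtain ⟨b, hb⟩ := hb
        refine ⟨b - t (p.1 : ℕ) * c, ?_, ?_⟩
        · have h1 := (qLin M Γ 2 n).map_sub (tCusp M Γ 2 (p.1 : ℕ) g) ((t (p.1 : ℕ) : ℂ) • g)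
          rw [map_smul] at h1
          simp only [qLin_apply] at h1
          rw [h1, ← hb, ← hc]
          rfl
        · rw [map_sub, map_mul, hT (p.1 : ℕ) p.2 n b c hb hc, sub_self]
    · show dCusp M Γ 2 u g - (ψ u : ℂ) • g ∈ latt Γ φ ψ
      rw [hψ, sub_self]
      exact zero_mem _
  -- the commutative algebra generated
  let gen : GIdx M P → Module.End Zbar (parabolicHoms Zbar Γ Zbar) × Zbar :=
    fun i => (genL Γ P i, genA P t ψ i)
  have hcomm : ∀ x ∈ Set.range gen, ∀ y ∈ Set.range gen, x * y = y * x := by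
    rintro _ ⟨i, rfl⟩ _ ⟨j, rfl⟩
    exact Prod.ext (genL_comm Γ P i j) (mul_comm _ _)
  let R : Subalgebra Zbar (Module.End Zbar (parabolicHoms Zbar Γ Zbar) × Zbar) :=
    Algebra.adjoin Zbar (Set.range gen)
  have hgood : ∀ s ∈ R, Good Γ φ ψ g s := by
    intro s hs
    induction hs using Algebra.adjoin_induction with
    | mem x hx => obtain ⟨i, rfl⟩ := hx; exact hgen i
    | algebraMap c => exact good_algebraMap c
    | add x y _ _ hx hy => exact good_add hx hy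
    | mul x y _ _ hx hy => exact good_mul hx hy
  have hmc : IsMulCommutative R := Algebra.isMulCommutative_adjoin Zbar hcomm
  have hfinite : Module.Finite Zbar (parabolicHoms Zbar Γ Zbar) := finite_parabolicHoms Zbar Γ
  obtain ⟨x, hx1, hx2⟩ := exists_eigen_of_subalgebra (RingHom.ker φ) R hmc (by
    intro r hrR hr
    obtain ⟨sC, sG, h1, h2, -, h4⟩ := hgood r hrR
    have h5 : sC (per g) = 0 := by
      refine eq_zero_of_incl Γ hfg sC (fun c => ?_) (per g) (per_mem_parabolicHoms g)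
      rw [h1 c, hr]
      exact AddMonoidHom.ext fun _ => rfl
    have h6 : sG g = 0 := per_injective Γ (by
      show per (sG g) = per 0
      rw [h2, h5]
      exact ((perLin Γ).map_zero).symm)
    rw [h6, zero_sub] at h4
    obtain ⟨n, a, ha, hφa⟩ := hne
    obtain ⟨b, hb, hb'⟩ := (neg_mem h4).2 n
    rw [neg_neg] at hb
    have h7 := (qLin M Γ 2 n).map_smul (r.2 : ℂ) g
    simp only [qLin_apply] at h7
    rw [h7, ← ha] at hb
    have h8 : b = r.2 * a := Subtype.ext hb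
    rw [h8, map_mul] at hb'
    exact (mul_eq_zero.mp hb').resolve_right hφa)
  refine ⟨φ.toAddMonoidHom.comp (x : Additive Γ →+ Zbar), fun h0 => hx1 ?_, fun γ hγ => ?_,
    fun p _ hp => ?_, fun u => ?_⟩
  · refine mem_smul_top_of_forall_mem _ _ fun y => ?_
    exact DFunLike.congr_fun h0 y
  · show φ ((x : Additive Γ →+ Zbar) (Additive.ofMul γ)) = 0
    rw [x.2 γ hγ, map_zero]
  · have h1 := hx2 (gen (Sum.inl ⟨⟨p, Fact.out⟩, hp⟩)) (Algebra.subset_adjoin (Set.mem_range_self _))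
    refine AddMonoidHom.ext fun y => ?_
    have h2 := forall_mem_of_mem_smul_top _ _ h1 y
    rw [RingHom.mem_ker] at h2
    have h3 : tOp M k Γ k p (φ.toAddMonoidHom.comp (x : Additive Γ →+ Zbar)) =
        φ.toAddMonoidHom.comp (tOp M Zbar Γ Zbar p x) :=
      ((hSys M p).sys Γ).addTransfer_comp _ _
    rw [h3]
    have h4 : φ ((tOp M Zbar Γ Zbar p x : Additive Γ →+ Zbar) y - t p * (x : Additive Γ →+ Zbar) y) =
      0 := h2
    rw [map_sub, map_mul, sub_eq_zero] at h4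
    exact h4
  · have h1 := hx2 (gen (Sum.inr u)) (Algebra.subset_adjoin (Set.mem_range_self _))
    refine AddMonoidHom.ext fun y => ?_
    have h2 := forall_mem_of_mem_smul_top _ _ h1 y
    rw [RingHom.mem_ker] at h2
    have h3 : dOp M k Γ k u (φ.toAddMonoidHom.comp (x : Additive Γ →+ Zbar)) =
        φ.toAddMonoidHom.comp (dOp M Zbar Γ Zbar u x) :=
      ((diaSys M u).sys Γ).addTransfer_comp _ _
    rw [h3]
    have h4 : φ ((dOp M Zbar Γ Zbar u x : Additive Γ →+ Zbar) y - ψ u * (x : Additive Γ →+ Zbar) y) =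
      0 := h2
    rw [map_sub, map_mul, sub_eq_zero] at h4
    exact h4

end Main

end Fermat.Agent.X1

end
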