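import Fermat.Agent.X1.WtOne
import Fermat.Agent.X1.HeckeEigen
import Fermat.Agent.DS.EOmega

/-!
# The eigenclass statements of `X1/Interface` hold
-/

set_option autoImplicit false

noncomputable section

open CongruenceSubgroup
open scoped MatrixGroups ModularForm

namespace Fermat.Agent.X1

open ModularCurve.Period ModularFormClass

theorem eigenclass (M l : ℕ) [NeZero M] [Fact l.Prime] : Eigenclass M l := by
  intro g ψ hψ hint k _ _ φ hne t hT
  exact exists_eigenclass (Gamma1 M) {p | ¬ p ∣ M} φ ψ g l hψ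
    (fun n => ⟨⟨qCoeff g n, hint n⟩, rfl⟩) hne t (fun p _ hp n b c => hT p hp n b c)

theorem wtOneEigenclass (N l : ℕ) [NeZero N] [NeZero (N * l)] [hl : Fact l.Prime] (hl3 : 3 ≤ l) :
    WtOneEigenclass N l :=
  wtOneEigenclass_of N l (eOmega_of_prime hl.out hl3) (eigenclass (N * l) l)

end Fermat.Agent.X1

end
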