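import Fermat.Agent.DS.Assembly
import Fermat.Agent.DS.ChebotarevProof
import Fermat.Agent.DS.IntGamma
import Fermat.Agent.DS.RankinPrimes
import Fermat.Agent.X1.WtOneMain

/-!
# Deligne--Serre from the mod `ℓ` Eichler--Shimura package on `Γ₁(M)`
-/

set_option autoImplicit false

open CongruenceSubgroup UpperHalfPlane ModularFormClass
open scoped MatrixGroups

noncomputable section

namespace Fermat.Agent.X1

open Fermat.Agent.DS

/-- `ModL N ℓ` from the Eichler--Shimura package. -/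
theorem modL_of_es1 (N ℓ : ℕ) [NeZero N] [Fact ℓ.Prime] [NeZero (N * ℓ)] (hℓ : 3 ≤ ℓ)
    (E : ES1 (N * ℓ) ℓ) : ModL N ℓ :=
  modL_of N (by omega) E (wtOneEigenclass N ℓ hℓ) (oddChar N)

/-- **Deligne--Serre** (S48) from the Eichler--Shimura package at level `N ℓ`, for all large `ℓ`. -/
theorem deligneSerre_of_es1
    (hES : ∀ (M ℓ : ℕ) [NeZero M] [Fact ℓ.Prime], 5 ≤ ℓ → ℓ ∣ M → Nonempty (ES1 M ℓ))
    (N : ℕ) [NeZero N] (ε : DirichletCharacter ℂ N) (f : CuspForm (Gamma1 N) 1)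
    (hf₁ : ModularFormClass.qCoeff f 1 = 1)
    (hT : ∀ p : ℕ, p.Prime → ¬ p ∣ N → ∀ n : ℕ,
        ModularFormClass.qCoeff f (p * n) +
            ε (p : ZMod N) * (if p ∣ n then ModularFormClass.qCoeff f (n / p) else 0) =
          ModularFormClass.qCoeff f p * ModularFormClass.qCoeff f n) :
    ∃ ρ : GQ →* GL (Fin 2) ℂ, GaloisFactorsThroughFiniteLevel ρ ∧
      (Deformation.matrixRepresentation ρ).IsIrreducible ∧
      ∀ p : ℕ, p.Prime → ¬ p ∣ N →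
        ∀ A : ValuationSubring (AlgebraicClosure ℚ), A.LiesOverPrime p →
          (∀ σ ∈ A.inertiaSubgroupIn ℚ, ρ σ = 1) ∧
          ∀ σ : GQ, A.IsFrobeniusAt σ p →
            ((ρ σ : GL (Fin 2) ℂ) : Matrix (Fin 2) (Fin 2) ℂ).trace = qCoeff f p ∧
            ((ρ σ : GL (Fin 2) ℂ) : Matrix (Fin 2) (Fin 2) ℂ).det = ε (p : ZMod N) := by
  refine deligneSerre (sigmaStable N) (intSpan N) (oddChar N) chebotarev (rankin_primes N)
    ⟨5, fun ℓ hℓ h5 => ?_⟩ (f := f) ⟨hf₁, fun p hp hpN n => hT p hp hpN n⟩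
  have : Fact ℓ.Prime := ⟨hℓ⟩
  have : NeZero (N * ℓ) := ⟨mul_ne_zero (NeZero.ne N) hℓ.ne_zero⟩
  obtain ⟨E⟩ := hES (N * ℓ) ℓ h5 (dvd_mul_left ℓ N)
  exact modL_of_es1 N ℓ (by omega) E

end Fermat.Agent.X1

end
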