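import Fermat.Agent.X1.HeckeOps
import Mathlib.GroupTheory.Perm.Cycle.Basic

/-!
# The Hecke operators preserve parabolic homomorphisms (with arbitrary coefficients)
-/

set_option autoImplicit false

noncomputable section

open CongruenceSubgroup Matrix.SpecialLinearGroup
open scoped MatrixGroups ModularForm

namespace Fermat.Agent.X1

open Fermat.Agent.HeckePar

/-- If all the sums over the cycles of a permutation vanish then the total sum vanishes. -/
theorem sum_eq_zero_of_cycles {X A : Type*} [Fintype X] [AddCommGroup A] (σ : Equiv.Perm X)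
    (F : X → A) (h : ∀ (x : X) (n : ℕ), 0 < n → (σ ^ n) x = x →
      ∑ i ∈ Finset.range n, F ((σ ^ i) x) = 0) :
    ∑ x, F x = 0 := by
  classical
  have key : ∀ s : Finset X, (∀ x ∈ s, σ x ∈ s) → ∑ x ∈ s, F x = 0 := by
    intro s
    induction s using Finset.strongInduction with
    | H s ih =>
      intro hs
      rcases s.eq_empty_or_nonempty with rfl | ⟨x, hx⟩
      · simp
      · -- the orbit of `x`
        have hn0 : 0 < Function.minimalPeriod σ x := by
          have h1 : (orderOf σ) ≠ 0 := (orderOf_pos σ).ne'
          have h2 : Function.IsPeriodicPt σ (orderOf σ) x := by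
            rw [Function.IsPeriodicPt, Function.IsFixedPt, ← Equiv.Perm.coe_pow,
              pow_orderOf_eq_one]
            rfl
          exact h2.minimalPeriod_pos (orderOf_pos σ)
        set n := Function.minimalPeriod σ x with hn
        set O : Finset X := (Finset.range n).image (fun i => (σ ^ i) x) with hO
        have hiter : ∀ i, (σ ^ i) x = (σ^[i]) x := fun i => by rw [Equiv.Perm.iterate_eq_pow]
        have hper : (σ ^ n) x = x := by
          rw [hiter]; exact Function.iterate_minimalPeriod
        have hmem : ∀ i, (σ ^ i) x ∈ O := by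
          intro i
          rw [hO, Finset.mem_image]
          refine ⟨i % n, Finset.mem_range.mpr (Nat.mod_lt _ hn0), ?_⟩
          rw [hiter, hiter]
          exact Function.iterate_mod_minimalPeriod_eq
        have hOs : O ⊆ s := by
          intro y hy
          rw [hO, Finset.mem_image] at hy
          obtain ⟨i, -, rfl⟩ := hy
          clear * - hs hx
          induction i with
          | zero => simpa using hx
          | succ i ih => rw [pow_succ', Equiv.Perm.mul_apply]; exact hs _ ih
        have hinj : Set.InjOn (fun i => (σ ^ i) x) (Finset.range n) := by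
          intro i hi j hj hij
          simp only [Finset.coe_range, Set.mem_Iio] at hi hj
          simp only [hiter] at hij
          exact Function.iterate_injOn_Iio_minimalPeriod hi hj hij
        have hOsum : ∑ y ∈ O, F y = 0 := by
          rw [hO, Finset.sum_image hinj]
          exact h x n hn0 hper
        have hOσ : ∀ y ∈ O, σ y ∈ O := by
          intro y hy
          rw [hO, Finset.mem_image] at hy
          obtain ⟨i, -, rfl⟩ := hy
          rw [← Equiv.Perm.mul_apply, ← pow_succ']
          exact hmem _
        have hsub : s \ O ⊂ s := by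
          refine Finset.ssubset_iff_subset_ne.mpr ⟨Finset.sdiff_subset, fun h1 => ?_⟩
          have h2 : x ∈ s \ O := by rw [h1]; exact hx
          exact (Finset.mem_sdiff.mp h2).2 (by simpa using hmem 0)
        have hrest := ih (s \ O) hsub (by
          intro y hy
          rw [Finset.mem_sdiff] at hy ⊢
          refine ⟨hs y hy.1, fun h1 => hy.2 ?_⟩
          -- `σ y ∈ O` implies `y ∈ O`
          rw [hO, Finset.mem_image] at h1
          obtain ⟨i, -, hi⟩ := h1
          have h3 : y = (σ ^ (i + n - 1)) x := by
            apply σ.injective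
            rw [← Equiv.Perm.mul_apply, ← pow_succ', show i + n - 1 + 1 = i + n by omega, pow_add,
              Equiv.Perm.mul_apply, hper, hi]
          rw [h3]; exact hmem _)
        rw [← Finset.sum_sdiff hOs, hrest, hOsum, add_zero]
  exact key Finset.univ (fun x _ => Finset.mem_univ _)

/-- If all the conjugates of powers of `g` are killed by `φ`, so is `g` by the transfer. -/
theorem addTransfer_eq_zero_of_cycles {Γ G : Type*} [Group Γ] [Group G] {ι : Γ →* G} {X : Type*}
    (S : CosetSys ι X) [Fintype X] {A : Type*} [AddCommGroup A] (φ : Additive Γ →+ A) (g : Γ)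
    (h : ∀ (x : X) (n : ℕ), 0 < n → S.act (g ^ n) x = x →
      φ (Additive.ofMul (S.coc (g ^ n) x)) = 0) :
    S.addTransfer φ (Additive.ofMul g) = 0 := by
  rw [CosetSys.addTransfer_apply]
  refine sum_eq_zero_of_cycles (S.perm g) _ fun x n hn hx => ?_
  have h1 : ∀ m : ℕ, ∑ i ∈ Finset.range m, φ (Additive.ofMul (S.coc g ((S.perm g ^ i) x))) =
      φ (Additive.ofMul (S.coc (g ^ m) x)) := by
    intro m
    induction m with
    | zero => simp
    | succ m ih =>
      rw [Finset.sum_range_succ, ih, pow_succ, S.coc_mul, ofMul_mul, map_add, S.act_pow]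
  rw [toMul_ofMul, h1 n]
  exact h x n hn (by rw [S.act_pow]; exact hx)

open ModularCurve.Period

variable {M : ℕ}

theorem IntSys.trace_coc {n : ℤ} {a : ZMod M} {X : Type*} (S : IntSys M n a X)
    (Γ : Subgroup SL(2, ℤ)) [hΓ : Between M Γ] (g : Γ) (x : X) (h : (S.sys Γ).act g x = x) :
    (((S.sys Γ).coc g x : SL(2, ℤ)) : Matrix (Fin 2) (Fin 2) ℤ).trace =
      ((g : SL(2, ℤ)) : Matrix (Fin 2) (Fin 2) ℤ).trace := by
  have h1 := S.sys_spec Γ g x
  rw [h] at h1
  have h2 : (S.mat x * ((g : SL(2, ℤ)) : Matrix (Fin 2) (Fin 2) ℤ) *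
      (S.mat x).adjugate).trace =
      ((((S.sys Γ).coc g x : SL(2, ℤ)) : Matrix (Fin 2) (Fin 2) ℤ) * S.mat x *
      (S.mat x).adjugate).trace := by rw [h1]
  rw [Matrix.mul_assoc _ (S.mat x) _, Matrix.mul_adjugate, Matrix.mul_smul, Matrix.mul_one,
    Matrix.trace_smul, Matrix.mul_assoc, Matrix.trace_mul_comm, Matrix.mul_assoc,
    Matrix.adjugate_mul, Matrix.mul_smul, Matrix.mul_one, Matrix.trace_smul, S.det_mat] at h2
  exact (mul_left_cancel₀ S.ne_zero (by simpa using h2)).symm

/-- The operators attached to coset systems preserve parabolic homomorphisms. -/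
theorem isParabolicHom_sys {n : ℤ} {a : ZMod M} {X : Type*} [Fintype X] (S : IntSys M n a X)
    (Γ : Subgroup SL(2, ℤ)) [hΓ : Between M Γ] {A : Type*} [AddCommGroup A]
    {φ : Additive Γ →+ A} (hφ : IsParabolicHom Γ φ) :
    IsParabolicHom Γ ((S.sys Γ).addTransfer φ) := by
  intro g hg
  refine addTransfer_eq_zero_of_cycles (S.sys Γ) φ g fun x n _ hx => hφ _ ?_
  rw [S.trace_coc Γ _ x hx]
  exact trace_pow_sq _ hg n

end Fermat.Agent.X1

end
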