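import Fermat.Agent.X1.QuadRel
import Fermat.Agent.X1.Interface
import Fermat.Agent.DS.Cyclo
import Fermat.Agent.DS.Integral
import Mathlib.LinearAlgebra.TensorProduct.Basis

/-!
# `ModL` from the Eichler--Shimura package and the eigenclass
-/

set_option autoImplicit false

open CongruenceSubgroup ModularCurve.Period TensorProduct
open scoped MatrixGroups

noncomputable section

namespace Fermat.Agent.X1

open Fermat.Agent.DS (GQ)

lemma fg_of_finiteIndex_modL (Γ : Subgroup SL(2, ℤ)) [Γ.FiniteIndex] : Group.FG Γ := by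
  have hSL : Group.FG SL(2, ℤ) := Group.fg_iff.mpr ⟨{ModularGroup.S, ModularGroup.T},
    _root_.SpecialLinearGroup.SL2Z_generators.symm ▸ rfl, Set.toFinite _⟩
  exact Subgroup.fg_of_index_ne_zero Γ

variable {M ℓ : ℕ} [NeZero M] [Fact ℓ.Prime] (E : ES1 M ℓ)

/-- `T_p` on `V` -/
def ES1.tV (p : ℕ) [Fact p.Prime] (hp : ¬ p ∣ M) : Module.End (ZMod ℓ) E.V :=
  (tOp M (ZMod ℓ) (Gamma1 M) (ZMod ℓ) p).restrict (E.tOp_mem p hp)

/-- `⟨u⟩` on `V` -/
def ES1.dV (u : (ZMod M)ˣ) : Module.End (ZMod ℓ) E.V :=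
  (dOp M (ZMod ℓ) (Gamma1 M) (ZMod ℓ) u).restrict (E.dOp_mem u)

lemma ES1.coe_tV (p : ℕ) [Fact p.Prime] (hp : ¬ p ∣ M) (x : E.V) :
    ((E.tV p hp x : E.V) : Additive (Gamma1 M) →+ ZMod ℓ) =
      tOp M (ZMod ℓ) (Gamma1 M) (ZMod ℓ) p x := rfl

lemma ES1.coe_dV (u : (ZMod M)ˣ) (x : E.V) :
    ((E.dV u x : E.V) : Additive (Gamma1 M) →+ ZMod ℓ) =
      dOp M (ZMod ℓ) (Gamma1 M) (ZMod ℓ) u x := rfl

lemma ES1.R_tV (σ : GQ) (p : ℕ) [Fact p.Prime] (hp : ¬ p ∣ M) :
    E.R σ * E.tV p hp = E.tV p hp * E.R σ := by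
  ext1 x
  exact Subtype.ext (E.R_tOp σ p hp x)

lemma ES1.R_dV (σ : GQ) (u : (ZMod M)ˣ) :
    E.R σ * E.dV u = E.dV u * E.R σ := by
  ext1 x
  exact Subtype.ext (E.R_dOp σ u x)

lemma ES1.frob (p : ℕ) [Fact p.Prime] (hp : ¬ p ∣ M) (hpℓ : p ≠ ℓ)
    (A : ValuationSubring (AlgebraicClosure ℚ)) (hA : A.LiesOverPrime p) (φ : GQ)
    (hφ : A.IsFrobeniusAt φ p) :
    E.R φ * E.R φ - E.tV p hp * E.R φ + (p : ZMod ℓ) • E.dV (pUnit M p) = 0 := by
  ext1 x
  exact Subtype.ext (E.frobenius p hp hpℓ A hA φ hφ x)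

variable {k : Type} [Field k] [Algebra (ZMod ℓ) k]

/-- change of coefficients -/
def ES1.jV (E : ES1 M ℓ) (k : Type) [Field k] [Algebra (ZMod ℓ) k] :
    E.V →ₗ[ZMod ℓ] (Additive (Gamma1 M) →+ k) where
  toFun x := ((algebraMap (ZMod ℓ) k : ZMod ℓ →+* k) : ZMod ℓ →+ k).comp (x : Additive (Gamma1 M) →+ ZMod ℓ)
  map_add' x y := by
    ext g
    simp
  map_smul' c x := by
    ext g
    simp [Algebra.smul_def]

/-- the comparison map -/
def ES1.J (E : ES1 M ℓ) (k : Type) [Field k] [Algebra (ZMod ℓ) k] :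
    k ⊗[ZMod ℓ] E.V →ₗ[k] (Additive (Gamma1 M) →+ k) :=
  LinearMap.liftBaseChange k (E.jV k)

lemma ES1.J_tmul (a : k) (x : E.V) : E.J k (a ⊗ₜ x) = a • E.jV k x := by
  rw [ES1.J, LinearMap.liftBaseChange_tmul]

lemma ES1.jV_tV (p : ℕ) [Fact p.Prime] (hp : ¬ p ∣ M) (x : E.V) :
    E.jV k (E.tV p hp x) = tOp M k (Gamma1 M) k p (E.jV k x) := by
  have h1 := tOp_comp M ℤ (Gamma1 M) p
    ((algebraMap (ZMod ℓ) k : ZMod ℓ →+* k) : ZMod ℓ →+ k) (x : Additive (Gamma1 M) →+ ZMod ℓ)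
  exact h1.symm

lemma ES1.jV_dV (u : (ZMod M)ˣ) (x : E.V) :
    E.jV k (E.dV u x) = dOp M k (Gamma1 M) k u (E.jV k x) := by
  have h1 := dOp_comp M ℤ (Gamma1 M) u
    ((algebraMap (ZMod ℓ) k : ZMod ℓ →+* k) : ZMod ℓ →+ k) (x : Additive (Gamma1 M) →+ ZMod ℓ)
  exact h1.symm

lemma ES1.J_tV (p : ℕ) [Fact p.Prime] (hp : ¬ p ∣ M) (z : k ⊗[ZMod ℓ] E.V) :
    E.J k ((E.tV p hp).baseChange k z) = tOp M k (Gamma1 M) k p (E.J k z) := by
  induction z with
  | zero => simp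
  | add x y hx hy => rw [map_add, map_add, map_add, map_add, hx, hy]
  | tmul a x => rw [LinearMap.baseChange_tmul, J_tmul, J_tmul, map_smul, jV_tV]

lemma ES1.J_dV (u : (ZMod M)ˣ) (z : k ⊗[ZMod ℓ] E.V) :
    E.J k ((E.dV u).baseChange k z) = dOp M k (Gamma1 M) k u (E.J k z) := by
  induction z with
  | zero => simp
  | add x y hx hy => rw [map_add, map_add, map_add, map_add, hx, hy]
  | tmul a x => rw [LinearMap.baseChange_tmul, J_tmul, J_tmul, map_smul, jV_dV]

lemma ES1.J_injective : Function.Injective (E.J k) := by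
  classical
  let b := Module.Free.chooseBasis (ZMod ℓ) k
  rw [injective_iff_map_eq_zero]
  intro z hz
  set e := TensorProduct.equivFinsuppOfBasisLeft (N := E.V) b with he
  apply e.injective
  rw [map_zero]
  have h1 : z = (e z).sum fun i n => b i ⊗ₜ n := by
    rw [← TensorProduct.equivFinsuppOfBasisLeft_symm_apply, ← he, LinearEquiv.symm_apply_apply]
  ext i g
  have h2 : E.J k z g = 0 := by rw [hz]; rfl
  rw [h1, Finsupp.sum, map_sum, AddMonoidHom.finsetSum_apply] at h2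
  have h3 : ∑ i ∈ (e z).support, ((e z i : E.V) : Additive (Gamma1 M) →+ ZMod ℓ) g • b i = 0 := by
    rw [← h2]
    refine Finset.sum_congr rfl fun i _ => ?_
    rw [J_tmul]
    change _ = b i * algebraMap (ZMod ℓ) k _
    rw [Algebra.smul_def, mul_comm]
  have h4 := linearIndependent_iff'.mp b.linearIndependent _ _ h3
  by_cases hi : i ∈ (e z).support
  · exact h4 i hi
  · rw [Finsupp.notMem_support_iff.mp hi]
    rfl

lemma ES1.exists_J_eq (c : Additive (Gamma1 M) →+ k) (hc : IsParabolicHom (Gamma1 M) c) :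
    ∃ z, E.J k z = c := by
  classical
  let b := Module.Free.chooseBasis (ZMod ℓ) k
  have hfg : Group.FG (Gamma1 M) := fg_of_finiteIndex_modL (Gamma1 M)
  have hfg' : AddGroup.FG (Additive (Gamma1 M)) := inferInstance
  obtain ⟨S, hS⟩ := (AddGroup.fg_def.mp hfg' : (⊤ : AddSubgroup (Additive (Gamma1 M))).FG)
  let T : Finset (Module.Free.ChooseBasisIndex (ZMod ℓ) k) := S.biUnion fun g => (b.repr (c g)).support
  have hT : ∀ g, ∀ i, i ∉ T → b.repr (c g) i = 0 := by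
    intro g i hi
    have hg : g ∈ AddSubgroup.closure (S : Set (Additive (Gamma1 M))) := by rw [hS]; trivial
    induction hg using AddSubgroup.closure_induction with
    | mem g hg =>
      by_contra h
      exact hi (Finset.mem_biUnion.mpr ⟨g, hg, Finsupp.mem_support_iff.mpr h⟩)
    | zero => rw [map_zero, map_zero]; rfl
    | add g h _ _ hg hh => rw [map_add, map_add, Finsupp.add_apply, hg, hh, add_zero]
    | neg g _ hg => rw [map_neg, map_neg, Finsupp.neg_apply, hg, neg_zero]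
  let comp : Module.Free.ChooseBasisIndex (ZMod ℓ) k → (Additive (Gamma1 M) →+ ZMod ℓ) := fun i =>
    ((b.coord i : k →ₗ[ZMod ℓ] ZMod ℓ) : k →+ ZMod ℓ).comp c
  have hcomp : ∀ i g, comp i g = b.repr (c g) i := fun i g => rfl
  have hmem : ∀ i, comp i ∈ E.V := by
    intro i
    apply E.mem_of_parabolic
    intro γ hγ
    rw [hcomp, hc γ hγ, map_zero]
    rfl
  refine ⟨∑ i ∈ T, b i ⊗ₜ ⟨comp i, hmem i⟩, ?_⟩
  rw [map_sum]
  refine AddMonoidHom.ext fun g => ?_
  rw [AddMonoidHom.finsetSum_apply]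
  have h1 : ∀ i, (E.J k (b i ⊗ₜ (⟨comp i, hmem i⟩ : E.V))) g = b.repr (c g) i • b i := by
    intro i
    rw [J_tmul, Algebra.smul_def, mul_comm]
    rfl
  simp only [h1]
  have h3 : (b.repr (c g)).support ⊆ T := fun i hi => by
    by_contra h
    exact (Finsupp.mem_support_iff.mp hi) (hT g i h)
  have h4 := b.linearCombination_repr (c g)
  rw [Finsupp.linearCombination_apply, Finsupp.sum,
    Finset.sum_subset h3 (fun i _ hi => by rw [Finsupp.notMem_support_iff.mp hi, zero_smul])] at h4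
  exact h4

include E in
/-- The main reduction: a mod `ℓ` representation from an eigenclass. -/
theorem exists_rep_of_eigenclass (h2 : (2 : k) ≠ 0) {c : Additive (Gamma1 M) →+ k} (hc0 : c ≠ 0)
    (hc : IsParabolicHom (Gamma1 M) c) (a : ℕ → k) (ψ : (ZMod M)ˣ → k)
    (hT : ∀ (p : ℕ) [Fact p.Prime], ¬ p ∣ M → tOp M k (Gamma1 M) k p c = a p • c)
    (hD : ∀ u, dOp M k (Gamma1 M) k u c = ψ u • c)
    (D : GQ →* kˣ) (hDL : ∃ L : IntermediateField ℚ (AlgebraicClosure ℚ), FiniteDimensional ℚ L ∧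
      ∀ σ : GQ, (∀ x ∈ L, σ x = x) → D σ = 1)
    (hDfrob : ∀ (p : ℕ) [Fact p.Prime], ¬ p ∣ M → p ≠ ℓ → ∀ A : ValuationSubring (AlgebraicClosure ℚ),
      A.LiesOverPrime p → (∀ σ ∈ A.inertiaSubgroupIn ℚ, D σ = 1) ∧ ∀ φ : GQ, A.IsFrobeniusAt φ p →
        ((D φ : kˣ) : k) = (p : k) * ψ (pUnit M p))
    (hDc : ((D complexConjugation : kˣ) : k) = -1) :
    ∃ ρ : GQ →* GL (Fin 2) k, GaloisFactorsThroughFiniteLevel ρ ∧
      ∀ p : ℕ, p.Prime → ¬ p ∣ M → p ≠ ℓ →
        ∀ A : ValuationSubring (AlgebraicClosure ℚ), A.LiesOverPrime p →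
          (∀ σ ∈ A.inertiaSubgroupIn ℚ, ρ σ = 1) ∧
          ∀ σ : GQ, A.IsFrobeniusAt σ p →
            ((ρ σ : GL (Fin 2) k) : Matrix (Fin 2) (Fin 2) k).trace = a p ∧
            ((ρ σ : GL (Fin 2) k) : Matrix (Fin 2) (Fin 2) k).det = ((D σ : kˣ) : k) := by
  let R : GQ →* Module.End k (k ⊗[ZMod ℓ] E.V) :=
    { toFun := fun σ => (E.R σ).baseChange k
      map_one' := by rw [map_one, LinearMap.baseChange_one]
      map_mul' := fun σ τ => by rw [map_mul, LinearMap.baseChange_mul] }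
  have hR : ∀ σ, R σ = (E.R σ).baseChange k := fun σ => rfl
  have hR1 : ∀ σ, E.R σ = 1 → R σ = 1 := by
    intro σ hσ
    rw [hR, hσ, LinearMap.baseChange_one]
  let Ix : Type := {p : ℕ // p.Prime ∧ ¬ p ∣ M} ⊕ (ZMod M)ˣ
  let T : Ix → Module.End k (k ⊗[ZMod ℓ] E.V) := Sum.elim
    (fun p => (@ES1.tV M ℓ _ _ E p.1 ⟨p.2.1⟩ p.2.2).baseChange k)
    (fun u => (E.dV u).baseChange k)
  let av : Ix → k := Sum.elim (fun p => a p.1) ψ
  obtain ⟨z, hz⟩ := E.exists_J_eq c hc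
  have hz0 : z ≠ 0 := by
    rintro rfl
    rw [map_zero] at hz
    exact hc0 hz.symm
  obtain ⟨L₁, hL₁, hL₁'⟩ := E.finiteLevel
  obtain ⟨L₂, hL₂, hL₂'⟩ := hDL
  obtain ⟨ρ, h3, h4, h5⟩ := exists_rep_of_eigenvector h2 R D T av
    (fun σ i => by
      rcases i with p | u
      · have : Fact (p.1).Prime := ⟨p.2.1⟩
        change (E.R σ).baseChange k * (E.tV p.1 p.2.2).baseChange k =
          (E.tV p.1 p.2.2).baseChange k * (E.R σ).baseChange k
        rw [← LinearMap.baseChange_mul, ← LinearMap.baseChange_mul, E.R_tV]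
      · change (E.R σ).baseChange k * (E.dV u).baseChange k =
          (E.dV u).baseChange k * (E.R σ).baseChange k
        rw [← LinearMap.baseChange_mul, ← LinearMap.baseChange_mul, E.R_dV])
    z hz0
    (fun i => by
      rcases i with p | u
      · have : Fact (p.1).Prime := ⟨p.2.1⟩
        apply E.J_injective (k := k)
        change E.J k ((E.tV p.1 p.2.2).baseChange k z) = E.J k (a p.1 • z)
        rw [E.J_tV, map_smul, hz, hT p.1 p.2.2]
      · apply E.J_injective (k := k)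
        change E.J k ((E.dV u).baseChange k z) = E.J k (ψ u • z)
        rw [E.J_dV, map_smul, hz, hD u])
    (L₁ ⊔ L₂)
    (fun σ hσ => ⟨hR1 σ (hL₁' σ fun x hx => hσ x (le_sup_left (a := L₁) hx)),
      hL₂' σ fun x hx => hσ x (le_sup_right (a := L₁) hx)⟩)
    {p | p ∣ M ∨ p = ℓ} (by
      refine ((Nat.divisors M).finite_toSet.union (Set.finite_singleton ℓ)).subset ?_
      rintro p (hp | hp)
      · left; exact Nat.mem_divisors.mpr ⟨hp, NeZero.ne M⟩
      · right; exact hp) a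
    (fun p hp hpS A hA φ hφ w hw => by
      have : Fact p.Prime := ⟨hp⟩
      rw [Set.mem_ofPred_eq, not_or] at hpS
      have e1 : (E.tV p hpS.1).baseChange k w = a p • w := hw (Sum.inl ⟨p, hp, hpS.1⟩)
      have e2 : (E.dV (pUnit M p)).baseChange k w = ψ (pUnit M p) • w := hw (Sum.inr _)
      have h1 := congrArg (LinearMap.baseChange k) (E.frob p hpS.1 hpS.2 A hA φ hφ)
      have h2 := LinearMap.congr_fun h1 w
      have h6 : (E.tV p hpS.1).baseChange k ((E.R φ).baseChange k w) =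
          a p • (E.R φ).baseChange k w := by
        rw [← Module.End.mul_apply, ← LinearMap.baseChange_mul, ← E.R_tV,
          LinearMap.baseChange_mul, Module.End.mul_apply, e1, map_smul]
      rw [LinearMap.baseChange_add, LinearMap.baseChange_sub, LinearMap.baseChange_smul,
        LinearMap.baseChange_mul, LinearMap.baseChange_mul, LinearMap.baseChange_zero,
        LinearMap.add_apply, LinearMap.sub_apply, LinearMap.smul_apply, Module.End.mul_apply,
        Module.End.mul_apply, h6, e2, LinearMap.zero_apply] at h2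
      rw [hR, (hDfrob p hpS.1 hpS.2 A hA).2 φ hφ, ← h2, mul_smul]
      congr 1
      rw [← algebraMap_smul k (p : ZMod ℓ), map_natCast])
    complexConjugation complexConjugation_mul_self hDc
  refine ⟨ρ, ⟨L₁ ⊔ L₂, inferInstance, fun σ hσ => ?_⟩, fun p hp hpM hpℓ A hA => ?_⟩
  · exact h5 σ (hR1 σ (hL₁' σ fun x hx => hσ x (le_sup_left (a := L₁) hx)))
      (hL₂' σ fun x hx => hσ x (le_sup_right (a := L₁) hx))
  · have : Fact p.Prime := ⟨hp⟩
    refine ⟨fun σ hσ => h5 σ (hR1 σ (E.inertia p hp hpM hpℓ A hA σ hσ))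
      ((hDfrob p hpM hpℓ A hA).1 σ hσ), fun σ hσ => ⟨?_, h4 σ⟩⟩
    exact h3 p hp (by rw [Set.mem_ofPred_eq, not_or]; exact ⟨hpM, hpℓ⟩) A hA σ hσ

section Final

variable (N : ℕ) [NeZero N]

/-- the Dirichlet character as a homomorphism to the ring of algebraic integers -/
def epsI (ε : DirichletCharacter ℂ N) : (ZMod N)ˣ →* integralClosure ℤ ℂ where
  toFun u := ⟨ε (u : ZMod N), DS.isIntegral_dirichlet ε _⟩
  map_one' := Subtype.ext (by simp)
  map_mul' u v := Subtype.ext (by simp)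

/-- The Galois character attached to a Dirichlet character modulo `N`. -/
def galChar (ε : DirichletCharacter ℂ N) (φ : integralClosure ℤ ℂ →+* k) : GQ →* kˣ :=
  (((φ : integralClosure ℤ ℂ →* k).comp (epsI N ε)).toHomUnits).comp (DS.cycN N)

lemma coe_galChar (ε : DirichletCharacter ℂ N) (φ : integralClosure ℤ ℂ →+* k) (σ : GQ) :
    ((galChar N ε φ σ : kˣ) : k) = φ (epsI N ε (DS.cycN N σ)) := rfl

omit [Algebra (ZMod ℓ) k] in
lemma galChar_frobenius (ε : DirichletCharacter ℂ N) (φ : integralClosure ℤ ℂ →+* k)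
    {p : ℕ} (hp : p.Prime) (hpN : ¬ p ∣ N) {A : ValuationSubring (AlgebraicClosure ℚ)}
    (hA : A.LiesOverPrime p) {σ : GQ} (hσ : A.IsFrobeniusAt σ p) (e : integralClosure ℤ ℂ)
    (he : (e : ℂ) = ε (p : ZMod N)) : ((galChar N ε φ σ : kˣ) : k) = φ e := by
  rw [coe_galChar]
  congr 1
  apply Subtype.ext
  rw [he, ← DS.cycN_frobenius N hp hpN hA hσ]
  rfl

theorem modL_of {ℓ : ℕ} [Fact ℓ.Prime] (hℓ2 : ℓ ≠ 2) [NeZero (N * ℓ)] (E : ES1 (N * ℓ) ℓ)
    (hW : WtOneEigenclass N ℓ) (hOdd : DS.OddChar N) : DS.ModL N ℓ := by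
  intro ε f t e he hint hHecke k _ _ _ φ hne
  obtain ⟨ψ, c, hc0, hc, hT, hD, hψ⟩ := hW ε f t e he hint hHecke k φ hne
  let : Algebra (ZMod ℓ) k := ZMod.algebra k ℓ
  have h2 : (2 : k) ≠ 0 := by
    intro h
    have h3 : ((2 : ℕ) : k) = 0 := by exact_mod_cast h
    rw [CharP.cast_eq_zero_iff k ℓ 2] at h3
    exact hℓ2 ((Nat.prime_dvd_prime_iff_eq Fact.out Nat.prime_two).mp h3)
  have hf0 : f ≠ 0 := by
    rintro rfl
    obtain ⟨n, a, ha, ha'⟩ := hne
    apply ha'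
    have : a = 0 := Subtype.ext (by rw [ha, DS.qCoeff_zero]; rfl)
    rw [this, map_zero]
  have hodd : ε (-1) = -1 := hOdd ε f (fun p => (t p : ℂ)) hf0 (fun p hp hpN => by
    rw [← he p]
    exact hHecke p hp hpN)
  obtain ⟨ρ, h3, h4⟩ := exists_rep_of_eigenclass E h2 hc0 hc (fun p => φ (t p)) ψ hT hD
    (galChar N ε φ)
    ⟨IntermediateField.adjoin ℚ {DS.zetaN N}, IntermediateField.adjoin.finiteDimensional
      (Algebra.IsIntegral.isIntegral _), fun σ hσ => by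
        have h5 : DS.cycN N σ = 1 := by
          rw [← map_one (DS.cycN N)]
          exact DS.cycN_eq_of_eqOn N (hσ _ (IntermediateField.mem_adjoin_simple_self ℚ _))
        rw [galChar, MonoidHom.comp_apply, h5, map_one]⟩
    (fun p _ hp hpℓ A hA => by
      have hpN : ¬ p ∣ N := fun h => hp (h.mul_right ℓ)
      refine ⟨fun σ hσ => ?_, fun σ hσ => ?_⟩
      · rw [galChar, MonoidHom.comp_apply, DS.cycN_inertia N Fact.out hpN hA hσ, map_one]
      · rw [hψ p hp]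
        exact galChar_frobenius N ε φ Fact.out hpN hA hσ (e p) (he p))
    (by
      rw [coe_galChar]
      have h5 : epsI N ε (DS.cycN N complexConjugation) = -1 := by
        apply Subtype.ext
        change ε ((DS.cycN N complexConjugation : (ZMod N)ˣ) : ZMod N) = _
        rw [DS.cycN_complexConjugation, hodd]
        rfl
      rw [h5, map_neg, map_one])
  refine ⟨ρ, h3, fun p hp hpN hpℓ A hA => ?_⟩
  have hpM : ¬ p ∣ N * ℓ := by
    intro h
    rcases (Nat.Prime.dvd_mul hp).mp h with h | h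
    · exact hpN h
    · exact hpℓ ((Nat.prime_dvd_prime_iff_eq hp Fact.out).mp h)
  obtain ⟨h5, h6⟩ := h4 p hp hpM hpℓ A hA
  refine ⟨h5, fun σ hσ => ⟨(h6 σ hσ).1, ?_⟩⟩
  rw [(h6 σ hσ).2]
  exact galChar_frobenius N ε φ hp hpN hA hσ (e p) (he p)

end Final

end Fermat.Agent.X1

end
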