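import Fermat.Agent.X1.HeckeForms
import Fermat.Prelude.Thm_UpperHalfPlane_qCoeff_heckeT
import Fermat.Prelude.Thm_UpperHalfPlane_qCoeff_heckeU
import Fermat.Prelude.Thm_ModularForm_sturm_bound_of_isArithmetic

/-!
# Hecke and diamond operators: names, `q`-coefficients, commutation on forms

`tOp R M Γ A p`, `dOp R M Γ A u` : operators on `Additive Γ →+ A` (R-linear).
`tCusp M Γ k p`, `dCusp M Γ k u`, `tMod`, `dMod` : operators on forms.
-/

set_option autoImplicit false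

noncomputable section

open CongruenceSubgroup Matrix.SpecialLinearGroup UpperHalfPlane
open scoped MatrixGroups ModularForm Manifold

namespace Fermat.Agent.X1

open Fermat.Agent.HeckePar ModularCurve.Period ModularFormClass

variable (M : ℕ)

/-! ### Operators on homomorphisms -/

section Hom

variable (R : Type*) [Semiring R] (Γ : Subgroup SL(2, ℤ)) [hΓ : Between M Γ] (A : Type*)
  [AddCommGroup A] [Module R A]

variable {M} in
/-- `R`-linear version of the operator attached to a coset system. -/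
def IntSys.opLin {n : ℤ} {a : ZMod M} {X : Type*} [Fintype X] (S : IntSys M n a X) :
    (Additive Γ →+ A) →ₗ[R] (Additive Γ →+ A) where
  toFun φ := (S.sys Γ).addTransfer φ
  map_add' φ ψ := map_add _ φ ψ
  map_smul' c φ := by
    refine AddMonoidHom.ext fun g => ?_
    simp only [CosetSys.addTransfer_apply, RingHom.id_apply, AddMonoidHom.smul_apply,
      Finset.smul_sum]

/-- The Hecke operator `T_p` (`U_p` if `p ∣ M`) on `Hom(Γ, A)`. -/
def tOp (p : ℕ) [Fact p.Prime] : (Additive Γ →+ A) →ₗ[R] (Additive Γ →+ A) :=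
  (hSys M p).opLin R Γ A

/-- The diamond operator on `Hom(Γ, A)`. -/
def dOp (u : (ZMod M)ˣ) : (Additive Γ →+ A) →ₗ[R] (Additive Γ →+ A) :=
  (diaSys M u).opLin R Γ A

theorem tOp_apply (p : ℕ) [Fact p.Prime] (φ : Additive Γ →+ A) :
    tOp M R Γ A p φ = ((hSys M p).sys Γ).addTransfer φ := rfl

theorem dOp_apply (u : (ZMod M)ˣ) (φ : Additive Γ →+ A) :
    dOp M R Γ A u φ = ((diaSys M u).sys Γ).addTransfer φ := rfl

theorem tOp_comm (p q : ℕ) [Fact p.Prime] [Fact q.Prime] (φ : Additive Γ →+ A) :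
    tOp M R Γ A p (tOp M R Γ A q φ) = tOp M R Γ A q (tOp M R Γ A p φ) :=
  addTransfer_hecke_comm Γ p q φ

theorem dOp_tOp_comm (u : (ZMod M)ˣ) (p : ℕ) [Fact p.Prime] (φ : Additive Γ →+ A) :
    dOp M R Γ A u (tOp M R Γ A p φ) = tOp M R Γ A p (dOp M R Γ A u φ) :=
  addTransfer_dia_hecke_comm Γ u p φ

theorem dOp_mul (u v : (ZMod M)ˣ) (φ : Additive Γ →+ A) :
    dOp M R Γ A (u * v) φ = dOp M R Γ A u (dOp M R Γ A v φ) :=
  (addTransfer_dia_mul Γ u v φ).symm

theorem dOp_comm (u v : (ZMod M)ˣ) (φ : Additive Γ →+ A) :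
    dOp M R Γ A u (dOp M R Γ A v φ) = dOp M R Γ A v (dOp M R Γ A u φ) := by
  rw [← dOp_mul, ← dOp_mul, mul_comm]

theorem diaMat_one_mem : diaMat M 1 ∈ Gamma1 M := by
  refine mem_gamma1_of_mem_gamma0 (diaMat_mem 1) ?_
  rw [diaMat_00, inv_one, Units.val_one]

theorem dOp_one (φ : Additive Γ →+ A) : dOp M R Γ A 1 φ = φ :=
  addTransfer_dia_of_mem Γ 1 φ (hΓ.ge (diaMat_one_mem M))

variable {A}

theorem isParabolicHom_tOp (p : ℕ) [Fact p.Prime] {φ : Additive Γ →+ A}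
    (hφ : IsParabolicHom Γ φ) : IsParabolicHom Γ (tOp M R Γ A p φ) :=
  isParabolicHom_sys (hSys M p) Γ hφ

theorem isParabolicHom_dOp (u : (ZMod M)ˣ) {φ : Additive Γ →+ A}
    (hφ : IsParabolicHom Γ φ) : IsParabolicHom Γ (dOp M R Γ A u φ) :=
  isParabolicHom_sys (diaSys M u) Γ hφ

theorem dOp_apply_apply (u : (ZMod M)ˣ) (φ : Additive Γ →+ A) (g : Γ)
    (h : diaMat M u * (g : SL(2, ℤ)) * (diaMat M u)⁻¹ ∈ Γ) :
    dOp M R Γ A u φ (Additive.ofMul g) =
      φ (Additive.ofMul (⟨diaMat M u * (g : SL(2, ℤ)) * (diaMat M u)⁻¹, h⟩ : Γ)) := by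
  rw [dOp_apply, CosetSys.addTransfer_apply]
  simp only [Finset.univ_unique, Finset.sum_singleton, toMul_ofMul]
  have h1 : ((diaSys M u).sys Γ).rep () * iotaG Γ g =
      iotaG Γ (⟨diaMat M u * (g : SL(2, ℤ)) * (diaMat M u)⁻¹, h⟩) *
        ((diaSys M u).sys Γ).rep () := by
    rw [IntSys.sys_rep, IntSys.glRep_mul_iotaG_iff, diaSys_mat,
      ← Matrix.SpecialLinearGroup.coe_mul, ← Matrix.SpecialLinearGroup.coe_mul]
    congr 1
    group
  rw [show (default : Unit) = () from rfl, (((diaSys M u).sys Γ).ext_coc h1).2]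

/-- naturality in the coefficients -/
theorem tOp_comp {B : Type*} [AddCommGroup B] [Module R B] (p : ℕ) [Fact p.Prime] (ψ : A →+ B)
    (φ : Additive Γ →+ A) : tOp M R Γ B p (ψ.comp φ) = ψ.comp (tOp M R Γ A p φ) :=
  ((hSys M p).sys Γ).addTransfer_comp ψ φ

theorem dOp_comp {B : Type*} [AddCommGroup B] [Module R B] (u : (ZMod M)ˣ) (ψ : A →+ B)
    (φ : Additive Γ →+ A) : dOp M R Γ B u (ψ.comp φ) = ψ.comp (dOp M R Γ A u φ) :=
  ((diaSys M u).sys Γ).addTransfer_comp ψ φ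

end Hom

/-! ### Operators on forms -/

section Forms

variable (Γ : Subgroup SL(2, ℤ)) [hΓ : Between M Γ] [Γ.FiniteIndex] (k : ℤ)

/-- `T_p` (`U_p` if `p ∣ M`) on cusp forms. -/
def tCusp (p : ℕ) [Fact p.Prime] : CuspForm Γ k →ₗ[ℂ] CuspForm Γ k := (hSys M p).cuspLin Γ k

/-- diamond operators on cusp forms. -/
def dCusp (u : (ZMod M)ˣ) : CuspForm Γ k →ₗ[ℂ] CuspForm Γ k := (diaSys M u).cuspLin Γ k

/-- `T_p` (`U_p` if `p ∣ M`) on modular forms. -/
def tMod (p : ℕ) [Fact p.Prime] : ModularForm Γ k →ₗ[ℂ] ModularForm Γ k := (hSys M p).modLin Γ k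

/-- diamond operators on modular forms. -/
def dMod (u : (ZMod M)ˣ) : ModularForm Γ k →ₗ[ℂ] ModularForm Γ k := (diaSys M u).modLin Γ k

theorem coe_tCusp (p : ℕ) [Fact p.Prime] (f : CuspForm Γ k) :
    ⇑(tCusp M Γ k p f) = (hSys M p).slashSum k f := rfl

theorem coe_dCusp' (u : (ZMod M)ˣ) (f : CuspForm Γ k) :
    ⇑(dCusp M Γ k u f) = (diaSys M u).slashSum k f := rfl

theorem coe_tMod (p : ℕ) [Fact p.Prime] (f : ModularForm Γ k) :
    ⇑(tMod M Γ k p f) = (hSys M p).slashSum k f := rfl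

theorem coe_dMod' (u : (ZMod M)ˣ) (f : ModularForm Γ k) :
    ⇑(dMod M Γ k u f) = (diaSys M u).slashSum k f := rfl

variable {M}

theorem slashSum_dia (u : (ZMod M)ˣ) (f : ℍ → ℂ) :
    (diaSys M u).slashSum k f = f ∣[k] (diaMat M u) := by
  rw [IntSys.slashSum_def]
  simp only [Finset.univ_unique, Finset.sum_singleton]
  have h1 : (diaSys M u).glRep default = mapGL ℝ (diaMat M u) := by
    rw [← Units.val_inj, IntSys.val_glRep, val_mapGL]
    rfl
  rw [h1]
  rfl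

theorem glRep_some (p : ℕ) [hp : Fact p.Prime] (j : ZMod p) (h : p ∣ M → some j ≠ none) :
    (hSys M p).glRep ⟨some j, h⟩ = ModularForm.heckeMatrix p j.val := by
  rw [← Units.val_inj, IntSys.val_glRep, ModularForm.val_heckeMatrix hp.out.ne_zero]
  ext i k
  fin_cases i <;> fin_cases k <;> simp [heckeMat]

theorem glRep_none (p : ℕ) [hp : Fact p.Prime] (h : p ∣ M → (none : Option (ZMod p)) ≠ none) :
    (hSys M p).glRep ⟨none, h⟩ =
      mapGL ℝ (diaMat M (pUnit M p)) * ModularForm.heckeDiagMatrix p := by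
  rw [← Units.val_inj, IntSys.val_glRep, Units.val_mul, val_mapGL,
    ModularForm.val_heckeDiagMatrix hp.out.ne_zero]
  have h1 : (!![(p : ℝ), 0; 0, 1] : Matrix (Fin 2) (Fin 2) ℝ) =
      (!![(p : ℤ), 0; 0, 1] : Matrix (Fin 2) (Fin 2) ℤ).map (Int.cast) := by
    ext i k
    fin_cases i <;> fin_cases k <;> simp
  rw [h1, ← map_intCast_mul]
  rfl

theorem slashSum_hecke_of_dvd (p : ℕ) [hp : Fact p.Prime] (h : p ∣ M) (f : ℍ → ℂ) :
    (hSys M p).slashSum k f = ModularForm.heckeU k p f := by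
  rw [IntSys.slashSum_def, ModularForm.heckeU_def, sum_range_eq_sum_zmod,
    ← Equiv.sum_comp (hidxEquivOfDvd h).symm]
  refine Finset.sum_congr rfl fun j _ => ?_
  rw [← glRep_some (M := M) p j (fun _ => by simp)]
  rfl

theorem slashSum_hecke (p : ℕ) [hp : Fact p.Prime] (h : ¬ p ∣ M) (f : ℍ → ℂ) :
    (hSys M p).slashSum k f = ModularForm.heckeU k p f +
      (f ∣[k] (diaMat M (pUnit M p))) ∣[k] ModularForm.heckeDiagMatrix p := by
  rw [IntSys.slashSum_def, ModularForm.heckeU_def, sum_range_eq_sum_zmod,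
    ← Equiv.sum_comp (hidxEquivOfNotDvd h).symm, Fintype.sum_option, add_comm]
  congr 1
  · refine Finset.sum_congr rfl fun j _ => ?_
    rw [← glRep_some (M := M) p j (fun _ => by simp)]
    rfl
  · have h1 := glRep_none (M := M) p (fun h' => absurd h' h)
    have h2 : (hSys M p).glRep ((hidxEquivOfNotDvd h).symm none) =
      mapGL ℝ (diaMat M (pUnit M p)) * ModularForm.heckeDiagMatrix p := h1
    rw [h2, SlashAction.slash_mul]
    rfl

theorem coe_dCusp (u : (ZMod M)ˣ) (f : CuspForm Γ k) :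
    ⇑(dCusp M Γ k u f) = (f : ℍ → ℂ) ∣[k] (diaMat M u) := slashSum_dia k u f

theorem coe_dMod (u : (ZMod M)ˣ) (f : ModularForm Γ k) :
    ⇑(dMod M Γ k u f) = (f : ℍ → ℂ) ∣[k] (diaMat M u) := slashSum_dia k u f

/-! ### commutation on forms -/

omit [Γ.FiniteIndex] in
theorem inv_gamma1 {F : Type*} [FunLike F ℍ ℂ]
    [SlashInvariantFormClass F (Γ : Subgroup (GL (Fin 2) ℝ)) k] (f : F) (g : Gamma1 M) :
    (f : ℍ → ℂ) ∣[k] iotaG (Gamma1 M) g = f :=
  SlashInvariantFormClass.slash_action_eq f (iotaG (Gamma1 M) g) ⟨g, hΓ.ge g.2, rfl⟩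

section generic

variable {k} {f : ℍ → ℂ} (hf : ∀ g : Gamma1 M, f ∣[k] iotaG (Gamma1 M) g = f)

include hf

theorem slashSum_dia_hecke_comm (u : (ZMod M)ˣ) (q : ℕ) [hq : Fact q.Prime] :
    (diaSys M u).slashSum k ((hSys M q).slashSum k f) =
      (hSys M q).slashSum k ((diaSys M u).slashSum k f) := by
  rw [← IntSys.slashSum_comp (hSys M q) (diaSys M u) (IntSys.hs_dia (1 : ZMod M) q u)
    (fun _ _ _ _ _ _ _ => rfl) k f,
    ← IntSys.slashSum_comp (diaSys M u) (hSys M q) (IntSys.hs_hecke q 1 (Units.isUnit _))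
    (IntSys.hi_hecke q (not_dvd_one_of_prime hq.out) (diaSys M u)) k f]
  exact IntSys.slashSum_eq _ _ (mul_comm _ _) (mul_comm _ _) k f hf

theorem slashSum_hecke_comm (p q : ℕ) [hp : Fact p.Prime] [hq : Fact q.Prime] :
    (hSys M p).slashSum k ((hSys M q).slashSum k f) =
      (hSys M q).slashSum k ((hSys M p).slashSum k f) := by
  by_cases hpq : p = q
  · subst hpq; rfl
  rw [← IntSys.slashSum_comp (hSys M q) (hSys M p) (IntSys.hs_hecke p q isUnit_one)
    (IntSys.hi_hecke p (not_dvd_of_ne (Ne.symm hpq)) (hSys M q)) k f,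
    ← IntSys.slashSum_comp (hSys M p) (hSys M q) (IntSys.hs_hecke q p isUnit_one)
    (IntSys.hi_hecke q (not_dvd_of_ne hpq) (hSys M p)) k f]
  exact IntSys.slashSum_eq _ _ (mul_comm _ _) (mul_comm _ _) k f hf

theorem slashSum_dia_mul (u v : (ZMod M)ˣ) :
    (diaSys M u).slashSum k ((diaSys M v).slashSum k f) = (diaSys M (u * v)).slashSum k f := by
  rw [← IntSys.slashSum_comp (diaSys M v) (diaSys M u) (IntSys.hs_dia _ 1 u)
    (fun _ _ _ _ _ _ _ => rfl) k f]
  exact IntSys.slashSum_eq _ _ (mul_one _) (by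
    rw [← Units.val_mul, mul_inv_rev]) k f hf

end generic

theorem tCusp_comm (p q : ℕ) [hp : Fact p.Prime] [hq : Fact q.Prime] (f : CuspForm Γ k) :
    tCusp M Γ k p (tCusp M Γ k q f) = tCusp M Γ k q (tCusp M Γ k p f) :=
  DFunLike.coe_injective (slashSum_hecke_comm (inv_gamma1 Γ k f) p q)

theorem dCusp_tCusp_comm (u : (ZMod M)ˣ) (p : ℕ) [hp : Fact p.Prime] (f : CuspForm Γ k) :
    dCusp M Γ k u (tCusp M Γ k p f) = tCusp M Γ k p (dCusp M Γ k u f) :=
  DFunLike.coe_injective (slashSum_dia_hecke_comm (inv_gamma1 Γ k f) u p)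

theorem dCusp_mul (u v : (ZMod M)ˣ) (f : CuspForm Γ k) :
    dCusp M Γ k (u * v) f = dCusp M Γ k u (dCusp M Γ k v f) :=
  DFunLike.coe_injective (slashSum_dia_mul (inv_gamma1 Γ k f) u v).symm

theorem dCusp_one (f : CuspForm Γ k) : dCusp M Γ k 1 f = f := by
  refine DFunLike.coe_injective ?_
  rw [coe_dCusp]
  exact inv_gamma1 Γ k f ⟨_, diaMat_one_mem M⟩

theorem tMod_comm (p q : ℕ) [hp : Fact p.Prime] [hq : Fact q.Prime] (f : ModularForm Γ k) :
    tMod M Γ k p (tMod M Γ k q f) = tMod M Γ k q (tMod M Γ k p f) :=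
  DFunLike.coe_injective (slashSum_hecke_comm (inv_gamma1 Γ k f) p q)

theorem dMod_tMod_comm (u : (ZMod M)ˣ) (p : ℕ) [hp : Fact p.Prime] (f : ModularForm Γ k) :
    dMod M Γ k u (tMod M Γ k p f) = tMod M Γ k p (dMod M Γ k u f) :=
  DFunLike.coe_injective (slashSum_dia_hecke_comm (inv_gamma1 Γ k f) u p)

theorem dMod_mul (u v : (ZMod M)ˣ) (f : ModularForm Γ k) :
    dMod M Γ k (u * v) f = dMod M Γ k u (dMod M Γ k v f) :=
  DFunLike.coe_injective (slashSum_dia_mul (inv_gamma1 Γ k f) u v).symm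

theorem dMod_one (f : ModularForm Γ k) : dMod M Γ k 1 f = f := by
  refine DFunLike.coe_injective ?_
  rw [coe_dMod]
  exact inv_gamma1 Γ k f ⟨_, diaMat_one_mem M⟩

end Forms

end Fermat.Agent.X1

end
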