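import Fermat.Agent.X1.HauptBasic
import Fermat.Agent.ModFun.HermiteGen

/-!
# The Hauptmodul of `Γ_0(3)`
-/

set_option autoImplicit false

open UpperHalfPlane hiding I
open ModularForm Matrix.SpecialLinearGroup Filter Asymptotics CongruenceSubgroup
open scoped MatrixGroups Manifold ModularForm Polynomial Topology

noncomputable section

namespace Fermat.Agent.X1.Haupt

open Fermat.Agent.JLevelOne Fermat.Agent.X0Emb Fermat.Agent.ModFun ModularCurve Fermat.Agent.FG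
open Fermat.Agent.EisChar Fermat.Agent.X0Deg Fermat.Agent.Moduli Fermat.Agent.MazurCusp
open Fermat.Agent.S28aux Fermat.Agent.TEll

local notation "𝕢" => Function.Periodic.qParam

/-! ### Power series -/

section Series

theorem exists_of_coeff {R : Type*} [CommRing R] {f g : PowerSeries R} {n : ℕ}
    (h : ∀ m < n, PowerSeries.coeff m f = PowerSeries.coeff m g) :
    ∃ r, f = g + PowerSeries.X ^ n * r := by
  have h1 : PowerSeries.X ^ n ∣ f - g := PowerSeries.X_pow_dvd_iff.mpr fun m hm => by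
    rw [map_sub, h m hm, sub_self]
  obtain ⟨r, hr⟩ := h1
  exact ⟨r, by rw [← hr]; ring⟩

/-- the inverse of `etaProd`. -/
def etaInv : PowerSeries ℤ := etaProd.invOfUnit 1

theorem etaProd_mul_etaInv : etaProd * etaInv = 1 :=
  PowerSeries.mul_invOfUnit _ _ (by rw [constantCoeff_etaProd]; rfl)

theorem constantCoeff_etaInv : PowerSeries.constantCoeff etaInv = 1 := by
  have h := congrArg (PowerSeries.constantCoeff (R := ℤ)) etaProd_mul_etaInv
  rwa [map_mul, constantCoeff_etaProd, one_mul, map_one] at h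

theorem etaInv_pow : etaInv ^ 24 = dedekindEtaUnitInv := by
  have h1 : dedekindEtaUnit * etaInv ^ 24 = 1 := by
    rw [dedekindEtaUnit, ← mul_pow, etaProd_mul_etaInv, one_pow]
  have h2 := dedekindEtaUnit_mul_inv
  calc etaInv ^ 24 = dedekindEtaUnitInv * (dedekindEtaUnit * etaInv ^ 24) - 
      (dedekindEtaUnit * dedekindEtaUnitInv - 1) * etaInv ^ 24 := by ring
    _ = dedekindEtaUnitInv := by rw [h1, h2]; ring

theorem coeff_two_etaProd : PowerSeries.coeff 2 etaProd = -1 := by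
  rw [Igusa.etaProd_eq]
  have h := PowerSeries.coeff_pentagonalSeries_pentagonal ℤ (-1)
  have h1 : pentagonal (-1) = 2 := by simp [pentagonal]
  rw [h1] at h
  rw [h]
  simp

theorem exists_etaProd : ∃ r, etaProd =
    (1 - PowerSeries.X - PowerSeries.X ^ 2) + PowerSeries.X ^ 3 * r := by
  refine exists_of_coeff fun m hm => ?_
  interval_cases m
  · rw [PowerSeries.coeff_zero_eq_constantCoeff, constantCoeff_etaProd]; simp
  · rw [coeff_one_etaProd]; simp [PowerSeries.coeff_one_X, PowerSeries.coeff_X_pow,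
      PowerSeries.coeff_one]
  · rw [coeff_two_etaProd]; simp [PowerSeries.coeff_X, PowerSeries.coeff_X_pow,
      PowerSeries.coeff_one]

theorem exists_expand {f : PowerSeries ℤ} (hf : PowerSeries.constantCoeff f = 1) (n : ℕ)
    (hn : n ≠ 0) : ∃ r, PowerSeries.expand n hn f = 1 + PowerSeries.X ^ n * r := by
  refine exists_of_coeff fun m hm => ?_
  rcases Nat.eq_zero_or_pos m with rfl | h0
  · rw [PowerSeries.coeff_zero_eq_constantCoeff, PowerSeries.constantCoeff_expand, hf]; simp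
  · rw [PowerSeries.coeff_expand_of_not_dvd, PowerSeries.coeff_one, if_neg h0.ne']
    intro h; exact absurd (Nat.le_of_dvd h0 h) (by omega)

/-- the power series `q T`. -/
def g3 : PowerSeries ℤ := (etaProd * PowerSeries.expand 3 (by norm_num) etaInv) ^ 12

/-- the inverse of `g3`. -/
def g3i : PowerSeries ℤ := (etaInv * PowerSeries.expand 3 (by norm_num) etaProd) ^ 12

theorem g3_mul_g3i : g3 * g3i = 1 := by
  have h : PowerSeries.expand 3 (by norm_num) etaProd * PowerSeries.expand 3 (by norm_num) etaInv =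
      (1 : PowerSeries ℤ) := by
    rw [← map_mul, etaProd_mul_etaInv, map_one]
  rw [g3, g3i, ← mul_pow]
  calc (etaProd * PowerSeries.expand 3 (by norm_num) etaInv *
      (etaInv * PowerSeries.expand 3 (by norm_num) etaProd)) ^ 12 = ((etaProd * etaInv) *
      (PowerSeries.expand 3 (by norm_num) etaProd *
        PowerSeries.expand 3 (by norm_num) etaInv)) ^ 12 := by ring
    _ = 1 := by rw [etaProd_mul_etaInv, h]; ring

theorem g3_sq : g3 ^ 2 = uPS 3 := by
  rw [g3, uPS, ← etaInv_pow, dedekindEtaUnit, map_pow]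
  ring

theorem exists_g3 : ∃ r, g3 = (1 - 12 * PowerSeries.X + 54 * PowerSeries.X ^ 2) +
    PowerSeries.X ^ 3 * r := by
  obtain ⟨r, hr⟩ := exists_etaProd
  obtain ⟨s, hs⟩ := exists_expand constantCoeff_etaInv 3 (by norm_num)
  have h1 : (PowerSeries.X ^ 3 : PowerSeries ℤ) ∣
      g3 - (1 - PowerSeries.X - PowerSeries.X ^ 2) ^ 12 := by
    have h2 : etaProd * PowerSeries.expand 3 (by norm_num) etaInv -
        (1 - PowerSeries.X - PowerSeries.X ^ 2) = PowerSeries.X ^ 3 *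
        (r + (1 - PowerSeries.X - PowerSeries.X ^ 2) * s + PowerSeries.X ^ 3 * (r * s)) := by
      rw [hr, hs]; ring
    rw [g3]
    exact (Dvd.intro _ h2.symm).trans (sub_dvd_pow_sub_pow _ _ 12)
  obtain ⟨t, ht⟩ := h1
  generalize (PowerSeries.X : PowerSeries ℤ) = X at *
  refine ⟨t + ((-88) + (-99)*X + (528)*X^2 + (-286)*X^3 + (-1188)*X^4 + (1386)*X^5 + (1628)*X^6 + (-2706)*X^7 + (-1728)*X^8 + (3301)*X^9 + (1728)*X^10 + (-2706)*X^11 + (-1628)*X^12 + (1386)*X^13 + (1188)*X^14 + (-286)*X^15 + (-528)*X^16 + (-99)*X^17 + (88)*X^18 + (54)*X^19 + (12)*X^20 + (1)*X^21), ?_⟩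
  linear_combination ht

theorem coeff_one_jNum : PowerSeries.coeff 1 jNum = 744 := by
  have h1 : PowerSeries.coeff 1 dedekindEtaUnitInv = 24 := by
    have h := congrArg (PowerSeries.coeff (R := ℤ) 1) dedekindEtaUnit_mul_inv
    rw [PowerSeries.coeff_one_mul, coeff_one_dedekindEtaUnit, constantCoeff_dedekindEtaUnit,
      constantCoeff_dedekindEtaUnitInv, PowerSeries.coeff_one] at h
    simp at h
    linarith
  have h2 : PowerSeries.coeff 1 eisenstein4 = 240 := by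
    rw [eisenstein4, PowerSeries.coeff_mk]; simp
  rw [jNum, PowerSeries.coeff_one_mul, PowerSeries.coeff_one_pow, h1, h2, map_pow,
    constantCoeff_eisenstein4, constantCoeff_dedekindEtaUnitInv]
  norm_num

theorem exists_jNum : ∃ r, jNum = (1 + 744 * PowerSeries.X) + PowerSeries.X ^ 2 * r := by
  have e : (744 : PowerSeries ℤ) = PowerSeries.C 744 := by simp
  refine exists_of_coeff fun m hm => ?_
  interval_cases m
  · rw [PowerSeries.coeff_zero_eq_constantCoeff, constantCoeff_jNum]; simp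
  · rw [coeff_one_jNum, map_add, e, PowerSeries.coeff_C_mul]
    simp [PowerSeries.coeff_one_X, PowerSeries.coeff_one]

/-- the relation at `∞` -/
theorem rel_infty : ∃ R, (g3 + 27 * PowerSeries.X) * (g3 + 243 * PowerSeries.X) ^ 3 -
    jNum * g3 ^ 3 = PowerSeries.X ^ 2 * R := by
  obtain ⟨r, hr⟩ := exists_g3
  obtain ⟨u, hu⟩ := exists_jNum
  obtain ⟨t, ht⟩ : ∃ t, g3 = (1 - 12 * PowerSeries.X) + PowerSeries.X ^ 2 * t :=
    ⟨54 + PowerSeries.X * r, by rw [hr]; ring⟩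
  generalize (PowerSeries.X : PowerSeries ℤ) = X at *
  rw [ht, hu]
  exact ⟨(196830) + (-1)*u + (1)*t + (14407956)*X + (36)*X*u + (-36)*X*t + (186181497)*X^2 + (-432)*X^2*u + (394092)*X^2*t + (-3)*X^2*t*u + (3)*X^2*t^2 + (1728)*X^3*u + (14406228)*X^3*t + (72)*X^3*t*u + (-72)*X^3*t^2 + (-432)*X^4*t*u + (197262)*X^4*t^2 + (-3)*X^4*t^2*u + (3)*X^4*t^3 + (36)*X^5*t^2*u + (-36)*X^5*t^3 + (-1)*X^6*t^3*u + (1)*X^6*t^4, by ring⟩

/-- the relation at `0` -/
theorem rel_zero : ∃ R, (g3 + 27 * PowerSeries.X) * (g3 + 3 * PowerSeries.X) ^ 3 -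
    PowerSeries.expand 3 (by norm_num) jNum * g3 = PowerSeries.X ^ 3 * R := by
  obtain ⟨t, ht⟩ := exists_g3
  obtain ⟨u, hu⟩ := exists_expand constantCoeff_jNum 3 (by norm_num)
  generalize (PowerSeries.X : PowerSeries ℤ) = X at *
  rw [ht, hu]
  exact ⟨(972) + (-1)*u + (3)*t + (-10935)*X + (12)*X*u + (-36)*X*t + (52488)*X^2 + (-54)*X^2*u + (324)*X^2*t + (157464)*X^3 + (-972)*X^3*t + (-1)*X^3*t*u + (6)*X^3*t^2 + (-1889568)*X^4 + (17496)*X^4*t + (-36)*X^4*t^2 + (8503056)*X^5 + (-104976)*X^5*t + (486)*X^5*t^2 + (629856)*X^6*t + (-1944)*X^6*t^2 + (4)*X^6*t^3 + (17496)*X^7*t^2 + (-12)*X^7*t^3 + (216)*X^8*t^3 + (1)*X^9*t^4, by ring⟩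

/-- the embedding of integral power series -/
def φ : PowerSeries ℤ →+* LaurentSeries ℂ :=
  (HahnSeries.ofPowerSeries ℤ ℂ).comp (PowerSeries.map (Int.castRingHom ℂ))

/-- the variable -/
def qv : LaurentSeries ℂ := HahnSeries.single 1 1

theorem φ_X : φ PowerSeries.X = qv := by
  rw [φ, RingHom.comp_apply, PowerSeries.map_X, HahnSeries.ofPowerSeries_X]; rfl

theorem qv_ne_zero : qv ≠ 0 := by
  rw [qv, ne_eq, HahnSeries.single_eq_zero_iff]; exact one_ne_zero

theorem qv_inv : qv⁻¹ = HahnSeries.single (-1) 1 := by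
  refine inv_eq_of_mul_eq_one_right ?_
  rw [qv, HahnSeries.single_mul_single]
  simp

theorem qv_pow_inv (n : ℕ) : (qv ^ n)⁻¹ = HahnSeries.single (-(n : ℤ)) 1 := by
  rw [← inv_pow, qv_inv, HahnSeries.single_pow, one_pow]
  congr 1
  simp

theorem coeff_qv_mul_φ (P : PowerSeries ℤ) {n : ℤ} (hn : n < 1) : (qv * φ P).coeff n = 0 := by
  rw [qv, HahnSeries.coeff_single_mul, one_mul]
  exact ofPowerSeries_coeff_of_neg _ (by omega)

theorem coeff_φ (P : PowerSeries ℤ) {n : ℤ} (hn : n < 0) : (φ P).coeff n = 0 :=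
  ofPowerSeries_coeff_of_neg _ hn

/-- the `q`-expansion of the Hauptmodul. -/
def T3 : LaurentSeries ℤ := HahnSeries.single (-1) 1 * HahnSeries.ofPowerSeries ℤ ℤ g3

/-- the complex `q`-expansion. -/
def x3 : LaurentSeries ℂ := coeffMap (Int.castRingHom ℂ) T3

theorem x3_eq : x3 = qv⁻¹ * φ g3 := by
  rw [qv_inv, x3, T3, map_mul, coeffMap_single, map_one, X0Emb.coeffMap_ofPowerSeries]
  rfl

theorem j_eq : jqModC ℂ = qv⁻¹ * φ jNum := by
  rw [qv_inv]
  rfl

theorem j3_eq : qExpand ℂ 3 (jqModC ℂ) = (qv ^ 3)⁻¹ * φ (PowerSeries.expand 3 (by norm_num) jNum) := by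
  rw [qv_pow_inv, jqModC, map_mul, qExpand_single, qExpand_ofPowerSeries, ← PowerSeries.map_expand]
  rfl

theorem φg_ne_zero : φ g3 ≠ 0 := by
  intro h
  have := congrArg φ g3_mul_g3i
  rw [map_mul, h, zero_mul, map_one] at this
  exact zero_ne_one this

theorem φg_inv : (φ g3)⁻¹ = φ g3i :=
  (eq_inv_of_mul_eq_one_right (by rw [← map_mul, g3_mul_g3i, map_one])).symm

theorem d_infty : ∃ P : PowerSeries ℤ, (x3 + 27) * (x3 + 243) ^ 3 * x3⁻¹ ^ 3 - jqModC ℂ =
    qv * φ P := by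
  obtain ⟨R, hR⟩ := rel_infty
  have h := congrArg φ hR
  simp only [map_sub, map_mul, map_add, map_pow, φ_X, map_ofNat] at h
  refine ⟨g3i ^ 3 * R, ?_⟩
  rw [map_mul, map_pow, ← φg_inv, x3_eq, j_eq]
  have h1 := qv_ne_zero
  have h2 := φg_ne_zero
  field_simp
  linear_combination h

theorem d_zero : ∃ P : PowerSeries ℤ, (x3 + 27) * (x3 + 3) ^ 3 * x3⁻¹ - qExpand ℂ 3 (jqModC ℂ) =
    φ P := by
  obtain ⟨R, hR⟩ := rel_zero
  have h := congrArg φ hR
  simp only [map_sub, map_mul, map_add, map_pow, φ_X, map_ofNat] at h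
  refine ⟨g3i * R, ?_⟩
  rw [map_mul, ← φg_inv, x3_eq, j3_eq]
  have h1 := qv_ne_zero
  have h2 := φg_ne_zero
  field_simp
  linear_combination h

end Series

/-! ### Eta -/

theorem eta_add_one_pow (z : ℂ) : eta (z + 1) ^ 12 = -eta z ^ 12 := by
  have h1 : 𝕢 1 (z + 1) = 𝕢 1 z := by
    rw [Function.Periodic.qParam, Function.Periodic.qParam]
    rw [show 2 * (Real.pi : ℂ) * Complex.I * (z + 1) / ((1 : ℝ) : ℂ) =
      2 * Real.pi * Complex.I * z / ((1 : ℝ) : ℂ) + 2 * Real.pi * Complex.I by push_cast; ring,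
      Complex.exp_add, Complex.exp_two_pi_mul_I, mul_one]
  have h2 : 𝕢 24 (z + 1) ^ 12 = -(𝕢 24 z ^ 12) := by
    rw [Function.Periodic.qParam, Function.Periodic.qParam, ← Complex.exp_nat_mul,
      ← Complex.exp_nat_mul]
    rw [show ((12 : ℕ) : ℂ) * (2 * (Real.pi : ℂ) * Complex.I * (z + 1) / ((24 : ℝ) : ℂ)) =
      ((12 : ℕ) : ℂ) * (2 * Real.pi * Complex.I * z / ((24 : ℝ) : ℂ)) + Real.pi * Complex.I by
        push_cast; ring,
      Complex.exp_add, Complex.exp_pi_mul_I]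
    ring
  simp only [eta, eta_q]
  rw [h1, mul_pow, mul_pow, h2]
  ring

theorem sqrt_pow_twelve (z : ℂ) : Complex.sqrt z ^ 12 = z ^ 6 := by
  have h : Complex.sqrt z ^ 2 = z := by
    rw [Complex.sqrt, ← Complex.cpow_nat_mul]
    norm_num
  calc Complex.sqrt z ^ 12 = (Complex.sqrt z ^ 2) ^ 6 := by ring
    _ = z ^ 6 := by rw [h]

theorem eta_S_pow (τ : ℍ) : eta ((ModularGroup.S • τ : ℍ) : ℂ) ^ 12 = -((τ : ℂ) ^ 6 * eta τ ^ 12) := by
  have h := eta_comp_eq_csqrt_I_inv (x := (τ : ℂ)) τ.im_pos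
  have h0 : ((ModularGroup.S • τ : ℍ) : ℂ) = -1 / (τ : ℂ) := by
    rw [UpperHalfPlane.modular_S_smul]
    simp [neg_div, inv_neg]
  rw [h0]
  have h' : eta (-1 / (τ : ℂ)) = (Complex.sqrt Complex.I)⁻¹ * (Complex.sqrt τ * eta τ) := h
  rw [h', mul_pow, mul_pow, inv_pow, sqrt_pow_twelve, sqrt_pow_twelve]
  have : Complex.I ^ 6 = -1 := by
    calc Complex.I ^ 6 = (Complex.I ^ 2) ^ 3 := by ring
      _ = -1 := by rw [Complex.I_sq]; norm_num
  rw [this]
  norm_num

/-- `(η(τ)/η(3τ))^12` -/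
def fE (τ : ℍ) : ℂ := (eta τ / eta (aff 3 0 1 τ)) ^ 12

theorem fE_sq (τ : ℍ) : fE τ ^ 2 = uFun 3 τ := by
  rw [fE, uFun, discriminant, discriminant, ← pow_mul, div_pow]

theorem fE_ne_zero (τ : ℍ) : fE τ ≠ 0 :=
  pow_ne_zero _ (div_ne_zero (eta_ne_zero τ.im_pos) (eta_ne_zero (aff 3 0 1 τ).im_pos))

theorem fE_T (τ : ℍ) : fE (ModularGroup.T • τ) = fE τ := by
  have h1 : ((ModularGroup.T • τ : ℍ) : ℂ) = τ + 1 := by
    have := @ModularGroup.coe_T_zpow_smul_eq τ 1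
    simpa using this
  have h2 : ((aff 3 0 1 (ModularGroup.T • τ) : ℍ) : ℂ) = (aff 3 0 1 τ : ℍ) + 1 + 1 + 1 := by
    rw [coe_aff, coe_aff, h1]; push_cast; ring
  rw [fE, fE, h1, h2, div_pow, div_pow, eta_add_one_pow, eta_add_one_pow, eta_add_one_pow,
    eta_add_one_pow]
  ring

theorem fE_W (τ : ℍ) : fE (ModularGroup.S • aff 3 0 1 τ) * fE τ = 729 := by
  have h1 : aff 3 0 1 (ModularGroup.S • aff 3 0 1 τ) = ModularGroup.S • τ := by
    ext
    rw [coe_aff, UpperHalfPlane.modular_S_smul, UpperHalfPlane.modular_S_smul]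
    have := UpperHalfPlane.ne_zero τ
    simp
    field_simp
  have h2 := eta_ne_zero τ.im_pos
  have h3 := eta_ne_zero (aff 3 0 1 τ).im_pos
  have h4 := UpperHalfPlane.ne_zero τ
  have e : ((aff 3 0 1 τ : ℍ) : ℂ) = 3 * τ := by rw [coe_aff]; push_cast; ring
  rw [fE, fE, h1, div_pow, div_pow, eta_S_pow, eta_S_pow, e]
  rw [e] at h3
  generalize eta (3 * (τ : ℂ)) = b at *
  generalize eta (τ : ℂ) = a at *
  field_simp
  norm_num

theorem fE_mdiff : MDiff fE := by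
  rw [UpperHalfPlane.mdifferentiable_iff]
  have : DifferentiableOn ℂ (fun z : ℂ ↦ (eta z / eta (3 * z)) ^ 12) upperHalfPlaneSet := by
    intro z hz
    have hz3 : 3 * z ∈ upperHalfPlaneSet := by
      show 0 < (3 * z).im
      have : 0 < z.im := hz
      simpa using this
    have d1 : DifferentiableAt ℂ eta z := differentiableAt_eta_of_mem_upperHalfPlaneSet hz
    have d2 : DifferentiableAt ℂ (fun w : ℂ => eta (3 * w)) z :=
      DifferentiableAt.comp (g := eta) (f := fun w : ℂ => 3 * w) z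
        (differentiableAt_eta_of_mem_upperHalfPlaneSet hz3) (by fun_prop)
    exact ((d1.fun_div d2 (eta_ne_zero hz3)).fun_pow 12).differentiableWithinAt
  refine this.congr fun z hz ↦ ?_
  have e : ((aff 3 0 1 (⟨z, hz⟩ : ℍ) : ℍ) : ℂ) = 3 * z := by rw [coe_aff]; push_cast; ring
  rw [Function.comp_apply, ofComplex_apply_of_im_pos hz, fE, e]

theorem modGrowth_of_sq {F : ℍ → ℂ} (h : ModGrowth (fun τ => F τ ^ 2)) : ModGrowth F := by
  intro σ
  obtain ⟨m, hm⟩ := h σ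
  refine ⟨m, ?_⟩
  have h1 : (fun τ : ℍ => (1 : ℝ)) =O[atImInfty] (fun τ : ℍ => Real.exp (m * τ.im)) := by
    refine IsBigO.of_norm_le fun τ => ?_
    rw [norm_one]
    exact Real.one_le_exp (by positivity [τ.im_pos])
  refine IsBigO.trans (IsBigO.of_norm_le fun τ => ?_) (h1.add hm.norm_left)
  rw [norm_pow]
  nlinarith [norm_nonneg (F (σ • τ)), sq_nonneg (‖F (σ • τ)‖ - 1)]

theorem fE_growth : ModGrowth fE := by
  refine modGrowth_of_sq ?_
  have : (fun τ => fE τ ^ 2) = uFun 3 := funext fE_sq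
  rw [this]
  have : Fact (Nat.Prime 3) := ⟨Nat.prime_three⟩
  exact uFun_growth 3


/-! ### Invariance -/

/-- the stabiliser of a function. -/
def invSub (f : ℍ → ℂ) : Subgroup SL(2, ℤ) where
  carrier := {γ | ∀ τ : ℍ, f (γ • τ) = f τ}
  one_mem' τ := by rw [one_smul]
  mul_mem' {a b} ha hb τ := by rw [mul_smul, ha, hb]
  inv_mem' {a} ha τ := by rw [← ha, smul_inv_smul]

theorem mem_invSub {f : ℍ → ℂ} {γ : SL(2, ℤ)} : γ ∈ invSub f ↔ ∀ τ : ℍ, f (γ • τ) = f τ := Iff.rfl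

theorem aff_three_third (z : ℍ) : aff 3 0 1 (aff 1 0 3 z) = z := by
  ext
  rw [coe_aff, coe_aff]
  push_cast
  field_simp
  ring

theorem fE_inv (γ : SL(2, ℤ)) (hγ : γ ∈ Gamma0 3) (τ : ℍ) : fE (γ • τ) = fE τ := by
  have hT : ModularGroup.T ∈ invSub fE := fE_T
  have hS : ∀ z : ℍ, fE (ModularGroup.S • z) * fE (aff 1 0 3 z) = 729 := fun z => by
    rw [← fE_W (aff 1 0 3 z), aff_three_third]
  have hV : V3 ∈ invSub fE := by
    intro τ
    have h1 : V3 • τ = ModularGroup.S • (ModularGroup.T ^ (-3 : ℤ) • (ModularGroup.S⁻¹ • τ)) := by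
      rw [V3, mul_smul, mul_smul]
    set z := (ModularGroup.S⁻¹ : SL(2, ℤ)) • τ with hz
    have h2 : aff 1 0 3 (ModularGroup.T ^ (-3 : ℤ) • z) = ModularGroup.T ^ (-1 : ℤ) • aff 1 0 3 z := by
      ext
      rw [coe_aff, ModularGroup.coe_T_zpow_smul_eq, ModularGroup.coe_T_zpow_smul_eq, coe_aff]
      push_cast
      ring
    have h3 := hS (ModularGroup.T ^ (-3 : ℤ) • z)
    rw [h2, (Subgroup.zpow_mem _ hT (-1) : ModularGroup.T ^ (-1 : ℤ) ∈ invSub fE), ← h1] at h3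
    have h4 := hS z
    rw [hz, smul_inv_smul, ← hz] at h4
    exact mul_right_cancel₀ (fE_ne_zero _) (h3.trans h4.symm)
  have hneg : (-1 : SL(2, ℤ)) ∈ invSub fE := by
    intro τ
    rw [ModularGroup.SL_neg_smul, one_smul]
  exact mem_of_T_V hT hV hneg hγ τ

/-! ### The relation -/

theorem relation_three {f : ℍ → ℂ} (hmd : MDiff f)
    (hinv : ∀ γ ∈ Gamma0 3, ∀ τ : ℍ, f (γ • τ) = f τ) (hl : LExp 1 f x3)
    (hW : ∀ τ, f (ModularGroup.S • aff 3 0 1 τ) * f τ = 729) (hgr : ModGrowth f) (τ : ℍ) :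
    (f τ + 27) * (f τ + 243) ^ 3 = jFun τ * f τ ^ 3 := by
  have hp : Fact (Nat.Prime 3) := ⟨Nat.prime_three⟩
  have hne : ∀ τ, f τ ≠ 0 := fun τ h0 => by
    have := hW τ
    rw [h0, mul_zero] at this
    norm_num at this
  set fi : ℍ → ℂ := fun τ => (f τ)⁻¹ with hfi
  have hfi' : fi = fun τ => (1 / 729 : ℂ) * f (ModularGroup.S • aff 3 0 1 τ) := by
    funext τ
    have := hW τ
    have h0 := hne τ
    rw [hfi]
    field_simp
    linear_combination -this
  have hfimd : MDiff fi := by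
    rw [hfi']
    have h1 : MDiff (fun τ : ℍ => f (ModularGroup.S • τ)) :=
      hmd.comp (UpperHalfPlane.mdifferentiable_smul (by simp))
    exact mdifferentiable_const.mul (mdiff_comp_aff h1 3 0 1)
  have hfigr : ModGrowth fi := by
    rw [hfi']
    exact (ModGrowth.const _).mul (ModGrowth.comp_aff (hgr.smul ModularGroup.S) 3 0 1)
  have hT : ∀ τ : ℍ, f ((1 : ℝ) +ᵥ τ) = f τ := fun τ => by
    rw [← UpperHalfPlane.modular_T_smul]
    exact hinv _ (by simp [Gamma0_mem, ModularGroup.T]) τ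
  have hfil : LExp 1 fi x3⁻¹ := by
    obtain ⟨z, hz⟩ := exists_lexp (h := 1) hfimd (fun τ => by
      simp only [hfi, Nat.cast_one, hT]) hfigr.growthInf
    rw [Nat.cast_one] at hz
    have h1 := hl.mul hz
    have h2 : f * fi = 1 := by
      funext τ
      simp only [hfi, Pi.mul_apply, Pi.one_apply]
      exact mul_inv_cancel₀ (hne τ)
    rw [h2] at h1
    have h3 := h1.unique one_pos (LExp.one 1)
    rw [← eq_inv_of_mul_eq_one_right h3]
    exact hz
  have hc : ∀ c : ℂ, LExp 1 (fun _ => c) (HahnSeries.C c) := LExp.const 1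
  have c27 : (HahnSeries.C (27 : ℂ) : LaurentSeries ℂ) = 27 := map_ofNat _ _
  have c243 : (HahnSeries.C (243 : ℂ) : LaurentSeries ℂ) = 243 := map_ofNat _ _
  have c3 : (HahnSeries.C (3 : ℂ) : LaurentSeries ℂ) = 3 := map_ofNat _ _
  obtain ⟨P, hP⟩ := d_infty
  obtain ⟨Q, hQ⟩ := d_zero
  set D : ℍ → ℂ := (f + fun _ => 27) * (f + fun _ => 243) ^ 3 * fi ^ 3 - jFun with hD
  have e1 : LExp 1 D (qv * φ P) := by
    rw [← hP, ← c27, ← c243]
    exact (((hl.add (hc 27)).mul ((hl.add (hc 243)).pow 3)).mul (hfil.pow 3)).sub lexp_jFun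
  have e2 : LExp 1 (fun τ => D (ModularGroup.S • aff 3 0 1 τ)) (φ Q) := by
    have h1 : LExp 1 ((f + fun _ => 27) * (f + fun _ => 3) ^ 3 * fi -
        fun τ => jFun (aff 3 0 1 τ)) (φ Q) := by
      rw [← hQ, ← c27, ← c3]
      refine (((hl.add (hc 27)).mul ((hl.add (hc 3)).pow 3)).mul hfil).sub ?_
      have h := lexp_jFun.aff 3 0 1 3 1 (by ring)
      rw [show zetaU 0 1 = 1 by ext; simp [zetaU], show twist (1 : ℂˣ) (jqModC ℂ) = jqModC ℂ by
        ext n; simp, Nat.cast_one] at h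
      exact h
    refine (congrArg (fun F => LExp 1 F (φ Q)) ?_).mp h1
    funext τ
    have h2 := hW τ
    have h0 := hne τ
    have h3 : f (ModularGroup.S • aff 3 0 1 τ) = 729 / f τ := by
      rw [eq_div_iff h0]; exact h2
    simp only [hD, hfi, Pi.sub_apply, Pi.mul_apply, Pi.add_apply, Pi.pow_apply]
    rw [h3, jFun_smul]
    field_simp
    ring
  have hDmd : MDiff D := by
    have c1 : ∀ c : ℂ, MDiff ((f + fun _ : ℍ => c) : ℍ → ℂ) := fun c => hmd.add mdifferentiable_const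
    exact (((c1 27).mul ((c1 243).pow 3)).mul (hfimd.pow 3)).sub jFun_mdiff
  have hDinv : ∀ γ ∈ Gamma0 3, ∀ τ : ℍ, D (γ • τ) = D τ := by
    intro γ hγ τ
    simp only [hD, hfi, Pi.sub_apply, Pi.mul_apply, Pi.add_apply, Pi.pow_apply]
    rw [hinv γ hγ, jFun_smul]
  have h0 := eq_zero_of hDmd hDinv e1 (fun n hn => coeff_qv_mul_φ P hn) e2
    (fun n hn => coeff_φ Q hn) τ
  simp only [hD, hfi, Pi.sub_apply, Pi.mul_apply, Pi.add_apply, Pi.pow_apply] at h0
  have h1 := hne τ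
  field_simp at h0
  linear_combination h0

theorem coeff_T3 : T3.coeff (-1) = 1 := by
  rw [T3, HahnSeries.coeff_single_mul, one_mul, sub_self, show (0 : ℤ) = ((0 : ℕ) : ℤ) from rfl,
    HahnSeries.ofPowerSeries_apply_coeff, PowerSeries.coeff_zero_eq_constantCoeff, g3, map_pow,
    map_mul, constantCoeff_etaProd, PowerSeries.constantCoeff_expand, constantCoeff_etaInv]
  norm_num

theorem coeff_T3_of_lt {n : ℤ} (hn : n < -1) : T3.coeff n = 0 := by
  rw [T3, HahnSeries.coeff_single_mul, one_mul]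
  exact ofPowerSeries_coeff_of_neg _ (by omega)

theorem x3_sq : x3 ^ 2 = uSer 3 ℂ := by
  rw [x3_eq, uSer_eq, ← g3_sq, map_pow, map_pow, mul_pow, inv_pow, qv_pow_inv]
  rfl

/-- **The Hauptmodul of `Γ₀(3)`**: `f = (η(τ)/η(3τ))^12`, up to sign. -/
theorem exists_haupt_three : ∃ (f : ℍ → ℂ) (T : LaurentSeries ℤ), MDiff f ∧
    (∀ γ ∈ Gamma0 3, ∀ τ : ℍ, f (γ • τ) = f τ) ∧ ModGrowth f ∧
    LExp 1 f (coeffMap (Int.castRingHom ℂ) T) ∧ T.coeff (-1) = 1 ∧
    (∀ n < -1, T.coeff n = 0) ∧ ∀ τ, (f τ + 27) * (f τ + 243) ^ 3 = jFun τ * f τ ^ 3 := by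
  have hp : Fact (Nat.Prime 3) := ⟨Nat.prime_three⟩
  obtain ⟨y, hy⟩ := exists_lexp (h := 1) fE_mdiff (fun τ => by
    rw [Nat.cast_one, ← UpperHalfPlane.modular_T_smul, fE_T]) fE_growth.growthInf
  rw [Nat.cast_one] at hy
  have h1 : y ^ 2 = x3 ^ 2 := by
    have h := hy.pow 2
    have h2 : fE ^ 2 = uFun 3 := funext fE_sq
    rw [h2] at h
    rw [x3_sq]
    exact h.unique one_pos (lexp_uFun 3)
  obtain ⟨s, hs, hsy⟩ : ∃ s : ℂ, s ^ 2 = 1 ∧ LExp 1 (fun τ => s * fE τ) x3 := by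
    rcases sq_eq_sq_iff_eq_or_eq_neg.mp h1 with h | h
    · exact ⟨1, one_pow 2, by simpa [h] using hy⟩
    · refine ⟨-1, by norm_num, ?_⟩
      have h3 := hy.neg
      rw [h, neg_neg] at h3
      refine (congrArg (fun F => LExp 1 F x3) ?_).mp h3
      funext τ
      simp
  have hmd : MDiff (fun τ => s * fE τ) := mdifferentiable_const.mul fE_mdiff
  have hinv : ∀ γ ∈ Gamma0 3, ∀ τ : ℍ, (fun τ => s * fE τ) (γ • τ) = (fun τ => s * fE τ) τ :=
    fun γ hγ τ => by simp only [fE_inv γ hγ τ]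
  have hgr : ModGrowth (fun τ => s * fE τ) := (ModGrowth.const s).mul fE_growth
  refine ⟨fun τ => s * fE τ, T3, hmd, hinv, hgr, hsy, coeff_T3, fun n hn => coeff_T3_of_lt hn, ?_⟩
  refine relation_three hmd hinv hsy (fun τ => ?_) hgr
  linear_combination s ^ 2 * fE_W τ + 729 * hs

end Fermat.Agent.X1.Haupt

end
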