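import Fermat.Agent.X1.HauptBasic
import Fermat.Agent.Mazur.CuspSeries

/-!
# The Hauptmodul of `X₀(2)`
-/

set_option autoImplicit false

open UpperHalfPlane hiding I
open ModularForm ModularCurve CongruenceSubgroup
open scoped MatrixGroups Manifold

noncomputable section

namespace Fermat.Agent.X1.HauptTwo

open Fermat.Agent.JLevelOne Fermat.Agent.ModFun Fermat.Agent.Igusa Fermat.Agent.S28aux
open Fermat.Agent.X0Emb Fermat.Agent.Moduli Fermat.Agent.MazurCusp

local notation "𝕢" => Function.Periodic.qParam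

/-! ### coefficients -/

lemma coeff_one_eisenstein4 : PowerSeries.coeff 1 eisenstein4 = 240 := by
  simp [eisenstein4]

lemma coeff_one_dedekindEtaUnitInv : PowerSeries.coeff 1 dedekindEtaUnitInv = 24 := by
  have h := congrArg (PowerSeries.coeff 1) dedekindEtaUnit_mul_inv
  rw [PowerSeries.coeff_one_mul, coeff_one_dedekindEtaUnit, constantCoeff_dedekindEtaUnit,
    constantCoeff_dedekindEtaUnitInv, PowerSeries.coeff_one] at h
  norm_num at h
  linarith

lemma coeff_one_jNum : PowerSeries.coeff 1 jNum = 744 := by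
  rw [jNum, PowerSeries.coeff_one_mul, PowerSeries.coeff_one_pow, coeff_one_eisenstein4,
    coeff_one_dedekindEtaUnitInv, map_pow, constantCoeff_eisenstein4,
    constantCoeff_dedekindEtaUnitInv]
  norm_num

lemma coeff_single_mul_eq_zero {Q : PowerSeries ℂ} {k : ℕ} (hQ : ∀ i < k, Q.coeff i = 0) (e : ℤ) :
    ∀ n < e + k, (HahnSeries.single e 1 * HahnSeries.ofPowerSeries ℤ ℂ Q).coeff n = 0 := by
  intro n hn
  rw [HahnSeries.coeff_single_mul, one_mul]
  rcases lt_or_ge (n - e) 0 with h | h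
  · exact ModularCurve.ofPowerSeries_coeff_of_neg _ h
  · obtain ⟨m, hm⟩ := Int.eq_ofNat_of_zero_le h
    rw [hm, HahnSeries.ofPowerSeries_apply_coeff]
    exact hQ _ (by omega)

/-- the power series of `f⁻¹`. -/
def vPS : PowerSeries ℤ :=
  dedekindEtaUnitInv * PowerSeries.expand 2 (NeZero.ne 2) dedekindEtaUnit

/-- the function `Δ(2τ)/Δ(τ)`. -/
def gFun (τ : ℍ) : ℂ := ModularForm.discriminant (aff 2 0 1 τ) / ModularForm.discriminant τ

lemma gFun_eq (τ : ℍ) : gFun τ = (uFun 2 τ)⁻¹ := by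
  rw [gFun, uFun, inv_div]

lemma uFun_ne (τ : ℍ) : uFun 2 τ ≠ 0 :=
  div_ne_zero (discriminant_ne_zero _) (discriminant_ne_zero _)

lemma lexp_gFun : LExp 1 gFun (HahnSeries.single (1 : ℤ) 1 *
    HahnSeries.ofPowerSeries ℤ ℂ (vPS.map (Int.castRingHom ℂ))) := by
  have h1 : LExp 1 (fun τ => ModularForm.discriminant (mulN 2 τ)) (qExpand ℂ 2 (deltaC ℂ)) :=
    hasLExp_discriminant.comp_mulN 2
  have h2 := h1.mul (show LExp 1 (fun τ => (ModularForm.discriminant τ)⁻¹) (deltaInvC ℂ) from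
    hasLExp_discriminant_inv)
  convert h2 using 1
  · funext τ
    rw [gFun, aff_eq_mulN, div_eq_mul_inv]
    rfl
  · simp only [vPS, deltaC, deltaInvC, map_mul, qExpand_single, TEll.qExpand_ofPowerSeries,
      PowerSeries.map_expand]
    have : (HahnSeries.single (1 : ℤ) (1 : ℂ)) = HahnSeries.single (((2 : ℕ) : ℤ) * 1) 1 *
        HahnSeries.single (-1 : ℤ) 1 := by
      rw [HahnSeries.single_mul_single, mul_one]
      norm_num
    rw [this]
    ring

/-- the relation function at `∞` -/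
def DF (τ : ℍ) : ℂ := uFun 2 τ + 768 + 196608 * gFun τ + 16777216 * gFun τ ^ 2 - jFun τ

lemma DF_eq (τ : ℍ) : DF τ * uFun 2 τ ^ 2 = (uFun 2 τ + 256) ^ 3 - jFun τ * uFun 2 τ ^ 2 := by
  have h := uFun_ne τ
  rw [DF, gFun_eq]
  field_simp
  ring

lemma mdiff_gFun : MDiff gFun :=
  (mdiff_comp_aff mdiff_discriminant 2 0 1).div mdiff_discriminant fun _ => discriminant_ne_zero _

lemma mdiff_DF : MDiff DF := by
  have h1 := uFun_mdiff 2
  have h2 := mdiff_gFun
  have h3 := jFun_mdiff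
  have e : DF = uFun 2 + (fun _ => (768 : ℂ)) + (fun _ => (196608 : ℂ)) * gFun +
      (fun _ => (16777216 : ℂ)) * gFun ^ 2 - jFun := by
    funext τ; simp [DF]
  rw [e]
  exact (((h1.add mdifferentiable_const).add (mdifferentiable_const.mul h2)).add
    (mdifferentiable_const.mul (h2.pow 2))).sub h3

lemma DF_inv (γ : SL(2, ℤ)) (hγ : γ ∈ Gamma0 2) (τ : ℍ) : DF (γ • τ) = DF τ := by
  rw [DF, DF, gFun_eq, gFun_eq, uFun_inv 2 γ hγ, jFun_smul]

lemma single_mul_X : (HahnSeries.single (-1 : ℤ) (1 : ℂ)) *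
    HahnSeries.ofPowerSeries ℤ ℂ PowerSeries.X = 1 := by
  rw [HahnSeries.ofPowerSeries_X, HahnSeries.single_mul_single]
  simp

lemma lexp_uFun' : LExp 1 (uFun 2) (HahnSeries.single (-1 : ℤ) 1 *
    HahnSeries.ofPowerSeries ℤ ℂ ((uPS 2).map (Int.castRingHom ℂ))) := by
  have h := lexp_uFun 2
  rw [uSer_eq] at h
  exact h

lemma lexp_DF : ∃ y, LExp 1 DF y ∧ ∀ n < 1, y.coeff n = 0 := by
  set u := (uPS 2).map (Int.castRingHom ℂ) with hu
  set v := vPS.map (Int.castRingHom ℂ) with hv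
  set N := jNum.map (Int.castRingHom ℂ) with hN
  set Q : PowerSeries ℂ := u - N + PowerSeries.C 768 * PowerSeries.X +
    PowerSeries.C 196608 * PowerSeries.X ^ 2 * v +
    PowerSeries.C 16777216 * PowerSeries.X ^ 3 * v ^ 2 with hQ
  refine ⟨HahnSeries.single (-1) 1 * HahnSeries.ofPowerSeries ℤ ℂ Q, ?_, ?_⟩
  · have h1 := lexp_uFun'
    have h2 := lexp_gFun
    have h3 := lexp_jFun
    rw [jqModC] at h3
    have h4 := (((h1.add (LExp.const 1 768)).add ((LExp.const 1 196608).mul h2)).add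
      ((LExp.const 1 16777216).mul (h2.pow 2))).sub h3
    have e : DF = uFun 2 + (fun _ => (768 : ℂ)) + (fun _ => (196608 : ℂ)) * gFun +
        (fun _ => (16777216 : ℂ)) * gFun ^ 2 - jFun := by
      funext τ; simp [DF]
    rw [e]
    convert h4 using 1
    have hC : ∀ c : ℂ, HahnSeries.ofPowerSeries ℤ ℂ (PowerSeries.C c) = HahnSeries.C c :=
      fun c => HahnSeries.ofPowerSeries_C c
    rw [hQ]
    simp only [map_add, map_sub, map_mul, map_pow, hC]
    have hx := single_mul_X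
    rw [← hu, ← hv, ← hN]
    have hx' : (HahnSeries.single (1 : ℤ) (1 : ℂ)) = HahnSeries.ofPowerSeries ℤ ℂ PowerSeries.X := by
      rw [HahnSeries.ofPowerSeries_X]
    rw [hx']
    generalize HahnSeries.single (-1 : ℤ) (1 : ℂ) = s at hx ⊢
    generalize HahnSeries.ofPowerSeries ℤ ℂ PowerSeries.X = x at hx ⊢
    generalize HahnSeries.ofPowerSeries ℤ ℂ u = u'
    generalize HahnSeries.ofPowerSeries ℤ ℂ v = v'
    generalize HahnSeries.ofPowerSeries ℤ ℂ N = N'
    linear_combination (HahnSeries.C (768 : ℂ) + HahnSeries.C (196608 : ℂ) * x * v' +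
      HahnSeries.C (16777216 : ℂ) * x ^ 2 * v' ^ 2) * hx
  · refine coeff_single_mul_eq_zero (k := 2) ?_ (-1)
    intro i hi
    have hu0 : u.coeff 0 = 1 := by
      rw [hu, PowerSeries.coeff_map, PowerSeries.coeff_zero_eq_constantCoeff, constantCoeff_uPS]
      simp
    have hu1 : u.coeff 1 = -24 := by
      rw [hu, PowerSeries.coeff_map, coeff_one_uPS 2 le_rfl]
      simp
    have hN0 : N.coeff 0 = 1 := by
      rw [hN, PowerSeries.coeff_map, PowerSeries.coeff_zero_eq_constantCoeff, constantCoeff_jNum]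
      simp
    have hN1 : N.coeff 1 = 744 := by
      rw [hN, PowerSeries.coeff_map, coeff_one_jNum]
      simp
    interval_cases i
    · simp only [hQ, map_add, map_sub, PowerSeries.coeff_zero_eq_constantCoeff, map_mul, map_pow,
        PowerSeries.constantCoeff_X] at hu0 hN0 ⊢
      rw [hu0, hN0]
      ring
    · have h1 : ∀ (c : ℂ) (k : ℕ) (w : PowerSeries ℂ), 2 ≤ k →
          (PowerSeries.C c * PowerSeries.X ^ k * w).coeff 1 = 0 := by
        intro c k w hk
        have : PowerSeries.C c * PowerSeries.X ^ k * w =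
            PowerSeries.X ^ k * (PowerSeries.C c * w) := by ring
        rw [this, PowerSeries.coeff_X_pow_mul']
        simp; omega
      rw [hQ, map_add, map_add, map_add, map_sub, h1 _ 2 _ le_rfl, h1 _ 3 _ (by norm_num), hu1, hN1,
        PowerSeries.coeff_C_mul, PowerSeries.coeff_one_X]
      norm_num

lemma uFun_W (τ : ℍ) : uFun 2 (ModularGroup.S • aff 2 0 1 τ) = 4096 * gFun τ := by
  have h0 : aff 2 0 1 (ModularGroup.S • aff 2 0 1 τ) = ModularGroup.S • τ := by
    ext1
    rw [UpperHalfPlane.modular_S_smul, UpperHalfPlane.modular_S_smul]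
    rw [X0Emb.coe_aff]
    simp
    field_simp
  have h1 := τ.ne_zero
  have h2 := discriminant_ne_zero τ
  have h3 := discriminant_ne_zero (aff 2 0 1 τ)
  rw [uFun, h0, discriminant_smul, discriminant_smul, gFun]
  have hd : denom (ModularGroup.S : SL(2, ℤ)) (aff 2 0 1 τ) = 2 * (τ : ℂ) := by
    simp [denom, ModularGroup.S]
  have hd' : denom (ModularGroup.S : SL(2, ℤ)) τ = (τ : ℂ) := by
    simp [denom, ModularGroup.S]
  rw [hd, hd']
  field_simp
  norm_num

lemma DF_W (τ : ℍ) : DF (ModularGroup.S • aff 2 0 1 τ) =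
    4096 * gFun τ + 768 + 48 * uFun 2 τ + uFun 2 τ ^ 2 - jFun (aff 2 0 1 τ) := by
  have h := uFun_ne τ
  have h1 : gFun (ModularGroup.S • aff 2 0 1 τ) = uFun 2 τ / 4096 := by
    rw [gFun_eq, uFun_W, gFun_eq]
    field_simp
  rw [DF, h1, uFun_W, jFun_smul]
  ring

lemma lexp_DF_W : ∃ z, LExp 1 (fun τ => DF (ModularGroup.S • aff 2 0 1 τ)) z ∧
    ∀ n < 0, z.coeff n = 0 := by
  set u := (uPS 2).map (Int.castRingHom ℂ) with hu
  set v := vPS.map (Int.castRingHom ℂ) with hv
  set N := PowerSeries.expand 2 (NeZero.ne 2) (jNum.map (Int.castRingHom ℂ)) with hN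
  set Q : PowerSeries ℂ := u ^ 2 - N + PowerSeries.C 48 * PowerSeries.X * u +
    PowerSeries.C 768 * PowerSeries.X ^ 2 * 1 +
    PowerSeries.C 4096 * PowerSeries.X ^ 3 * v with hQ
  refine ⟨HahnSeries.single (-2) 1 * HahnSeries.ofPowerSeries ℤ ℂ Q, ?_, ?_⟩
  · have h1 := lexp_uFun'
    have h2 := lexp_gFun
    have h3 : LExp 1 (fun τ => jFun (mulN 2 τ)) (qExpand ℂ 2 (jqModC ℂ)) :=
      (show HasLExp jFun (jqModC ℂ) from lexp_jFun).comp_mulN 2
    have h4 := (((((LExp.const 1 4096).mul h2).add (LExp.const 1 768)).add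
      ((LExp.const 1 48).mul h1)).add (h1.pow 2)).sub h3
    have e : (fun τ => DF (ModularGroup.S • aff 2 0 1 τ)) =
        (fun _ => (4096 : ℂ)) * gFun + (fun _ => (768 : ℂ)) + (fun _ => (48 : ℂ)) * uFun 2 +
        uFun 2 ^ 2 - (fun τ => jFun (mulN 2 τ)) := by
      funext τ
      rw [DF_W, aff_eq_mulN]
      simp
    rw [e]
    convert h4 using 1
    have hC : ∀ c : ℂ, HahnSeries.ofPowerSeries ℤ ℂ (PowerSeries.C c) = HahnSeries.C c :=
      fun c => HahnSeries.ofPowerSeries_C c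
    have hj : qExpand ℂ 2 (jqModC ℂ) = HahnSeries.single (-2 : ℤ) 1 *
        HahnSeries.ofPowerSeries ℤ ℂ N := by
      rw [jqModC, map_mul, qExpand_single, TEll.qExpand_ofPowerSeries]
      rfl
    rw [hj, hQ]
    simp only [map_add, map_sub, map_mul, map_pow, hC, mul_one]
    have hx := single_mul_X
    rw [← hu, ← hv]
    have hx' : (HahnSeries.single (1 : ℤ) (1 : ℂ)) = HahnSeries.ofPowerSeries ℤ ℂ PowerSeries.X := by
      rw [HahnSeries.ofPowerSeries_X]
    have hx2 : (HahnSeries.single (-2 : ℤ) (1 : ℂ)) = HahnSeries.single (-1 : ℤ) (1 : ℂ) ^ 2 := by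
      rw [HahnSeries.single_pow]
      simp
    rw [hx', hx2]
    generalize HahnSeries.single (-1 : ℤ) (1 : ℂ) = s at hx ⊢
    generalize HahnSeries.ofPowerSeries ℤ ℂ PowerSeries.X = x at hx ⊢
    generalize HahnSeries.ofPowerSeries ℤ ℂ u = u'
    generalize HahnSeries.ofPowerSeries ℤ ℂ v = v'
    generalize HahnSeries.ofPowerSeries ℤ ℂ N = N'
    linear_combination (HahnSeries.C (48 : ℂ) * s * u' + HahnSeries.C (768 : ℂ) * (s * x + 1) +
      HahnSeries.C (4096 : ℂ) * x * v' * (s * x + 1)) * hx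
  · refine fun n hn => coeff_single_mul_eq_zero (k := 2) ?_ (-2) n (by push_cast; omega)
    intro i hi
    have hu0 : PowerSeries.constantCoeff u = 1 := by
      rw [hu, ← PowerSeries.coeff_zero_eq_constantCoeff, PowerSeries.coeff_map,
        PowerSeries.coeff_zero_eq_constantCoeff, constantCoeff_uPS]
      simp
    have hu1 : u.coeff 1 = -24 := by
      rw [hu, PowerSeries.coeff_map, coeff_one_uPS 2 le_rfl]
      simp
    have hN0 : PowerSeries.constantCoeff N = 1 := by
      rw [hN, PowerSeries.constantCoeff_expand, ← PowerSeries.coeff_zero_eq_constantCoeff,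
        PowerSeries.coeff_map, PowerSeries.coeff_zero_eq_constantCoeff, constantCoeff_jNum]
      simp
    have hN1 : N.coeff 1 = 0 := by
      rw [hN]
      exact PowerSeries.coeff_expand_of_not_dvd 2 _ _ (by norm_num)
    interval_cases i
    · simp only [hQ, map_add, map_sub, PowerSeries.coeff_zero_eq_constantCoeff, map_mul, map_pow,
        PowerSeries.constantCoeff_X]
      rw [hu0, hN0]
      ring
    · have h1 : ∀ (c : ℂ) (k : ℕ) (w : PowerSeries ℂ), 2 ≤ k →
          (PowerSeries.C c * PowerSeries.X ^ k * w).coeff 1 = 0 := by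
        intro c k w hk
        have : PowerSeries.C c * PowerSeries.X ^ k * w =
            PowerSeries.X ^ k * (PowerSeries.C c * w) := by ring
        rw [this, PowerSeries.coeff_X_pow_mul']
        simp; omega
      rw [hQ, map_add, map_add, map_add, map_sub, h1 _ 2 _ le_rfl, h1 _ 3 _ (by norm_num), hN1,
        PowerSeries.coeff_one_pow, hu1, hu0, mul_assoc (PowerSeries.C (48 : ℂ)), PowerSeries.coeff_C_mul,
        PowerSeries.coeff_one_mul, PowerSeries.coeff_one_X, hu1, hu0, PowerSeries.constantCoeff_X]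
      norm_num

theorem DF_zero (τ : ℍ) : DF τ = 0 := by
  obtain ⟨y, hy, hy0⟩ := lexp_DF
  obtain ⟨z, hz, hz0⟩ := lexp_DF_W
  have : Fact (Nat.Prime 2) := ⟨Nat.prime_two⟩
  exact Haupt.eq_zero_of (p := 2) mdiff_DF DF_inv hy hy0 hz hz0 τ

/-- **The Hauptmodul of `X₀(2)`.** -/
theorem exists_haupt_two : ∃ (f : ℍ → ℂ) (T : LaurentSeries ℤ), MDiff f ∧
    (∀ γ ∈ Gamma0 2, ∀ τ : ℍ, f (γ • τ) = f τ) ∧ ModGrowth f ∧
    LExp 1 f (coeffMap (Int.castRingHom ℂ) T) ∧ T.coeff (-1) = 1 ∧ (∀ n < -1, T.coeff n = 0) ∧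
    ∀ τ, (f τ + 256) ^ 3 = jFun τ * f τ ^ 2 := by
  have : Fact (Nat.Prime 2) := ⟨Nat.prime_two⟩
  refine ⟨uFun 2, uSer 2 ℤ, uFun_mdiff 2, uFun_inv 2, uFun_growth 2, ?_, ?_, ?_, fun τ => ?_⟩
  · rw [coeffMap_uSer]
    exact lexp_uFun 2
  · rw [uSer_eq]
    have h : (-1 : ℤ) = 1 - ((2 : ℕ) : ℤ) := by norm_num
    rw [HahnSeries.coeff_single_mul, ← h, sub_self, one_mul,
      show (0 : ℤ) = ((0 : ℕ) : ℤ) from rfl, HahnSeries.ofPowerSeries_apply_coeff,
      PowerSeries.coeff_map, PowerSeries.coeff_zero_eq_constantCoeff, constantCoeff_uPS]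
    simp
  · intro n hn
    rw [uSer_eq, HahnSeries.coeff_single_mul, one_mul]
    exact ModularCurve.ofPowerSeries_coeff_of_neg _ (by push_cast; omega)
  · have h := DF_eq τ
    rw [DF_zero, zero_mul] at h
    linear_combination -h

end Fermat.Agent.X1.HauptTwo

end
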