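import Fermat.Agent.X1.HeckeQ
import Fermat.Agent.X1Char.Action

/-!
# Hecke and diamond operators on characters `Γ →* B`
-/

set_option autoImplicit false

noncomputable section

open CongruenceSubgroup Matrix.SpecialLinearGroup
open scoped MatrixGroups ModularForm

namespace Fermat.Agent.X1

open Fermat.Agent.HeckePar ModularCurve.Period

variable (M : ℕ) (Γ : Subgroup SL(2, ℤ)) [hΓ : Between M Γ] {B : Type*} [CommGroup B]

/-- The Hecke operator `T_p` on characters. -/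
def tChar (p : ℕ) [Fact p.Prime] (χ : Γ →* B) : Γ →* B := ((hSys M p).sys Γ).transfer χ

/-- The diamond operator on characters. -/
def dChar (u : (ZMod M)ˣ) (χ : Γ →* B) : Γ →* B := ((diaSys M u).sys Γ).transfer χ

variable {M} {Γ}

/-- The additive homomorphism attached to a character. -/
def addOf {Γ : Type*} [Group Γ] (χ : Γ →* B) : Additive Γ →+ Additive B := MonoidHom.toAdditive χ

@[simp] theorem addOf_apply {Γ : Type*} [Group Γ] (χ : Γ →* B) (g : Additive Γ) :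
    addOf χ g = Additive.ofMul (χ (Additive.toMul g)) := rfl

theorem addOf_injective {Γ : Type*} [Group Γ] : Function.Injective (addOf : (Γ →* B) → _) :=
  fun _ _ h => MonoidHom.ext fun g => congrArg Additive.toMul (DFunLike.congr_fun h (Additive.ofMul g))

theorem addOf_transfer {Γ G : Type*} [Group Γ] [Group G] {ι : Γ →* G} {X : Type*}
    (S : CosetSys ι X) [Fintype X] (χ : Γ →* B) :
    addOf (S.transfer χ) = S.addTransfer (addOf χ) := by
  refine AddMonoidHom.ext fun g => ?_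
  rw [addOf_apply, CosetSys.transfer_apply, CosetSys.addTransfer_apply, ofMul_prod]
  rfl

variable (M Γ)

theorem addOf_tChar (p : ℕ) [Fact p.Prime] (χ : Γ →* B) :
    addOf (tChar M Γ p χ) = tOp M ℤ Γ (Additive B) p (addOf χ) := addOf_transfer _ χ

theorem addOf_dChar (u : (ZMod M)ˣ) (χ : Γ →* B) :
    addOf (dChar M Γ u χ) = dOp M ℤ Γ (Additive B) u (addOf χ) := addOf_transfer _ χ

theorem tChar_mul (p : ℕ) [Fact p.Prime] (χ ψ : Γ →* B) :
    tChar M Γ p (χ * ψ) = tChar M Γ p χ * tChar M Γ p ψ := CosetSys.transfer_mul _ _ _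

theorem dChar_mul (u : (ZMod M)ˣ) (χ ψ : Γ →* B) :
    dChar M Γ u (χ * ψ) = dChar M Γ u χ * dChar M Γ u ψ := CosetSys.transfer_mul _ _ _

@[simp] theorem tChar_one (p : ℕ) [Fact p.Prime] : tChar M Γ p (1 : Γ →* B) = 1 :=
  CosetSys.transfer_one _

@[simp] theorem dChar_one' (u : (ZMod M)ˣ) : dChar M Γ u (1 : Γ →* B) = 1 :=
  CosetSys.transfer_one _

theorem tChar_pow (p : ℕ) [Fact p.Prime] (χ : Γ →* B) (n : ℕ) :
    tChar M Γ p (χ ^ n) = tChar M Γ p χ ^ n := by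
  induction n with
  | zero => rw [pow_zero, pow_zero, tChar_one]
  | succ n ih => rw [pow_succ, pow_succ, tChar_mul, ih]

theorem dChar_pow (u : (ZMod M)ˣ) (χ : Γ →* B) (n : ℕ) :
    dChar M Γ u (χ ^ n) = dChar M Γ u χ ^ n := by
  induction n with
  | zero => rw [pow_zero, pow_zero, dChar_one']
  | succ n ih => rw [pow_succ, pow_succ, dChar_mul, ih]

theorem dChar_tChar (u : (ZMod M)ˣ) (p : ℕ) [Fact p.Prime] (χ : Γ →* B) :
    dChar M Γ u (tChar M Γ p χ) = tChar M Γ p (dChar M Γ u χ) := by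
  apply addOf_injective
  rw [addOf_dChar, addOf_tChar, addOf_tChar, addOf_dChar, dOp_tOp_comm]

theorem tChar_comm (p q : ℕ) [Fact p.Prime] [Fact q.Prime] (χ : Γ →* B) :
    tChar M Γ p (tChar M Γ q χ) = tChar M Γ q (tChar M Γ p χ) := by
  apply addOf_injective
  rw [addOf_tChar, addOf_tChar, addOf_tChar, addOf_tChar, tOp_comm]

theorem dChar_mul_unit (u v : (ZMod M)ˣ) (χ : Γ →* B) :
    dChar M Γ (u * v) χ = dChar M Γ u (dChar M Γ v χ) := by
  apply addOf_injective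
  rw [addOf_dChar, addOf_dChar, addOf_dChar, dOp_mul]

theorem dChar_one (χ : Γ →* B) : dChar M Γ 1 χ = χ := by
  apply addOf_injective
  rw [addOf_dChar, dOp_one]

theorem dChar_apply (u : (ZMod M)ˣ) (χ : Γ →* B) (g : Γ)
    (h : diaMat M u * (g : SL(2, ℤ)) * (diaMat M u)⁻¹ ∈ Γ) :
    dChar M Γ u χ g = χ (⟨diaMat M u * (g : SL(2, ℤ)) * (diaMat M u)⁻¹, h⟩ : Γ) := by
  have h1 := dOp_apply_apply M ℤ Γ u (addOf χ) g h
  rw [← addOf_dChar] at h1
  exact congrArg Additive.toMul h1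

/-- `Γ` is normalised by `Γ₀(M)`. -/
theorem conj_mem {δ : SL(2, ℤ)} (hδ : δ ∈ Gamma0 M) {g : SL(2, ℤ)} (hg : g ∈ Γ) :
    δ * g * δ⁻¹ ∈ Γ := by
  have hg0 : g ∈ Gamma0 M := hΓ.le hg
  have h1 : δ * g * δ⁻¹ = (δ * g * δ⁻¹ * g⁻¹) * g := by group
  rw [h1]
  refine mul_mem (hΓ.ge (mem_gamma1_of_mem_gamma0 ?_ ?_)) hg
  · exact mul_mem (mul_mem (mul_mem hδ hg0) (inv_mem hδ)) (inv_mem hg0)
  · have e1 := mul_inv_00 (mul_mem (mul_mem hδ hg0) (inv_mem hδ)) hg0
    rw [e1]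
    have e2 := mul_inv_00 (mul_mem hδ hg0) hδ
    rw [e2]
    have e3 := (Del_mul (mem_Del_of_mem_gamma0 hδ) (mem_Del_of_mem_gamma0 hg0)).2.2
    rw [← Matrix.SpecialLinearGroup.coe_mul] at e3
    have e3' : (((δ * g) 0 0 : ℤ) : ZMod M) = ((δ 0 0 : ℤ) : ZMod M) * ((g 0 0 : ℤ) : ZMod M) := e3
    rw [e3']
    have h2 := gamma0_00_mul_11 hδ
    have h3 := gamma0_00_mul_11 hg0
    linear_combination ((g 0 0 : ℤ) : ZMod M) * ((g 1 1 : ℤ) : ZMod M) * h2 + h3

theorem dChar_apply' (u : (ZMod M)ˣ) (χ : Γ →* B) (g : Γ) :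
    dChar M Γ u χ g = χ (⟨diaMat M u * (g : SL(2, ℤ)) * (diaMat M u)⁻¹,
      conj_mem M Γ (diaMat_mem u) g.2⟩ : Γ) := dChar_apply M Γ u χ g _

/-! ### The stabiliser of infinity and the transfer -/

/-- The transfer kills `g` when `φ` kills the relevant conjugates of the powers of `g`. -/
theorem transfer_eq_one_of_cycles {Γ G : Type*} [Group Γ] [Group G] {ι : Γ →* G} {X : Type*}
    (S : CosetSys ι X) [Fintype X] (χ : Γ →* B) (g : Γ)
    (h : ∀ (x : X) (n : ℕ), 0 < n → S.act (g ^ n) x = x → χ (S.coc (g ^ n) x) = 1) :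
    S.transfer χ g = 1 := by
  have h1 : addOf (S.transfer χ) (Additive.ofMul g) = 0 := by
    rw [addOf_transfer]
    refine addTransfer_eq_zero_of_cycles S (addOf χ) g fun x n hn hx => ?_
    rw [addOf_apply, toMul_ofMul, h x n hn hx, ofMul_one]
  exact congrArg Additive.toMul h1

/-- `T_p χ` is trivial on the stabiliser of infinity when all the diamond translates of `χ` are. -/
theorem tChar_infty (p : ℕ) [hp : Fact p.Prime] (χ : Γ →* B)
    (hχ : ∀ (u : (ZMod M)ˣ) (γ : Γ), ((γ : SL(2, ℤ)) : Matrix (Fin 2) (Fin 2) ℤ) 1 0 = 0 →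
      dChar M Γ u χ γ = 1) (γ : Γ)
    (hγ : ((γ : SL(2, ℤ)) : Matrix (Fin 2) (Fin 2) ℤ) 1 0 = 0) : tChar M Γ p χ γ = 1 := by
  refine transfer_eq_one_of_cycles _ χ γ fun x n _ hx => ?_
  have h1 := (hSys M p).sys_spec Γ (γ ^ n) x
  rw [hx] at h1
  set c := ((hSys M p).sys Γ).coc (γ ^ n) x with hc
  have hγn' : ∀ m : ℕ, (((γ ^ m : Γ) : SL(2, ℤ)) : Matrix (Fin 2) (Fin 2) ℤ) 1 0 = 0 := by
    intro m
    induction m with
    | zero => simp
    | succ m ih =>
      rw [pow_succ, Subgroup.coe_mul, Matrix.SpecialLinearGroup.coe_mul, Matrix.mul_apply,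
        Fin.sum_univ_two, ih, hγ, zero_mul, mul_zero, add_zero]
  have hγn := hγn' n
  obtain ⟨x, hx0⟩ := x
  rw [hSys_mat, heckeMat_eq] at h1
  have hp0 : (p : ℤ) ≠ 0 := by exact_mod_cast hp.out.ne_zero
  cases x with
  | some j =>
    have h2 : ((c : SL(2, ℤ)) : Matrix (Fin 2) (Fin 2) ℤ) 1 0 = 0 := by
      have h3 := congrFun (congrFun h1 1) 0
      simp only [heckeFac, Matrix.SpecialLinearGroup.coe_one, Matrix.one_mul, intRep_some,
        Matrix.mul_apply, Fin.sum_univ_two] at h3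
      simp only [Matrix.of_apply, Matrix.cons_val', Matrix.cons_val_zero, Matrix.cons_val_one,
        Matrix.cons_val_fin_one, zero_mul, mul_one, mul_zero, add_zero, zero_add] at h3
      rw [← h3]
      have h4 : (((γ ^ n : Γ) : SL(2, ℤ)) : Matrix (Fin 2) (Fin 2) ℤ) 1 0 = 0 := hγn
      rw [h4, mul_zero]
    have := hχ 1 c h2
    rwa [dChar_one] at this
  | none =>
    set u := pUnit M p
    have hδ := diaMat_mem (M := M) u
    -- the conjugate
    set e : SL(2, ℤ) := (diaMat M u)⁻¹ * (c : SL(2, ℤ)) * (diaMat M u) with he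
    have heΓ : e ∈ Γ := by
      have := conj_mem M Γ (inv_mem hδ) c.2
      rwa [inv_inv] at this
    have h2 : (e : Matrix (Fin 2) (Fin 2) ℤ) 1 0 = 0 := by
      have h3 : intRep p none * (((γ ^ n : Γ) : SL(2, ℤ)) : Matrix (Fin 2) (Fin 2) ℤ) =
          (e : Matrix (Fin 2) (Fin 2) ℤ) * intRep p none := by
        have h4 := congrArg (fun Z => (((diaMat M u)⁻¹ : SL(2, ℤ)) : Matrix (Fin 2) (Fin 2) ℤ) * Z) h1
        simp only [heckeFac] at h4
        rw [← mul_assoc, ← mul_assoc, ← Matrix.SpecialLinearGroup.coe_mul, inv_mul_cancel,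
          Matrix.SpecialLinearGroup.coe_one, one_mul] at h4
        rw [h4, he, Matrix.SpecialLinearGroup.coe_mul, Matrix.SpecialLinearGroup.coe_mul]
        simp only [mul_assoc]
        rfl
      have h5 := congrFun (congrFun h3 1) 0
      simp only [intRep_none, Matrix.mul_apply, Fin.sum_univ_two, Matrix.of_apply, Matrix.cons_val',
        Matrix.cons_val_zero, Matrix.cons_val_one, Matrix.cons_val_fin_one, zero_mul, one_mul,
        mul_zero, add_zero, zero_add] at h5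
      have h6 : (((γ ^ n : Γ) : SL(2, ℤ)) : Matrix (Fin 2) (Fin 2) ℤ) 1 0 = 0 := hγn
      rw [h6] at h5
      exact (mul_eq_zero.mp h5.symm).resolve_right hp0
    have h3 := hχ u ⟨e, heΓ⟩ h2
    rw [dChar_apply'] at h3
    rw [← h3]
    congr 1
    apply Subtype.ext
    simp only [he]
    group

/-! ### The module of characters -/

open Fermat.Agent.X1Char

theorem dChar_pow_eq_one (u : (ZMod M)ˣ) {n : ℕ} {χ : Γ →* B} (h : χ ^ n = 1) :
    dChar M Γ u χ ^ n = 1 := by rw [← dChar_pow, h, dChar_one']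

theorem tChar_pow_eq_one (p : ℕ) [Fact p.Prime] {n : ℕ} {χ : Γ →* B} (h : χ ^ n = 1) :
    tChar M Γ p χ ^ n = 1 := by rw [← tChar_pow, h, tChar_one]

/-- The characters `χ` with `χ ^ n = 1` all of whose diamond translates are trivial on the
stabiliser of infinity. -/
def charX (n : ℕ) : Subgroup (Γ →* ℂˣ) where
  carrier := {χ | ∀ u : (ZMod M)ˣ, dChar M Γ u χ ∈ charGroup Γ n}
  one_mem' u := by rw [dChar_one']; exact one_mem _
  mul_mem' {χ ψ} h1 h2 u := by rw [dChar_mul]; exact mul_mem (h1 u) (h2 u)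
  inv_mem' {χ} h u := by
    have : dChar M Γ u χ⁻¹ = (dChar M Γ u χ)⁻¹ := by
      rw [eq_inv_iff_mul_eq_one, ← dChar_mul, inv_mul_cancel, dChar_one']
    rw [this]
    exact inv_mem (h u)

variable {M Γ}

theorem mem_charX {n : ℕ} {χ : Γ →* ℂˣ} :
    χ ∈ charX M Γ n ↔ ∀ u : (ZMod M)ˣ, dChar M Γ u χ ∈ charGroup Γ n := Iff.rfl

theorem charX_le {n : ℕ} {χ : Γ →* ℂˣ} (h : χ ∈ charX M Γ n) : χ ∈ charGroup Γ n := by
  have := h 1
  rwa [dChar_one] at this

theorem dChar_mem_charX {n : ℕ} {χ : Γ →* ℂˣ} (h : χ ∈ charX M Γ n) (u : (ZMod M)ˣ) :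
    dChar M Γ u χ ∈ charX M Γ n := fun v => by rw [← dChar_mul_unit]; exact h _

theorem tChar_mem_charX {n : ℕ} {χ : Γ →* ℂˣ} (h : χ ∈ charX M Γ n) (p : ℕ) [Fact p.Prime] :
    tChar M Γ p χ ∈ charX M Γ n := fun u => by
  rw [dChar_tChar]
  have h1 := dChar_mem_charX h u
  refine mem_charGroup.mpr ⟨tChar_pow_eq_one M Γ p (mem_charGroup.mp (h u)).1, fun γ hγ => ?_⟩
  exact tChar_infty M Γ p _ (fun v γ' hγ' => (mem_charGroup.mp (h1 v)).2 γ' hγ') γ hγ

end Fermat.Agent.X1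

end
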