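import Fermat.Agent.X1.FinalOf
import Fermat.Agent.X1.KeyES

/-!
# Deligne--Serre from KEY
-/

set_option autoImplicit false

open CongruenceSubgroup UpperHalfPlane ModularFormClass
open scoped MatrixGroups

noncomputable section

namespace Fermat.Agent.X1

open Fermat.Agent.DS (GQ)

/-- **Deligne--Serre** (S48) from KEY. -/
theorem deligneSerre_of_keyCF
    (hkey : ∀ (ι : AlgebraicClosure ℚ →+* ℂ) (p : ℕ), p.Prime → ∃ r : ℕ, r ≠ 0 ∧
      (∀ q : ℕ, q.Prime → q ∣ r → q ≤ 3) ∧ ∀ (M l : ℕ) [NeZero M], l.Prime → 5 ≤ l → ¬ p ∣ M →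
        p ≠ l → ∀ A : ValuationSubring (AlgebraicClosure ℚ), A.LiesOverPrime p →
        X1Key.KeyCF ι (Gamma1 (r * M)) l A)
    (N : ℕ) [NeZero N] (ε : DirichletCharacter ℂ N) (f : CuspForm (Gamma1 N) 1)
    (hf₁ : ModularFormClass.qCoeff f 1 = 1)
    (hT : ∀ p : ℕ, p.Prime → ¬ p ∣ N → ∀ n : ℕ,
        ModularFormClass.qCoeff f (p * n) +
            ε (p : ZMod N) * (if p ∣ n then ModularFormClass.qCoeff f (n / p) else 0) =
          ModularFormClass.qCoeff f p * ModularFormClass.qCoeff f n) :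
    ∃ ρ : GQ →* GL (Fin 2) ℂ, GaloisFactorsThroughFiniteLevel ρ ∧
      (Deformation.matrixRepresentation ρ).IsIrreducible ∧
      ∀ p : ℕ, p.Prime → ¬ p ∣ N →
        ∀ A : ValuationSubring (AlgebraicClosure ℚ), A.LiesOverPrime p →
          (∀ σ ∈ A.inertiaSubgroupIn ℚ, ρ σ = 1) ∧
          ∀ σ : GQ, A.IsFrobeniusAt σ p →
            ((ρ σ : GL (Fin 2) ℂ) : Matrix (Fin 2) (Fin 2) ℂ).trace = qCoeff f p ∧
            ((ρ σ : GL (Fin 2) ℂ) : Matrix (Fin 2) (Fin 2) ℂ).det = ε (p : ZMod N) := by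
  have : Algebra.IsAlgebraic ℚ (AlgebraicClosure ℚ) := AlgebraicClosure.isAlgebraic ℚ
  let ι : AlgebraicClosure ℚ →+* ℂ := (IsAlgClosed.lift (R := ℚ) : AlgebraicClosure ℚ →ₐ[ℚ] ℂ)
  refine deligneSerre_of_es1 (fun M l _ hl h5 _ => ?_) N ε f hf₁ hT
  refine X1Key.es1_of_keyCF_level ι h5 fun p hp hpM hpl => ?_
  obtain ⟨r, hr0, hr, h⟩ := hkey ι p hp
  exact ⟨r, hr0, hr, fun A hA => h M l hl.out h5 hpM hpl A hA⟩

end Fermat.Agent.X1

end
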