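import Fermat.Agent.Mazur.CuspSeries
import Fermat.Agent.FG.Basic
import Fermat.Agent.EisChar.Sigma

/-!
# A vanishing criterion for functions on `X_0(p)` and generators of `Γ_0(3)`
-/

set_option autoImplicit false

open UpperHalfPlane hiding I
open ModularForm Matrix.SpecialLinearGroup Filter Asymptotics CongruenceSubgroup
open scoped MatrixGroups Manifold ModularForm Polynomial Topology

noncomputable section

namespace Fermat.Agent.X1.Haupt

open Fermat.Agent.JLevelOne Fermat.Agent.X0Emb Fermat.Agent.ModFun ModularCurve Fermat.Agent.FG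
open Fermat.Agent.EisChar Fermat.Agent.X0Deg

local notation "𝕢" => Function.Periodic.qParam

/-- A function with a `q`-expansion without polar part is bounded at `i∞`. -/
theorem isBounded_of_lexp {f : ℍ → ℂ} {G : LaurentSeries ℂ} (hf : LExp 1 f G)
    (hG : ∀ n < 0, G.coeff n = 0) : IsBoundedAtImInfty f := by
  rw [isBoundedAtImInfty_iff]
  have h1 := (hf.hasSum_nat hG UpperHalfPlane.I).summable.norm
  refine ⟨∑' k : ℕ, ‖G.coeff ((0 : ℤ) + k) • 𝕢 1 (UpperHalfPlane.I : ℍ) ^ k‖, 1, fun τ hτ => ?_⟩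
  have h2 := hf.hasSum_nat hG τ
  have h3 : ‖f τ‖ = ‖𝕢 1 (τ : ℂ) ^ (-(0 : ℤ)) * f τ‖ := by simp
  rw [h3, ← h2.tsum_eq]
  have h4 : ∀ k : ℕ, ‖G.coeff ((0 : ℤ) + k) • 𝕢 1 (τ : ℂ) ^ k‖ ≤
      ‖G.coeff ((0 : ℤ) + k) • 𝕢 1 (UpperHalfPlane.I : ℍ) ^ k‖ := by
    intro k
    rw [norm_smul, norm_smul, norm_pow, norm_pow]
    refine mul_le_mul_of_nonneg_left ?_ (norm_nonneg _)
    exact pow_le_pow_left₀ (norm_nonneg _) (norm_q_anti one_pos (by simpa using hτ)) k
  refine (norm_tsum_le_tsum_norm h2.summable.norm).trans ?_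
  exact Summable.tsum_le_tsum h4 h2.summable.norm h1

theorem slash_zero_apply (F : ℍ → ℂ) (g : SL(2, ℤ)) : F ∣[(0 : ℤ)] g = fun τ => F (g • τ) := by
  funext τ
  rw [SL_slash_apply]
  simp

variable {p : ℕ}

theorem exists_decomp [hp : Fact p.Prime] (g : SL(2, ℤ)) (hg : g ∉ Gamma0 p) :
    ∃ γ ∈ Gamma0 p, ∃ k : ℤ, g = γ * ModularGroup.S * ModularGroup.T ^ k := by
  rw [Gamma0_mem] at hg
  set c : ZMod p := ((g 1 0 : ℤ) : ZMod p) with hc
  set d : ZMod p := ((g 1 1 : ℤ) : ZMod p) with hd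
  obtain ⟨k, hk⟩ : ∃ k : ℤ, (k : ZMod p) = d * c⁻¹ := ZMod.intCast_surjective _
  refine ⟨g * ModularGroup.T ^ (-k) * ModularGroup.S⁻¹, ?_, k, by simp [mul_assoc]⟩
  rw [Gamma0_mem]
  have h1 : (g * ModularGroup.T ^ (-k) * ModularGroup.S⁻¹) 1 0 = -(g 1 1 - k * g 1 0) := by
    simp [Matrix.mul_apply, Fin.sum_univ_two, ModularGroup.coe_T_zpow, ModularGroup.S,
      -zpow_neg, Matrix.adjugate_fin_two]
    ring
  rw [h1]
  push_cast
  rw [hk, ← hc, ← hd, mul_assoc, inv_mul_cancel₀ hg]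
  ring

/-- **Vanishing criterion**: a holomorphic `Γ₀(p)`-invariant function vanishing at `∞` and
bounded at `0` vanishes. -/
theorem eq_zero_of [hp : Fact p.Prime] {F : ℍ → ℂ} (hF : MDiff F)
    (hinv : ∀ γ ∈ Gamma0 p, ∀ τ : ℍ, F (γ • τ) = F τ) {y : LaurentSeries ℂ} (hy : LExp 1 F y)
    (hy0 : ∀ n < 1, y.coeff n = 0) {z : LaurentSeries ℂ}
    (hz : LExp 1 (fun τ => F (ModularGroup.S • aff p 0 1 τ)) z)
    (hz0 : ∀ n < 0, z.coeff n = 0) : ∀ τ, F τ = 0 := by
  have hp0 : (0 : ℝ) < p := by exact_mod_cast hp.out.pos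
  have hb1 := isBounded_of_lexp hy fun n hn => hy0 n (by omega)
  have hb2 := isBounded_of_lexp hz hz0
  have hC : CharForm (Gamma0 p) 1 0 F := by
    refine ⟨hF, fun γ => ?_, fun g => ?_⟩
    · rw [slash_zero_apply]
      funext τ
      rw [MonoidHom.one_apply, Units.val_one, one_smul]
      exact hinv γ γ.2 τ
    · rw [slash_zero_apply]
      by_cases hg : g ∈ Gamma0 p
      · simpa only [hinv g hg] using hb1
      · obtain ⟨γ, hγ, k, rfl⟩ := exists_decomp g hg
        rw [isBoundedAtImInfty_iff] at hb2 ⊢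
        obtain ⟨M, A, h⟩ := hb2
        refine ⟨M, p * A, fun τ hτ => ?_⟩
        have h1 : (γ * ModularGroup.S * ModularGroup.T ^ k) • τ =
            γ • (ModularGroup.S • aff p 0 1 (aff 1 0 p (ModularGroup.T ^ k • τ))) := by
          rw [mul_smul, mul_smul]
          congr 2
          ext
          have : (p : ℂ) ≠ 0 := by exact_mod_cast hp.out.ne_zero
          simp only [coe_aff]
          field_simp
          simp
        rw [h1, hinv γ hγ]
        refine h _ ?_
        have h2 : (aff 1 0 p (ModularGroup.T ^ k • τ)).im = τ.im / p := by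
          rw [← ModularGroup.im_T_zpow_smul τ k, ← coe_im, coe_aff, Complex.div_natCast_im]
          simp
        rw [h2, le_div_iff₀ hp0, mul_comm]
        exact hτ
  obtain ⟨c, hc⟩ := ModularForm.eq_const_of_weight_zero hC.toMF
  have hc' : F = fun _ => c := hc
  rw [hc'] at hy
  have h2 := hy.unique one_pos (LExp.const 1 c)
  have h3 : c = 0 := by
    have := hy0 0 (by norm_num)
    rw [h2] at this
    simpa using this
  intro τ
  rw [hc', h3]

/-! ### Generators of `Γ₀(3)` -/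

theorem exists_small {c d : ℤ} (hc : c ≠ 0) : ∃ k : ℤ, 2 * |d + k * c| ≤ |c| := by
  have h1 := Int.emod_add_mul_ediv d c
  have h2 := Int.emod_nonneg d hc
  have h3 := Int.emod_lt_abs d hc
  rcases le_or_gt (2 * (d % c)) |c| with h | h
  · refine ⟨-(d / c), ?_⟩
    have : d + -(d / c) * c = d % c := by linarith
    rw [this, abs_of_nonneg h2]
    exact h
  · rcases abs_cases c with ⟨h4, h5⟩ | ⟨h4, h5⟩
    · refine ⟨-(d / c) - 1, ?_⟩
      have : d + (-(d / c) - 1) * c = d % c - c := by linarith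
      rw [this, abs_of_nonpos (by linarith), h4]
      linarith
    · refine ⟨-(d / c) + 1, ?_⟩
      have : d + (-(d / c) + 1) * c = d % c + c := by linarith
      rw [this, abs_of_nonpos (by linarith), h4]
      linarith

/-- the matrix `(1 0; 3 1)` -/
def V3 : SL(2, ℤ) := ModularGroup.S * ModularGroup.T ^ (-3 : ℤ) * ModularGroup.S⁻¹

theorem V3_zpow (m : ℤ) : ((V3 ^ m : SL(2, ℤ)) : Matrix (Fin 2) (Fin 2) ℤ) = !![1, 0; 3 * m, 1] := by
  have h : V3 ^ m = ModularGroup.S * ModularGroup.T ^ (-3 * m) * ModularGroup.S⁻¹ := by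
    rw [V3, conj_zpow, ← zpow_mul]
  rw [h]
  ext i j
  fin_cases i <;> fin_cases j <;>
    simp [Matrix.mul_apply, Fin.sum_univ_two, ModularGroup.coe_T_zpow, ModularGroup.S,
      Matrix.adjugate_fin_two, -zpow_neg]

theorem mem_of_T_V {G : Subgroup SL(2, ℤ)} (hT : ModularGroup.T ∈ G) (hV : V3 ∈ G)
    (hneg : -1 ∈ G) : Gamma0 3 ≤ G := by
  suffices h : ∀ n : ℕ, ∀ γ : SL(2, ℤ), γ ∈ Gamma0 3 → (γ 1 0).natAbs ≤ n → γ ∈ G from
    fun γ hγ => h _ γ hγ le_rfl
  intro n
  induction n with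
  | zero =>
    intro γ hγ hn
    have hc : γ 1 0 = 0 := by omega
    have hdet := γ.2
    rw [Matrix.det_fin_two] at hdet
    have hc' : γ.1 1 0 = 0 := hc
    rw [hc', mul_zero, sub_zero] at hdet
    rcases Int.eq_one_or_neg_one_of_mul_eq_one hdet with h | h
    · have h2 : γ.1 1 1 = 1 := by rw [h, one_mul] at hdet; exact hdet
      have : γ = ModularGroup.T ^ (γ.1 0 1) := by
        apply Subtype.ext
        rw [ModularGroup.coe_T_zpow]
        ext i j
        fin_cases i <;> fin_cases j <;> simp [h, h2, hc']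
      rw [this]
      exact Subgroup.zpow_mem _ hT _
    · have h2 : γ.1 1 1 = -1 := by rw [h] at hdet; linarith
      have : γ = -1 * ModularGroup.T ^ (-γ.1 0 1) := by
        apply Subtype.ext
        rw [Matrix.SpecialLinearGroup.coe_mul, ModularGroup.coe_T_zpow]
        ext i j
        fin_cases i <;> fin_cases j <;> simp [Matrix.mul_apply, Fin.sum_univ_two, h, h2, hc']
      rw [this]
      exact mul_mem hneg (Subgroup.zpow_mem _ hT _)
  | succ n ih =>
    intro γ hγ hn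
    by_cases hc : γ 1 0 = 0
    · exact ih γ hγ (by rw [hc]; simp)
    obtain ⟨k, hk⟩ := exists_small (d := γ 1 1) hc
    obtain ⟨m, hm⟩ := exists_small (c := 3 * (γ 1 1 + k * γ 1 0)) (d := γ 1 0) (by
      intro h0
      have h1 : γ 1 1 + k * γ 1 0 = 0 := by linarith
      have hdet := γ.2
      rw [Matrix.det_fin_two] at hdet
      have h2 : γ.1 1 1 = -(k * γ.1 1 0) := by
        have : γ.1 1 1 + k * γ.1 1 0 = 0 := h1
        linarith
      rw [h2] at hdet
      obtain ⟨t, ht⟩ : (3 : ℤ) ∣ γ.1 1 0 := by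
        have := (ZMod.intCast_zmod_eq_zero_iff_dvd (γ 1 0) 3).mp (Gamma0_mem.mp hγ)
        exact_mod_cast this
      rw [ht] at hdet
      have : (3 : ℤ) ∣ 1 := ⟨-(γ.1 0 0 * k * t) - γ.1 0 1 * t, by linarith⟩
      norm_num at this)
    set γ' : SL(2, ℤ) := γ * ModularGroup.T ^ k * V3 ^ m with hγ'
    have e1 : γ' 1 0 = γ 1 0 + m * (3 * (γ 1 1 + k * γ 1 0)) := by
      have : γ'.1 = γ.1 * !![1, k; 0, 1] * !![1, 0; 3 * m, 1] := by
        rw [hγ', Matrix.SpecialLinearGroup.coe_mul, Matrix.SpecialLinearGroup.coe_mul, V3_zpow,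
          ModularGroup.coe_T_zpow]
      show γ'.1 1 0 = _
      rw [this]
      simp [Matrix.mul_apply, Fin.sum_univ_two]
      ring
    have hT3 : ModularGroup.T ∈ Gamma0 3 := by simp [Gamma0_mem, ModularGroup.T]
    have hV3 : V3 ^ m ∈ Gamma0 3 := by
      rw [Gamma0_mem]
      have : ((V3 ^ m : SL(2, ℤ)) 1 0 : ℤ) = 3 * m := by
        show (V3 ^ m).1 1 0 = _
        rw [V3_zpow]; simp
      rw [this]
      push_cast
      have : (3 : ZMod 3) = 0 := by decide
      rw [this, zero_mul]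
    have h1 : γ' ∈ G := by
      refine ih γ' (mul_mem (mul_mem hγ (Subgroup.zpow_mem _ hT3 _)) hV3) ?_
      rw [e1]
      have h5 : |3 * (γ 1 1 + k * γ 1 0)| = 3 * |γ 1 1 + k * γ 1 0| := by
        rw [abs_mul]; norm_num
      have h6 : 4 * |γ 1 0 + m * (3 * (γ 1 1 + k * γ 1 0))| ≤ 3 * |γ 1 0| := by linarith
      have h7 : 0 < |γ 1 0| := abs_pos.mpr hc
      rw [← Int.ofNat_le, Int.natCast_natAbs]
      have h8 : |γ 1 0| ≤ n + 1 := by
        rw [← Int.ofNat_le, Int.natCast_natAbs] at hn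
        exact_mod_cast hn
      omega
    have h2 : γ = γ' * (V3 ^ m)⁻¹ * (ModularGroup.T ^ k)⁻¹ := by rw [hγ']; group
    rw [h2]
    exact mul_mem (mul_mem h1 (inv_mem (Subgroup.zpow_mem _ hV _)))
      (inv_mem (Subgroup.zpow_mem _ hT _))

end Fermat.Agent.X1.Haupt

end
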