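import Mathlib.RingTheory.Artinian.Module
import Mathlib.RingTheory.Finiteness.Nakayama
import Mathlib.LinearAlgebra.Matrix.Charpoly.LinearMap
import Mathlib.Algebra.Module.Torsion.Basic
import Mathlib.Algebra.Algebra.Subalgebra.Lattice
import Mathlib.Algebra.Algebra.Prod
import Mathlib.RingTheory.Ideal.Quotient.Basic

/-!
# Eigenvectors modulo a maximal ideal
-/

set_option autoImplicit false

noncomputable section

namespace Fermat.Agent.X1

/-- Fitting: if no non-zero vector of a module of finite length is killed by the ideal `J`, then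
some element congruent to `1` modulo `J` kills the module. -/
theorem exists_annihilator {R V : Type*} [CommRing R] [AddCommGroup V] [Module R V]
    [IsArtinian R V] [IsNoetherian R V] (J : Ideal R)
    (h : ∀ v : V, (∀ j ∈ J, j • v = 0) → v = 0) : ∃ r : R, r - 1 ∈ J ∧ ∀ v : V, r • v = 0 := by
  let f : ℕ →o (Submodule R V)ᵒᵈ :=
    { toFun := fun n => OrderDual.toDual (J ^ n • (⊤ : Submodule R V))
      monotone' := fun a b hab => by
        show J ^ b • (⊤ : Submodule R V) ≤ J ^ a • (⊤ : Submodule R V)
        exact Submodule.smul_mono_left (Ideal.pow_le_pow_right hab) }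
  obtain ⟨n, hn⟩ := IsArtinian.monotone_stabilizes f
  have h1 : J ^ n • (⊤ : Submodule R V) = J ^ (n + 1) • (⊤ : Submodule R V) :=
    hn (n + 1) (Nat.le_succ n)
  have h2 : J ^ n • (⊤ : Submodule R V) ≤ J • (J ^ n • (⊤ : Submodule R V)) := by
    rw [← Submodule.mul_smul, ← pow_succ', ← h1]
  obtain ⟨r, hr, hr2⟩ := Submodule.exists_sub_one_mem_and_smul_eq_zero_of_fg_of_le_smul J
    (J ^ n • (⊤ : Submodule R V)) (IsNoetherian.noetherian _) h2
  have key : ∀ m : ℕ, ∀ w : V, (∀ j ∈ J ^ m, j • w = 0) → w = 0 := by
    intro m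
    induction m with
    | zero =>
      intro w hw
      have := hw 1 (by simp)
      simpa using this
    | succ m ih =>
      intro w hw
      refine h w fun j hj => ih (j • w) fun i hi => ?_
      rw [← mul_smul]
      refine hw _ ?_
      rw [pow_succ]
      exact Ideal.mul_mem_mul hi hj
  refine ⟨r, hr, fun v => key n _ fun j hj => ?_⟩
  rw [smul_comm]
  exact hr2 _ (Submodule.smul_mem_smul hj Submodule.mem_top)

theorem exists_eigen_mod {O R L : Type*} [CommRing O] [CommRing R] [Algebra O R]
    [AddCommGroup L] [Module O L] [Module R L] [IsScalarTower O R L] [Module.Finite O L]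
    (m : Ideal O) [hm : m.IsMaximal] (θ : R →ₐ[O] O)
    (H : ∀ r : R, (∀ x : L, r • x = 0) → θ r ∈ m) :
    ∃ x : L, x ∉ m • (⊤ : Submodule O L) ∧ ∀ r : R, r • x - θ r • x ∈ m • (⊤ : Submodule O L) := by
  classical
  let N : Submodule R L :=
    { carrier := (m • (⊤ : Submodule O L) : Submodule O L)
      add_mem' := fun ha hb => add_mem ha hb
      zero_mem' := zero_mem _
      smul_mem' := fun r x hx => by
        change x ∈ m • (⊤ : Submodule O L) at hx
        change r • x ∈ m • (⊤ : Submodule O L)
        induction hx using Submodule.smul_induction_on' with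
        | smul c hc y hy =>
          rw [smul_comm]
          exact Submodule.smul_mem_smul hc Submodule.mem_top
        | add y _ z _ hy hz => rw [smul_add]; exact add_mem hy hz }
  have hN : ∀ x : L, x ∈ N ↔ x ∈ m • (⊤ : Submodule O L) := fun _ => Iff.rfl
  have htor : Module.IsTorsionBySet O (L ⧸ N) (m : Set O) := by
    rintro x ⟨c, hc⟩
    induction x using Submodule.Quotient.induction_on with
    | _ x =>
      change c • (Submodule.Quotient.mk x : L ⧸ N) = 0
      rw [← Submodule.Quotient.mk_smul, Submodule.Quotient.mk_eq_zero, hN]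
      exact Submodule.smul_mem_smul hc Submodule.mem_top
  let _ : Field (O ⧸ m) := Ideal.Quotient.field m
  let _ : Module (O ⧸ m) (L ⧸ N) := htor.module
  have hst : IsScalarTower O (O ⧸ m) (L ⧸ N) := htor.isScalarTower
  have hfinO : Module.Finite O (L ⧸ N) :=
    Module.Finite.of_surjective ((N.mkQ).restrictScalars O) (Submodule.mkQ_surjective N)
  have hfin : Module.Finite (O ⧸ m) (L ⧸ N) := Module.Finite.of_restrictScalars_finite O _ _
  have hart0 : IsArtinian (O ⧸ m) (L ⧸ N) := inferInstance
  have hnoe0 : IsNoetherian (O ⧸ m) (L ⧸ N) := inferInstance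
  -- every `R`-submodule is an `O ⧸ m`-submodule
  let g : Submodule R (L ⧸ N) → Submodule (O ⧸ m) (L ⧸ N) := fun W =>
    { carrier := W
      add_mem' := fun ha hb => W.add_mem ha hb
      zero_mem' := W.zero_mem
      smul_mem' := fun c x hx => by
        obtain ⟨c, rfl⟩ := Ideal.Quotient.mk_surjective c
        have h1 : (Ideal.Quotient.mk m c) • x = c • x := rfl
        rw [h1, ← algebraMap_smul R c x]
        exact W.smul_mem _ hx }
  have hg : StrictMono g := by
    intro W W' h
    exact ⟨fun x hx => h.1 hx, fun h' => h.2 fun x hx => h' hx⟩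
  have hart : IsArtinian R (L ⧸ N) := by
    have : WellFoundedLT (Submodule (O ⧸ m) (L ⧸ N)) := hart0
    exact hg.wellFoundedLT
  have hnoe : IsNoetherian R (L ⧸ N) := by
    have : WellFoundedGT (Submodule (O ⧸ m) (L ⧸ N)) := isNoetherian_iff'.mp hnoe0
    exact isNoetherian_iff'.mpr hg.wellFoundedGT
  by_contra hcon
  push Not at hcon
  obtain ⟨r, hr1, hr2⟩ := exists_annihilator (V := L ⧸ N) (RingHom.ker θ) (by
    intro v
    induction v using Submodule.Quotient.induction_on with
    | _ x =>
      intro hv
      by_contra hne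
      rw [Submodule.Quotient.mk_eq_zero, hN] at hne
      obtain ⟨r, hr⟩ := hcon x hne
      apply hr
      have h1 := hv (r - algebraMap O R (θ r)) (by
        rw [RingHom.mem_ker, map_sub, AlgHom.commutes, Algebra.algebraMap_self, RingHom.id_apply,
          sub_self])
      rw [← Submodule.Quotient.mk_smul, Submodule.Quotient.mk_eq_zero, hN, sub_smul,
        algebraMap_smul] at h1
      exact h1)
  have hθr : θ r = 1 := by
    rw [RingHom.mem_ker, map_sub, map_one, sub_eq_zero] at hr1
    exact hr1
  have hrange : LinearMap.range (Algebra.lsmul O O L r) ≤ m • (⊤ : Submodule O L) := by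
    rintro _ ⟨x, rfl⟩
    have h1 := hr2 (Submodule.Quotient.mk x)
    rw [← Submodule.Quotient.mk_smul, Submodule.Quotient.mk_eq_zero, hN] at h1
    exact h1
  obtain ⟨p, hp, -, hcoef, hp0⟩ :=
    LinearMap.exists_monic_and_natDegree_eq_and_coeff_mem_pow_and_aeval_eq_zero O
      (Algebra.lsmul O O L r) m hrange
  rw [Polynomial.aeval_algHom_apply] at hp0
  have h1 : θ (Polynomial.aeval r p) ∈ m := H _ fun x => by
    have := LinearMap.congr_fun hp0 x
    simpa using this
  rw [← Polynomial.aeval_algHom_apply, hθr] at h1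
  have h2 : Ideal.Quotient.mk m (Polynomial.aeval (1 : O) p) = 1 := by
    have h3 : p.map (Ideal.Quotient.mk m) = Polynomial.X ^ p.natDegree := by
      ext i
      rw [Polynomial.coeff_map, Polynomial.coeff_X_pow]
      split_ifs with hi
      · rw [hi, Polynomial.Monic.coeff_natDegree hp, map_one]
      · rcases lt_or_gt_of_ne hi with hlt | hgt
        · refine Ideal.Quotient.eq_zero_iff_mem.mpr ?_
          exact Ideal.pow_le_self (Nat.sub_ne_zero_of_lt hlt) (hcoef i)
        · rw [Polynomial.coeff_eq_zero_of_natDegree_lt hgt, map_zero]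
    have h4 : Ideal.Quotient.mk m (Polynomial.eval 1 p) =
        Polynomial.eval 1 (p.map (Ideal.Quotient.mk m)) := by
      rw [Polynomial.eval_map, Polynomial.eval₂_at_one]
    rw [Polynomial.coe_aeval_eq_eval, h4, h3]
    simp
  rw [Ideal.Quotient.eq_zero_iff_mem.mpr h1] at h2
  exact zero_ne_one h2

open scoped IsMulCommutative in
/-- Version for a commutative algebra of pairs (operator, eigenvalue). -/
theorem exists_eigen_of_subalgebra {O L : Type*} [CommRing O] [AddCommGroup L] [Module O L]
    [Module.Finite O L] (m : Ideal O) [hm : m.IsMaximal]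
    (R : Subalgebra O (Module.End O L × O)) (hmc : IsMulCommutative R)
    (H : ∀ s ∈ R, s.1 = 0 → s.2 ∈ m) :
    ∃ x : L, x ∉ m • (⊤ : Submodule O L) ∧
      ∀ s ∈ R, s.1 x - s.2 • x ∈ m • (⊤ : Submodule O L) := by
  let f1 : R →+* Module.End O L :=
    ((AlgHom.fst O (Module.End O L) O).comp R.val).toRingHom
  let _ : Module R L := Module.compHom _ f1
  have hsmul : ∀ (r : R) (x : L), r • x = r.1.1 x := fun _ _ => rfl
  have htower : IsScalarTower O R L := ⟨fun c r x => by
    rw [hsmul, hsmul]; rfl⟩
  let θ : R →ₐ[O] O := (AlgHom.snd O (Module.End O L) O).comp R.val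
  obtain ⟨x, hx1, hx2⟩ := exists_eigen_mod m θ (fun r hr =>
    H r.1 r.2 (LinearMap.ext fun x => hr x))
  exact ⟨x, hx1, fun s hs => hx2 ⟨s, hs⟩⟩

end Fermat.Agent.X1

end
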