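import Fermat.Agent.X1.HeckeQ
import Fermat.Agent.X1.HeckeLift
import Fermat.Agent.HeckePar.CommEval
import Mathlib.GroupTheory.Schreier
import Mathlib.NumberTheory.Modular

/-!
# Parabolic homomorphisms with values in torsion-free groups are combinations of integral ones
-/

set_option autoImplicit false

noncomputable section

open CongruenceSubgroup Matrix.SpecialLinearGroup
open scoped MatrixGroups ModularForm

namespace Fermat.Agent.X1

open Fermat.Agent.HeckePar ModularCurve.Period

theorem exists_par_decomposition {Γ : Subgroup SL(2, ℤ)} [hfg : Group.FG Γ] {C : Type*}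
    [AddCommGroup C] [IsAddTorsionFree C] (φ : Additive Γ →+ C) (hφ : IsParabolicHom Γ φ) :
    ∃ (n : ℕ) (c : Fin n → C) (l : Fin n → (Additive Γ →+ ℤ)),
      (∀ i, IsParabolicHom Γ (l i)) ∧ ∀ x, φ x = ∑ i, l i x • c i := by
  let A := Additive (Abelianization Γ)
  have hfgA : Group.FG (Abelianization Γ) :=
    Group.fg_of_surjective (f := Abelianization.of) (Quotient.mk_surjective)
  have hfgM : AddGroup.FG A := GroupFG.iff_add_fg.mp hfgA
  let q : Additive Γ →+ A := MonoidHom.toAdditive Abelianization.of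
  let φ' : A →+ C := MonoidHom.toAdditiveLeft
    (Abelianization.lift (AddMonoidHom.toMultiplicativeRight φ))
  have hφ' : φ'.comp q = φ := by
    ext x
    rfl
  obtain ⟨n, c, l, h1, h2⟩ := exists_integral_decomposition φ'
  refine ⟨n, c, fun i => (l i).comp q, fun i γ hγ => ?_, fun x => ?_⟩
  · have h5 := hφ γ hγ
    rw [← hφ'] at h5
    exact h2 _ h5 i
  · rw [← hφ', AddMonoidHom.comp_apply, h1]
    rfl

instance isAddTorsionFree_addMonoidHom {A B : Type*} [AddMonoid A] [AddCommGroup B]
    [IsAddTorsionFree B] : IsAddTorsionFree (A →+ B) :=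
  Function.Injective.isAddTorsionFree (AddMonoidHom.coeFn _ _) DFunLike.coe_injective

theorem finite_hom_int_of_fg (Γ : Subgroup SL(2, ℤ)) [hfg : Group.FG Γ] :
    Module.Finite ℤ (Additive Γ →+ ℤ) := by
  have hfg' : AddGroup.FG (Additive Γ) := inferInstance
  obtain ⟨s, hs⟩ := hfg'.out
  let ev : (Additive Γ →+ ℤ) →ₗ[ℤ] (s → ℤ) :=
    { toFun := fun φ x => φ x
      map_add' := fun _ _ => rfl
      map_smul' := fun _ _ => rfl }
  refine Module.Finite.of_injective ev fun φ ψ h => ?_
  refine AddMonoidHom.eq_of_eqOn_dense hs fun x hx => ?_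
  exact congrFun h ⟨x, hx⟩

section

variable (O : Type*) [CommRing O] (Γ : Subgroup SL(2, ℤ))

/-- extension of scalars of an integral homomorphism. -/
def extHom : (Additive Γ →+ ℤ) →+ (Additive Γ →+ O) where
  toFun l := (Int.castAddHom O).comp l
  map_zero' := by ext; simp
  map_add' a b := by ext; simp

variable {O Γ}

@[simp] theorem extHom_apply (l : Additive Γ →+ ℤ) (x : Additive Γ) :
    extHom O Γ l x = ((l x : ℤ) : O) := rfl

theorem isParabolicHom_extHom {l : Additive Γ →+ ℤ} (hl : IsParabolicHom Γ l) :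
    IsParabolicHom Γ (extHom O Γ l) := by
  intro γ hγ
  rw [extHom_apply, hl γ hγ, Int.cast_zero]

variable (O Γ)

/-- Parabolic homomorphisms with values in `O` form a finite `O`-module. -/
theorem finite_parabolicHoms [hfg : Group.FG Γ] [IsAddTorsionFree O] :
    Module.Finite O (parabolicHoms O Γ O) := by
  have hZ : Module.Finite ℤ (parabolicHoms ℤ Γ ℤ) :=
    have := finite_hom_int_of_fg Γ
    Module.Finite.of_injective (parabolicHoms ℤ Γ ℤ).subtype Subtype.val_injective
  obtain ⟨s, hs⟩ := hZ.fg_top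
  let e : parabolicHoms ℤ Γ ℤ → parabolicHoms O Γ O := fun l =>
    ⟨extHom O Γ l, isParabolicHom_extHom l.2⟩
  have hadd : ∀ a b, e (a + b) = e a + e b := fun a b => Subtype.ext (map_add (extHom O Γ) _ _)
  have hsmul : ∀ (n : ℤ) a, e (n • a) = (n : O) • e a := fun n a => Subtype.ext (by
    refine AddMonoidHom.ext fun x => ?_
    show (((n • (a : Additive Γ →+ ℤ)) x : ℤ) : O) = (n : O) * (((a : Additive Γ →+ ℤ) x : ℤ) : O)
    rw [AddMonoidHom.smul_apply, smul_eq_mul, Int.cast_mul])
  have hzero : e 0 = 0 := Subtype.ext (map_zero (extHom O Γ))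
  classical
  refine ⟨⟨s.image e, ?_⟩⟩
  rw [eq_top_iff]
  rintro ⟨x, hx⟩ -
  obtain ⟨n, c, l, hl, h⟩ := exists_par_decomposition x hx
  have h1 : (⟨x, hx⟩ : parabolicHoms O Γ O) = ∑ i, c i • e ⟨l i, hl i⟩ := by
    refine Subtype.ext (AddMonoidHom.ext fun y => ?_)
    rw [AddSubmonoidClass.coe_finsetSum, AddMonoidHom.finsetSum_apply]
    show x y = ∑ i, c i * ((l i y : ℤ) : O)
    rw [h]
    exact Finset.sum_congr rfl fun i _ => by rw [zsmul_eq_mul, mul_comm]
  rw [h1]
  refine Submodule.sum_mem _ fun i _ => Submodule.smul_mem _ _ ?_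
  have key : ∀ z : parabolicHoms ℤ Γ ℤ, z ∈ Submodule.span ℤ (s : Set (parabolicHoms ℤ Γ ℤ)) →
      e z ∈ Submodule.span O ((s.image e : Finset _) : Set (parabolicHoms O Γ O)) := by
    intro z hz
    induction hz using Submodule.span_induction with
    | mem y hy => exact Submodule.subset_span (by
        rw [Finset.coe_image]; exact Set.mem_image_of_mem e hy)
    | zero => rw [hzero]; exact zero_mem _
    | add y z _ _ hy hz => rw [hadd]; exact add_mem hy hz
    | smul n y _ hy => rw [hsmul]; exact Submodule.smul_mem _ _ hy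
  exact key _ (by rw [hs]; exact Submodule.mem_top)

variable {O Γ}

/-- a parabolic homomorphism with values in an ideal `m` is in `m • L`. -/
theorem mem_smul_top_of_forall_mem [hfg : Group.FG Γ] [IsAddTorsionFree O] (m : Ideal O)
    (x : parabolicHoms O Γ O) (h : ∀ y, (x : Additive Γ →+ O) y ∈ m) :
    x ∈ m • (⊤ : Submodule O (parabolicHoms O Γ O)) := by
  let x' : Additive Γ →+ m := (x : Additive Γ →+ O).codRestrict m h
  have hx' : IsParabolicHom Γ x' := fun γ hγ => Subtype.ext (x.2 γ hγ)
  have htf : IsAddTorsionFree m :=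
    Function.Injective.isAddTorsionFree m.toAddSubmonoid.subtype Subtype.val_injective
  obtain ⟨n, c, l, hl, hd⟩ := exists_par_decomposition x' hx'
  have h1 : x = ∑ i, (c i : O) • (⟨extHom O Γ (l i), isParabolicHom_extHom (hl i)⟩ :
      parabolicHoms O Γ O) := by
    refine Subtype.ext (AddMonoidHom.ext fun y => ?_)
    rw [AddSubmonoidClass.coe_finsetSum, AddMonoidHom.finsetSum_apply]
    show (x : Additive Γ →+ O) y = ∑ i, (c i : O) * ((l i y : ℤ) : O)
    have h2 : (x : Additive Γ →+ O) y = ((x' y : m) : O) := rfl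
    rw [h2, hd, AddSubmonoidClass.coe_finsetSum]
    exact Finset.sum_congr rfl fun i _ => by
      rw [mul_comm, ← zsmul_eq_mul]; rfl
  rw [h1]
  exact Submodule.sum_mem _ fun i _ => Submodule.smul_mem_smul (c i).2 Submodule.mem_top

theorem forall_mem_of_mem_smul_top (m : Ideal O)
    (x : parabolicHoms O Γ O) (h : x ∈ m • (⊤ : Submodule O (parabolicHoms O Γ O)))
    (y : Additive Γ) : (x : Additive Γ →+ O) y ∈ m := by
  induction h using Submodule.smul_induction_on' with
  | smul c hc z _ => exact Ideal.mul_mem_right _ _ hc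
  | add a _ b _ ha hb => exact m.add_mem ha hb

end

theorem fg_of_finiteIndex (Γ : Subgroup SL(2, ℤ)) [Γ.FiniteIndex] : Group.FG Γ := by
  have : Group.FG SL(2, ℤ) := by
    refine Group.fg_iff.mpr ⟨{ModularGroup.S, ModularGroup.T}, ?_, Set.toFinite _⟩
    exact _root_.SpecialLinearGroup.SL2Z_generators.symm ▸ rfl
  exact Subgroup.fg_of_index_ne_zero Γ

end Fermat.Agent.X1

end
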