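import Fermat.Agent.X1.HeckePara
import Fermat.Prelude.Def_ModularForm_HeckeOperator
import Fermat.Prelude.Def_FLTPrelim_Modularity
import Mathlib.NumberTheory.ModularForms.Basic

/-!
# Hecke and diamond operators on modular forms for groups between `Γ₁(M)` and `Γ₀(M)`
-/

set_option autoImplicit false

noncomputable section

open CongruenceSubgroup Matrix.SpecialLinearGroup UpperHalfPlane
open scoped MatrixGroups ModularForm Manifold

namespace Fermat.Agent.X1

open Fermat.Agent.HeckePar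

section RatCusps

variable {F : Type*} [FunLike F ℍ ℂ] {Γ : Subgroup (GL (Fin 2) ℝ)} [Γ.IsArithmetic] {k : ℤ}

theorem isCusp_ratCast_smul {c : OnePoint ℝ} (hc : IsCusp c Γ) (g : GL (Fin 2) ℚ) :
    IsCusp (Matrix.GeneralLinearGroup.map (Rat.castHom ℝ) g • c) Γ := by
  rw [Subgroup.IsArithmetic.isCusp_iff_isCusp_SL2Z, isCusp_SL2Z_iff] at hc ⊢
  obtain ⟨c, rfl⟩ := hc
  exact ⟨g • c, by rw [← Rat.coe_castHom, OnePoint.map_smul]⟩

theorem exists_toGLR_eq_map {n : ℤ} (hn : n ≠ 0) (A : Matrix (Fin 2) (Fin 2) ℤ) (hA : A.det = n) :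
    ∃ g : GL (Fin 2) ℚ, toGLR hn A hA = Matrix.GeneralLinearGroup.map (Rat.castHom ℝ) g := by
  refine ⟨Matrix.GeneralLinearGroup.mkOfDetNeZero (A.map (Int.cast)) ?_, ?_⟩
  · have h1 : (A.map (Int.cast : ℤ → ℚ)).det = ((A.det : ℤ) : ℚ) := by
      simp [Matrix.det_fin_two]
    rw [h1, hA]
    exact_mod_cast hn
  · rw [← Units.val_inj]
    ext i j
    simp [Matrix.GeneralLinearGroup.mkOfDetNeZero]

theorem isBoundedAt_slash_toGLR [ModularFormClass F Γ k] (f : F) {n : ℤ} (hn : n ≠ 0)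
    (A : Matrix (Fin 2) (Fin 2) ℤ) (hA : A.det = n) {c : OnePoint ℝ}
    (hc : IsCusp c Γ) : c.IsBoundedAt (⇑f ∣[k] (toGLR hn A hA)) k := by
  obtain ⟨g, hg⟩ := exists_toGLR_eq_map hn A hA
  rw [hg]
  exact OnePoint.IsBoundedAt.smul_iff.mp (ModularFormClass.bdd_at_cusps f (isCusp_ratCast_smul hc g))

theorem isZeroAt_slash_toGLR [CuspFormClass F Γ k] (f : F) {n : ℤ} (hn : n ≠ 0)
    (A : Matrix (Fin 2) (Fin 2) ℤ) (hA : A.det = n) {c : OnePoint ℝ}
    (hc : IsCusp c Γ) : c.IsZeroAt (⇑f ∣[k] (toGLR hn A hA)) k := by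
  obtain ⟨g, hg⟩ := exists_toGLR_eq_map hn A hA
  rw [hg]
  exact OnePoint.IsZeroAt.smul_iff.mp (CuspFormClass.zero_at_cusps f (isCusp_ratCast_smul hc g))

theorem isBoundedAt_sum {ι : Type*} {c : OnePoint ℝ} {k : ℤ} (s : Finset ι)
    {f : ι → ℍ → ℂ} (hf : ∀ i ∈ s, c.IsBoundedAt (f i) k) : c.IsBoundedAt (∑ i ∈ s, f i) k := by
  classical
  induction s using Finset.induction_on with
  | empty =>
    intro g _
    rw [Finset.sum_empty, SlashAction.zero_slash]
    exact Filter.const_boundedAtFilter _ (0 : ℂ)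
  | insert a s ha ih =>
    rw [Finset.sum_insert ha]
    exact (hf a (Finset.mem_insert_self a s)).add (ih fun i hi => hf i (Finset.mem_insert_of_mem hi))

theorem isZeroAt_sum {ι : Type*} {c : OnePoint ℝ} {k : ℤ} (s : Finset ι)
    {f : ι → ℍ → ℂ} (hf : ∀ i ∈ s, c.IsZeroAt (f i) k) : c.IsZeroAt (∑ i ∈ s, f i) k := by
  classical
  induction s using Finset.induction_on with
  | empty =>
    intro g _
    rw [Finset.sum_empty, SlashAction.zero_slash]
    exact Filter.zero_zeroAtFilter _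
  | insert a s ha ih =>
    rw [Finset.sum_insert ha]
    exact (hf a (Finset.mem_insert_self a s)).add (ih fun i hi => hf i (Finset.mem_insert_of_mem hi))

end RatCusps

variable {M : ℕ}

namespace IntSys

variable {n : ℤ} {a : ZMod M} {X : Type*} [Fintype X] (S : IntSys M n a X)

/-- The sum of the slashes by the representatives. -/
def slashSum (k : ℤ) (f : ℍ → ℂ) : ℍ → ℂ := ∑ x, f ∣[k] S.glRep x

theorem slashSum_def (k : ℤ) (f : ℍ → ℂ) : S.slashSum k f = ∑ x, f ∣[k] S.glRep x := rfl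

/-- invariance of a function under `Γ` -/
theorem slash_iotaG {Γ : Subgroup SL(2, ℤ)} {k : ℤ} {F : Type*} [FunLike F ℍ ℂ]
    [SlashInvariantFormClass F (Γ : Subgroup (GL (Fin 2) ℝ)) k] (f : F) (g : Γ) :
    (⇑f) ∣[k] iotaG Γ g = ⇑f :=
  SlashInvariantFormClass.slash_action_eq f (iotaG Γ g) ⟨g, g.2, rfl⟩

theorem slashSum_slash (Γ : Subgroup SL(2, ℤ)) [hΓ : Between M Γ] (k : ℤ) (f : ℍ → ℂ)
    (hf : ∀ g : Γ, f ∣[k] iotaG Γ g = f) (g : Γ) :
    (S.slashSum k f) ∣[k] iotaG Γ g = S.slashSum k f := by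
  rw [slashSum_def]
  have h1 : (∑ x, f ∣[k] S.glRep x) ∣[k] iotaG Γ g = ∑ x, (f ∣[k] S.glRep x) ∣[k] iotaG Γ g :=
    SlashAction.sum_slash _ _
  rw [h1]
  have h2 : ∀ x, (f ∣[k] S.glRep x) ∣[k] iotaG Γ g = f ∣[k] S.glRep ((S.sys Γ).act g x) := by
    intro x
    rw [← SlashAction.slash_mul, ← S.sys_rep Γ, (S.sys Γ).spec, SlashAction.slash_mul, hf,
      S.sys_rep]
  simp only [h2]
  exact Equiv.sum_comp ((S.sys Γ).perm g) (fun x => f ∣[k] S.glRep x)

theorem slashSum_eq {m : ℤ} {b : ZMod M} {Y : Type*} [Fintype Y] (T : IntSys M m b Y)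
    (hn : n = m) (ha : a = b) (k : ℤ) (f : ℍ → ℂ)
    (hf : ∀ g : Gamma1 M, f ∣[k] iotaG (Gamma1 M) g = f) :
    S.slashSum k f = T.slashSum k f := by
  subst hn ha
  obtain ⟨e, κ, hκ, h⟩ := S.exists_equiv T
  rw [slashSum_def, slashSum_def, ← Equiv.sum_comp e]
  refine Finset.sum_congr rfl fun x _ => ?_
  have h1 : S.glRep x = iotaG (Gamma1 M) ⟨κ x, hκ x⟩ * T.glRep (e x) := by
    rw [← Units.val_inj, Units.val_mul, val_glRep, val_glRep, val_iotaG,
      ← map_intCast_mul, h x]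
  rw [h1, SlashAction.slash_mul, hf]

theorem slashSum_comp {m : ℤ} {b : ZMod M} {Y : Type*} [Fintype Y] (T : IntSys M m b Y)
    (hs : ∀ A ∈ Del M (n * m) (a * b), ∃ (y : Y) (B : Matrix (Fin 2) (Fin 2) ℤ), B ∈ Del M n a ∧
      A = B * T.mat y)
    (hi : ∀ (x x' : X) (y y' : Y) (γ : SL(2, ℤ)), γ ∈ Gamma0 M → S.mat x * T.mat y =
      (γ : Matrix (Fin 2) (Fin 2) ℤ) * (S.mat x' * T.mat y') → y = y') (k : ℤ) (f : ℍ → ℂ) :
    (S.comp T hs hi).slashSum k f = T.slashSum k (S.slashSum k f) := by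
  rw [slashSum_def, slashSum_def, slashSum_def, Fintype.sum_prod_type_right]
  refine Finset.sum_congr rfl fun y _ => ?_
  have h1 : (∑ x, f ∣[k] S.glRep x) ∣[k] T.glRep y = ∑ x, (f ∣[k] S.glRep x) ∣[k] T.glRep y :=
    SlashAction.sum_slash _ _
  rw [h1]
  refine Finset.sum_congr rfl fun x _ => ?_
  rw [← SlashAction.slash_mul, comp_glRep]

theorem mdiff_slashSum (k : ℤ) {f : ℍ → ℂ} (hf : MDiff f) : MDiff (S.slashSum k f) := by
  rw [slashSum_def]
  exact Finset.sum_induction _ (fun g : ℍ → ℂ => MDiff g) (fun _ _ ha hb => ha.add hb)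
    mdifferentiable_const (fun x _ => hf.slash k (S.glRep x))

omit [Fintype X] in
theorem det_glRep_pos (x : X) : 0 < (S.glRep x).det.val := by
  rw [Matrix.GeneralLinearGroup.val_det_apply, val_glRep]
  have h1 : ((S.mat x).map (Int.cast : ℤ → ℝ)).det = (((S.mat x).det : ℤ) : ℝ) := by
    simp [Matrix.det_fin_two]
  rw [h1, S.det_mat]
  exact_mod_cast S.pos

omit [Fintype X] in
theorem σ_glRep (x : X) : UpperHalfPlane.σ (S.glRep x) = .refl ℝ ℂ := by
  rw [UpperHalfPlane.σ, if_pos (S.det_glRep_pos x)]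

theorem slashSum_add (k : ℤ) (f g : ℍ → ℂ) :
    S.slashSum k (f + g) = S.slashSum k f + S.slashSum k g := by
  simp [slashSum_def, Finset.sum_add_distrib]

theorem slashSum_smul (k : ℤ) (c : ℂ) (f : ℍ → ℂ) :
    S.slashSum k (c • f) = c • S.slashSum k f := by
  simp only [slashSum_def, ModularForm.smul_slash, σ_glRep, ContinuousAlgEquiv.refl_apply,
    Finset.smul_sum]

variable (Γ : Subgroup SL(2, ℤ)) [hΓ : Between M Γ] [Γ.FiniteIndex] (k : ℤ)

/-- The operator attached to a coset system on modular forms for `Γ`. -/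
def modLin : ModularForm Γ k →ₗ[ℂ] ModularForm Γ k where
  toFun f :=
    { toFun := S.slashSum k f
      slash_action_eq' := fun γ hγ => by
        obtain ⟨g, hg, rfl⟩ := hγ
        exact S.slashSum_slash Γ k f (slash_iotaG f) ⟨g, hg⟩
      holo' := S.mdiff_slashSum k (ModularFormClass.holo f)
      bdd_at_cusps' := fun hc => isBoundedAt_sum _ fun x _ =>
        isBoundedAt_slash_toGLR f S.ne_zero (S.mat x) (S.det_mat x) hc }
  map_add' f g := DFunLike.coe_injective <|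
    show S.slashSum k ⇑(f + g) = S.slashSum k ⇑f + S.slashSum k ⇑g by
      rw [FunLike.coe_add, slashSum_add]
  map_smul' c f := DFunLike.coe_injective <|
    show S.slashSum k ⇑(c • f) = c • S.slashSum k ⇑f by
      rw [FunLike.coe_smul, slashSum_smul]

/-- The operator attached to a coset system on cusp forms for `Γ`. -/
def cuspLin : CuspForm Γ k →ₗ[ℂ] CuspForm Γ k where
  toFun f :=
    { toFun := S.slashSum k f
      slash_action_eq' := fun γ hγ => by
        obtain ⟨g, hg, rfl⟩ := hγ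
        exact S.slashSum_slash Γ k f (slash_iotaG f) ⟨g, hg⟩
      holo' := S.mdiff_slashSum k (CuspFormClass.holo f)
      zero_at_cusps' := fun hc => isZeroAt_sum _ fun x _ =>
        isZeroAt_slash_toGLR f S.ne_zero (S.mat x) (S.det_mat x) hc }
  map_add' f g := DFunLike.coe_injective <|
    show S.slashSum k ⇑(f + g) = S.slashSum k ⇑f + S.slashSum k ⇑g by
      rw [FunLike.coe_add, slashSum_add]
  map_smul' c f := DFunLike.coe_injective <|
    show S.slashSum k ⇑(c • f) = c • S.slashSum k ⇑f by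
      rw [FunLike.coe_smul, slashSum_smul]

@[simp] theorem coe_modLin (f : ModularForm Γ k) : ⇑(S.modLin Γ k f) = S.slashSum k f := rfl

@[simp] theorem coe_cuspLin (f : CuspForm Γ k) : ⇑(S.cuspLin Γ k f) = S.slashSum k f := rfl

end IntSys

end Fermat.Agent.X1

end
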