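import Fermat.Agent.X1.HeckeSys
import Mathlib.Data.ZMod.Units

/-!
# The diamond and Hecke systems, composition, commutation
-/

set_option autoImplicit false

noncomputable section

open CongruenceSubgroup Matrix.SpecialLinearGroup
open scoped MatrixGroups ModularForm

namespace Fermat.Agent.X1

open Fermat.Agent.HeckePar

variable {M : ℕ}

/-! ### Diamond representatives -/

theorem exists_diaMat (M : ℕ) (u : (ZMod M)ˣ) :
    ∃ g : SL(2, ℤ), ((g 1 0 : ℤ) : ZMod M) = 0 ∧ ((g 1 1 : ℤ) : ZMod M) = (u : ZMod M) ∧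
      ((g 0 0 : ℤ) : ZMod M) = ((u⁻¹ : (ZMod M)ˣ) : ZMod M) := by
  obtain ⟨d, hd⟩ := ZMod.intCast_surjective (u : ZMod M)
  have hcop : IsCoprime (M : ℤ) d := by
    rw [← ZMod.coe_int_isUnit_iff_isCoprime, hd]
    exact u.isUnit
  obtain ⟨b, a, hab⟩ := hcop
  refine ⟨⟨!![a, -b; (M : ℤ), d], ?_⟩, ?_, ?_, ?_⟩
  · rw [Matrix.det_fin_two_of]; linear_combination hab
  · simp
  · simpa using hd
  · have h1 := congrArg (Int.cast : ℤ → ZMod M) hab
    push_cast at h1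
    rw [ZMod.natCast_self, mul_zero, zero_add, hd] at h1
    show ((a : ℤ) : ZMod M) = _
    exact Units.eq_inv_of_mul_eq_one_left (by rw [mul_comm]; exact h1)

/-- a matrix in `Γ₀(M)` with lower right entry `u`. -/
def diaMat (M : ℕ) (u : (ZMod M)ˣ) : SL(2, ℤ) := (exists_diaMat M u).choose

theorem diaMat_10 (u : (ZMod M)ˣ) : ((diaMat M u 1 0 : ℤ) : ZMod M) = 0 :=
  (exists_diaMat M u).choose_spec.1

theorem diaMat_11 (u : (ZMod M)ˣ) : ((diaMat M u 1 1 : ℤ) : ZMod M) = (u : ZMod M) :=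
  (exists_diaMat M u).choose_spec.2.1

theorem diaMat_00 (u : (ZMod M)ˣ) :
    ((diaMat M u 0 0 : ℤ) : ZMod M) = ((u⁻¹ : (ZMod M)ˣ) : ZMod M) :=
  (exists_diaMat M u).choose_spec.2.2

theorem diaMat_mem (u : (ZMod M)ˣ) : diaMat M u ∈ Gamma0 M := Gamma0_mem.mpr (diaMat_10 u)

theorem diaMat_mem_Del (u : (ZMod M)ˣ) :
    (diaMat M u : Matrix (Fin 2) (Fin 2) ℤ) ∈ Del M 1 ((u⁻¹ : (ZMod M)ˣ) : ZMod M) :=
  ⟨det_SL _, diaMat_10 u, diaMat_00 u⟩

theorem mem_gamma1_of_mem_gamma0 {g : SL(2, ℤ)} (hg : g ∈ Gamma0 M)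
    (h : ((g 0 0 : ℤ) : ZMod M) = 1) : g ∈ Gamma1 M := by
  rw [Gamma1_mem]
  have h1 := gamma0_00_mul_11 hg
  rw [h, one_mul] at h1
  exact ⟨h, h1, Gamma0_mem.mp hg⟩

theorem mul_inv_00 {g h : SL(2, ℤ)} (hg : g ∈ Gamma0 M) (hh : h ∈ Gamma0 M) :
    (((g * h⁻¹ : SL(2, ℤ)) 0 0 : ℤ) : ZMod M) =
      ((g 0 0 : ℤ) : ZMod M) * ((h 1 1 : ℤ) : ZMod M) := by
  have h1 := (Del_mul (mem_Del_of_mem_gamma0 hg) (inv_mem_Del hh)).2.2
  rw [← Matrix.SpecialLinearGroup.coe_mul] at h1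
  exact h1

/-- the diamond system. -/
def diaSys (M : ℕ) (u : (ZMod M)ˣ) : IntSys M 1 ((u⁻¹ : (ZMod M)ˣ) : ZMod M) Unit where
  mat _ := (diaMat M u : Matrix (Fin 2) (Fin 2) ℤ)
  pos := one_pos
  unit := Units.isUnit _
  mem _ := diaMat_mem_Del u
  surj A hA := by
    refine ⟨(), toSL hA * (diaMat M u)⁻¹, ?_, ?_⟩
    · have h0 := toSL_mem_gamma0 hA
      refine mem_gamma1_of_mem_gamma0 (mul_mem h0 (inv_mem (diaMat_mem u))) ?_
      rw [mul_inv_00 h0 (diaMat_mem u), diaMat_11, coe_toSL, hA.2.2, Units.inv_mul]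
    · rw [← Matrix.SpecialLinearGroup.coe_mul, inv_mul_cancel_right, coe_toSL]
  inj _ _ _ _ _ := rfl

@[simp] theorem diaSys_mat (u : (ZMod M)ˣ) (x : Unit) :
    (diaSys M u).mat x = (diaMat M u : Matrix (Fin 2) (Fin 2) ℤ) := rfl

/-! ### Hecke representatives -/

/-- the unit of `ZMod M` given by a natural number, if coprime to `M`. -/
def pUnit (M p : ℕ) : (ZMod M)ˣ := if h : p.Coprime M then ZMod.unitOfCoprime p h else 1

theorem coe_pUnit {p : ℕ} (h : p.Coprime M) : ((pUnit M p : (ZMod M)ˣ) : ZMod M) = (p : ZMod M) := by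
  rw [pUnit, dif_pos h, ZMod.coe_unitOfCoprime]

/-- representatives for the Hecke operator at `p`. -/
def heckeMat (M p : ℕ) : Option (ZMod p) → Matrix (Fin 2) (Fin 2) ℤ
  | none => (diaMat M (pUnit M p) : Matrix (Fin 2) (Fin 2) ℤ) * !![(p : ℤ), 0; 0, 1]
  | some j => !![1, (j.val : ℤ); 0, (p : ℤ)]

/-- the left factor relating `heckeMat` to `intRep`. -/
def heckeFac (M p : ℕ) : Option (ZMod p) → SL(2, ℤ)
  | none => diaMat M (pUnit M p)
  | some _ => 1

theorem heckeFac_mem (M p : ℕ) (x : Option (ZMod p)) : heckeFac M p x ∈ Gamma0 M := by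
  cases x
  · exact diaMat_mem _
  · exact one_mem _

theorem heckeMat_eq (M p : ℕ) (x : Option (ZMod p)) :
    heckeMat M p x = (heckeFac M p x : Matrix (Fin 2) (Fin 2) ℤ) * intRep p x := by
  cases x with
  | none => rfl
  | some j => simp [heckeMat, heckeFac]

theorem intRep_mem_Del (M p : ℕ) (x : Option (ZMod p)) :
    intRep p x ∈ Del M p (((intRep p x 0 0 : ℤ) : ZMod M)) := by
  refine ⟨?_, ?_, rfl⟩
  · rw [← Matrix.det_fin_two]; exact det_intRep p x
  · cases x <;> simp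

theorem heckeMat_mem {p : ℕ} (hp : p.Prime) (x : HIdx M p) :
    heckeMat M p x.1 ∈ Del M p (1 : ZMod M) := by
  obtain ⟨x, hx⟩ := x
  cases x with
  | none =>
    have hpM : ¬ p ∣ M := fun h => hx h rfl
    have hc : p.Coprime M := (Nat.Prime.coprime_iff_not_dvd hp).mpr hpM
    have h1 := Del_mul (diaMat_mem_Del (pUnit M p)) (intRep_mem_Del M p none)
    rw [one_mul] at h1
    have h2 : ((intRep p none 0 0 : ℤ) : ZMod M) = ((pUnit M p : (ZMod M)ˣ) : ZMod M) := by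
      rw [coe_pUnit hc]; simp
    rw [h2, Units.inv_mul] at h1
    exact h1
  | some j =>
    refine ⟨?_, ?_, ?_⟩ <;> simp [heckeMat]

/-- Factorisation of integral matrices of determinant divisible by `p`. -/
theorem exists_factor1 {p : ℕ} (hp : p.Prime) {n : ℤ} {a : ZMod M} (ha : IsUnit a)
    {A : Matrix (Fin 2) (Fin 2) ℤ} (hA : A ∈ Del M (n * p) a) :
    ∃ (x : HIdx M p) (B : Matrix (Fin 2) (Fin 2) ℤ), B ∈ Del M n a ∧ A = B * heckeMat M p x.1 := by
  obtain ⟨h1, h2, h3⟩ := hA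
  obtain ⟨x, B, hB, hdet, hN, -⟩ := exists_factor (N := M) hp A n (by rw [h1]; ring)
    ((ZMod.intCast_zmod_eq_zero_iff_dvd _ _).mp h2) (by
      intro hpM hpA
      have hc : IsCoprime (M : ℤ) (A 0 0) := by
        rw [← ZMod.coe_int_isUnit_iff_isCoprime, h3]; exact ha
      have h4 : IsUnit (p : ℤ) := hc.isUnit_of_dvd' (Int.natCast_dvd_natCast.mpr hpM) hpA
      rw [Int.isUnit_iff] at h4
      have := hp.one_lt
      rcases h4 with h4 | h4 <;> omega)
  refine ⟨x, B * (((heckeFac M p x.1)⁻¹ : SL(2, ℤ)) : Matrix (Fin 2) (Fin 2) ℤ), ?_, ?_⟩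
  · have hB' : B ∈ Del M n (((B 0 0 : ℤ) : ZMod M)) :=
      ⟨hdet, (ZMod.intCast_zmod_eq_zero_iff_dvd _ _).mpr hN, rfl⟩
    have h5 := Del_mul hB' (inv_mem_Del (heckeFac_mem M p x.1))
    rw [mul_one] at h5
    have h6 : ((B 0 0 : ℤ) : ZMod M) * ((intRep p x.1 0 0 : ℤ) : ZMod M) = a := by
      have h7 := (Del_mul hB' (intRep_mem_Del M p x.1)).2.2
      rw [← hB, h3] at h7
      exact h7.symm
    have h8 : (((heckeFac M p x.1) 1 1 : ℤ) : ZMod M) = ((intRep p x.1 0 0 : ℤ) : ZMod M) := by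
      obtain ⟨x, hx⟩ := x
      cases x with
      | none =>
        have hpM : ¬ p ∣ M := fun h => hx h rfl
        have hc : p.Coprime M := (Nat.Prime.coprime_iff_not_dvd hp).mpr hpM
        show ((diaMat M (pUnit M p) 1 1 : ℤ) : ZMod M) = _
        rw [diaMat_11, coe_pUnit hc]; simp
      | some j => simp [heckeFac]
    rw [h8, h6] at h5
    exact h5
  · rw [heckeMat_eq, ← mul_assoc, mul_assoc B, ← Matrix.SpecialLinearGroup.coe_mul, inv_mul_cancel,
      Matrix.SpecialLinearGroup.coe_one, mul_one, hB]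

theorem heckeMat_inj {p : ℕ} (hp : p.Prime) (u : ℤ) (hu : ¬ (p : ℤ) ∣ u)
    (W : Matrix (Fin 2) (Fin 2) ℤ) (x y : HIdx M p)
    (h : u • heckeMat M p x.1 = W * heckeMat M p y.1) : x = y := by
  refine Subtype.ext (intRep_unique hp u hu
    ((((heckeFac M p x.1)⁻¹ : SL(2, ℤ)) : Matrix (Fin 2) (Fin 2) ℤ) * W *
      (heckeFac M p y.1 : Matrix (Fin 2) (Fin 2) ℤ)) _ _ ?_)
  rw [heckeMat_eq, heckeMat_eq] at h
  have h1 := congrArg (fun Z => (((heckeFac M p x.1)⁻¹ : SL(2, ℤ)) : Matrix (Fin 2) (Fin 2) ℤ) * Z) h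
  simp only [Matrix.mul_smul] at h1
  rw [← mul_assoc, ← Matrix.SpecialLinearGroup.coe_mul, inv_mul_cancel,
      Matrix.SpecialLinearGroup.coe_one, one_mul] at h1
  rw [h1]
  simp only [mul_assoc]

/-- The Hecke system at `p`. -/
def hSys (M p : ℕ) [hp : Fact p.Prime] : IntSys M p (1 : ZMod M) (HIdx M p) where
  mat x := heckeMat M p x.1
  pos := by exact_mod_cast hp.out.pos
  unit := isUnit_one
  mem x := heckeMat_mem hp.out x
  surj A hA := by
    obtain ⟨x, B, hB, h⟩ := exists_factor1 hp.out (n := 1) isUnit_one (by rwa [one_mul])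
    exact ⟨x, toSL hB, toSL_mem_gamma1 hB, h⟩
  inj x y γ _ h := heckeMat_inj hp.out 1 (by
    intro h2
    have h3 : p ∣ 1 := by exact_mod_cast h2
    exact hp.out.one_lt.ne' (Nat.dvd_one.mp h3)) (γ : Matrix (Fin 2) (Fin 2) ℤ) x y
      (by rw [one_smul, h])

@[simp] theorem hSys_mat (p : ℕ) [hp : Fact p.Prime] (x : HIdx M p) :
    (hSys M p).mat x = heckeMat M p x.1 := rfl

/-! ### Composition -/

namespace IntSys

variable {n m : ℤ} {a b : ZMod M} {X Y : Type*}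

/-- Composite of two systems. -/
def comp (S : IntSys M n a X) (T : IntSys M m b Y)
    (hs : ∀ A ∈ Del M (n * m) (a * b), ∃ (y : Y) (B : Matrix (Fin 2) (Fin 2) ℤ), B ∈ Del M n a ∧
      A = B * T.mat y)
    (hi : ∀ (x x' : X) (y y' : Y) (γ : SL(2, ℤ)), γ ∈ Gamma0 M → S.mat x * T.mat y =
      (γ : Matrix (Fin 2) (Fin 2) ℤ) * (S.mat x' * T.mat y') → y = y') :
    IntSys M (n * m) (a * b) (X × Y) where
  mat z := S.mat z.1 * T.mat z.2
  pos := mul_pos S.pos T.pos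
  unit := S.unit.mul T.unit
  mem z := Del_mul (S.mem z.1) (T.mem z.2)
  surj A hA := by
    obtain ⟨y, B, hB, h⟩ := hs A hA
    obtain ⟨x, γ, hγ, h2⟩ := S.surj B hB
    exact ⟨(x, y), γ, hγ, by rw [h, h2, mul_assoc]⟩
  inj z w γ hγ h := by
    have h1 : z.2 = w.2 := hi z.1 w.1 z.2 w.2 γ hγ h
    refine Prod.ext (S.inj z.1 w.1 γ hγ ?_) h1
    rw [← h1, ← mul_assoc] at h
    have h2 := congrArg (fun Z => Z * (T.mat z.2).adjugate) h
    simp only [mul_assoc, Matrix.mul_adjugate, T.det_mat, Matrix.mul_smul, Matrix.mul_one] at h2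
    have h3 : Function.Injective (fun Z : Matrix (Fin 2) (Fin 2) ℤ => m • Z) :=
      smul_right_injective _ T.ne_zero
    exact h3 h2

variable (S : IntSys M n a X) (T : IntSys M m b Y)
    (hs : ∀ A ∈ Del M (n * m) (a * b), ∃ (y : Y) (B : Matrix (Fin 2) (Fin 2) ℤ), B ∈ Del M n a ∧
      A = B * T.mat y)
    (hi : ∀ (x x' : X) (y y' : Y) (γ : SL(2, ℤ)), γ ∈ Gamma0 M → S.mat x * T.mat y =
      (γ : Matrix (Fin 2) (Fin 2) ℤ) * (S.mat x' * T.mat y') → y = y')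

theorem comp_glRep (z : X × Y) : (S.comp T hs hi).glRep z = S.glRep z.1 * T.glRep z.2 := by
  rw [← Units.val_inj, Units.val_mul, val_glRep, val_glRep, val_glRep, ← map_intCast_mul]
  rfl

theorem comp_addTransfer [Fintype X] [Fintype Y] (Γ : Subgroup SL(2, ℤ)) [hΓ : Between M Γ]
    {A : Type*} [AddCommGroup A] (φ : Additive Γ →+ A) :
    ((S.comp T hs hi).sys Γ).addTransfer φ = (T.sys Γ).addTransfer ((S.sys Γ).addTransfer φ) := by
  have hinj : ∀ (x x' : X) (y y' : Y) (g : Γ),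
      (S.sys Γ).rep x * (T.sys Γ).rep y = iotaG Γ g * ((S.sys Γ).rep x' * (T.sys Γ).rep y') →
        x = x' ∧ y = y' := by
    intro x x' y y' g h
    have h1 := ((S.comp T hs hi).sys Γ).inj (x, y) (x', y') g (by
      rw [sys_rep, sys_rep, comp_glRep, comp_glRep]; exact h)
    exact ⟨congrArg Prod.fst h1, congrArg Prod.snd h1⟩
  rw [← CosetSys.addTransfer_comp_sys (S.sys Γ) (T.sys Γ) hinj]
  refine CosetSys.addTransfer_eq_of_equiv _ _ (Equiv.refl _) (fun _ => 1) (fun z => ?_) φ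
  rw [map_one, one_mul, sys_rep, comp_glRep]
  rfl

end IntSys

/-! ### Commutation -/

namespace IntSys

variable {n m : ℤ} {a b : ZMod M} {X Y : Type*}

theorem addTransfer_eq' [Fintype X] [Fintype Y] (S : IntSys M n a X) (T : IntSys M m b Y)
    (hn : n = m) (ha : a = b) (Γ : Subgroup SL(2, ℤ)) [hΓ : Between M Γ] {A : Type*}
    [AddCommGroup A] (φ : Additive Γ →+ A) :
    (S.sys Γ).addTransfer φ = (T.sys Γ).addTransfer φ := by
  subst hn ha
  exact S.addTransfer_eq T Γ φ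

/-- any system can be composed on the right with a diamond system -/
theorem hs_dia (a : ZMod M) (n : ℤ) (u : (ZMod M)ˣ) :
    ∀ A ∈ Del M (n * 1) (a * ((u⁻¹ : (ZMod M)ˣ) : ZMod M)), ∃ (y : Unit)
      (B : Matrix (Fin 2) (Fin 2) ℤ), B ∈ Del M n a ∧ A = B * (diaSys M u).mat y := by
  intro A hA
  refine ⟨(), A * (((diaMat M u)⁻¹ : SL(2, ℤ)) : Matrix (Fin 2) (Fin 2) ℤ), ?_, ?_⟩
  · have h1 := Del_mul hA (inv_mem_Del (diaMat_mem u))
    rw [diaMat_11, mul_assoc a, Units.inv_mul, mul_one, mul_one, mul_one] at h1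
    exact h1
  · rw [diaSys_mat, mul_assoc, ← Matrix.SpecialLinearGroup.coe_mul, inv_mul_cancel,
      Matrix.SpecialLinearGroup.coe_one, mul_one]

theorem hs_hecke (q : ℕ) [hq : Fact q.Prime] (n : ℤ) {a : ZMod M} (ha : IsUnit a) :
    ∀ A ∈ Del M (n * q) (a * 1), ∃ (y : HIdx M q)
      (B : Matrix (Fin 2) (Fin 2) ℤ), B ∈ Del M n a ∧ A = B * (hSys M q).mat y := by
  intro A hA
  rw [mul_one] at hA
  exact exists_factor1 hq.out ha hA

theorem hi_hecke (q : ℕ) [hq : Fact q.Prime] (hqn : ¬ (q : ℤ) ∣ n) (S : IntSys M n a X) :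
    ∀ (x x' : X) (y y' : HIdx M q) (γ : SL(2, ℤ)), γ ∈ Gamma0 M →
      S.mat x * (hSys M q).mat y =
      (γ : Matrix (Fin 2) (Fin 2) ℤ) * (S.mat x' * (hSys M q).mat y') → y = y' := by
  intro x x' y y' γ _ h
  refine heckeMat_inj hq.out n hqn
    ((S.mat x).adjugate * ((γ : Matrix (Fin 2) (Fin 2) ℤ) * S.mat x')) y y' ?_
  have h1 := congrArg (fun Z => (S.mat x).adjugate * Z) h
  simp only [hSys_mat] at h1
  rw [← mul_assoc, Matrix.adjugate_mul, S.det_mat, Matrix.smul_mul, Matrix.one_mul] at h1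
  rw [h1]
  simp only [mul_assoc]

end IntSys

section Comm

variable (Γ : Subgroup SL(2, ℤ)) [hΓ : Between M Γ] {A : Type*} [AddCommGroup A]

open IntSys

theorem not_dvd_one_of_prime {q : ℕ} (hq : q.Prime) : ¬ (q : ℤ) ∣ 1 := by
  intro h
  have h1 : q ∣ 1 := by exact_mod_cast h
  exact hq.one_lt.ne' (Nat.dvd_one.mp h1)

theorem addTransfer_dia_hecke_comm (u : (ZMod M)ˣ) (q : ℕ) [hq : Fact q.Prime]
    (φ : Additive Γ →+ A) :
    ((diaSys M u).sys Γ).addTransfer (((hSys M q).sys Γ).addTransfer φ) =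
      ((hSys M q).sys Γ).addTransfer (((diaSys M u).sys Γ).addTransfer φ) := by
  have h1 := IntSys.comp_addTransfer (hSys M q) (diaSys M u) (hs_dia (1 : ZMod M) q u)
    (fun _ _ _ _ _ _ _ => rfl) Γ φ
  have h2 := IntSys.comp_addTransfer (diaSys M u) (hSys M q) (hs_hecke q 1 (Units.isUnit _))
    (hi_hecke q (not_dvd_one_of_prime hq.out) (diaSys M u)) Γ φ
  rw [← h1, ← h2]
  exact addTransfer_eq' _ _ (mul_comm _ _) (mul_comm _ _) Γ φ

theorem addTransfer_hecke_comm (p q : ℕ) [hp : Fact p.Prime] [hq : Fact q.Prime]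
    (φ : Additive Γ →+ A) :
    ((hSys M p).sys Γ).addTransfer (((hSys M q).sys Γ).addTransfer φ) =
      ((hSys M q).sys Γ).addTransfer (((hSys M p).sys Γ).addTransfer φ) := by
  by_cases hpq : p = q
  · subst hpq; rfl
  have h1 := IntSys.comp_addTransfer (hSys M q) (hSys M p) (hs_hecke p q isUnit_one)
    (hi_hecke p (not_dvd_of_ne (Ne.symm hpq)) (hSys M q)) Γ φ
  have h2 := IntSys.comp_addTransfer (hSys M p) (hSys M q) (hs_hecke q p isUnit_one)
    (hi_hecke q (not_dvd_of_ne hpq) (hSys M p)) Γ φ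
  rw [← h1, ← h2]
  exact addTransfer_eq' _ _ (mul_comm _ _) (mul_comm _ _) Γ φ

theorem addTransfer_dia_mul (u v : (ZMod M)ˣ) (φ : Additive Γ →+ A) :
    ((diaSys M u).sys Γ).addTransfer (((diaSys M v).sys Γ).addTransfer φ) =
      ((diaSys M (u * v)).sys Γ).addTransfer φ := by
  rw [← IntSys.comp_addTransfer (diaSys M v) (diaSys M u) (hs_dia _ 1 u)
    (fun _ _ _ _ _ _ _ => rfl) Γ φ]
  exact addTransfer_eq' _ _ (mul_one _) (by
    rw [← Units.val_mul, mul_inv_rev]) Γ φ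

theorem addTransfer_dia_of_mem (u : (ZMod M)ˣ) (φ : Additive Γ →+ A) (hu : diaMat M u ∈ Γ) :
    ((diaSys M u).sys Γ).addTransfer φ = φ := by
  refine AddMonoidHom.ext fun g => ?_
  obtain ⟨g, rfl⟩ := Additive.ofMul.surjective g
  have h1 : ((diaSys M u).sys Γ).rep () * iotaG Γ g =
      iotaG Γ (⟨diaMat M u, hu⟩ * g * ⟨diaMat M u, hu⟩⁻¹) * ((diaSys M u).sys Γ).rep () := by
    rw [sys_rep, glRep_mul_iotaG_iff, diaSys_mat, Subgroup.coe_mul, Subgroup.coe_mul,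
      ← Matrix.SpecialLinearGroup.coe_mul, ← Matrix.SpecialLinearGroup.coe_mul]
    congr 1
    rw [Subgroup.coe_inv]
    group
  have h2 := (((diaSys M u).sys Γ).ext_coc h1).2
  rw [CosetSys.addTransfer_apply]
  simp only [Finset.univ_unique, Finset.sum_singleton, toMul_ofMul]
  rw [show (default : Unit) = () from rfl, h2, ofMul_mul, ofMul_mul, map_add, map_add, ofMul_inv,
    map_neg]
  abel

end Comm

end Fermat.Agent.X1

end
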