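import Fermat.Agent.HeckePar.Commute

/-!
# Hecke coset systems for groups between `Γ₁(M)` and `Γ₀(M)`

`Δ(M; n, a)` is the set of integral matrices `A` with `det A = n`, `A₁₀ ≡ 0`, `A₀₀ ≡ a` modulo `M`.
An `IntSys M n a X` is a family of representatives, indexed by `X`, of `Γ₁(M) \ Δ(M; n, a)`; for every
`Γ₁(M) ≤ Γ ≤ Γ₀(M)` it gives rise to a coset system for `Γ`, hence to operators on `Hom(Γ, A)` and
on modular forms for `Γ`.  The operators only depend on `n` and `a`.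
-/

set_option autoImplicit false

noncomputable section

open CongruenceSubgroup Matrix.SpecialLinearGroup
open scoped MatrixGroups ModularForm

namespace Fermat.Agent.X1

open Fermat.Agent.HeckePar

/-- `Γ` lies between `Γ₁(M)` and `Γ₀(M)`. -/
class Between (M : ℕ) (Γ : Subgroup SL(2, ℤ)) : Prop where
  ge : Gamma1 M ≤ Γ
  le : Γ ≤ Gamma0 M

instance between_gamma1 (M : ℕ) : Between M (Gamma1 M) := ⟨le_rfl, Gamma1_in_Gamma0 M⟩

instance between_gamma0 (M : ℕ) : Between M (Gamma0 M) := ⟨Gamma1_in_Gamma0 M, le_rfl⟩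

/-- integral matrices with determinant `n`, lower left entry divisible by `M`, upper left entry
congruent to `a` modulo `M`. -/
def Del (M : ℕ) (n : ℤ) (a : ZMod M) : Set (Matrix (Fin 2) (Fin 2) ℤ) :=
  {A | A 0 0 * A 1 1 - A 0 1 * A 1 0 = n ∧ ((A 1 0 : ℤ) : ZMod M) = 0 ∧ ((A 0 0 : ℤ) : ZMod M) = a}

variable {M : ℕ}

theorem mem_Del_iff {n : ℤ} {a : ZMod M} {A : Matrix (Fin 2) (Fin 2) ℤ} :
    A ∈ Del M n a ↔ A 0 0 * A 1 1 - A 0 1 * A 1 0 = n ∧ ((A 1 0 : ℤ) : ZMod M) = 0 ∧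
      ((A 0 0 : ℤ) : ZMod M) = a := Iff.rfl

theorem det_of_mem_Del {n : ℤ} {a : ZMod M} {A : Matrix (Fin 2) (Fin 2) ℤ} (h : A ∈ Del M n a) :
    A.det = n := by
  rw [Matrix.det_fin_two]; exact h.1

theorem Del_mul {n m : ℤ} {a b : ZMod M} {A B : Matrix (Fin 2) (Fin 2) ℤ} (hA : A ∈ Del M n a)
    (hB : B ∈ Del M m b) : A * B ∈ Del M (n * m) (a * b) := by
  obtain ⟨hA1, hA2, hA3⟩ := hA
  obtain ⟨hB1, hB2, hB3⟩ := hB
  refine ⟨?_, ?_, ?_⟩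
  · simp only [Matrix.mul_apply, Fin.sum_univ_two]
    rw [← hA1, ← hB1]; ring
  · simp only [Matrix.mul_apply, Fin.sum_univ_two, Int.cast_add, Int.cast_mul]
    rw [hA2, hB2]; ring
  · simp only [Matrix.mul_apply, Fin.sum_univ_two, Int.cast_add, Int.cast_mul]
    rw [hA3, hB3, hB2]; ring

theorem mem_Del_of_mem_gamma0 {g : SL(2, ℤ)} (hg : g ∈ Gamma0 M) :
    (g : Matrix (Fin 2) (Fin 2) ℤ) ∈ Del M 1 (((g 0 0 : ℤ) : ZMod M)) :=
  ⟨det_SL g, Gamma0_mem.mp hg, rfl⟩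

theorem mem_Del_of_mem_gamma1 {g : SL(2, ℤ)} (hg : g ∈ Gamma1 M) :
    (g : Matrix (Fin 2) (Fin 2) ℤ) ∈ Del M 1 (1 : ZMod M) :=
  ⟨det_SL g, ((Gamma1_mem M g).mp hg).2.2, ((Gamma1_mem M g).mp hg).1⟩

/-- the element of `SL₂(ℤ)` given by a matrix in `Del M 1 a`. -/
def toSL {a : ZMod M} {A : Matrix (Fin 2) (Fin 2) ℤ} (h : A ∈ Del M 1 a) : SL(2, ℤ) :=
  ⟨A, det_of_mem_Del h⟩

@[simp] theorem coe_toSL {a : ZMod M} {A : Matrix (Fin 2) (Fin 2) ℤ} (h : A ∈ Del M 1 a) :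
    ((toSL h : SL(2, ℤ)) : Matrix (Fin 2) (Fin 2) ℤ) = A := rfl

theorem toSL_mem_gamma1 {A : Matrix (Fin 2) (Fin 2) ℤ} (h : A ∈ Del M 1 (1 : ZMod M)) :
    toSL h ∈ Gamma1 M := by
  rw [Gamma1_mem]
  obtain ⟨h1, h2, h3⟩ := h
  refine ⟨h3, ?_, h2⟩
  have h4 := congrArg (Int.cast : ℤ → ZMod M) h1
  push_cast at h4
  rw [h2, h3, mul_zero, sub_zero, one_mul] at h4
  exact h4

theorem toSL_mem_gamma0 {a : ZMod M} {A : Matrix (Fin 2) (Fin 2) ℤ} (h : A ∈ Del M 1 a) :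
    toSL h ∈ Gamma0 M := Gamma0_mem.mpr h.2.1

theorem gamma0_00_mul_11 {g : SL(2, ℤ)} (hg : g ∈ Gamma0 M) :
    ((g 0 0 : ℤ) : ZMod M) * ((g 1 1 : ℤ) : ZMod M) = 1 := by
  have h1 := congrArg (Int.cast : ℤ → ZMod M) (det_SL g)
  push_cast at h1
  rw [Gamma0_mem.mp hg, mul_zero, sub_zero] at h1
  exact h1

theorem inv_00 (g : SL(2, ℤ)) : (g⁻¹ : SL(2, ℤ)) 0 0 = g 1 1 := by
  rw [Matrix.SpecialLinearGroup.coe_inv, Matrix.adjugate_fin_two]; rfl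

theorem inv_mem_Del {g : SL(2, ℤ)} (hg : g ∈ Gamma0 M) :
    ((g⁻¹ : SL(2, ℤ)) : Matrix (Fin 2) (Fin 2) ℤ) ∈ Del M 1 (((g 1 1 : ℤ) : ZMod M)) := by
  have h := mem_Del_of_mem_gamma0 (M := M) (inv_mem hg)
  rwa [inv_00] at h

/-- The element of `GL₂(ℝ)` attached to an integral matrix with non-zero determinant `n`. -/
def toGLR {n : ℤ} (hn : n ≠ 0) (A : Matrix (Fin 2) (Fin 2) ℤ) (hA : A.det = n) : GL (Fin 2) ℝ :=
  Matrix.GeneralLinearGroup.mkOfDetNeZero (A.map (Int.cast)) (by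
    have h1 : (A.map (Int.cast : ℤ → ℝ)).det = ((A.det : ℤ) : ℝ) := by
      simp [Matrix.det_fin_two]
    rw [h1, hA]
    exact_mod_cast hn)

@[simp] theorem val_toGLR {n : ℤ} (hn : n ≠ 0) (A : Matrix (Fin 2) (Fin 2) ℤ) (hA : A.det = n) :
    ((toGLR hn A hA : GL (Fin 2) ℝ) : Matrix (Fin 2) (Fin 2) ℝ) = A.map (Int.cast) := rfl

/-- A system of representatives of `Γ₁(M) \ Δ(M; n, a)`. -/
structure IntSys (M : ℕ) (n : ℤ) (a : ZMod M) (X : Type*) where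
  /-- the representatives -/
  mat : X → Matrix (Fin 2) (Fin 2) ℤ
  pos : 0 < n
  unit : IsUnit a
  mem : ∀ x, mat x ∈ Del M n a
  surj : ∀ A ∈ Del M n a, ∃ (x : X) (γ : SL(2, ℤ)), γ ∈ Gamma1 M ∧
    A = (γ : Matrix (Fin 2) (Fin 2) ℤ) * mat x
  inj : ∀ (x y : X) (γ : SL(2, ℤ)), γ ∈ Gamma0 M → mat x = (γ : Matrix (Fin 2) (Fin 2) ℤ) * mat y →
    x = y

/-- The embedding of `Γ` into `GL₂(ℝ)`. -/
def iotaG (Γ : Subgroup SL(2, ℤ)) : Γ →* GL (Fin 2) ℝ := (mapGL ℝ).comp Γ.subtype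

@[simp] theorem iotaG_apply (Γ : Subgroup SL(2, ℤ)) (g : Γ) :
    iotaG Γ g = mapGL ℝ (g : SL(2, ℤ)) := rfl

theorem iotaG_injective (Γ : Subgroup SL(2, ℤ)) : Function.Injective (iotaG Γ) := fun _ _ h =>
  Subtype.ext (Fermat.Agent.HeckePar.mapGL_injective h)

theorem val_iotaG (Γ : Subgroup SL(2, ℤ)) (g : Γ) :
    ((iotaG Γ g : GL (Fin 2) ℝ) : Matrix (Fin 2) (Fin 2) ℝ) =
      ((g : SL(2, ℤ)) : Matrix (Fin 2) (Fin 2) ℤ).map (Int.cast) := val_mapGL _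

namespace IntSys

variable {n : ℤ} {a : ZMod M} {X : Type*} (S : IntSys M n a X)

include S in
theorem ne_zero : n ≠ 0 := S.pos.ne'

theorem det_mat (x : X) : (S.mat x).det = n := det_of_mem_Del (S.mem x)

/-- the representatives in `GL₂(ℝ)` -/
def glRep (x : X) : GL (Fin 2) ℝ := toGLR S.ne_zero (S.mat x) (S.det_mat x)

theorem val_glRep (x : X) :
    ((S.glRep x : GL (Fin 2) ℝ) : Matrix (Fin 2) (Fin 2) ℝ) = (S.mat x).map (Int.cast) := rfl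

theorem exists_act (Γ : Subgroup SL(2, ℤ)) [hΓ : Between M Γ] (g : Γ) (x : X) :
    ∃ (y : X) (c : Γ), S.mat x * ((g : SL(2, ℤ)) : Matrix (Fin 2) (Fin 2) ℤ) =
      ((c : SL(2, ℤ)) : Matrix (Fin 2) (Fin 2) ℤ) * S.mat y := by
  have hg : (g : SL(2, ℤ)) ∈ Gamma0 M := hΓ.le g.2
  have h1 : (((g : SL(2, ℤ))⁻¹ : SL(2, ℤ)) : Matrix (Fin 2) (Fin 2) ℤ) *
      (S.mat x * ((g : SL(2, ℤ)) : Matrix (Fin 2) (Fin 2) ℤ)) ∈ Del M n a := by
    have h2 := Del_mul (inv_mem_Del hg) (Del_mul (S.mem x) (mem_Del_of_mem_gamma0 hg))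
    have h3 : (1 : ℤ) * (n * 1) = n := by ring
    have h4 : (((g : SL(2, ℤ)) 1 1 : ℤ) : ZMod M) * (a * ((((g : SL(2, ℤ)) 0 0 : ℤ) : ZMod M))) =
        a := by
      have h5 := gamma0_00_mul_11 hg
      linear_combination a * h5
    rwa [h3, h4] at h2
  obtain ⟨y, γ, hγ, h2⟩ := S.surj _ h1
  refine ⟨y, g * ⟨γ, hΓ.ge hγ⟩, ?_⟩
  rw [Subgroup.coe_mul, Matrix.SpecialLinearGroup.coe_mul, mul_assoc]
  rw [← h2, ← mul_assoc, ← Matrix.SpecialLinearGroup.coe_mul, mul_inv_cancel,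
    Matrix.SpecialLinearGroup.coe_one, one_mul]

theorem glRep_mul_iotaG_iff (Γ : Subgroup SL(2, ℤ)) (x y : X) (g c : Γ) :
    S.glRep x * iotaG Γ g = iotaG Γ c * S.glRep y ↔
      S.mat x * ((g : SL(2, ℤ)) : Matrix (Fin 2) (Fin 2) ℤ) =
        ((c : SL(2, ℤ)) : Matrix (Fin 2) (Fin 2) ℤ) * S.mat y := by
  rw [← Units.val_inj, Units.val_mul, Units.val_mul, val_glRep, val_glRep, val_iotaG, val_iotaG,
    ← map_intCast_mul, ← map_intCast_mul]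
  exact map_intCast_injective.eq_iff

/-- The coset system for `Γ` attached to a system of integral representatives. -/
def sys (Γ : Subgroup SL(2, ℤ)) [hΓ : Between M Γ] : CosetSys (iotaG Γ) X where
  rep := S.glRep
  act g x := (S.exists_act Γ g x).choose
  coc g x := (S.exists_act Γ g x).choose_spec.choose
  spec g x := (S.glRep_mul_iotaG_iff Γ x _ g _).mpr (S.exists_act Γ g x).choose_spec.choose_spec
  inj x y g h := by
    have h1 : S.glRep x * iotaG Γ 1 = iotaG Γ g * S.glRep y := by rw [map_one, mul_one, h]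
    rw [glRep_mul_iotaG_iff] at h1
    refine S.inj x y g (hΓ.le g.2) ?_
    rw [← h1]
    simp
  ι_inj := iotaG_injective Γ

@[simp] theorem sys_rep (Γ : Subgroup SL(2, ℤ)) [hΓ : Between M Γ] (x : X) :
    (S.sys Γ).rep x = S.glRep x := rfl

theorem sys_spec (Γ : Subgroup SL(2, ℤ)) [hΓ : Between M Γ] (g : Γ) (x : X) :
    S.mat x * ((g : SL(2, ℤ)) : Matrix (Fin 2) (Fin 2) ℤ) =
      (((S.sys Γ).coc g x : SL(2, ℤ)) : Matrix (Fin 2) (Fin 2) ℤ) * S.mat ((S.sys Γ).act g x) :=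
  (S.exists_act Γ g x).choose_spec.choose_spec

/-- Two systems with the same `n`, `a` are equivalent. -/
theorem exists_equiv {Y : Type*} [Finite X] [Finite Y] (T : IntSys M n a Y) :
    ∃ (e : X ≃ Y) (κ : X → SL(2, ℤ)), (∀ x, κ x ∈ Gamma1 M) ∧
      ∀ x, S.mat x = (κ x : Matrix (Fin 2) (Fin 2) ℤ) * T.mat (e x) := by
  have h1 : ∀ x, ∃ (y : Y) (γ : SL(2, ℤ)), γ ∈ Gamma1 M ∧
    S.mat x = (γ : Matrix (Fin 2) (Fin 2) ℤ) * T.mat y := fun x => T.surj _ (S.mem x)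
  choose f κ hκ hf using h1
  have hinj : Function.Injective f := by
    intro x x' h
    have h2 := hf x
    have h3 := hf x'
    rw [h] at h2
    refine S.inj x x' (κ x * (κ x')⁻¹)
      (mul_mem (Gamma1_in_Gamma0 M (hκ x)) (inv_mem (Gamma1_in_Gamma0 M (hκ x')))) ?_
    rw [h3, h2, ← mul_assoc, ← Matrix.SpecialLinearGroup.coe_mul, inv_mul_cancel_right]
  have hsurj : Function.Surjective f := by
    intro y
    obtain ⟨x, γ, hγ, hx⟩ := S.surj _ (T.mem y)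
    refine ⟨x, ?_⟩
    symm
    refine T.inj y (f x) (γ * κ x)
      (Gamma1_in_Gamma0 M (mul_mem hγ (hκ x))) ?_
    rw [hx, hf x, ← mul_assoc, ← Matrix.SpecialLinearGroup.coe_mul]
  exact ⟨Equiv.ofBijective f ⟨hinj, hsurj⟩, κ, hκ, hf⟩

theorem addTransfer_eq {Y : Type*} [Fintype X] [Fintype Y] (T : IntSys M n a Y)
    (Γ : Subgroup SL(2, ℤ)) [hΓ : Between M Γ] {A : Type*} [AddCommGroup A] (φ : Additive Γ →+ A) :
    (S.sys Γ).addTransfer φ = (T.sys Γ).addTransfer φ := by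
  obtain ⟨e, κ, hκ, h⟩ := S.exists_equiv T
  refine (S.sys Γ).addTransfer_eq_of_equiv (T.sys Γ) e (fun x => ⟨κ x, hΓ.ge (hκ x)⟩) (fun x => ?_) φ
  rw [sys_rep, sys_rep, ← Units.val_inj, Units.val_mul, val_glRep, val_glRep, val_iotaG,
    ← map_intCast_mul, h x]

end IntSys

end Fermat.Agent.X1

end
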