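import Fermat.Agent.X1.HauptTwo
import Fermat.Agent.X1.HauptThree
import Fermat.Agent.JLevelOne.Order
import Fermat.Agent.FG.Basic

/-!
# Base coordinates: `j`, and the Hauptmoduln of `X₀(2)`, `X₀(3)`
-/

set_option autoImplicit false

open UpperHalfPlane hiding I
open ModularForm Matrix.SpecialLinearGroup Filter Asymptotics CongruenceSubgroup
open scoped MatrixGroups Manifold ModularForm Polynomial Topology

noncomputable section

namespace Fermat.Agent.X1Key

open Fermat.Agent.JLevelOne Fermat.Agent.X0Emb Fermat.Agent.ModFun ModularCurve Fermat.Agent.FG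

/-- A coordinate `f` of the base curve. The bad points are the zeros of `f ^ e * (f + c)`. -/
structure Base (Γ : Subgroup SL(2, ℤ)) (p : ℕ) where
  f : ℍ → ℂ
  T : LaurentSeries ℤ
  c : ℤ
  e : ℕ
  a : ℕ
  P : ℤ[X]
  mdiff : MDiff f
  inv : ∀ γ ∈ Γ, ∀ τ : ℍ, f (γ • τ) = f τ
  growth : ModGrowth f
  lexp : LExp 1 f (coeffMap (Int.castRingHom ℂ) T)
  lead : T.coeff (-1) = 1
  low : ∀ n < -1, T.coeff n = 0
  hc : ¬ (p : ℤ) ∣ c
  he : e ≤ 1
  hP : P.natDegree ≤ a + 1
  rel : ∀ τ, jFun τ * f τ ^ a = Polynomial.aeval (f τ) P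
  nz : ∀ τ, f τ ^ e * (f τ + c) ≠ 0 → f τ ≠ 0
  ord : ∀ τ, f τ ^ e * (f τ + c) ≠ 0 →
    analyticOrderAt ((fun z => f z - f τ) ∘ ofComplex) (τ : ℂ) = 1

lemma one_le_order {F : ℍ → ℂ} (hF : MDiff F) (τ : ℍ) :
    1 ≤ analyticOrderAt ((fun z => F z - F τ) ∘ ofComplex) (τ : ℂ) := by
  rw [Order.one_le_iff_pos, pos_iff_ne_zero, Ne, analyticOrderAt_eq_zero]
  push Not
  refine ⟨analyticAt_of_mdiff (mdiff_sub_const hF _) τ, by simp⟩

lemma order_eq_one {F S : ℍ → ℂ} (hF : MDiff F) {τ : ℍ} (hFτ : F τ ≠ 0) {k : ℕ} (hk : 1 ≤ k)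
    (hj : analyticOrderAt ((fun z => jFun z - jFun τ) ∘ ofComplex) (τ : ℂ) = k) {a : ℕ}
    (hS : AnalyticAt ℂ (S ∘ ofComplex) τ)
    (h : ∀ z, (F z - F τ) ^ k * S z = (jFun z - jFun τ) * F z ^ a) :
    analyticOrderAt ((fun z => F z - F τ) ∘ ofComplex) (τ : ℂ) = 1 := by
  have h1 := one_le_order hF τ
  set m := analyticOrderAt ((fun z => F z - F τ) ∘ ofComplex) (τ : ℂ) with hm
  have hF1 : AnalyticAt ℂ ((fun z => F z - F τ) ∘ ofComplex) τ :=
    analyticAt_of_mdiff (mdiff_sub_const hF _) τ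
  have h2 : ((fun z => F z - F τ) ∘ ofComplex) ^ k * (S ∘ ofComplex) =
      ((fun z => jFun z - jFun τ) ∘ ofComplex) * (F ∘ ofComplex) ^ a := by
    funext z
    exact h (ofComplex z)
  have h3 := congrArg (fun G => analyticOrderAt G (τ : ℂ)) h2
  replace h3 : analyticOrderAt (((fun z => F z - F τ) ∘ ofComplex) ^ k * (S ∘ ofComplex)) (τ : ℂ) =
    analyticOrderAt (((fun z => jFun z - jFun τ) ∘ ofComplex) * (F ∘ ofComplex) ^ a) (τ : ℂ) := h3
  rw [analyticOrderAt_mul (hF1.pow k) hS, analyticOrderAt_pow hF1,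
    analyticOrderAt_mul (analyticAt_of_mdiff (mdiff_sub_const jFun_mdiff _) τ)
      ((analyticAt_of_mdiff hF τ).pow a), analyticOrderAt_pow (analyticAt_of_mdiff hF τ), hj,
    analyticOrderAt_eq_zero_of_ne hFτ, ← hm, smul_zero, add_zero] at h3
  have h4 : k • m ≤ (k : ℕ∞) := h3 ▸ le_self_add
  have hmt : m ≠ ⊤ := by
    intro h5
    rw [h5, nsmul_eq_mul, ENat.mul_top (by exact_mod_cast (by omega : k ≠ 0))] at h4
    exact absurd h4 (by simp)
  clear_value m
  clear hm h3
  lift m to ℕ using hmt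
  rw [nsmul_eq_mul] at h4
  have h6 : k * m ≤ k := by exact_mod_cast h4
  have h7 : 1 ≤ m := by exact_mod_cast h1
  have h8 : m ≤ 1 := by
    by_contra h9
    have : k * 2 ≤ k * m := Nat.mul_le_mul_left k (by omega)
    omega
  have : m = 1 := le_antisymm h8 h7
  rw [this]; rfl

/-- the order of `j - j(τ)` -/
lemma order_j_cases (τ : ℍ) :
    (analyticOrderAt ((fun z => jFun z - jFun τ) ∘ ofComplex) (τ : ℂ) = (1 : ℕ)) ∨
    (jFun τ = 0 ∧ analyticOrderAt ((fun z => jFun z - jFun τ) ∘ ofComplex) (τ : ℂ) = (3 : ℕ)) ∨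
    (jFun τ = 1728 ∧ analyticOrderAt ((fun z => jFun z - jFun τ) ∘ ofComplex) (τ : ℂ) = (2 : ℕ)) := by
  by_cases h4 : E₄ τ = 0
  · exact Or.inr (Or.inl ⟨(jFun_eq_zero_iff τ).mpr h4, analyticOrderAt_jFun_sub_of_E₄ h4⟩)
  · by_cases h6 : E₆ τ = 0
    · exact Or.inr (Or.inr ⟨(jFun_eq_1728_iff τ).mpr h6, analyticOrderAt_jFun_sub_of_E₆ h6⟩)
    · exact Or.inl (by simpa using analyticOrderAt_jFun_sub_of_ne h4 h6)

/-- the case of a simple zero of `j - j(τ)` -/
lemma order_simple {F : ℍ → ℂ} (hF : MDiff F) {τ : ℍ} (hFτ : F τ ≠ 0)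
    (hj : analyticOrderAt ((fun z => jFun z - jFun τ) ∘ ofComplex) (τ : ℂ) = (1 : ℕ)) {a : ℕ}
    (Q : ℂ[X]) (h : ∀ z, Q.eval (F z) = jFun z * F z ^ a) :
    analyticOrderAt ((fun z => F z - F τ) ∘ ofComplex) (τ : ℂ) = 1 := by
  have h1 : (Q - Polynomial.C (jFun τ) * Polynomial.X ^ a).IsRoot (F τ) := by
    rw [Polynomial.IsRoot.def]
    simp [h]
  obtain ⟨R, hR⟩ := Polynomial.dvd_iff_isRoot.mpr h1
  refine order_eq_one hF hFτ le_rfl hj (S := fun z => R.eval (F z)) (a := a) ?_ fun z => ?_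
  · have := (analyticAt_of_mdiff hF τ).aeval_polynomial R
    refine this.congr (Eventually.of_forall fun z => ?_)
    simp [Polynomial.aeval_def]
  · have h2 := congrArg (Polynomial.eval (F z)) hR
    simp only [Polynomial.eval_sub, Polynomial.eval_mul, Polynomial.eval_C, Polynomial.eval_pow,
      Polynomial.eval_X, h z] at h2
    rw [pow_one, ← h2]
    ring

/-- `h = j`, for `p ≥ 5` -/
theorem exists_base_one (Γ : Subgroup SL(2, ℤ)) {p : ℕ} (hp : p.Prime) (h5 : 5 ≤ p) :
    Nonempty (Base Γ p) := by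
  refine ⟨{ f := jFun, T := jqModC ℤ, c := -1728, e := 1, a := 0, P := Polynomial.X,
            mdiff := jFun_mdiff, inv := fun γ _ τ => jFun_smul γ τ, growth := modGrowth_jFun,
            lexp := ?_, lead := ?_, low := fun n hn => coeff_jqModC_of_lt _ hn,
            hc := ?_, he := le_rfl, hP := by simp, rel := fun τ => by simp,
            nz := fun τ h => ?_, ord := fun τ h => ?_ }⟩
  · rw [coeffMap_jqModC]; exact lexp_jFun
  · exact coeff_jqModC_neg_one ℤ
  · rw [dvd_neg]
    intro h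
    have h1 : p ∣ 2 ^ 6 * 3 ^ 3 := by exact_mod_cast h
    rcases (Nat.Prime.dvd_mul hp).mp h1 with h2 | h2
    · have := Nat.le_of_dvd (by norm_num) (hp.dvd_of_dvd_pow h2); omega
    · have := Nat.le_of_dvd (by norm_num) (hp.dvd_of_dvd_pow h2); omega
  · intro h0; apply h; simp [h0]
  · rcases order_j_cases τ with h1 | ⟨h1, -⟩ | ⟨h1, -⟩
    · simpa using h1
    · exfalso; apply h; simp [h1]
    · exfalso; apply h; rw [h1]; norm_num

/-- the Hauptmodul of `X₀(2)`, for `p = 3` -/
theorem exists_base_two {Γ : Subgroup SL(2, ℤ)} (hΓ : Γ ≤ Gamma0 2) : Nonempty (Base Γ 3) := by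
  obtain ⟨f, T, hmd, hinv, hgr, hl, h1, h2, hrel⟩ := Fermat.Agent.X1.HauptTwo.exists_haupt_two
  have hne : ∀ τ, f τ ≠ 0 := by
    intro τ h0
    have := hrel τ
    rw [h0] at this
    norm_num at this
  refine ⟨{ f := f, T := T, c := 64, e := 0, a := 2, P := (Polynomial.X + 256) ^ 3,
            mdiff := hmd, inv := fun γ hγ τ => hinv γ (hΓ hγ) τ, growth := hgr,
            lexp := hl, lead := h1, low := h2,
            hc := by norm_num, he := Nat.zero_le _, hP := ?_, rel := fun τ => ?_,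
            nz := fun τ _ => hne τ, ord := fun τ h => ?_ }⟩
  · refine (Polynomial.natDegree_pow_le).trans ?_
    have : (Polynomial.X + 256 : ℤ[X]).natDegree ≤ 1 := by
      have := Polynomial.natDegree_X_add_C (256 : ℤ)
      exact this.le
    omega
  · rw [← hrel τ]
    simp only [map_mul, map_add, map_pow, Polynomial.aeval_X, map_ofNat]
  · rw [pow_zero, one_mul] at h
    rcases order_j_cases τ with hj | ⟨hj0, hj⟩ | ⟨hj0, hj⟩
    · refine order_simple hmd (hne τ) hj (a := 2) ((Polynomial.X + 256) ^ 3) fun z => ?_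
      rw [← hrel z]; simp
    · have hτ : f τ = -256 := by
        have := hrel τ
        rw [hj0, zero_mul] at this
        have := pow_eq_zero_iff (three_ne_zero) |>.mp this
        linear_combination this
      refine order_eq_one hmd (hne τ) (by norm_num) hj (S := fun _ => 1) (a := 2)
        analyticAt_const fun z => ?_
      rw [hj0, hτ, ← sub_eq_zero]
      linear_combination hrel z
    · have hτ : f τ = 512 := by
        have h3 := hrel τ
        rw [hj0] at h3
        have h4 : (f τ + 64) * (f τ - 512) ^ 2 = 0 := by linear_combination h3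
        have h5 : f τ + 64 ≠ 0 := by simpa using h
        have h6 := pow_eq_zero_iff (two_ne_zero) |>.mp ((mul_eq_zero.mp h4).resolve_left h5)
        linear_combination h6
      refine order_eq_one hmd (hne τ) (by norm_num) hj (S := fun z => f z + 64) (a := 2)
        (analyticAt_of_mdiff (hmd.add mdifferentiable_const) τ) fun z => ?_
      rw [hj0, hτ, ← sub_eq_zero]
      linear_combination hrel z

/-- the Hauptmodul of `X₀(3)`, for `p = 2` -/
theorem exists_base_three {Γ : Subgroup SL(2, ℤ)} (hΓ : Γ ≤ Gamma0 3) : Nonempty (Base Γ 2) := by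
  obtain ⟨f, T, hmd, hinv, hgr, hl, h1, h2, hrel⟩ := Fermat.Agent.X1.Haupt.exists_haupt_three
  have hne : ∀ τ, f τ ≠ 0 := by
    intro τ h0
    have := hrel τ
    rw [h0] at this
    norm_num at this
  refine ⟨{ f := f, T := T, c := 27, e := 0, a := 3,
            P := (Polynomial.X + 27) * (Polynomial.X + 243) ^ 3,
            mdiff := hmd, inv := fun γ hγ τ => hinv γ (hΓ hγ) τ, growth := hgr,
            lexp := hl, lead := h1, low := h2,
            hc := by norm_num, he := Nat.zero_le _, hP := ?_, rel := fun τ => ?_,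
            nz := fun τ _ => hne τ, ord := fun τ h => ?_ }⟩
  · refine (Polynomial.natDegree_mul_le).trans ?_
    have h3 : (Polynomial.X + 27 : ℤ[X]).natDegree ≤ 1 := (Polynomial.natDegree_X_add_C (27 : ℤ)).le
    have h4 : (Polynomial.X + 243 : ℤ[X]).natDegree ≤ 1 :=
      (Polynomial.natDegree_X_add_C (243 : ℤ)).le
    have h5 := Polynomial.natDegree_pow_le (p := (Polynomial.X + 243 : ℤ[X])) (n := 3)
    omega
  · rw [← hrel τ]
    simp only [map_mul, map_add, map_pow, Polynomial.aeval_X, map_ofNat]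
  · rw [pow_zero, one_mul] at h
    have h27 : f τ + 27 ≠ 0 := by simpa using h
    rcases order_j_cases τ with hj | ⟨hj0, hj⟩ | ⟨hj0, hj⟩
    · refine order_simple hmd (hne τ) hj (a := 3)
        ((Polynomial.X + 27) * (Polynomial.X + 243) ^ 3) fun z => ?_
      rw [← hrel z]; simp
    · have hτ : f τ = -243 := by
        have := hrel τ
        rw [hj0, zero_mul] at this
        have := pow_eq_zero_iff (three_ne_zero) |>.mp ((mul_eq_zero.mp this).resolve_left h27)
        linear_combination this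
      refine order_eq_one hmd (hne τ) (by norm_num) hj (S := fun z => f z + 27) (a := 3)
        (analyticAt_of_mdiff (hmd.add mdifferentiable_const) τ) fun z => ?_
      rw [hj0, hτ, ← sub_eq_zero]
      linear_combination hrel z
    · have hτ : f τ ^ 2 - 486 * f τ - 19683 = 0 := by
        have h3 := hrel τ
        rw [hj0] at h3
        have h4 : (f τ ^ 2 - 486 * f τ - 19683) ^ 2 = 0 := by linear_combination h3
        exact pow_eq_zero_iff (two_ne_zero) |>.mp h4
      refine order_eq_one hmd (hne τ) (by norm_num) hj (S := fun z => (f z - (486 - f τ)) ^ 2)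
        (a := 3) (analyticAt_of_mdiff ((mdiff_sub_const hmd _).pow 2) τ) fun z => ?_
      rw [hj0, ← sub_eq_zero]
      have h5 : (f z - f τ) * (f z - (486 - f τ)) = f z ^ 2 - 486 * f z - 19683 := by
        linear_combination -hτ
      have h6 : (f z - f τ) ^ 2 * (f z - (486 - f τ)) ^ 2 = (f z ^ 2 - 486 * f z - 19683) ^ 2 := by
        rw [← mul_pow, h5]
      linear_combination h6 + hrel z

end Fermat.Agent.X1Key

end
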