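import Fermat.Agent.X1.KeyGlue

/-!
# Gluing residual sections and the approximation theorem
-/

set_option autoImplicit false

open Module

namespace Fermat.Agent.X1Key

variable {F κ : Type*} [Field F] [Field κ] {V : Subring F} {π : F} {red : V →+* κ}

/-- The two charts `S1 ∋ h`, `S2 ∋ h⁻¹` of the projective line and their reductions `T1`, `T2`. -/
structure Glue {F κ : Type*} [Field F] [Field κ] (V : Subring F) (π : F) (red : V →+* κ)
    (S1 S2 : Subring F) (T1 T2 : Subring κ) (h : F) : Prop where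
  vring : VRing V π red
  pi1 : π ∈ S1
  pi2 : π ∈ S2
  h1 : h ∈ S1
  h2 : h⁻¹ ∈ S2
  hred : rd red h ≠ 0
  le1 : S1 ≤ V
  le2 : S2 ≤ V
  red1 : ∀ s ∈ S1, rd red s ∈ T1
  red2 : ∀ s ∈ S2, rd red s ∈ T2
  S12 : ∀ s ∈ S1, ∃ N : ℕ, h⁻¹ ^ N * s ∈ S2
  S21 : ∀ s ∈ S2, ∃ N : ℕ, h ^ N * s ∈ S1
  const : ∀ s ∈ S2, ∃ c ∈ S1, ∃ s' ∈ S2, s = c + h⁻¹ * s'
  sat1 : ∀ z ∈ V, IsIntegral S1 (π * z) → IsIntegral S1 z
  sat2 : ∀ z ∈ V, IsIntegral S2 (π * z) → IsIntegral S2 z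
  noeth2 : IsNoetherianRing S2
  fin2 : ∃ N : Submodule S2 F, N.FG ∧ ∀ x, IsIntegral S2 x → x ∈ N
  alg2 : ∀ z : F, ∃ s : S2, s ≠ 0 ∧ IsIntegral S2 (s • z)

/-- elements integral over `S` are integral over `S'` after multiplication by a power of `u`
(if the elements of `S` are in `S'` after multiplication by a power of `u`) -/
lemma exists_pow_int {S S' : Subring F} {u : F} (hu : u ∈ S')
    (hS : ∀ s ∈ S, ∃ N : ℕ, u ^ N * s ∈ S') {x : F}
    (hx : IsIntegral S x) : ∃ N : ℕ, ∀ M, N ≤ M → IsIntegral S' (u ^ M * x) := by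
  obtain ⟨p, hp, hpx⟩ := hx
  choose N hN using fun i => hS (p.coeff i : F) (p.coeff i).2
  let K := ∑ i ∈ Finset.range p.natDegree, N i
  have hK : ∀ i ∈ Finset.range p.natDegree, N i ≤ K := fun i hi =>
    Finset.single_le_sum (f := N) (fun _ _ => Nat.zero_le _) hi
  refine ⟨K, fun M hM => ?_⟩
  let u' : S' := ⟨u, hu⟩
  let P : Polynomial S' := Polynomial.X ^ p.natDegree +
    ∑ i ∈ Finset.range p.natDegree,
      Polynomial.C (u' ^ (M * (p.natDegree - i) - N i) * ⟨_, hN i⟩) * Polynomial.X ^ i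
  have hPm : P.Monic := by
    apply Polynomial.monic_X_pow_add
    refine lt_of_le_of_lt (Polynomial.degree_sum_le _ _) ?_
    rw [Finset.sup_lt_iff (WithBot.bot_lt_coe _)]
    intro i hi
    refine lt_of_le_of_lt (Polynomial.degree_C_mul_X_pow_le _ _) ?_
    exact_mod_cast Finset.mem_range.mp hi
  refine ⟨P, hPm, ?_⟩
  have h0 : Polynomial.eval₂ (algebraMap S' F) (u ^ M * x) P =
      u ^ (M * p.natDegree) * Polynomial.eval₂ (algebraMap S F) x p := by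
    rw [Polynomial.eval₂_add, Polynomial.eval₂_pow, Polynomial.eval₂_X,
      Polynomial.eval₂_finsetSum, Polynomial.eval₂_eq_sum_range (p := p), Finset.sum_range_succ,
      hp.coeff_natDegree, map_one, one_mul, mul_add, Finset.mul_sum, mul_pow, ← pow_mul, add_comm]
    congr 1
    refine Finset.sum_congr rfl fun i hi => ?_
    have hi' := Finset.mem_range.mp hi
    rw [Polynomial.eval₂_mul, Polynomial.eval₂_C, Polynomial.eval₂_pow, Polynomial.eval₂_X, map_mul,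
      map_pow]
    have h1 : N i ≤ M * (p.natDegree - i) := by
      have h2 := hK i hi
      have h3 : 1 ≤ p.natDegree - i := by omega
      calc N i ≤ M := by omega
        _ = M * 1 := (mul_one _).symm
        _ ≤ _ := Nat.mul_le_mul_left _ h3
    have h4 : M * p.natDegree = (M * (p.natDegree - i) - N i) + N i + M * i := by
      have h5 : M * p.natDegree = M * (p.natDegree - i) + M * i := by
        rw [← Nat.mul_add]; congr 1; omega
      omega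
    rw [h4, pow_add, pow_add, mul_pow (u ^ M), ← pow_mul]
    have h6 : algebraMap S' F ⟨_, hN i⟩ = u ^ N i * algebraMap S F (p.coeff i) := rfl
    have h7 : algebraMap S' F u' = u := rfl
    rw [h6, h7]
    ring
  rw [h0, hpx, mul_zero]

namespace Glue

variable {S1 S2 : Subring F} {T1 T2 : Subring κ} {h : F} (G : Glue V π red S1 S2 T1 T2 h)

include G

lemma h_mem : h ∈ V := G.le1 G.h1

lemma h_ne : h ≠ 0 := VRing.ne_zero_of_red G.hred

lemma hinv_mem : h⁻¹ ∈ V := G.vring.inv_mem G.h_mem G.hred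

lemma hinv_pow_mul (k : ℕ) (z : F) : h⁻¹ ^ k * (h ^ k * z) = z := by
  rw [← mul_assoc, ← mul_pow, inv_mul_cancel₀ G.h_ne, one_pow, one_mul]

lemma h_pow_mul (k : ℕ) (z : F) : h ^ k * (h⁻¹ ^ k * z) = z := by
  rw [← mul_assoc, ← mul_pow, mul_inv_cancel₀ G.h_ne, one_pow, one_mul]

omit G in
lemma int_le_of_le {S : Subring F} (hV : VRing V π red) (hS : S ≤ V) {x : F}
    (hx : IsIntegral S x) : x ∈ V := by
  apply hV.mem_of_isIntegral
  obtain ⟨p, hp, hpx⟩ := hx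
  refine ⟨p.map (Subring.inclusion hS), hp.map _, ?_⟩
  rw [Polynomial.eval₂_map]
  exact hpx

lemma int1_le {x : F} (hx : IsIntegral S1 x) : x ∈ V := int_le_of_le G.vring G.le1 hx

lemma int2_le {x : F} (hx : IsIntegral S2 x) : x ∈ V := int_le_of_le G.vring G.le2 hx

omit G in
lemma isIntegral_rd {S : Subring F} {T : Subring κ} (hSV : S ≤ V) (hST : ∀ s ∈ S, rd red s ∈ T)
    {x : F} (hx : IsIntegral S x) (hxV : x ∈ V) : IsIntegral T (rd red x) := by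
  obtain ⟨p, hp, hpx⟩ := hx
  let f : S →+* T :=
    { toFun := fun s => ⟨rd red s, hST s s.2⟩
      map_one' := Subtype.ext (rd_one red)
      map_zero' := Subtype.ext (rd_zero red)
      map_mul' := fun a b => Subtype.ext (rd_mul red (hSV a.2) (hSV b.2))
      map_add' := fun a b => Subtype.ext (rd_add red (hSV a.2) (hSV b.2)) }
  refine ⟨p.map f, hp.map _, ?_⟩
  rw [Polynomial.eval₂_map, Polynomial.eval₂_eq_sum_range]
  rw [Polynomial.eval₂_eq_sum_range] at hpx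
  have h1 := congrArg (rd red) hpx
  rw [rd_zero, rd_sum] at h1
  · rw [← h1]
    refine Finset.sum_congr rfl fun i _ => ?_
    have h2 : algebraMap S F (p.coeff i) = ((p.coeff i : S) : F) := rfl
    rw [h2, rd_mul red (hSV (p.coeff i).2) (pow_mem hxV _), rd_pow red hxV]
    rfl
  · exact fun i _ => mul_mem (hSV (p.coeff i).2) (pow_mem hxV _)

lemma sat1_pow : ∀ k : ℕ, ∀ z ∈ V, π ^ k * z ∈ (icl S1 : Subring F) → z ∈ (icl S1 : Subring F) := by
  intro k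
  induction k with
  | zero => intro z _ hz; simpa using hz
  | succ k ih =>
    intro z hz hkz
    refine G.sat1 z hz (ih _ (mul_mem G.vring.mem hz) ?_)
    rw [← mul_assoc, ← pow_succ]; exact hkz

lemma sat2_pow : ∀ k : ℕ, ∀ z ∈ V, π ^ k * z ∈ (icl S2 : Subring F) → z ∈ (icl S2 : Subring F) := by
  intro k
  induction k with
  | zero => intro z _ hz; simpa using hz
  | succ k ih =>
    intro z hz hkz
    refine G.sat2 z hz (ih _ (mul_mem G.vring.mem hz) ?_)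
    rw [← mul_assoc, ← pow_succ]; exact hkz

/-- **Gluing.** -/
theorem glue_lift {n : ℕ} (hn : n ≠ 0) {y : F} (hyV : y ∈ V) (hy : rd red y = 1)
    (hl1 : ∀ a : κ, IsIntegral T1 a → ∃ x ∈ V, x ^ n * y ∈ (icl S1 : Subring F) ∧ rd red x = a)
    (hl2 : ∀ a : κ, IsIntegral T2 a → ∃ x ∈ V, x ^ n * y ∈ (icl S2 : Subring F) ∧ rd red x = a) :
    ∃ w₀ : ℕ, ∀ w, w₀ ≤ w → ∀ a : κ, IsIntegral T1 a → IsIntegral T2 (a * (rd red h⁻¹) ^ w) →
      ∃ x ∈ V, x ^ n * y ∈ (icl S1 : Subring F) ∧ (h⁻¹ ^ w * x) ^ n * y ∈ (icl S2 : Subring F) ∧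
        rd red x = a := by
  classical
  have hV := G.vring
  have hj0 := G.h_ne
  have hy0 : y ≠ 0 := VRing.ne_zero_of_red (red := red) (by rw [hy]; exact one_ne_zero)
  have hSa1 : ∀ s : S1, algebraMap S1 F s ∈ (icl S1 : Subring F) := fun s => isIntegral_algebraMap
  have hSa2 : ∀ s : S2, algebraMap S2 F s ∈ (icl S2 : Subring F) := fun s => isIntegral_algebraMap
  let I1 : Submodule S1 F := twist (icl S1) intClosed_icl hSa1 n hn y
  let I2 : Submodule S2 F := twist (icl S2) intClosed_icl hSa2 n hn y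
  have hvV : h⁻¹ ∈ V := G.hinv_mem
  have hvB2 : h⁻¹ ∈ (icl S2 : Subring F) := hSa2 ⟨_, G.h2⟩
  have hjB1 : h ∈ (icl S1 : Subring F) := hSa1 ⟨_, G.h1⟩
  -- finite generation of `I2`
  have hfg : I2.FG := by
    have := G.noeth2
    obtain ⟨s, hs, h1⟩ := G.alg2 y⁻¹
    obtain ⟨N, hN, hN'⟩ := G.fin2
    have hs0 : (s : F) ≠ 0 := fun h0 => hs (Subtype.ext h0)
    refine fg_of_mul_mem hN hs0 fun m hm => hN' _ ?_
    obtain ⟨k, rfl⟩ : ∃ k, n = k + 1 := ⟨n - 1, by omega⟩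
    have h2 : ((s : F) * m) ^ (k + 1) ∈ (icl S2 : Subring F) := by
      have : ((s : F) * m) ^ (k + 1) =
          (s : F) ^ k * (s • y⁻¹) * (m ^ (k + 1) * y) := by
        rw [Algebra.smul_def]
        show _ = (s : F) ^ k * ((s : F) * _) * _
        field_simp
        ring
      rw [this]
      exact mul_mem (mul_mem (pow_mem (hSa2 s) _) h1) hm
    exact intClosed_icl.of_pow hn h2
  obtain ⟨T, hT⟩ := hfg
  have hTI : ∀ c ∈ T, c ^ n * y ∈ (icl S2 : Subring F) := fun c hc => by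
    have : c ∈ I2 := hT ▸ Submodule.subset_span hc
    exact this
  -- `h^N c ∈ I1`
  have hN1 : ∀ c ∈ T, ∃ N : ℕ, ∀ M, N ≤ M → (h ^ M * c) ^ n * y ∈ (icl S1 : Subring F) := by
    intro c hc
    obtain ⟨N, hN⟩ := exists_pow_int G.h1 G.S21 (hTI c hc)
    refine ⟨N, fun M hM => ?_⟩
    have h1 : (h ^ M * c) ^ n * y = h ^ (M * n) * (c ^ n * y) := by
      rw [mul_pow, ← pow_mul]; ring
    rw [h1]
    exact hN _ (hM.trans (Nat.le_mul_of_pos_right _ (Nat.pos_of_ne_zero hn)))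
  choose! N₁ hN₁ using hN1
  let w₀ := ∑ c ∈ T, N₁ c
  have hw₀ : ∀ c ∈ T, N₁ c ≤ w₀ := fun c hc =>
    Finset.single_le_sum (f := N₁) (fun _ _ => Nat.zero_le _) hc
  have hgen : ∀ z ∈ I2, ∃ r : F → S2, z = ∑ c ∈ T, (r c : F) * c := by
    intro z hz
    rw [← hT, Submodule.mem_span_finset] at hz
    obtain ⟨r, -, hr⟩ := hz
    exact ⟨r, hr.symm⟩
  have hmem1 : ∀ c ∈ T, ∀ k, w₀ ≤ k → h ^ k * c ∈ I1 := fun c hc k hk =>
    hN₁ c hc _ ((hw₀ c hc).trans hk)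
  refine ⟨w₀, fun w hw a ha1 ha2 => ?_⟩
  -- decomposition
  have hdec : ∀ k : ℕ, ∀ z ∈ I2, ∃ z1 ∈ I1, ∃ z2 ∈ I2, h ^ (w + k) * z = z1 + h ^ w * z2 := by
    intro k
    induction k with
    | zero => intro z hz; exact ⟨0, zero_mem _, z, hz, by simp⟩
    | succ k ih =>
      intro z hz
      obtain ⟨r, hr⟩ := hgen z hz
      choose s hs r' hr' hsr using fun c => G.const (r c) (r c).2
      have hz' : ∑ c ∈ T, r' c * c ∈ I2 :=
        Submodule.sum_mem _ fun c hc => I2.smul_mem ⟨r' c, hr' c⟩ (hTI c hc)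
      obtain ⟨z1, hz1, z2, hz2, h12⟩ := ih _ hz'
      refine ⟨∑ c ∈ T, s c * (h ^ (w + (k + 1)) * c) + z1, ?_, z2, hz2, ?_⟩
      · refine add_mem (Submodule.sum_mem _ fun c hc => ?_) hz1
        exact I1.smul_mem ⟨s c, hs c⟩ (hmem1 c hc _ (by omega))
      · rw [add_assoc, ← h12, hr, Finset.mul_sum, Finset.mul_sum, ← Finset.sum_add_distrib]
        refine Finset.sum_congr rfl fun c _ => ?_
        rw [hsr c, ← add_assoc w k 1, pow_succ]
        field_simp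
  -- the two local lifts
  obtain ⟨x1, hx1V, hx1, hx1a⟩ := hl1 a ha1
  obtain ⟨x2, hx2V, hx2, hx2a⟩ := hl2 _ ha2
  have hjV := G.h_mem
  have hjw : h ^ w * x2 ∈ V := mul_mem (pow_mem hjV _) hx2V
  have hrd0 : rd red (x1 - h ^ w * x2) = 0 := by
    rw [rd_sub red hx1V hjw, hx1a, rd_mul red (pow_mem hjV _) hx2V, hx2a, ← rd_pow red hvV]
    have h1 : rd red (h ^ w) * (a * rd red (h⁻¹ ^ w)) = a := by
      have h2 : rd red (h ^ w) * rd red (h⁻¹ ^ w) = 1 := by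
        rw [← rd_mul red (pow_mem hjV _) (pow_mem hvV _), ← mul_pow, mul_inv_cancel₀ hj0, one_pow,
          rd_one]
      calc rd red (h ^ w) * (a * rd red (h⁻¹ ^ w)) = a * (rd red (h ^ w) * rd red (h⁻¹ ^ w)) := by ring
        _ = a := by rw [h2, mul_one]
    rw [h1, sub_self]
  obtain ⟨z, hzV, hz⟩ := hV.ker _ (sub_mem hx1V hjw) hrd0
  -- `v^N z ∈ I2`
  obtain ⟨N, hN⟩ := exists_pow_int G.h2 G.S12 hx1
  have hx1N : h⁻¹ ^ (w + N) * x1 ∈ I2 := by
    show (h⁻¹ ^ (w + N) * x1) ^ n * y ∈ (icl S2 : Subring F)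
    have h1 : (h⁻¹ ^ (w + N) * x1) ^ n * y = h⁻¹ ^ ((w + N) * n) * (x1 ^ n * y) := by
      rw [mul_pow, ← pow_mul]; ring
    rw [h1]
    refine hN _ ?_
    calc N ≤ w + N := by omega
      _ ≤ (w + N) * n := Nat.le_mul_of_pos_right _ (Nat.pos_of_ne_zero hn)
  have hx2N : h⁻¹ ^ (w + N) * (h ^ w * x2) ∈ I2 := by
    have h1 : h⁻¹ ^ (w + N) * (h ^ w * x2) = (⟨h⁻¹, G.h2⟩ : S2) ^ N • x2 := by
      rw [Algebra.smul_def]
      show _ = h⁻¹ ^ N * x2
      rw [add_comm, pow_add, mul_assoc, G.hinv_pow_mul]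
    rw [h1]
    exact I2.smul_mem _ hx2
  have hzN : h⁻¹ ^ (w + N) * z ∈ I2 := by
    have h1 : π * (h⁻¹ ^ (w + N) * z) ∈ I2 := by
      have : π * (h⁻¹ ^ (w + N) * z) = h⁻¹ ^ (w + N) * x1 - h⁻¹ ^ (w + N) * (h ^ w * x2) := by
        rw [← mul_sub, hz]; ring
      rw [this]
      exact sub_mem hx1N hx2N
    have h2 : (π * (h⁻¹ ^ (w + N) * z)) ^ n * y ∈ (icl S2 : Subring F) := h1
    show (h⁻¹ ^ (w + N) * z) ^ n * y ∈ (icl S2 : Subring F)
    refine G.sat2_pow n _ (mul_mem (pow_mem (mul_mem (pow_mem hvV _) hzV) _) hyV) ?_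
    rw [← mul_assoc, ← mul_pow]; exact h2
  obtain ⟨z1, hz1, z2, hz2, h12⟩ := hdec N _ hzN
  have hz' : z = z1 + h ^ w * z2 := by
    rw [← h12, G.h_pow_mul]
  have hVic : ∀ x : F, x ^ n ∈ V → x ∈ V := by
    intro x hx
    exact hV.mem_of_isIntegral (IsIntegral.of_pow (Nat.pos_of_ne_zero hn)
      (isIntegral_algebraMap (R := V) (A := F) (x := ⟨x ^ n, hx⟩)))
  have hyi : y⁻¹ ∈ V := hV.inv_mem hyV (by rw [hy]; exact one_ne_zero)
  have hz1V : z1 ∈ V := by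
    apply hVic
    have h1 : z1 ^ n = (z1 ^ n * y) * y⁻¹ := by field_simp
    rw [h1]
    exact mul_mem (G.int1_le hz1) hyi
  have hπ1 : π * z1 ∈ I1 := I1.smul_mem ⟨π, G.pi1⟩ hz1
  have hπ2 : π * z2 ∈ I2 := I2.smul_mem ⟨π, G.pi2⟩ hz2
  refine ⟨x1 - π * z1, sub_mem hx1V (mul_mem hV.mem hz1V), I1.sub_mem hx1 hπ1, ?_, ?_⟩
  · have h1 : h⁻¹ ^ w * (x1 - π * z1) = x2 + π * z2 := by
      have h2 : x1 - π * z1 = h ^ w * (x2 + π * z2) := by
        have h3 : x1 - h ^ w * x2 = π * (z1 + h ^ w * z2) := by rw [← hz', ← hz]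
        linear_combination h3
      rw [h2, G.hinv_pow_mul]
    rw [h1]
    exact I2.add_mem hx2 hπ2
  · rw [rd_sub red hx1V (mul_mem hV.mem hz1V), hV.red_pi_mul hz1V, sub_zero, hx1a]

/-- the approximation theorem -/
theorem exists_approx
    {n : ℕ} (hn : n ≠ 0) (hnκ : (n : κ) ≠ 0) (hp : ∃ p : ℕ, 0 < p ∧ (p : κ) = 0)
    {y₀ : F} (hyV : y₀ ∈ V) (hy : rd red y₀ = 1)
    (hl1 : ∀ a : κ, IsIntegral T1 a → ∃ x ∈ V, x ^ n * y₀⁻¹ ∈ (icl S1 : Subring F) ∧ rd red x = a)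
    (hl2 : ∀ a : κ, IsIntegral T2 a → ∃ x ∈ V, x ^ n * y₀⁻¹ ∈ (icl S2 : Subring F) ∧
      rd red x = a) :
    ∃ w : ℕ, ∀ i : ℕ, ∃ f ∈ V, f ^ n * y₀⁻¹ ∈ (icl S1 : Subring F) ∧
      (h⁻¹ ^ w * f) ^ n * y₀⁻¹ ∈ (icl S2 : Subring F) ∧ ∃ z ∈ V, f ^ n - y₀ = π ^ i * z := by
  classical
  have hV := G.vring
  have hj0 := G.h_ne
  have hy0 : y₀ ≠ 0 := VRing.ne_zero_of_red (red := red) (by rw [hy]; exact one_ne_zero)
  have hyi : y₀⁻¹ ∈ V := hV.inv_mem hyV (by rw [hy]; exact one_ne_zero)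
  have hyi1 : rd red y₀⁻¹ = 1 := by
    rw [hV.red_inv hyV (by rw [hy]; exact one_ne_zero), hy, inv_one]
  obtain ⟨w, hw⟩ := G.glue_lift hn hyi hyi1 hl1 hl2
  replace hw := hw w le_rfl
  have hSa1 : ∀ s : S1, algebraMap S1 F s ∈ (icl S1 : Subring F) := fun s => isIntegral_algebraMap
  have hSa2 : ∀ s : S2, algebraMap S2 F s ∈ (icl S2 : Subring F) := fun s => isIntegral_algebraMap
  have hvV : h⁻¹ ∈ V := G.hinv_mem
  have hvB2 : h⁻¹ ∈ (icl S2 : Subring F) := hSa2 ⟨_, G.h2⟩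
  have hjB1 : h ∈ (icl S1 : Subring F) := hSa1 ⟨_, G.h1⟩
  have hjV := G.h_mem
  let I1 : Submodule S1 F := twist (icl S1) intClosed_icl hSa1 n hn y₀⁻¹
  let I2 : Submodule S2 F := twist (icl S2) intClosed_icl hSa2 n hn y₀⁻¹
  have hπI1 : ∀ i : ℕ, ∀ x ∈ I1, π ^ i * x ∈ I1 := fun i x hx =>
    I1.smul_mem ((⟨π, G.pi1⟩ : S1) ^ i) hx
  have hπI2 : ∀ i : ℕ, ∀ x ∈ I2, π ^ i * x ∈ I2 := fun i x hx =>
    I2.smul_mem ((⟨π, G.pi2⟩ : S2) ^ i) hx
  have hvI2 : ∀ i : ℕ, ∀ x ∈ I2, h⁻¹ ^ i * x ∈ I2 := fun i x hx =>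
    I2.smul_mem ((⟨h⁻¹, G.h2⟩ : S2) ^ i) hx
  have hsatI1 : ∀ x ∈ V, π * x ∈ I1 → x ∈ I1 := by
    intro x hx h1
    have h2 : (π * x) ^ n * y₀⁻¹ ∈ (icl S1 : Subring F) := h1
    show x ^ n * y₀⁻¹ ∈ (icl S1 : Subring F)
    refine G.sat1_pow n _ (mul_mem (pow_mem hx _) hyi) ?_
    rw [← mul_assoc, ← mul_pow]; exact h2
  have hsatI2 : ∀ x ∈ V, π * x ∈ I2 → x ∈ I2 := by
    intro x hx h1
    have h2 : (π * x) ^ n * y₀⁻¹ ∈ (icl S2 : Subring F) := h1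
    show x ^ n * y₀⁻¹ ∈ (icl S2 : Subring F)
    refine G.sat2_pow n _ (mul_mem (pow_mem hx _) hyi) ?_
    rw [← mul_assoc, ← mul_pow]; exact h2
  have hrdx : ∀ x : V, red x = rd red (x : F) := fun x => (rd_coe red x).symm
  have hi1 : ∀ x : F, x ∈ (icl S1 : Subring F) → rd red x ∈ (icl T1 : Subring κ) := fun x hx =>
    isIntegral_rd G.le1 G.red1 hx (G.int1_le hx)
  have hi2 : ∀ x : F, x ∈ (icl S2 : Subring F) → rd red x ∈ (icl T2 : Subring κ) := fun x hx =>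
    isIntegral_rd G.le2 G.red2 hx (G.int2_le hx)
  have hi1' : ∀ x ∈ V, x ∈ I1 → rd red x ∈ (icl T1 : Subring κ) := by
    intro x hxV hx
    apply intClosed_icl.of_pow hn
    have h1 : rd red x ^ n = rd red (x ^ n * y₀⁻¹) := by
      rw [rd_mul red (pow_mem hxV _) hyi, hyi1, mul_one, rd_pow red hxV]
    rw [h1]
    exact hi1 _ hx
  have hi2' : ∀ x ∈ V, x ∈ I2 → rd red x ∈ (icl T2 : Subring κ) := by
    intro x hxV hx
    apply intClosed_icl.of_pow hn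
    have h1 : rd red x ^ n = rd red (x ^ n * y₀⁻¹) := by
      rw [rd_mul red (pow_mem hxV _) hyi, hyi1, mul_one, rd_pow red hxV]
    rw [h1]
    exact hi2 _ hx
  have hnB : ∀ B : Subring κ, ((n : κ))⁻¹ ∈ B := by
    intro B
    -- `κ` has positive characteristic
    obtain ⟨p, hp0, hp⟩ := hp
    obtain ⟨c, hc⟩ := CharP.exists κ
    have hc0 : c ≠ 0 := by
      rintro rfl
      have := (CharP.cast_eq_zero_iff κ 0 p).mp hp
      omega
    have hcp : c.Prime := by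
      rcases CharP.char_is_prime_or_zero κ c with h | h
      · exact h
      · exact absurd h hc0
    have hcop : Nat.Coprime n c := by
      rw [Nat.coprime_comm, hcp.coprime_iff_not_dvd]
      intro hd
      exact hnκ ((CharP.cast_eq_zero_iff κ c n).mpr hd)
    have h1 : ((n : κ)) ^ Nat.totient c = 1 := by
      have h2 := Nat.ModEq.pow_totient hcop
      have h3 := (CharP.natCast_eq_natCast (R := κ) c).mpr h2
      simpa using h3
    have h4 : 0 < Nat.totient c := Nat.totient_pos.mpr hcp.pos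
    have h5 : ((n : κ))⁻¹ = (n : κ) ^ (Nat.totient c - 1) := by
      apply inv_eq_of_mul_eq_one_right
      rw [← pow_succ', Nat.sub_add_cancel h4, h1]
    rw [h5]
    exact pow_mem (natCast_mem B n) _
  have hD : Fermat.Agent.RedInj.Datum (⟨π, hV.mem⟩ : V) red n (⟨y₀, hyV⟩ : V) (1 : κ)
      (⟨h ^ w, pow_mem hjV w⟩ : V)
      {x : V | (x : F) ∈ I1 ∧ h⁻¹ ^ w * (x : F) ∈ I2}
      {x : V | (x : F) ∈ (icl S1 : Subring F) ∧ h⁻¹ ^ (w * n) * (x : F) ∈ (icl S2 : Subring F)}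
      {x : V | (x : F) ∈ I1 ∧ h⁻¹ ^ (2 * w) * (x : F) ∈ I2}
      (icl T1) (icl T2) := by
    have hredX : red (⟨h ^ w, pow_mem hjV w⟩ : V) = rd red h ^ w := by
      rw [hrdx, ← rd_pow red hjV]
    have hredXi : (red (⟨h ^ w, pow_mem hjV w⟩ : V))⁻¹ = rd red h⁻¹ ^ w := by
      rw [hredX, hV.red_inv hjV G.hred, inv_pow]
    refine
      { pi_ne := fun h => hV.ne (congrArg Subtype.val h)
        red_pi := by rw [hrdx]; exact hV.red_pi
        ker := ?_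
        surj := hV.surj
        m_ne := hnκ
        hb_ne := one_ne_zero
        red_G := by rw [hrdx, one_pow]; exact hy
        red_X := by rw [hredX]; exact pow_ne_zero _ G.hred
        MD_sub := ?_
        MD_pow := ?_
        one_mem := ⟨one_mem _, by
          show h⁻¹ ^ (w * n) * 1 ∈ (icl S2 : Subring F)
          rw [mul_one]; exact pow_mem hvB2 _⟩
        X_mem := ⟨by
          show ((⟨h ^ w, pow_mem hjV w⟩ : V) ^ n : V).1 ∈ (icl S1 : Subring F)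
          exact pow_mem (pow_mem hjB1 _) _, by
          show h⁻¹ ^ (w * n) * ((h ^ w) ^ n) ∈ (icl S2 : Subring F)
          rw [← pow_mul, ← mul_pow, inv_mul_cancel₀ hj0, one_pow]; exact one_mem _⟩
        Mm_sub := ?_
        Mm_sat := ?_
        M2_mem := ?_
        M2_sat := ?_
        X_Bf := by
          rw [hredX]
          exact pow_mem (hi1 _ hjB1) _
        X_Bi := by
          rw [hredXi]
          exact pow_mem (hi2 _ hvB2) _
        m_Bf := hnB _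
        m_Bi := hnB _
        Mm_Bf := ?_
        Mm_Bi := ?_
        M2_Bf := ?_
        M2_Bi := ?_
        MD_surj := ?_ }
    · intro x hx
      obtain ⟨z, hz, hz'⟩ := hV.ker x x.2 (by rw [← hrdx]; exact hx)
      exact ⟨⟨z, hz⟩, Subtype.ext hz'⟩
    · rintro f ⟨hf1, hf2⟩ s ⟨hs1, hs2⟩ c ⟨i, rfl⟩
      refine ⟨I1.sub_mem hf1 (hπI1 i _ hs1), ?_⟩
      have h1 : h⁻¹ ^ w * ((f - (⟨π, hV.mem⟩ : V) ^ i * s : V) : F) =
          h⁻¹ ^ w * (f : F) - π ^ i * (h⁻¹ ^ w * (s : F)) := by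
        show h⁻¹ ^ w * ((f : F) - π ^ i * (s : F)) = _
        ring
      rw [h1]
      exact I2.sub_mem hf2 (hπI2 i _ hs2)
    · rintro f ⟨hf1, hf2⟩
      refine ⟨⟨(f : F) ^ n * y₀⁻¹, mul_mem (pow_mem f.2 _) hyi⟩, ⟨hf1, ?_⟩, ?_⟩
      · have h1 : (h⁻¹ ^ w * (f : F)) ^ n * y₀⁻¹ ∈ (icl S2 : Subring F) := hf2
        show h⁻¹ ^ (w * n) * ((f : F) ^ n * y₀⁻¹) ∈ (icl S2 : Subring F)
        rwa [mul_pow, ← pow_mul, mul_assoc] at h1
      · apply Subtype.ext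
        show (f : F) ^ n = y₀ * ((f : F) ^ n * y₀⁻¹)
        field_simp
    · rintro x ⟨hx1, hx2⟩ z ⟨hz1, hz2⟩
      refine ⟨sub_mem hx1 hz1, ?_⟩
      show h⁻¹ ^ (w * n) * ((x : F) - (z : F)) ∈ (icl S2 : Subring F)
      rw [mul_sub]; exact sub_mem hx2 hz2
    · rintro x ⟨hx1, hx2⟩
      refine ⟨G.sat1 _ x.2 hx1, G.sat2 _ (mul_mem (pow_mem hvV _) x.2) ?_⟩
      have h1 : π * (h⁻¹ ^ (w * n) * (x : F)) = h⁻¹ ^ (w * n) * (π * (x : F)) := by ring
      show π * (h⁻¹ ^ (w * n) * (x : F)) ∈ (icl S2 : Subring F)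
      rw [h1]; exact hx2
    · rintro f ⟨hf1, hf2⟩ g ⟨hg1, hg2⟩
      refine ⟨I1.sub_mem ?_ hg1, ?_⟩
      · show (h ^ w * (f : F)) ^ n * y₀⁻¹ ∈ (icl S1 : Subring F)
        rw [mul_pow, mul_assoc]
        exact mul_mem (pow_mem (pow_mem hjB1 _) _) hf1
      · have h1 : h⁻¹ ^ (2 * w) * (((⟨h ^ w, pow_mem hjV w⟩ : V) * f - g : V) : F) =
            h⁻¹ ^ w * (f : F) - h⁻¹ ^ w * (h⁻¹ ^ w * (g : F)) := by
          show h⁻¹ ^ (2 * w) * (h ^ w * (f : F) - (g : F)) = _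
          rw [two_mul, pow_add, mul_assoc, mul_sub, mul_sub, G.hinv_pow_mul]
        rw [h1]
        exact I2.sub_mem hf2 (hvI2 _ _ hg2)
    · rintro x ⟨hx1, hx2⟩
      refine ⟨hsatI1 _ x.2 hx1, hsatI2 _ (mul_mem (pow_mem hvV _) x.2) ?_⟩
      have h1 : π * (h⁻¹ ^ (2 * w) * (x : F)) = h⁻¹ ^ (2 * w) * (π * (x : F)) := by ring
      rw [h1]; exact hx2
    · rintro x ⟨hx1, hx2⟩
      rw [hrdx]; exact hi1 _ hx1
    · rintro x ⟨hx1, hx2⟩
      rw [hredXi, hrdx, ← pow_mul, ← rd_pow red hvV, ← rd_mul red x.2 (pow_mem hvV _), mul_comm]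
      exact hi2 _ hx2
    · rintro x ⟨hx1, hx2⟩
      rw [inv_one, mul_one, hrdx]
      exact hi1' _ x.2 hx1
    · rintro x ⟨hx1, hx2⟩
      rw [inv_one, mul_one, hredXi, hrdx, ← pow_mul, ← rd_pow red hvV,
        ← rd_mul red x.2 (pow_mem hvV _), mul_comm, mul_comm w 2]
      exact hi2' _ (mul_mem (pow_mem hvV _) x.2) hx2
    · intro a ha1 ha2
      rw [hredXi] at ha2
      obtain ⟨x, hxV, hx1, hx2, hxa⟩ := hw a ha1 ha2
      exact ⟨⟨x, hxV⟩, ⟨hx1, hx2⟩, by rw [one_mul, hrdx]; exact hxa⟩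
  refine ⟨w, fun i => ?_⟩
  obtain ⟨f, ⟨hf1, hf2⟩, z, hz⟩ := hD.exists_pow_congr i
  exact ⟨f, f.2, hf1, hf2, z, z.2, congrArg Subtype.val hz⟩

end Glue

end Fermat.Agent.X1Key
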