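import Fermat.Agent.X1.KeyGlue

/-!
# Tame trace duality in characteristic zero
-/

set_option autoImplicit false

open Module

namespace Fermat.Agent.X1Key

section Newton

variable {Ω ι : Type*} [CommRing Ω] [Fintype ι]

/-- If the power sums of positive degree lie in `J`, so do the elementary symmetric functions. -/
lemma esymm_mem_of_psum (x : ι → Ω) (S : Subring Ω) (J : AddSubgroup Ω)
    (hJS : ∀ a ∈ J, a ∈ S) (hSJ : ∀ s ∈ S, ∀ a ∈ J, s * a ∈ J)
    (hinv : ∀ k : ℕ, k ≠ 0 → ∃ c ∈ S, c * (k : Ω) = 1)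
    (hp : ∀ k : ℕ, k ≠ 0 → ∑ i, x i ^ k ∈ J) (k : ℕ) (hk : k ≠ 0) :
    MvPolynomial.aeval x (MvPolynomial.esymm ι ℤ k) ∈ J := by
  classical
  induction k using Nat.strong_induction_on with
  | _ k ih =>
    obtain ⟨c, hc, hck⟩ := hinv k hk
    have h1 := congrArg (MvPolynomial.aeval x) (MvPolynomial.mul_esymm_eq_sum ι ℤ k)
    rw [map_mul, map_natCast] at h1
    have h2 : MvPolynomial.aeval x (MvPolynomial.esymm ι ℤ k) =
        c * ((k : Ω) * MvPolynomial.aeval x (MvPolynomial.esymm ι ℤ k)) := by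
      rw [← mul_assoc, hck, one_mul]
    rw [h2, h1]
    apply hSJ c hc
    rw [map_mul, map_pow, map_neg, map_one, map_sum]
    apply hSJ _ (pow_mem (neg_mem (one_mem S)) _)
    refine AddSubgroup.sum_mem _ fun a ha => ?_
    rw [Finset.mem_filter, Finset.HasAntidiagonal.mem_antidiagonal] at ha
    rw [map_mul, map_mul, map_pow, map_neg, map_one]
    have hes : MvPolynomial.aeval x (MvPolynomial.esymm ι ℤ a.1) ∈ S := by
      by_cases ha1 : a.1 = 0
      · rw [ha1, MvPolynomial.esymm_zero, map_one]; exact one_mem S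
      · exact hJS _ (ih a.1 ha.2 ha1)
    have hps : MvPolynomial.aeval x (MvPolynomial.psum ι ℤ a.2) ∈ J := by
      have := hp a.2 (by omega)
      rw [MvPolynomial.psum, map_sum]
      simpa using this
    exact hSJ _ (mul_mem (pow_mem (neg_mem (one_mem S)) _) hes) _ hps

/-- The relation satisfied by each `x i`. -/
lemma pow_card_eq (x : ι → Ω) (i₀ : ι) :
    ∑ j ∈ Finset.range (Fintype.card ι + 1),
      MvPolynomial.aeval (fun i => - x i) (MvPolynomial.esymm ι ℤ j) *
        x i₀ ^ (Fintype.card ι - j) = 0 := by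
  classical
  have h1 := congrArg (Polynomial.map (MvPolynomial.aeval (fun i => - x i) :
    MvPolynomial ι ℤ →ₐ[ℤ] Ω).toRingHom) (MvPolynomial.prod_C_add_X_eq_sum_esymm ℤ ι)
  have h2 := congrArg (Polynomial.eval (x i₀)) h1
  rw [Polynomial.map_prod, Polynomial.eval_prod, Polynomial.map_sum, Polynomial.eval_finsetSum] at h2
  rw [Finset.prod_eq_zero (Finset.mem_univ i₀)] at h2
  · rw [h2]
    refine Finset.sum_congr rfl fun j _ => ?_
    rw [Polynomial.map_mul, Polynomial.map_C, Polynomial.map_pow, Polynomial.map_X,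
      Polynomial.eval_mul, Polynomial.eval_C, Polynomial.eval_pow, Polynomial.eval_X]
    rfl
  · rw [Polynomial.map_add, Polynomial.map_X, Polynomial.map_C, Polynomial.eval_add,
      Polynomial.eval_X, Polynomial.eval_C]
    simp

lemma pow_card_mem (x : ι → Ω) (i₀ : ι) (S : Subring Ω) (J : AddSubgroup Ω)
    (hJS : ∀ a ∈ J, a ∈ S) (hSJ : ∀ s ∈ S, ∀ a ∈ J, s * a ∈ J)
    (hinv : ∀ k : ℕ, k ≠ 0 → ∃ c ∈ S, c * (k : Ω) = 1)
    (hp : ∀ k : ℕ, k ≠ 0 → ∑ i, (-x i) ^ k ∈ J) :
    ∃ (d : ℕ) (c : ℕ → Ω), (∀ j, c j ∈ J) ∧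
      x i₀ ^ d = - ∑ j ∈ Finset.range d, c j * x i₀ ^ (d - (j + 1)) := by
  have hes := esymm_mem_of_psum (fun i => - x i) S J hJS hSJ hinv hp
  have hrel := pow_card_eq x i₀
  rw [Finset.sum_range_succ', MvPolynomial.esymm_zero, map_one, one_mul, Nat.sub_zero] at hrel
  refine ⟨Fintype.card ι, fun j => MvPolynomial.aeval (fun i => - x i) (MvPolynomial.esymm ι ℤ (j + 1)),
    fun j => hes (j + 1) (by omega), ?_⟩
  rw [eq_neg_iff_add_eq_zero, add_comm]
  exact hrel

end Newton

section Dual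

variable {R : Type*} (E : Type*) {F : Type*} [CommRing R] [Field E] [Algebra R E]
  [IsFractionRing R E] [Field F] [Algebra E F] [Algebra R F] [IsScalarTower R E F]
  [FiniteDimensional E F] [Algebra.IsSeparable E F]

/-- If all traces `tr (s c)` are divisible by `ϖ` then `s ^ N` is divisible by `ϖ`. -/
lemma pow_mem_of_trace (hchar : ∀ k : ℕ, k ≠ 0 → IsUnit (k : R)) {s : F} (hs : IsIntegral R s)
    (ϖ : R)
    (htr : ∀ c : F, IsIntegral R c →
      ∃ r : R, Algebra.trace E F (s * c) = algebraMap R E (ϖ * r)) :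
    ∃ (N : ℕ) (b : F), IsIntegral R b ∧ s ^ N = algebraMap R F ϖ * b := by
  classical
  let Ω := AlgebraicClosure F
  let ι := F →ₐ[E] Ω
  have : Nonempty ι := ⟨IsScalarTower.toAlgHom E F Ω⟩
  let σ₀ : ι := IsScalarTower.toAlgHom E F Ω
  let S : Subring Ω := (algebraMap R Ω).range
  let J : AddSubgroup Ω :=
    { carrier := {a | ∃ r : R, a = algebraMap R Ω (ϖ * r)}
      add_mem' := by
        rintro _ _ ⟨r, rfl⟩ ⟨r', rfl⟩
        exact ⟨r + r', by rw [mul_add, map_add]⟩
      zero_mem' := ⟨0, by rw [mul_zero, map_zero]⟩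
      neg_mem' := by
        rintro _ ⟨r, rfl⟩
        exact ⟨-r, by rw [mul_neg, map_neg]⟩ }
  have hJS : ∀ a ∈ J, a ∈ S := by
    rintro _ ⟨r, rfl⟩
    exact ⟨_, rfl⟩
  have hSJ : ∀ s ∈ S, ∀ a ∈ J, s * a ∈ J := by
    rintro _ ⟨r, rfl⟩ _ ⟨r', rfl⟩
    exact ⟨r * r', by rw [← map_mul]; congr 1; ring⟩
  have hinv : ∀ k : ℕ, k ≠ 0 → ∃ c ∈ S, c * (k : Ω) = 1 := by
    intro k hk
    obtain ⟨u, hu⟩ := hchar k hk
    refine ⟨algebraMap R Ω ((u⁻¹ : Rˣ) : R), ⟨_, rfl⟩, ?_⟩
    rw [← map_natCast (algebraMap R Ω), ← map_mul, ← hu, Units.inv_mul, map_one]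
  have hps : ∀ k : ℕ, k ≠ 0 → ∑ σ : ι, (-(σ s)) ^ k ∈ J := by
    intro k hk
    obtain ⟨r, hr⟩ := htr (s ^ (k - 1)) (hs.pow _)
    have h1 : s * s ^ (k - 1) = s ^ k := by rw [← pow_succ', Nat.sub_add_cancel (by omega)]
    rw [h1] at hr
    have h2 : ∑ σ : ι, (-(σ s)) ^ k = (-1) ^ k * algebraMap R Ω (ϖ * r) := by
      rw [IsScalarTower.algebraMap_apply R E Ω, ← hr, trace_eq_sum_embeddings Ω, Finset.mul_sum]
      refine Finset.sum_congr rfl fun σ _ => ?_
      rw [neg_pow, map_pow]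
    rw [h2]
    refine hSJ _ ⟨(-1) ^ k, by rw [map_pow, map_neg, map_one]⟩ _ ⟨r, rfl⟩
  obtain ⟨d, c, hc, hrel⟩ := pow_card_mem (fun σ : ι => σ s) σ₀ S J hJS hSJ hinv hps
  choose r hr using hc
  -- the quotient
  let b : F := - ∑ j ∈ Finset.range d, algebraMap R F (r j) * s ^ (d - (j + 1))
  refine ⟨d, b, ?_, ?_⟩
  · refine IsIntegral.neg (IsIntegral.sum _ fun j _ => ?_)
    exact isIntegral_algebraMap.mul (hs.pow _)
  · apply (algebraMap F Ω).injective
    have h2 : ∀ a : R, algebraMap F Ω (algebraMap R F a) = algebraMap R Ω a := fun a => by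
      rw [← IsScalarTower.algebraMap_apply]
    have hrel' : algebraMap F Ω s ^ d =
        - ∑ j ∈ Finset.range d, c j * algebraMap F Ω s ^ (d - (j + 1)) := hrel
    rw [map_pow, hrel', map_mul, h2, map_neg, map_sum, mul_neg, Finset.mul_sum]
    congr 1
    refine Finset.sum_congr rfl fun j _ => ?_
    rw [map_mul, h2, map_pow, hr, map_mul, mul_assoc]

variable [IsDedekindDomain R]

include E in
/-- In the integral closure every fractional ideal `(1, f)` is invertible. -/
lemma exists_partition (f : F) : ∃ s s' : F, IsIntegral R s ∧ IsIntegral R s' ∧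
    IsIntegral R (s * f) ∧ IsIntegral R (s' * f) ∧ s + s' * f = 1 := by
  have hB : IsDedekindDomain (integralClosure R F) := integralClosure.isDedekindDomain R E F
  have hfr : IsFractionRing (integralClosure R F) F :=
    integralClosure.isFractionRing_of_finite_extension (A := R) E F
  let B := integralClosure R F
  have hmem1 : ∀ x : F, x ∈ (1 : FractionalIdeal (nonZeroDivisors B) F) ↔ IsIntegral R x := by
    intro x
    rw [FractionalIdeal.mem_one_iff]
    constructor
    · rintro ⟨b, rfl⟩; exact b.2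
    · intro hx; exact ⟨⟨x, hx⟩, rfl⟩
  let J : FractionalIdeal (nonZeroDivisors B) F :=
    FractionalIdeal.spanSingleton _ 1 + FractionalIdeal.spanSingleton _ f
  have h1J : (1 : F) ∈ J :=
    (FractionalIdeal.mem_add _ _ _).mpr ⟨1, FractionalIdeal.mem_spanSingleton_self _ _, 0,
      FractionalIdeal.zero_mem _, add_zero _⟩
  have hfJ : f ∈ J :=
    (FractionalIdeal.mem_add _ _ _).mpr ⟨0, FractionalIdeal.zero_mem _, f,
      FractionalIdeal.mem_spanSingleton_self _ _, zero_add _⟩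
  have hJ0 : J ≠ 0 := by
    intro h0
    rw [h0, FractionalIdeal.mem_zero_iff] at h1J
    exact one_ne_zero h1J
  have h1 : (1 : F) ∈ J * J⁻¹ := by
    rw [mul_inv_cancel₀ hJ0]
    exact (hmem1 1).mpr isIntegral_one
  rw [add_mul, FractionalIdeal.mem_add] at h1
  obtain ⟨a, ha, b, hb, hab⟩ := h1
  rw [FractionalIdeal.mem_singleton_mul] at ha hb
  obtain ⟨s, hs, rfl⟩ := ha
  obtain ⟨s', hs', rfl⟩ := hb
  rw [FractionalIdeal.mem_inv_iff hJ0] at hs hs'
  refine ⟨s, s', ?_, ?_, (hmem1 _).mp (hs f hfJ), (hmem1 _).mp (hs' f hfJ), ?_⟩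
  · have := (hmem1 _).mp (hs 1 h1J); rwa [mul_one] at this
  · have := (hmem1 _).mp (hs' 1 h1J); rwa [mul_one] at this
  · rw [← hab]; ring

variable {Γ₀ : Type*} [LinearOrderedCommGroupWithZero Γ₀]

include E in
/-- elements of the valuation ring have a denominator which is a unit -/
lemma exists_denom (val : Valuation F Γ₀) (hval : ∀ x : F, IsIntegral R x → val x ≤ 1) {f : F}
    (hf : val f ≤ 1) : ∃ s : F, IsIntegral R s ∧ val s = 1 ∧ IsIntegral R (s * f) := by
  obtain ⟨s, s', hs, hs', hsf, hsf', h1⟩ := exists_partition (R := R) E f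
  by_cases h : val s = 1
  · exact ⟨s, hs, h, hsf⟩
  by_cases h' : val s' = 1
  · exact ⟨s', hs', h', hsf'⟩
  exfalso
  have h2 : val s < 1 := lt_of_le_of_ne (hval s hs) h
  have h3 : val (s' * f) < 1 := by
    rw [map_mul]
    exact mul_lt_one_of_lt_of_le (lt_of_le_of_ne (hval s' hs') h') hf
  have h4 := val.map_add_lt h2 h3
  rw [h1, map_one] at h4
  exact lt_irrefl _ h4

/-- **Core of the tame duality.** -/
lemma core (hchar : ∀ k : ℕ, k ≠ 0 → IsUnit (k : R)) (val : Valuation F Γ₀)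
    (hval : ∀ x : F, IsIntegral R x → val x ≤ 1) (ϖ : R) (hϖ0 : ϖ ≠ 0)
    (hϖ : val (algebraMap R F ϖ) < 1) {z : F}
    (hz : ∀ b : F, IsIntegral R b → ∃ r : R, Algebra.trace E F (z * b) = algebraMap R E r) :
    val (algebraMap R F ϖ * z) < 1 := by
  have hinj : Function.Injective (algebraMap R F) := by
    rw [IsScalarTower.algebraMap_eq R E F]
    exact (algebraMap E F).injective.comp (IsFractionRing.injective R E)
  have hϖF : algebraMap R F ϖ ≠ 0 := fun h0 => hϖ0 (hinj (by rw [h0, map_zero]))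
  by_contra hcon
  push Not at hcon
  have hz0 : algebraMap R F ϖ * z ≠ 0 := by
    intro h0
    rw [h0, map_zero] at hcon
    exact absurd hcon (not_le.mpr zero_lt_one)
  have h1 : val (algebraMap R F ϖ * z)⁻¹ ≤ 1 := by
    rw [map_inv₀]
    exact inv_le_one_of_one_le₀ hcon
  obtain ⟨s, hs, hs1, hb⟩ := exists_denom (R := R) E val hval h1
  set b := s * (algebraMap R F ϖ * z)⁻¹ with hbdef
  have hs' : s = algebraMap R F ϖ * (z * b) := by
    rw [hbdef, ← mul_assoc, mul_left_comm, mul_inv_cancel₀ hz0, mul_one]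
  obtain ⟨N, c, hc, hN⟩ := pow_mem_of_trace E hchar hs ϖ fun c hc => by
    obtain ⟨r, hr⟩ := hz (b * c) (hb.mul hc)
    refine ⟨r, ?_⟩
    have h2 : s * c = algebraMap R E ϖ • (z * (b * c)) := by
      rw [Algebra.smul_def, ← IsScalarTower.algebraMap_apply]
      calc s * c = algebraMap R F ϖ * (z * b) * c := by rw [← hs']
        _ = _ := by ring
    rw [h2, map_smul, hr, smul_eq_mul, map_mul]
  have h3 : val (s ^ N) < 1 := by
    rw [hN, map_mul]
    exact mul_lt_one_of_lt_of_le hϖ (hval c hc)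
  rw [map_pow, hs1, one_pow] at h3
  exact lt_irrefl _ h3

include E in
omit [FiniteDimensional E F] [Algebra.IsSeparable E F] [IsDedekindDomain R] in
lemma injRF : Function.Injective (algebraMap R F) := by
  rw [IsScalarTower.algebraMap_eq R E F]
  exact (algebraMap E F).injective.comp (IsFractionRing.injective R E)

/-- Duality at an unramified place where the special element `w` is a unit. -/
theorem dual_at (hchar : ∀ k : ℕ, k ≠ 0 → IsUnit (k : R)) (val : Valuation F Γ₀)
    (hval : ∀ x : F, IsIntegral R x → val x ≤ 1) {ϖ : R} (hϖ0 : ϖ ≠ 0)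
    (hϖ : val (algebraMap R F ϖ) < 1) (hdisc : ∀ x : F, val (algebraMap R F ϖ * x) < 1 → val x ≤ 1)
    {w : R} (hw : val (algebraMap R F w) = 1) {n : ℕ} (hn : n ≠ 0) {y : F}
    {a : ℤ} (hy : val y = (val (algebraMap R F ϖ) ^ a) ^ n) {x : F}
    (hx : ∀ m, RadMem (icl R : Subring F) (algebraMap R F w)
        ((algebraMap R F w * m) ^ n * y⁻¹) →
      ∃ r : R, Algebra.trace E F (x * m) = algebraMap R E r) : val (x ^ n * y) ≤ 1 := by
  have hinj : Function.Injective (algebraMap R F) := injRF E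
  have hϖF : algebraMap R F ϖ ≠ 0 := fun h0 => hϖ0 (hinj (by rw [h0, map_zero]))
  have hϖv : val (algebraMap R F ϖ) ≠ 0 := (Valuation.ne_zero_iff _).mpr hϖF
  set P := algebraMap R F ϖ with hP
  set W := algebraMap R F w with hW
  have hWB : W ∈ (icl R : Subring F) := isIntegral_algebraMap
  have hu : val ((W * P ^ a) ^ n * y⁻¹) ≤ 1 := by
    rw [map_mul, map_pow, map_mul, hw, one_mul, map_zpow₀, map_inv₀, hy,
      mul_inv_cancel₀ (pow_ne_zero _ (zpow_ne_zero _ hϖv))]
  obtain ⟨s, hs, hs1, hsu⟩ := exists_denom (R := R) E val hval hu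
  obtain ⟨k, rfl⟩ : ∃ k, n = k + 1 := ⟨n - 1, by omega⟩
  set m := P ^ a * s * W with hm
  have hg : (W * m) ^ (k + 1) * y⁻¹ =
      W * (W ^ k * s ^ k * (s * ((W * P ^ a) ^ (k + 1) * y⁻¹))) := by
    rw [hm]; ring
  have hrad : RadMem (icl R : Subring F) W ((W * m) ^ (k + 1) * y⁻¹) := by
    have h1 : W ^ k * s ^ k * (s * ((W * P ^ a) ^ (k + 1) * y⁻¹)) ∈ (icl R : Subring F) :=
      mul_mem (mul_mem (pow_mem hWB _) (pow_mem hs _)) hsu
    refine ⟨?_, 1, _, h1, by rw [pow_one, hg]⟩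
    rw [hg]
    exact mul_mem hWB h1
  have hz : ∀ b : F, IsIntegral R b →
      ∃ r : R, Algebra.trace E F (x * m * b) = algebraMap R E r := by
    intro b hb
    rw [mul_assoc]
    apply hx
    have h1 : (W * (m * b)) ^ (k + 1) * y⁻¹ = ((W * m) ^ (k + 1) * y⁻¹) * b ^ (k + 1) := by ring
    rw [h1]
    exact hrad.mul_right (pow_mem hb _)
  have h2 := hdisc _ (core E hchar val hval ϖ hϖ0 hϖ hz)
  rw [hm, map_mul, map_mul, map_mul, hs1, mul_one, hw, mul_one] at h2
  rw [map_mul, map_pow, hy, ← mul_pow]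
  refine pow_le_one₀ zero_le ?_
  rwa [map_zpow₀] at h2

section Cusp

open IsDedekindDomain WithZero

variable [IsDedekindDomain (integralClosure R F)] [IsFractionRing (integralClosure R F) F]

omit [IsDedekindDomain R] in
/-- elements of all primes containing `w` -/
lemma radMem_of_forall {w : R} (hw0 : algebraMap R F w ≠ 0) {g : F} (hg : IsIntegral R g)
    (h : ∀ Q : HeightOneSpectrum (integralClosure R F),
      algebraMap R (integralClosure R F) w ∈ Q.asIdeal → (⟨g, hg⟩ : integralClosure R F) ∈ Q.asIdeal) :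
    RadMem (icl R : Subring F) (algebraMap R F w) g := by
  have hw1 : algebraMap R (integralClosure R F) w ≠ 0 := fun h0 => hw0 (by
    rw [IsScalarTower.algebraMap_apply R (integralClosure R F) F, h0, map_zero])
  have h1 : (⟨g, hg⟩ : integralClosure R F) ∈
      (Ideal.span {algebraMap R (integralClosure R F) w}).radical := by
    rw [Ideal.radical_eq_sInf, Ideal.mem_sInf]
    rintro J ⟨hJ, hJp⟩
    have hwJ : algebraMap R (integralClosure R F) w ∈ J := hJ (Ideal.mem_span_singleton_self _)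
    exact h ⟨J, hJp, fun h0 => hw1 (by rw [h0] at hwJ; exact hwJ)⟩ hwJ
  obtain ⟨N, hN⟩ := h1
  obtain ⟨b, hb⟩ := Ideal.mem_span_singleton'.mp hN
  refine ⟨hg, N, b, b.2, ?_⟩
  have h2 := congrArg (algebraMap (integralClosure R F) F) hb
  rw [map_mul, map_pow, ← IsScalarTower.algebraMap_apply] at h2
  rw [mul_comm]
  exact h2.symm

/-- Duality at the primes containing the special element `w`. -/
theorem dual_cusp (hchar : ∀ k : ℕ, k ≠ 0 → IsUnit (k : R))
    (Q : HeightOneSpectrum (integralClosure R F)) {w : R} (hw0 : w ≠ 0)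
    (hw : algebraMap R (integralClosure R F) w ∈ Q.asIdeal)
    {n : ℕ} (hn : n ≠ 0) {y : F} (hy0 : y ≠ 0) {x : F}
    (hx : ∀ m, RadMem (icl R : Subring F) (algebraMap R F w)
        ((algebraMap R F w * m) ^ n * y⁻¹) →
      ∃ r : R, Algebra.trace E F (x * m) = algebraMap R E r) :
    Q.valuation F (x ^ n * y) ≤ 1 := by
  classical
  have hinj : Function.Injective (algebraMap R F) := injRF E
  have hwF : algebraMap R F w ≠ 0 := fun h0 => hw0 (hinj (by rw [h0, map_zero]))
  have hw1 : algebraMap R (integralClosure R F) w ≠ 0 := fun h0 => hwF (by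
    rw [IsScalarTower.algebraMap_apply R (integralClosure R F) F, h0, map_zero])
  have hval : ∀ x : F, IsIntegral R x → Q.valuation F x ≤ 1 := fun x hx =>
    Q.valuation_le_one (⟨x, hx⟩ : integralClosure R F)
  by_cases hx0 : x = 0
  · rw [hx0, zero_pow hn, zero_mul, map_zero]; exact zero_le_one
  obtain ⟨ρ, hρ⟩ := Q.valuation_exists_uniformizer F
  have hρ0 : ρ ≠ 0 := by
    rintro rfl
    rw [map_zero] at hρ
    exact exp_ne_zero hρ.symm
  set val := Q.valuation F with hvaldef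
  set W := algebraMap R F w with hW
  have hlog : ∀ z : F, z ≠ 0 → val z = exp (log (val z)) := fun z hz =>
    (exp_log ((Valuation.ne_zero_iff _).mpr hz)).symm
  set e : ℤ := log (val W) with he
  set r : ℤ := log (val y) with hr
  set t : ℤ := log (val x) with ht
  have hWe : val W = exp e := hlog _ hwF
  have hyr : val y = exp r := hlog _ hy0
  have hxt : val x = exp t := hlog _ hx0
  have hn' : (0 : ℤ) < n := by exact_mod_cast Nat.pos_of_ne_zero hn
  have hWval : val W < 1 := by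
    exact (Q.valuation_lt_one_iff_mem (K := F) _).mpr hw
  -- the exponent
  set a : ℤ := (-r) / n + 1 + e with ha
  have hdiv1 : (n : ℤ) * ((-r) / n) ≤ -r := Int.mul_ediv_self_le hn'.ne'
  have hdiv2 : -r < (n : ℤ) * ((-r) / n + 1) := by
    have := Int.lt_mul_ediv_self_add (x := -r) hn'
    rw [mul_add, mul_one]; exact this
  have hval_u : val ((W * ρ ^ a) ^ n * y⁻¹) = exp ((n : ℤ) * (e - a) - r) := by
    rw [map_mul, map_pow, map_mul, map_zpow₀, map_inv₀, hρ, hWe, hyr, exp_sub, ← exp_zsmul,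
      ← exp_add, ← exp_nsmul, ← exp_neg, ← exp_add, ← exp_sub]
    congr 1
    simp only [smul_eq_mul, nsmul_eq_mul]
    push_cast
    ring
  have hu1 : val ((W * ρ ^ a) ^ n * y⁻¹) < 1 := by
    rw [hval_u, ← exp_zero, exp_lt_exp]
    have : e - a = -((-r) / n + 1) := by rw [ha]; ring
    rw [this]
    linarith
  obtain ⟨s, hs, hs1, hsu⟩ := exists_denom (R := R) E val hval hu1.le
  -- the element of the other primes
  have hfin : {v : HeightOneSpectrum (integralClosure R F) |
      v.asIdeal ∣ Ideal.span {algebraMap R (integralClosure R F) w}}.Finite :=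
    Ideal.finite_factors (by
      rw [Ne, Ideal.zero_eq_bot, Ideal.span_singleton_eq_bot]; exact hw1)
  obtain ⟨s', hs'1, hs'2⟩ : ∃ s' ∈ (hfin.toFinset.erase Q).inf (fun v => v.asIdeal), s' ∉ Q.asIdeal := by
    by_contra hcon
    push Not at hcon
    have h1 : (hfin.toFinset.erase Q).inf (fun v => v.asIdeal) ≤ Q.asIdeal := fun z hz => hcon z hz
    rw [Q.isPrime.inf_le'] at h1
    obtain ⟨v, hv, hvQ⟩ := h1
    have h2 : v.asIdeal = Q.asIdeal := v.isMaximal.eq_of_le Q.isPrime.ne_top hvQ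
    exact (Finset.mem_erase.mp hv).1 (HeightOneSpectrum.ext h2)
  obtain ⟨k, rfl⟩ : ∃ k, n = k + 1 := ⟨n - 1, by omega⟩
  set u := (W * ρ ^ a) ^ (k + 1) * y⁻¹ with hu
  set m := ρ ^ a * s * (s' : F) with hm
  have hg : (W * m) ^ (k + 1) * y⁻¹ = (s * u) * s ^ k * (s' : F) ^ (k + 1) := by
    rw [hm, hu]; ring
  have hgi : IsIntegral R ((W * m) ^ (k + 1) * y⁻¹) := by
    rw [hg]
    exact (hsu.mul (hs.pow _)).mul (IsIntegral.pow s'.2 _)
  have hrad : RadMem (icl R : Subring F) W ((W * m) ^ (k + 1) * y⁻¹) := by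
    refine radMem_of_forall hwF hgi fun Q' hQ' => ?_
    by_cases hQQ : Q' = Q
    · subst hQQ
      rw [← Q'.valuation_lt_one_iff_mem (K := F)]
      show val ((W * m) ^ (k + 1) * y⁻¹) < 1
      rw [hg, map_mul, map_mul, map_mul, map_pow, map_pow, hs1, one_pow, mul_one, one_mul]
      exact mul_lt_one_of_lt_of_le hu1 (pow_le_one₀ zero_le (Q'.valuation_le_one s'))
    · have h1 : s' ∈ Q'.asIdeal := by
        have h2 : Q' ∈ hfin.toFinset.erase Q := by
          rw [Finset.mem_erase, Set.Finite.mem_toFinset]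
          exact ⟨hQQ, Ideal.dvd_span_singleton.mpr hQ'⟩
        exact (Finset.inf_le (f := fun v : HeightOneSpectrum (integralClosure R F) => v.asIdeal) h2)
          hs'1
      have h2 : (⟨(W * m) ^ (k + 1) * y⁻¹, hgi⟩ : integralClosure R F) =
          (⟨s * u, hsu⟩ * ⟨s, hs⟩ ^ k * s' ^ k) * s' := by
        apply Subtype.ext
        show (W * m) ^ (k + 1) * y⁻¹ = (s * u) * s ^ k * (s' : F) ^ k * s'
        rw [hg]; ring
      rw [h2]
      exact Ideal.mul_mem_left _ _ h1
  have hz : ∀ b : F, IsIntegral R b →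
      ∃ r : R, Algebra.trace E F (x * m * b) = algebraMap R E r := by
    intro b hb
    rw [mul_assoc]
    apply hx
    have h1 : (W * (m * b)) ^ (k + 1) * y⁻¹ = ((W * m) ^ (k + 1) * y⁻¹) * b ^ (k + 1) := by ring
    rw [h1]
    exact hrad.mul_right (pow_mem hb _)
  have h2 := core E hchar val hval w hw0 hWval hz
  have hs'v : val (s' : F) = 1 := by
    refine le_antisymm (Q.valuation_le_one s') (not_lt.mp fun h3 => hs'2 ?_)
    exact (Q.valuation_lt_one_iff_mem (K := F) s').mp h3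
  have h3 : val (W * (x * m)) = exp (e + t - a) := by
    rw [hm, map_mul, map_mul, map_mul, map_mul, hs1, hs'v, mul_one, mul_one, hWe, hxt, map_zpow₀, hρ,
      ← exp_zsmul, ← exp_add, ← exp_add]
    congr 1
    rw [smul_eq_mul]; ring
  rw [← hW, h3, ← exp_zero, exp_lt_exp] at h2
  have h4 : val (x ^ (k + 1) * y) = exp (((k + 1 : ℕ) : ℤ) * t + r) := by
    rw [map_mul, map_pow, hxt, hyr, ← exp_nsmul, ← exp_add]
    congr 1
  rw [h4, ← exp_zero, exp_le_exp]
  have h5 : t ≤ (-r) / ((k + 1 : ℕ) : ℤ) := by omega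
  have h6 : ((k + 1 : ℕ) : ℤ) * t ≤ ((k + 1 : ℕ) : ℤ) * ((-r) / ((k + 1 : ℕ) : ℤ)) :=
    mul_le_mul_of_nonneg_left h5 hn'.le
  linarith

end Cusp

end Dual

end Fermat.Agent.X1Key
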