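import Fermat.Agent.X1.KeyLineDef

/-!
# Finite dimension of the space of sections over the projective line
-/

set_option autoImplicit false

noncomputable section

open Module Polynomial
open scoped IntermediateField

namespace Fermat.Agent.X1Key

section Trace

variable {R E F : Type*} [CommRing R] [IsDomain R] [IsIntegrallyClosed R] [Field E] [Algebra R E]
  [IsFractionRing R E] [Field F] [Algebra R F] [Algebra E F] [IsScalarTower R E F]
  [FiniteDimensional E F]

/-- Bounded denominators of the traces `tr (f b)` when `f ^ n * y` is integral. -/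
theorem exists_denom_trace {y : F} (hy : y ≠ 0) {n : ℕ} (hn : n ≠ 0) (b : F) :
    ∃ d : R, d ≠ 0 ∧ ∀ f : F, IsIntegral R (f ^ n * y) →
      ∃ r : R, algebraMap R E d * Algebra.trace E F (f * b) = algebraMap R E r := by
  have halg : Algebra.IsAlgebraic R F := by
    have : Algebra.IsAlgebraic R E := IsLocalization.isAlgebraic E (nonZeroDivisors R)
    exact Algebra.IsAlgebraic.trans R E F
  obtain ⟨d₁, hd₁, h₁⟩ := (halg.isAlgebraic y⁻¹).exists_integral_multiple
  obtain ⟨d₂, hd₂, h₂⟩ := (halg.isAlgebraic b).exists_integral_multiple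
  have hy' : y⁻¹ ≠ 0 := inv_ne_zero hy
  refine ⟨d₁ * d₂, mul_ne_zero hd₁ hd₂, fun f hf => ?_⟩
  have h3 : IsIntegral R ((d₁ • f) ^ n) := by
    obtain ⟨m, rfl⟩ := Nat.exists_eq_succ_of_ne_zero hn
    have : (d₁ • f) ^ (m + 1) = algebraMap R F (d₁ ^ m) * (d₁ • y⁻¹) * (f ^ (m + 1) * y) := by
      rw [Algebra.smul_def, Algebra.smul_def, map_pow]
      field_simp
      ring
    rw [Nat.succ_eq_add_one, this]
    exact (isIntegral_algebraMap.mul h₁).mul hf
  have h4 : IsIntegral R (d₁ • f) := IsIntegral.of_pow (Nat.pos_of_ne_zero hn) h3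
  have h5 : IsIntegral R ((d₁ • f) * (d₂ • b)) := h4.mul h₂
  obtain ⟨r, hr⟩ := IsIntegrallyClosed.isIntegral_iff.mp
    (Algebra.isIntegral_trace (R := R) (L := E) h5)
  refine ⟨r, ?_⟩
  rw [hr, ← Algebra.smul_def, ← algebraMap_smul E (d₁ * d₂), ← map_smul, algebraMap_smul]
  congr 1
  rw [Algebra.smul_def, Algebra.smul_def, Algebra.smul_def, map_mul]
  ring

end Trace

section Poly

variable {L F : Type*} [Field L] [Field F] [Algebra L F] {h : F}

lemma aeval_inv_mul_pow (hh : h ≠ 0) (p : L[X]) :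
    aeval h⁻¹ p * h ^ p.natDegree = aeval h p.reverse := by
  let _ : Invertible h⁻¹ := invertibleOfNonzero (inv_ne_zero hh)
  have h1 := eval₂_reverse_mul_pow (algebraMap L F) h⁻¹ p
  have h2 : ⅟(h⁻¹) = h := by rw [invOf_eq_inv, inv_inv]
  rw [h2] at h1
  rw [aeval_def, aeval_def, ← h1, mul_assoc, inv_pow, inv_mul_cancel₀ (pow_ne_zero _ hh), mul_one]

/-- A rational function with bounded denominators at `h` and `h⁻¹` has bounded degree. -/
lemma degree_bound (htr : Transcendental L h) {c : F} {w : ℕ} {D P D' P' : L[X]} (hD' : D' ≠ 0)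
    (h1 : aeval h D * c = aeval h P) (h2 : aeval h⁻¹ D' * (h⁻¹ ^ w * c) = aeval h⁻¹ P') :
    P.natDegree ≤ w + D.natDegree + D'.natDegree := by
  have hh : h ≠ 0 := by
    rintro rfl
    exact htr (isAlgebraic_zero)
  by_cases hP : P = 0
  · rw [hP, natDegree_zero]; exact Nat.zero_le _
  have h3 : X ^ (w + D'.natDegree) * P'.reverse * D = X ^ P'.natDegree * D'.reverse * P := by
    apply (transcendental_iff_injective.mp htr)
    rw [map_mul, map_mul, map_mul, map_mul, map_pow, map_pow, aeval_X, ← aeval_inv_mul_pow hh,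
      ← aeval_inv_mul_pow hh, ← h1, ← h2, pow_add, inv_pow]
    field_simp
  have hL : X ^ P'.natDegree * D'.reverse * P ≠ 0 :=
    mul_ne_zero (mul_ne_zero (pow_ne_zero _ X_ne_zero) (by rwa [Ne, reverse_eq_zero])) hP
  have hR := hL
  rw [← h3] at hR
  have hP' : P'.reverse ≠ 0 := right_ne_zero_of_mul (left_ne_zero_of_mul hR)
  have hD : D ≠ 0 := right_ne_zero_of_mul hR
  have h4 := congrArg natDegree h3
  rw [natDegree_mul (mul_ne_zero (pow_ne_zero _ X_ne_zero) hP') hD,
    natDegree_mul (pow_ne_zero _ X_ne_zero) hP', natDegree_X_pow,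
    natDegree_mul (mul_ne_zero (pow_ne_zero _ X_ne_zero) (by rwa [Ne, reverse_eq_zero])) hP,
    natDegree_mul (pow_ne_zero _ X_ne_zero) (by rwa [Ne, reverse_eq_zero]), natDegree_X_pow] at h4
  have h5 := reverse_natDegree_le P'
  omega

end Poly

section Main

variable {L F : Type*} [Field L] [Field F] [Algebra L F]

/-- the algebra structure of `F` over `L[X]` given by `X ↦ u` -/
abbrev polyAlg (L : Type*) {F : Type*} [Field L] [Field F] [Algebra L F] (u : F) :
    Algebra L[X] F := (aeval (R := L) u).toAlgebra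

theorem denom_KX {h : F} {u : F} (hu : Transcendental L u) (hhu : L⟮u⟯ = L⟮h⟯)
    [FiniteDimensional L⟮h⟯ F] {y : F} (hy : y ≠ 0) {n : ℕ} (hn : n ≠ 0) (b : F) :
    ∃ D : L[X], D ≠ 0 ∧ ∀ f : F, IsIntegral (KX L u) (f ^ n * y) →
      ∃ P : L[X], aeval u D * algebraMap L⟮h⟯ F (Algebra.trace L⟮h⟯ F (f * b)) = aeval u P := by
  let a1 : Algebra L[X] F := polyAlg L u
  have hmem : ∀ p : L[X], aeval u p ∈ L⟮h⟯ := by
    intro p
    rw [← hhu]
    exact IntermediateField.algebra_adjoin_le_adjoin L {u}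
      (by rw [Algebra.adjoin_singleton_eq_range_aeval]; exact ⟨p, rfl⟩)
  let a2 : Algebra L[X] L⟮h⟯ := ((aeval (R := L) u).codRestrict L⟮h⟯.toSubalgebra hmem).toAlgebra
  have a3 : IsScalarTower L[X] L⟮h⟯ F := IsScalarTower.of_algebraMap_eq fun p => rfl
  have hinj : Function.Injective (algebraMap L[X] L⟮h⟯) := by
    intro p q hpq
    apply transcendental_iff_injective.mp hu
    exact congrArg Subtype.val hpq
  have a4 : IsFractionRing L[X] L⟮h⟯ := by
    have : FaithfulSMul L[X] L⟮h⟯ := (faithfulSMul_iff_algebraMap_injective _ _).mpr hinj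
    refine IsFractionRing.of_field L[X] L⟮h⟯ ?_
    rintro ⟨z, hz⟩
    have hz' := hz
    rw [← hhu, IntermediateField.mem_adjoin_simple_iff] at hz'
    obtain ⟨r, s, rfl⟩ := hz'
    exact ⟨r, s, Subtype.ext rfl⟩
  obtain ⟨D, hD, H⟩ := exists_denom_trace (R := L[X]) (E := L⟮h⟯) hy hn b
  refine ⟨D, hD, fun f hf => ?_⟩
  have hf' : IsIntegral L[X] (f ^ n * y) := by
    let a5 : Algebra L[X] (KX L u) := ((aeval (R := L) u).toRingHom.rangeRestrict).toAlgebra
    have a6 : IsScalarTower L[X] (KX L u) F := IsScalarTower.of_algebraMap_eq fun p => rfl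
    have a7 : Algebra.IsIntegral L[X] (KX L u) :=
      Algebra.isIntegral_of_surjective (RingHom.rangeRestrict_surjective _)
    exact isIntegral_trans (R := L[X]) (A := KX L u) _ hf
  obtain ⟨P, hP⟩ := H f hf'
  refine ⟨P, ?_⟩
  have := congrArg (algebraMap L⟮h⟯ F) hP
  rw [map_mul] at this
  exact this

lemma adjoin_inv (h : F) : L⟮h⁻¹⟯ = L⟮h⟯ := by
  apply le_antisymm
  · rw [IntermediateField.adjoin_simple_le_iff]
    exact inv_mem (IntermediateField.mem_adjoin_simple_self L h)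
  · rw [IntermediateField.adjoin_simple_le_iff]
    have := inv_mem (IntermediateField.mem_adjoin_simple_self L h⁻¹)
    rwa [inv_inv] at this

lemma transcendental_inv {h : F} (htr : Transcendental L h) : Transcendental L h⁻¹ :=
  fun h' => htr (by simpa using h'.inv)

/-- **[M]**: the sections over the projective line form a finite dimensional space. -/
theorem exists_finDim [CharZero L] {h : F} (htr : Transcendental L h) [FiniteDimensional L⟮h⟯ F]
    {y : F} (hy : y ≠ 0) {n : ℕ} (hn : n ≠ 0) (w : ℕ) :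
    ∃ W : Submodule L F, FiniteDimensional L W ∧ ∀ f : F, IsIntegral (KX L h) (f ^ n * y) →
      IsIntegral (KX L h⁻¹) ((h⁻¹ ^ w * f) ^ n * y) → f ∈ W := by
  classical
  let b := Module.finBasis L⟮h⟯ F
  have : CharZero L⟮h⟯ := charZero_of_injective_algebraMap (algebraMap L L⟮h⟯).injective
  have : Algebra.IsSeparable L⟮h⟯ F := inferInstance
  let β := (Algebra.traceForm L⟮h⟯ F).dualBasis (traceForm_nondegenerate L⟮h⟯ F) b
  have hβ : ∀ (f : F) i, β.repr f i = Algebra.trace L⟮h⟯ F (f * b i) := by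
    intro f i
    exact LinearMap.BilinForm.dualBasis_repr_apply _ b f i
  choose D hD HD using fun i => denom_KX (L := L) htr rfl hy hn (b i)
  choose D' hD' HD' using fun i =>
    denom_KX (L := L) (h := h) (u := h⁻¹) (transcendental_inv htr) (adjoin_inv h) hy hn (b i)
  let N : Fin (finrank L⟮h⟯ F) → ℕ := fun i => w + (D i).natDegree + (D' i).natDegree
  refine ⟨Submodule.span L (Set.range fun x : (Σ i, Fin (N i + 1)) =>
    h ^ (x.2 : ℕ) * (aeval h (D x.1))⁻¹ * β x.1), FiniteDimensional.span_of_finite L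
      (Set.finite_range _), fun f h1 h2 => ?_⟩
  have hsum : f = ∑ i, algebraMap L⟮h⟯ F (β.repr f i) * β i := by
    conv_lhs => rw [← β.sum_repr f]
    exact Finset.sum_congr rfl fun i _ => Algebra.smul_def _ _
  rw [hsum]
  refine Submodule.sum_mem _ fun i _ => ?_
  obtain ⟨P, hP⟩ := HD i f h1
  obtain ⟨P', hP'⟩ := HD' i (h⁻¹ ^ w * f) h2
  rw [← hβ] at hP
  have hD0 : aeval h (D i) ≠ 0 := fun h0 => hD i (transcendental_iff.mp htr _ h0)
  have h3 : Algebra.trace L⟮h⟯ F (h⁻¹ ^ w * f * b i) =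
      (⟨h, IntermediateField.mem_adjoin_simple_self L h⟩ : L⟮h⟯)⁻¹ ^ w * β.repr f i := by
    have h5 : h⁻¹ ^ w * f * b i =
        ((⟨h, IntermediateField.mem_adjoin_simple_self L h⟩ : L⟮h⟯)⁻¹ ^ w) • (f * b i) := by
      rw [Algebra.smul_def, map_pow, map_inv₀]
      exact mul_assoc _ _ _
    rw [h5, map_smul, smul_eq_mul, hβ]
  rw [h3, map_mul, map_pow, map_inv₀] at hP'
  have hdeg := degree_bound htr (hD' i) hP hP'
  have hc : algebraMap L⟮h⟯ F (β.repr f i) = (aeval h (D i))⁻¹ * aeval h P := by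
    rw [← hP, ← mul_assoc, inv_mul_cancel₀ hD0, one_mul]
  rw [hc, aeval_eq_sum_range' (Nat.lt_succ_of_le hdeg), Finset.mul_sum, Finset.sum_mul]
  refine Submodule.sum_mem _ fun j hj => ?_
  have h4 : (aeval h (D i))⁻¹ * P.coeff j • h ^ j * β i =
      P.coeff j • (h ^ j * (aeval h (D i))⁻¹ * β i) := by
    rw [Algebra.smul_def, Algebra.smul_def]
    ring
  rw [h4]
  exact Submodule.smul_mem _ _ (Submodule.subset_span
    ⟨⟨i, ⟨j, Finset.mem_range.mp hj⟩⟩, rfl⟩)

lemma OX_le_KX (B : ValuationSubring L) (u : F) : OX B u ≤ KX L u := by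
  rintro _ ⟨p, rfl⟩
  refine ⟨p.map B.subtype, ?_⟩
  show aeval u (p.map B.subtype) = _
  rw [coe_eval₂RingHom, aeval_def, eval₂_map]

lemma isIntegral_mono {S T : Subring F} (hST : S ≤ T) {x : F} (hx : IsIntegral S x) :
    IsIntegral T x := by
  let _ : Algebra S T := (Subring.inclusion hST).toAlgebra
  have : IsScalarTower S T F := IsScalarTower.of_algebraMap_eq fun _ => rfl
  exact hx.tower_top

/-- **[M]**, version over the valuation ring. -/
theorem exists_finDim_OX [CharZero L] (B : ValuationSubring L) {h : F} (htr : Transcendental L h)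
    [FiniteDimensional L⟮h⟯ F] {y : F} (hy : y ≠ 0) {n : ℕ} (hn : n ≠ 0) (w : ℕ) :
    ∃ W : Submodule L F, FiniteDimensional L W ∧ ∀ f : F, f ^ n * y ∈ (icl (OX B h) : Subring F) →
      (h⁻¹ ^ w * f) ^ n * y ∈ (icl (OX B h⁻¹) : Subring F) → f ∈ W := by
  obtain ⟨W, hW, H⟩ := exists_finDim htr hy hn w
  exact ⟨W, hW, fun f h1 h2 => H f (isIntegral_mono (OX_le_KX B h) h1)
    (isIntegral_mono (OX_le_KX B h⁻¹) h2)⟩

end Main

end Fermat.Agent.X1Key

end
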