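import Fermat.Agent.X1.KeyDual
import Fermat.Agent.X1.KeyLineDef

/-!
# Global form of the duality over `L[h]`
-/

set_option autoImplicit false

noncomputable section

open Module Polynomial IsDedekindDomain WithZero
open scoped IntermediateField

namespace Fermat.Agent.X1Key

section Val

variable {F Γ₀ : Type*} [Field F] [LinearOrderedCommGroupWithZero Γ₀]

lemma val_le_one_of_integral {R : Type*} [CommRing R] [Algebra R F] (v : Valuation F Γ₀)
    (hR : ∀ r : R, v (algebraMap R F r) ≤ 1) {x : F} (hx : IsIntegral R x) : v x ≤ 1 := by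
  have h1 : IsIntegral v.integer x := by
    obtain ⟨p, hp, hpx⟩ := hx
    refine ⟨p.map ((algebraMap R F).codRestrict v.integer hR), hp.map _, ?_⟩
    rw [eval₂_map]
    exact hpx
  exact (Valuation.integer.integers v).mem_of_integral h1

end Val

section Aux

variable {R : Type*} (E : Type*) {F : Type*} [CommRing R] [Field E] [Algebra R E]
  [IsFractionRing R E] [Field F] [Algebra E F] [Algebra R F] [IsScalarTower R E F]
  [FiniteDimensional E F] [Algebra.IsSeparable E F] [IsDedekindDomain R]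

theorem dual_global_aux (hchar : ∀ k : ℕ, k ≠ 0 → IsUnit (k : R)) {Z : Type*}
    (val : Z → Valuation F (WithZero (Multiplicative ℤ)))
    (hR : ∀ z (r : R), val z (algebraMap R F r) ≤ 1) {w : R} (hw0 : w ≠ 0)
    (hwz : ∀ z, val z (algebraMap R F w) = 1)
    (hJ3 : ∀ z, (∃ P : R, val z (algebraMap R F P) = exp (-1 : ℤ)) ∨ ∀ x : F, x ≠ 0 → val z x = 1)
    {n : ℕ} (hn : n ≠ 0) {y : F} (hy0 : y ≠ 0) (hy : ∀ z, ∃ a : ℤ, val z y = exp a ^ n)
    (S : Subring F) {ω : F} (hω0 : ω ≠ 0)
    (hJ2 : ∀ x : F, (∀ z, val z x ≤ 1) → ∃ N : ℕ, IsIntegral S (ω ^ N * x))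
    (hS : ∀ s ∈ S, ∃ k : ℕ, IsIntegral R (algebraMap R F w ^ k * s))
    (hω : ∃ k : ℕ, IsIntegral R (algebraMap R F w ^ k * ω⁻¹))
    {x : F}
    (hx : ∀ m, RadMem (icl R : Subring F) (algebraMap R F w)
        ((algebraMap R F w * m) ^ n * y⁻¹) →
      ∃ r : R, Algebra.trace E F (x * m) = algebraMap R E r) : IsIntegral R (x ^ n * y) := by
  have hinj : Function.Injective (algebraMap R F) := injRF E
  have hwF : algebraMap R F w ≠ 0 := fun h0 => hw0 (hinj (by rw [h0, map_zero]))
  -- Step A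
  have hA : ∀ z, val z (x ^ n * y) ≤ 1 := by
    intro z
    rcases hJ3 z with ⟨P, hP⟩ | htriv
    · have hP0 : P ≠ 0 := by
        rintro rfl
        rw [map_zero, map_zero] at hP
        exact exp_ne_zero hP.symm
      obtain ⟨a, ha⟩ := hy z
      refine dual_at E hchar (val z) (fun x hx => val_le_one_of_integral _ (hR z) hx) hP0 ?_ ?_
        (hwz z) hn (a := -a) ?_ hx
      · rw [hP, ← exp_zero, exp_lt_exp]; norm_num
      · intro x' hx'
        by_cases hx0 : x' = 0
        · rw [hx0, map_zero]; exact zero_le_one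
        have h1 : val z x' = exp (log (val z x')) :=
          (exp_log ((Valuation.ne_zero_iff _).mpr hx0)).symm
        rw [map_mul, hP, h1, ← exp_add, ← exp_zero, exp_lt_exp] at hx'
        rw [h1, ← exp_zero, exp_le_exp]
        omega
      · rw [ha, hP, ← exp_zsmul]
        congr 2
        simp
    · by_cases hx0 : x = 0
      · rw [hx0, zero_pow hn, zero_mul, map_zero]; exact zero_le_one
      · exact (htriv _ (mul_ne_zero (pow_ne_zero _ hx0) hy0)).le
  obtain ⟨N, hN⟩ := hJ2 _ hA
  have hB : IsDedekindDomain (integralClosure R F) := integralClosure.isDedekindDomain R E F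
  have hfr : IsFractionRing (integralClosure R F) F :=
    integralClosure.isFractionRing_of_finite_extension (A := R) E F
  have hQ : ∀ Q : HeightOneSpectrum (integralClosure R F), Q.valuation F (x ^ n * y) ≤ 1 := by
    intro Q
    by_cases hw : algebraMap R (integralClosure R F) w ∈ Q.asIdeal
    · exact dual_cusp E hchar Q hw0 hw hn hy0 hx
    · have hval : ∀ x : F, IsIntegral R x → Q.valuation F x ≤ 1 := fun x hx =>
        Q.valuation_le_one (⟨x, hx⟩ : integralClosure R F)
      have hw1 : Q.valuation F (algebraMap R F w) = 1 := by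
        refine le_antisymm (hval _ isIntegral_algebraMap) (not_lt.mp fun h3 => hw ?_)
        exact (Q.valuation_lt_one_iff_mem (K := F) _).mp h3
      have hcl : ∀ s : F, (∃ k : ℕ, IsIntegral R (algebraMap R F w ^ k * s)) →
          Q.valuation F s ≤ 1 := by
        rintro s ⟨k, hk⟩
        have := hval _ hk
        rwa [map_mul, map_pow, hw1, one_pow, one_mul] at this
      have h1 : Q.valuation F (ω ^ N * (x ^ n * y)) ≤ 1 :=
        val_le_one_of_integral (R := S) _ (fun s => hcl _ (hS s s.2)) hN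
      have h2 : x ^ n * y = (ω⁻¹) ^ N * (ω ^ N * (x ^ n * y)) := by
        rw [← mul_assoc, ← mul_pow, inv_mul_cancel₀ hω0, one_pow, one_mul]
      rw [h2, map_mul, map_pow]
      exact mul_le_one' (pow_le_one₀ zero_le (hcl _ hω)) h1
  obtain ⟨b, hb⟩ := HeightOneSpectrum.mem_integers_of_valuation_le_one F _ hQ
  rw [← hb]
  exact b.2

end Aux

section Line

variable {L F : Type*} [Field L] [Field F] [Algebra L F]

lemma isIntegral_range_iff {R : Type*} [CommRing R] (f : R →+* F) {x : F} :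
    (@IsIntegral R F _ _ f.toAlgebra x) ↔ IsIntegral f.range x := by
  constructor
  · rintro ⟨p, hp, hpx⟩
    refine ⟨p.map f.rangeRestrict, hp.map _, ?_⟩
    rw [eval₂_map]
    exact hpx
  · rintro ⟨p, hp, hpx⟩
    have h1 : p ∈ Polynomial.lifts f.rangeRestrict := by
      rw [Polynomial.lifts_iff_coeff_lifts]
      exact fun n => f.rangeRestrict_surjective _
    obtain ⟨q, hq, -, hqm⟩ := Polynomial.lifts_and_natDegree_eq_and_monic h1 hp
    refine ⟨q, hqm, ?_⟩
    rw [← hq, eval₂_map] at hpx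
    exact hpx

lemma aeval_gen (u : F) (p : L[X]) :
    algebraMap L⟮u⟯ F (aeval (IntermediateField.AdjoinSimple.gen L u) p) = aeval u p := by
  rw [← Polynomial.aeval_algebraMap_apply, IntermediateField.AdjoinSimple.algebraMap_gen]

lemma transcendental_gen {u : F} (htr : Transcendental L u) :
    Function.Injective (aeval (R := L) (IntermediateField.AdjoinSimple.gen L u)) := by
  rw [injective_iff_map_eq_zero]
  intro p hp
  by_contra hp0
  exact htr ⟨p, hp0, by rw [← aeval_gen, hp, map_zero]⟩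

variable [CharZero L]

theorem dual_global {u : F} (htr : Transcendental L u) [FiniteDimensional L⟮u⟯ F] {Z : Type*}
    (val : Z → Valuation F (WithZero (Multiplicative ℤ)))
    (hc : ∀ z (c : L), val z (algebraMap L F c) ≤ 1) (hu : ∀ z, val z u ≤ 1)
    {w : L[X]} (hw0 : w ≠ 0) (hwz : ∀ z, val z (aeval u w) = 1)
    (hJ3 : ∀ z, (∃ P : L[X], val z (aeval u P) = exp (-1 : ℤ)) ∨ ∀ x : F, x ≠ 0 → val z x = 1)
    {n : ℕ} (hn : n ≠ 0) {y : F} (hy0 : y ≠ 0) (hy : ∀ z, ∃ a : ℤ, val z y = exp a ^ n)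
    (S : Subring F) {ω : F} (hω0 : ω ≠ 0)
    (hJ2 : ∀ x : F, (∀ z, val z x ≤ 1) → ∃ N : ℕ, IsIntegral S (ω ^ N * x))
    (hS : ∀ s ∈ S, ∃ k : ℕ, aeval u w ^ k * s ∈ KX L u)
    (hω : ∃ k : ℕ, aeval u w ^ k * ω⁻¹ ∈ KX L u)
    {x : F}
    (hx : ∀ m : F, RadMem (icl (KX L u)) (aeval u w) ((aeval u w * m) ^ n * y⁻¹) →
        (algebraMap L⟮u⟯ F (Algebra.trace L⟮u⟯ F (x * m))) ∈ KX L u) :
    x ^ n * y ∈ (icl (KX L u) : Subring F) := by
  letI : Algebra L[X] F := (aeval (R := L) u).toRingHom.toAlgebra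
  letI : Algebra L[X] L⟮u⟯ :=
    (aeval (R := L) (IntermediateField.AdjoinSimple.gen L u)).toRingHom.toAlgebra
  haveI : IsScalarTower L[X] L⟮u⟯ F := IsScalarTower.of_algebraMap_eq fun p => (aeval_gen u p).symm
  have hA : ∀ p : L[X], algebraMap L[X] F p = aeval u p := fun p => rfl
  haveI : IsFractionRing L[X] L⟮u⟯ := by
    have h1 : Function.Injective (algebraMap L[X] L⟮u⟯) := transcendental_gen htr
    haveI : FaithfulSMul L[X] L⟮u⟯ := (faithfulSMul_iff_algebraMap_injective _ _).mpr h1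
    refine IsFractionRing.of_field _ _ fun z => ?_
    obtain ⟨r, s, hrs⟩ := (IntermediateField.mem_adjoin_simple_iff L (z : F)).mp z.2
    refine ⟨r, s, ?_⟩
    apply (algebraMap L⟮u⟯ F).injective
    rw [map_div₀]
    show (z : F) = algebraMap L⟮u⟯ F (aeval _ r) / algebraMap L⟮u⟯ F (aeval _ s)
    rw [aeval_gen, aeval_gen]
    exact hrs
  haveI : CharZero F := charZero_of_injective_algebraMap (algebraMap L F).injective
  have hicl : ∀ x : F, IsIntegral L[X] x ↔ IsIntegral (KX L u) x := fun x =>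
    isIntegral_range_iff (aeval (R := L) u).toRingHom
  have hicl' : (icl L[X] : Subring F) = icl (KX L u) := by
    ext x
    exact hicl x
  have hchar : ∀ k : ℕ, k ≠ 0 → IsUnit (k : L[X]) := by
    intro k hk
    rw [← map_natCast (C : L →+* L[X])]
    exact ((Nat.cast_ne_zero.mpr hk).isUnit).map C
  have hRz : ∀ z (r : L[X]), val z (algebraMap L[X] F r) ≤ 1 := by
    intro z r
    rw [hA, aeval_eq_sum_range]
    refine Valuation.map_sum_le _ fun i _ => ?_
    rw [Algebra.smul_def, map_mul, map_pow]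
    exact mul_le_one' (hc z _) (pow_le_one₀ zero_le (hu z))
  have hint : ∀ s : F, s ∈ KX L u → IsIntegral L[X] s := by
    rintro _ ⟨r, rfl⟩
    exact isIntegral_algebraMap (R := L[X]) (x := r)
  have main := dual_global_aux L⟮u⟯ hchar val hRz hw0 (fun z => by rw [hA]; exact hwz z) hJ3 hn hy0 hy S hω0 hJ2
    (fun s hs => (hS s hs).imp fun k hk => by rw [hA]; exact hint _ hk)
    (hω.imp fun k hk => by rw [hA]; exact hint _ hk) (x := x) ?_
  · rw [mem_icl]
    exact (hicl _).mp main
  · intro m hm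
    rw [hA, hicl'] at hm
    obtain ⟨r, hr⟩ := hx m hm
    refine ⟨r, ?_⟩
    apply (algebraMap L⟮u⟯ F).injective
    rw [← hr]
    exact (aeval_gen u r).symm

end Line

end Fermat.Agent.X1Key

end
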