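import Fermat.Agent.X1.KeyTwist
import Fermat.Agent.RedInj.Basic

/-!
# Lifting residual sections of the twisted sheaves in a chart
-/

set_option autoImplicit false

open Module

namespace Fermat.Agent.X1Key

/-! ### Traces of radical elements -/

section TraceRad

variable {E κ R : Type*} [Field E] [Field κ] [CommRing R] [Algebra R E] [Algebra R κ]
  [Algebra E κ] [IsScalarTower R E κ] [FiniteDimensional E κ] [Algebra.IsSeparable E κ]

omit [Algebra.IsSeparable E κ] in
lemma isIntegral_trace_mem (hic : ∀ e : E, IsIntegral R e → ∃ r : R, algebraMap R E r = e)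
    {z : κ} (hz : IsIntegral R z) : ∃ r : R, Algebra.trace E κ z = algebraMap R E r := by
  obtain ⟨r, hr⟩ := hic _ (Algebra.isIntegral_trace (R := R) (L := E) hz)
  exact ⟨r, hr.symm⟩

/-- the integral closure of `R` as a subring -/
def icl (R : Type*) {A : Type*} [CommRing R] [CommRing A] [Algebra R A] : Subring A :=
  (integralClosure R A).toSubring

lemma mem_icl {R A : Type*} [CommRing R] [CommRing A] [Algebra R A] {x : A} :
    x ∈ (icl R : Subring A) ↔ IsIntegral R x := Iff.rfl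

lemma intClosed_icl {R F : Type*} [CommRing R] [Field F] [Algebra R F] :
    IntClosed (icl R : Subring F) := by
  intro x hx
  rw [mem_icl]
  have h1 : IsIntegral (integralClosure R F) x := hx
  exact isIntegral_trans (R := R) (A := integralClosure R F) x h1

/-- `w` generates a radical ideal -/
def RadEl {R : Type*} [CommRing R] (w : R) : Prop := w ≠ 0 ∧ ∀ (N : ℕ) (r : R), w ∣ r ^ N → w ∣ r

lemma trace_radical (hic : ∀ e : E, IsIntegral R e → ∃ r : R, algebraMap R E r = e)
    (hinj : Function.Injective (algebraMap R E)) {v : R} (hv : RadEl v) {z : κ}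
    (hz : RadMem (icl R : Subring κ) (algebraMap R κ v) z) :
    ∃ r : R, Algebra.trace E κ z = algebraMap R E (v * r) := by
  let Ω := AlgebraicClosure κ
  have hsum : algebraMap E Ω (Algebra.trace E κ z) = ∑ σ : κ →ₐ[E] Ω, σ z :=
    trace_eq_sum_embeddings Ω
  have hσ : ∀ σ : κ →ₐ[E] Ω, RadMem (icl R : Subring Ω) (algebraMap R Ω v) (σ z) := by
    intro σ
    obtain ⟨hz1, N, b, hb, hN⟩ := hz
    have hint : ∀ y : κ, IsIntegral R y → IsIntegral R (σ y) := by
      intro y hy
      exact hy.map (σ.restrictScalars R)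
    refine ⟨hint z hz1, N, σ b, hint b hb, ?_⟩
    rw [← map_pow, hN, map_mul]
    congr 1
    exact (σ.restrictScalars R).commutes v
  have hrad : RadMem (icl R : Subring Ω) (algebraMap R Ω v) (algebraMap E Ω (Algebra.trace E κ z)) := by
    rw [hsum]
    generalize (Finset.univ : Finset (κ →ₐ[E] Ω)) = s
    classical
    induction s using Finset.induction_on with
    | empty => rw [Finset.sum_empty]; exact RadMem.zero
    | insert a s ha ih =>
      rw [Finset.sum_insert ha]
      exact (hσ a).add ih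
  obtain ⟨ht, N, b, hb, hN⟩ := hrad
  obtain ⟨t, ht'⟩ := hic (Algebra.trace E κ z)
    ((isIntegral_algebraMap_iff (algebraMap E Ω).injective).mp ht)
  have hv0 : algebraMap R E v ≠ 0 := by
    intro h0
    exact hv.1 (hinj (by rw [h0, map_zero]))
  have hv1 : algebraMap R Ω v ≠ 0 := by
    rw [IsScalarTower.algebraMap_apply R E Ω]
    intro h0
    exact hv0 ((algebraMap E Ω).injective (by rw [h0, map_zero]))
  have hb' : b = algebraMap E Ω (algebraMap R E t ^ N / algebraMap R E v) := by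
    rw [map_div₀, map_pow, ← IsScalarTower.algebraMap_apply R E Ω v, eq_div_iff hv1, mul_comm, ← hN,
      ht']
  obtain ⟨c, hc⟩ := hic (algebraMap R E t ^ N / algebraMap R E v)
    ((isIntegral_algebraMap_iff (algebraMap E Ω).injective).mp (hb' ▸ hb))
  have h1 : t ^ N = v * c := by
    apply hinj
    rw [map_pow, map_mul, hc]
    field_simp
  obtain ⟨r, hr⟩ := hv.2 N t (Dvd.intro c h1.symm)
  exact ⟨r, by rw [← ht', hr]⟩

end TraceRad

/-! ### Finite generation -/

section FG

variable {R F : Type*} [CommRing R] [IsNoetherianRing R] [Field F] [Algebra R F]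

lemma fg_of_mul_mem {M N : Submodule R F} (hN : N.FG) {x : F} (hx : x ≠ 0)
    (h : ∀ m ∈ M, x * m ∈ N) : M.FG := by
  have h1 : M.map (LinearMap.mulLeft R x) ≤ N := by
    rintro _ ⟨m, hm, rfl⟩
    exact h m hm
  have h2 : (M.map (LinearMap.mulLeft R x)).FG := by
    exact Submodule.FG.of_le hN h1
  exact Submodule.fg_of_fg_map_injective _ (fun a b hab => mul_left_cancel₀ hx hab) h2

end FG

/-! ### The lifting theorem in a chart -/

section Lift

universe u

variable {F : Type*} {κ : Type u} [Field F] [Field κ] {V : Subring F} {π : F} {red : V →+* κ}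

/-- reduction of integral elements -/
lemma Chart.isIntegral_rd {E Eb R Rb : Type*} [Field E] [Field Eb]
    [CommRing R] [CommRing Rb] [Algebra R E] [Algebra R F] [Algebra E F] [Algebra Rb Eb]
    [Algebra Rb κ] [Algebra Eb κ] {q : R →+* Rb} (C : Chart V π red E Eb R Rb q) {x : F}
    (hx : IsIntegral R x) (hxV : x ∈ V) : IsIntegral Rb (rd red x) := by
  obtain ⟨p, hp, hpx⟩ := hx
  refine ⟨p.map q, hp.map _, ?_⟩
  rw [Polynomial.eval₂_map, Polynomial.eval₂_eq_sum_range]
  rw [Polynomial.eval₂_eq_sum_range] at hpx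
  have h1 := congrArg (rd red) hpx
  rw [rd_zero, rd_sum] at h1
  · rw [← h1]
    refine Finset.sum_congr rfl fun i _ => ?_
    rw [rd_mul red (C.mem _) (pow_mem hxV _), rd_pow red hxV, C.red_eq]
    rfl
  · exact fun i _ => mul_mem (C.mem _) (pow_mem hxV _)

/-- A chart with the integrality properties. -/
structure IChart {F κ : Type*} [Field F] [Field κ] (V : Subring F) (π : F) (red : V →+* κ)
    (E Eb : Type*) [Field E] [Field Eb]
    [Algebra E F] [Algebra Eb κ] (R Rb : Type*) [CommRing R] [CommRing Rb]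
    [Algebra R E] [Algebra R F] [Algebra Rb Eb] [Algebra Rb κ]
    (q : R →+* Rb) : Prop extends Chart V π red E Eb R Rb q where
  satI : ∀ z ∈ V, IsIntegral R (π * z) → IsIntegral R z
  noeth : IsNoetherianRing R
  fin : ∃ N : Submodule R F, N.FG ∧ ∀ x, IsIntegral R x → x ∈ N
  alg : ∀ z : F, ∃ s : R, s ≠ 0 ∧ IsIntegral R (s • z)
  icb : ∀ e : Eb, IsIntegral Rb e → ∃ r : Rb, algebraMap Rb Eb r = e

variable {E Eb R Rb : Type*} [Field E] [Field Eb] [CommRing R] [CommRing Rb]
  [Algebra R E] [Algebra R F] [Algebra E F] [IsScalarTower R E F]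
  [Algebra Rb Eb] [Algebra Rb κ] [Algebra Eb κ] [IsScalarTower Rb Eb κ]

namespace IChart

variable {q : R →+* Rb} (G : IChart V π red E Eb R Rb q)

include G

omit [IsScalarTower R E F] [IsScalarTower Rb Eb κ] in
lemma int_le {x : F} (hx : IsIntegral R x) : x ∈ V := by
  apply G.vring.mem_of_isIntegral
  obtain ⟨p, hp, hpx⟩ := hx
  refine ⟨p.map ((algebraMap R F).codRestrict V G.mem), hp.map _, ?_⟩
  rw [Polynomial.eval₂_map]
  exact hpx

omit [IsScalarTower R E F] [IsScalarTower Rb Eb κ] in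
lemma sat_pow' : ∀ k : ℕ, ∀ z ∈ V, π ^ k * z ∈ (icl R : Subring F) → z ∈ (icl R : Subring F) := by
  intro k
  induction k with
  | zero => intro z _ hz; simpa using hz
  | succ k ih =>
    intro z hz hkz
    refine G.satI z hz (ih _ (mul_mem G.vring.mem hz) ?_)
    rw [← mul_assoc, ← pow_succ]; exact hkz

omit [IsScalarTower R E F] [IsScalarTower Rb Eb κ] in
/-- finite generation of the twisted module -/
lemma fg_twist {n : ℕ} (hn : n ≠ 0) {y : F} (hy0 : y ≠ 0)
    {M : Submodule R F} (hM : ∀ x ∈ M, x ^ n * y ∈ (icl R : Subring F)) : M.FG := by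
  have := G.noeth
  obtain ⟨s, hs, h1⟩ := G.alg y⁻¹
  obtain ⟨N, hN, hN'⟩ := G.fin
  have hs0 : algebraMap R F s ≠ 0 := fun h0 => hs (G.injF (by rw [h0, map_zero]))
  refine fg_of_mul_mem hN hs0 fun m hm => hN' _ ?_
  obtain ⟨k, rfl⟩ : ∃ k, n = k + 1 := ⟨n - 1, by omega⟩
  have h2 : (algebraMap R F s * m) ^ (k + 1) ∈ (icl R : Subring F) := by
    have : (algebraMap R F s * m) ^ (k + 1) =
        algebraMap R F s ^ k * (s • y⁻¹) * (m ^ (k + 1) * y) := by
      rw [Algebra.smul_def]; field_simp; ring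
    rw [this]
    exact mul_mem (mul_mem (pow_mem (isIntegral_algebraMap (x := s)) _) h1) (hM m hm)
  exact intClosed_icl.of_pow hn h2

variable [FiniteDimensional E F] [Algebra.IsSeparable E F] [FiniteDimensional Eb κ]
  [Algebra.IsSeparable Eb κ] [IsDomain Rb] [IsPrincipalIdealRing Rb]

/-- **Lifting**: the special element `w ∈ R` is radical modulo `π`. -/
theorem lift {n : ℕ} (hn : n ≠ 0) {w : R} (hw : RadEl (q w)) {y : F} (hyV : y ∈ V)
    (hy : rd red y = 1)
    (hdual : ∀ x ∈ V, (∀ m, RadMem (icl R : Subring F) (algebraMap R F w)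
        ((algebraMap R F w * m) ^ n * y⁻¹) →
      ∃ r : R, Algebra.trace E F (x * m) = algebraMap R E r) → x ^ n * y ∈ (icl R : Subring F))
    {a : κ} (ha : IsIntegral Rb a) :
    ∃ x ∈ V, x ^ n * y ∈ (icl R : Subring F) ∧ rd red x = a := by
  have hV := G.vring
  have hy0 : y ≠ 0 := VRing.ne_zero_of_red (red := red) (by rw [hy]; exact one_ne_zero)
  have hyi : y⁻¹ ∈ V := hV.inv_mem hyV (by rw [hy]; exact one_ne_zero)
  have hred_yi : rd red y⁻¹ = 1 := by
    rw [hV.red_inv hyV (by rw [hy]; exact one_ne_zero), hy, inv_one]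
  have hR : ∀ r : R, algebraMap R F r ∈ (icl R : Subring F) := fun r => isIntegral_algebraMap
  set v : F := algebraMap R F w with hv
  have hvb : algebraMap Rb κ (q w) = rd red v := by rw [← G.red_eq]
  have hvb0 : rd red v ≠ 0 := by
    rw [← hvb]
    exact fun h0 => hw.1 (G.injK (by rw [h0, map_zero]))
  have hv0 : v ≠ 0 := VRing.ne_zero_of_red hvb0
  have hvV : v ∈ V := G.mem w
  have hvi : v⁻¹ ∈ V := hV.inv_mem hvV hvb0
  have hvB : v ∈ (icl R : Subring F) := hR w
  let M : Submodule R F := twist (icl R) intClosed_icl hR n hn y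
  let M' : Submodule R F := rtwist (icl R) intClosed_icl hR n hn v y⁻¹
  have hVic : ∀ x : F, x ^ n ∈ V → x ∈ V := by
    intro x hx
    exact hV.mem_of_isIntegral (IsIntegral.of_pow (Nat.pos_of_ne_zero hn)
      (isIntegral_algebraMap (R := V) (A := F) (x := ⟨x ^ n, hx⟩)))
  have hM'V' : ∀ x ∈ M', v * x ∈ V := by
    intro x hx
    apply hVic
    have h1 : (v * x) ^ n = ((v * x) ^ n * y⁻¹) * y := by field_simp
    rw [h1]
    exact mul_mem (G.int_le hx.1) hyV
  have hM'V : ∀ x ∈ M', x ∈ V := by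
    intro x hx
    have h1 : x = v⁻¹ * (v * x) := by field_simp
    rw [h1]
    exact mul_mem hvi (hM'V' x hx)
  have hspan0 : ∀ (z : F), ∀ x : F, ∃ s : R, s ≠ 0 ∧
      (s • x) ^ n * z ∈ (icl R : Subring F) := by
    intro z x
    obtain ⟨s, hs, h1⟩ := G.alg (x ^ n * z)
    refine ⟨s, hs, ?_⟩
    obtain ⟨m, rfl⟩ : ∃ m, n = m + 1 := ⟨n - 1, by omega⟩
    have : (s • x) ^ (m + 1) * z = algebraMap R F s ^ m * (s • (x ^ (m + 1) * z)) := by
      rw [Algebra.smul_def, Algebra.smul_def]; ring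
    rw [this]
    exact mul_mem (pow_mem (hR s) _) h1
  have hspan : ∀ x : F, ∃ s : R, s ≠ 0 ∧ s • x ∈ M' := by
    intro x
    obtain ⟨s, hs, h1⟩ := hspan0 y⁻¹ x
    refine ⟨s, hs, ?_⟩
    show RadMem (icl R : Subring F) v ((v * (s • x)) ^ n * y⁻¹)
    have h2 : (v * (s • x)) ^ n * y⁻¹ = v ^ n * ((s • x) ^ n * y⁻¹) := by ring
    refine ⟨?_, 1, v ^ (n - 1) * ((s • x) ^ n * y⁻¹), ?_, ?_⟩
    · rw [h2]; exact mul_mem (pow_mem hvB _) h1
    · exact mul_mem (pow_mem hvB _) h1
    · rw [pow_one, h2]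
      obtain ⟨m, rfl⟩ : ∃ m, n = m + 1 := ⟨n - 1, by omega⟩
      rw [Nat.add_sub_cancel, pow_succ]; ring
  have hfg : M'.FG := by
    refine G.fg_twist hn (y := v ^ n * y⁻¹) (mul_ne_zero (pow_ne_zero _ hv0) (inv_ne_zero hy0))
      fun x hx => ?_
    have h1 : x ^ n * (v ^ n * y⁻¹) = (v * x) ^ n * y⁻¹ := by rw [mul_pow]; ring
    rw [h1]
    exact hx.1
  have hsat : ∀ x ∈ V, π * x ∈ M' → x ∈ M' := by
    intro x hx h1
    obtain ⟨h4, N, b, hb, hN⟩ : RadMem (icl R : Subring F) v ((v * (π * x)) ^ n * y⁻¹) := h1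
    have h5 : (v * (π * x)) ^ n * y⁻¹ = π ^ n * ((v * x) ^ n * y⁻¹) := by ring
    have h6 : (v * x) ^ n * y⁻¹ ∈ V := mul_mem (pow_mem (mul_mem hvV hx) n) hyi
    show RadMem (icl R : Subring F) v ((v * x) ^ n * y⁻¹)
    rw [h5] at h4 hN
    refine ⟨G.sat_pow' n _ h6 h4, N, v⁻¹ * ((v * x) ^ n * y⁻¹) ^ N, ?_, by field_simp⟩
    refine G.sat_pow' (n * N) _ (mul_mem hvi (pow_mem h6 _)) ?_
    have h7 : π ^ (n * N) * (v⁻¹ * ((v * x) ^ n * y⁻¹) ^ N) = b := by
      have : π ^ (n * N) * (v⁻¹ * ((v * x) ^ n * y⁻¹) ^ N) =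
          v⁻¹ * (π ^ n * ((v * x) ^ n * y⁻¹)) ^ N := by
        rw [mul_pow (π ^ n), ← pow_mul]; ring
      rw [this, hN]
      field_simp
    rw [h7]; exact hb
  have key : ∀ m ∈ M', ∃ r : Rb, Algebra.trace Eb κ (a * rd red m) = algebraMap Rb Eb r := by
    intro m hm
    have hmV := hM'V m hm
    have hmV' := hM'V' m hm
    have hrd : ∀ z : F, z ∈ (icl R : Subring F) → rd red z ∈ (icl Rb : Subring κ) := fun z hz =>
      G.toChart.isIntegral_rd hz (G.int_le hz)
    have h1 : RadMem (icl Rb : Subring κ) (algebraMap Rb κ (q w)) (rd red (v * m)) := by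
      obtain ⟨h4, N, b, hb, hN⟩ : RadMem (icl R : Subring F) v ((v * m) ^ n * y⁻¹) := hm
      have h5 : rd red (v * m) ^ n = rd red ((v * m) ^ n * y⁻¹) := by
        rw [rd_mul red (pow_mem hmV' n) hyi, hred_yi, mul_one, rd_pow red hmV']
      have h6 : rd red (v * m) ∈ (icl Rb : Subring κ) := by
        apply intClosed_icl.of_pow hn
        rw [h5]
        exact hrd _ h4
      refine RadMem.of_pow (n := n) h6 ⟨pow_mem h6 n, N, rd red b, hrd _ hb, ?_⟩
      rw [h5, ← rd_pow red (G.int_le h4), hN, rd_mul red hvV (G.int_le hb), hvb]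
    have h2 : RadMem (icl Rb : Subring κ) (algebraMap Rb κ (q w)) (rd red (v * m) * a) :=
      h1.mul_right ha
    obtain ⟨r, hr⟩ := trace_radical G.icb
      (fun a b hab => G.injK (by
        rw [IsScalarTower.algebraMap_apply Rb Eb κ, hab, ← IsScalarTower.algebraMap_apply]))
      hw h2
    refine ⟨r, ?_⟩
    have h3 : rd red (v * m) * a = algebraMap Rb Eb (q w) • (a * rd red m) := by
      rw [Algebra.smul_def, ← IsScalarTower.algebraMap_apply, hvb, rd_mul red hvV hmV]
      ring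
    rw [h3, map_smul, smul_eq_mul, map_mul (algebraMap Rb Eb)] at hr
    have hvE : algebraMap Rb Eb (q w) ≠ 0 := by
      intro h0
      apply hvb0
      rw [← hvb, IsScalarTower.algebraMap_apply Rb Eb κ, h0, map_zero]
    exact mul_left_cancel₀ hvE hr
  obtain ⟨x, hxM, hxV, hxa⟩ := G.purity M' hM'V hfg hsat hspan M hdual a key
  exact ⟨x, hxV, hxM, hxa⟩

end IChart

end Lift

end Fermat.Agent.X1Key
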