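import Fermat.Agent.X1.KeyLimit
import Fermat.Agent.X1.KeyDVR
import Fermat.Agent.X1Char.Key

/-!
# First and last steps of KEY: descent to a number field, and the conclusion `ψ = 1`
-/

set_option autoImplicit false

open UpperHalfPlane hiding I
open ModularForm Matrix.SpecialLinearGroup Filter Asymptotics CongruenceSubgroup
open scoped MatrixGroups Manifold ModularForm Polynomial Topology

noncomputable section

namespace Fermat.Agent.X1Key

open Fermat.Agent.JLevelOne Fermat.Agent.X0Emb Fermat.Agent.ModFun ModularCurve Fermat.Agent.FG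
open Fermat.Agent.EisChar Fermat.Agent.S28aux Fermat.Agent.IntStruct Fermat.Agent.X1
open Fermat.Agent.GaussVal Fermat.Agent.X1Char

section Descent

variable {K L : Type*} [Field K] [Field L] {ι : K →+* ℂ} (φ : L →+* K)
  {Γ : Subgroup SL(2, ℤ)} {h : ℕ} {F : ℍ → ℂ} {x : LaurentSeries L}

theorem isMF_comp_iff :
    IsMF (ι.comp φ) Γ h F x ↔ IsMF ι Γ h F (coeffMap φ x) := by
  constructor
  · intro H
    exact ⟨H.mdiff, H.inv, H.growth, by rw [X1Char.coeffMap_comp]; exact H.lexp⟩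
  · intro H
    exact ⟨H.mdiff, H.inv, H.growth, by
      have := H.lexp
      rwa [X1Char.coeffMap_comp] at this⟩

theorem coeffMap_mem_AG_iff : coeffMap φ x ∈ AG ι Γ h ↔ x ∈ AG (ι.comp φ) Γ h := by
  rw [mem_AG, mem_AG]
  exact ⟨fun ⟨F, hF⟩ => ⟨F, (isMF_comp_iff φ).mpr hF⟩, fun ⟨F, hF⟩ => ⟨F, (isMF_comp_iff φ).mp hF⟩⟩

theorem coeffMap_mem_FG (hx : x ∈ FG (ι.comp φ) Γ h) : coeffMap φ x ∈ FG ι Γ h := by
  obtain ⟨a, ha, b, hb, hb0, rfl⟩ := mem_FG_iff.mp hx
  rw [map_div₀]
  exact div_mem (AG_le_FG ((coeffMap_mem_AG_iff φ).mpr ha))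
    (AG_le_FG ((coeffMap_mem_AG_iff φ).mpr hb))

end Descent

section NumberField

/-- A linear combination of integral series has coefficients in a number field. -/
theorem exists_numberField_one {y : LaurentSeries Qbar} (hy : y ∈ intAlg Qbar) :
    ∃ L₀ : IntermediateField ℚ Qbar, FiniteDimensional ℚ L₀ ∧
      ∀ L : IntermediateField ℚ Qbar, L₀ ≤ L → ∃ x : LaurentSeries L, x ∈ intAlg L ∧
        coeffMap (algebraMap L Qbar) x = y := by
  classical
  obtain ⟨κ, _, c, G, rfl⟩ := exists_sum_of_mem_intAlg hy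
  refine ⟨IntermediateField.adjoin ℚ (Set.range c), ?_, fun L hL => ?_⟩
  · have := isAlgebraic_Qbar
    exact IntermediateField.finiteDimensional_adjoin fun x _ =>
      (Algebra.IsAlgebraic.isAlgebraic (R := ℚ) x).isIntegral
  · have hc : ∀ i, c i ∈ L := fun i => hL (IntermediateField.subset_adjoin _ _ ⟨i, rfl⟩)
    refine ⟨∑ i, algebraMap L (LaurentSeries L) ⟨c i, hc i⟩ * coeffMap (Int.castRingHom L) (G i),
      sum_mem fun i _ => mul_mem (Subalgebra.algebraMap_mem _ _)
        (Algebra.subset_adjoin ⟨_, rfl⟩), ?_⟩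
    rw [map_sum]
    refine Finset.sum_congr rfl fun i _ => ?_
    rw [map_mul]
    have e1 : coeffMap (algebraMap L Qbar) (algebraMap L (LaurentSeries L) ⟨c i, hc i⟩) =
        algebraMap Qbar (LaurentSeries Qbar) (c i) := by
      rw [algebraMap_laurentSeries_eq_single, algebraMap_laurentSeries_eq_single, coeffMap_single]
      rfl
    have e2 : coeffMap (algebraMap L Qbar) (coeffMap (Int.castRingHom L) (G i)) =
        coeffMap (Int.castRingHom Qbar) (G i) := by
      ext k
      rw [coeffMap_coeff, coeffMap_coeff, coeffMap_coeff]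
      exact map_intCast _ _
    rw [e1, e2]

/-- Two linear combinations of integral series have coefficients in a common number field. -/
theorem exists_numberField_two {y z : LaurentSeries Qbar} (hy : y ∈ intAlg Qbar)
    (hz : z ∈ intAlg Qbar) : ∃ L : IntermediateField ℚ Qbar, FiniteDimensional ℚ L ∧
      (∃ x : LaurentSeries L, x ∈ intAlg L ∧ coeffMap (algebraMap L Qbar) x = y) ∧
      ∃ x : LaurentSeries L, x ∈ intAlg L ∧ coeffMap (algebraMap L Qbar) x = z := by
  obtain ⟨L₁, h1, h1'⟩ := exists_numberField_one hy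
  obtain ⟨L₂, h2, h2'⟩ := exists_numberField_one hz
  exact ⟨L₁ ⊔ L₂, IntermediateField.finiteDimensional_sup L₁ L₂, h1' _ le_sup_left,
    h2' _ le_sup_right⟩

end NumberField

section Last

variable {K : Type*} [Field K] {ι : K →+* ℂ} {Γ : Subgroup SL(2, ℤ)} {ψ : Γ →* ℂˣ} {G : ℍ → ℂ}
  {y : LaurentSeries K}

/-- A function with character whose expansion lies in the function field is invariant. -/
theorem psi_eq_one_of_mem_FG (hG : IsCF ι Γ ψ G y) (hy : y ≠ 0) (h : y ∈ FG ι Γ 1) : ψ = 1 := by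
  obtain ⟨a, ⟨A', hA⟩, b, ⟨B', hB⟩, hb0, hab⟩ := mem_FG_iff.mp h
  have hba : b * y = a := by rw [hab, mul_div_cancel₀ _ hb0]
  have h1 := (IsCF.ofIsMF hB).mul hG
  rw [hba] at h1
  have h2 := h1.char_unique (IsCF.ofIsMF hA) (by rw [← hba]; exact mul_ne_zero hb0 hy)
  ext γ
  have h3 := DFunLike.congr_fun h2 γ
  rw [MonoidHom.mul_apply, MonoidHom.one_apply, one_mul] at h3
  rw [h3, MonoidHom.one_apply]

/-- An element of `K((q))` with `ζ ^ n = 1` is a constant. -/
theorem mem_FG_of_pow_eq_one [IsAlgClosed K] {n : ℕ} (hn : n ≠ 0) {ζ : LaurentSeries K}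
    (hζ : ζ ^ n = 1) : ζ ∈ FG ι Γ 1 := by
  -- `X ^ n - 1` splits over `K`
  have h1 : (Polynomial.X ^ n - 1 : Polynomial K).Splits := IsAlgClosed.splits _
  have hne : (Polynomial.X ^ n - 1 : Polynomial K) ≠ 0 := by
    have := Polynomial.X_pow_sub_C_ne_zero (Nat.pos_of_ne_zero hn) (1 : K)
    simpa using this
  have h2 : Polynomial.aeval ζ (Polynomial.X ^ n - 1 : Polynomial K) = 0 := by
    simp [hζ]
  have h3 : IsAlgebraic K ζ := ⟨_, hne, h2⟩
  have h4 : ζ ∈ (algebraMap K (LaurentSeries K)).range := by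
    have h5 : (minpoly K ζ).degree = 1 :=
      IsAlgClosed.degree_eq_one_of_irreducible K (minpoly.irreducible h3.isIntegral)
    exact minpoly.mem_range_of_degree_eq_one K ζ h5
  obtain ⟨c, rfl⟩ := h4
  exact (FG ι Γ 1).algebraMap_mem c

/-- **Last step**: if `(y / z) ^ n` is an `n`-th power in the function field, then `ψ = 1`. -/
theorem psi_eq_one_of_root [IsAlgClosed K] (hG : IsCF ι Γ ψ G y) (hy : y ≠ 0)
    {z w : LaurentSeries K} (hz : z ∈ FG ι Γ 1) (hz0 : z ≠ 0) (hw : w ∈ FG ι Γ 1) {n : ℕ}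
    (hn : n ≠ 0) (h : w ^ n = y ^ n / z ^ n) : ψ = 1 := by
  have hyz : y / z ≠ 0 := div_ne_zero hy hz0
  have hw0 : w ≠ 0 := by
    rintro rfl
    rw [zero_pow hn, ← div_pow] at h
    exact pow_ne_zero n hyz h.symm
  have h1 : (y / z / w) ^ n = 1 := by
    rw [div_pow (y / z), h, ← div_pow, div_self (pow_ne_zero n hyz)]
  have h2 : y / z / w ∈ FG ι Γ 1 := mem_FG_of_pow_eq_one hn h1
  refine psi_eq_one_of_mem_FG hG hy ?_
  have h3 : y = (y / z / w) * w * z := by
    field_simp
  rw [h3]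
  exact mul_mem (mul_mem h2 hw) hz

/-- **Conclusion from the approximations**: here `a`, `z` are the expansions over `L` of `G ^ n`
and of an invariant function, `φ : L → K` the embedding, `O` a discrete valuation ring of `L`. -/
theorem psi_eq_one_of_approx [IsAlgClosed K] {L : Type*} [Field L] [Algebra L K]
    (hG : IsCF ι Γ ψ G y) (hy : y ≠ 0) {n : ℕ} (hn : n ≠ 0) {a z : LaurentSeries L}
    (ha : coeffMap (algebraMap L K) a = y ^ n) (hz : z ∈ FG (ι.comp (algebraMap L K)) Γ 1)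
    (hz0 : z ≠ 0) (O : ValuationSubring L) {π : L} (hπ1 : O.valuation π < 1) (hπ0 : π ≠ 0)
    (hπ : ∀ c : L, c ≠ 0 → ∃ (m : ℤ) (u : L), O.valuation u = 1 ∧ c = π ^ m * u)
    (hF : FG (ι.comp (algebraMap L K)) Γ 1 ≤ intField L)
    (W : Submodule L (FG (ι.comp (algebraMap L K)) Γ 1)) [FiniteDimensional L W]
    (y₀ : FG (ι.comp (algebraMap L K)) Γ 1) (hy₀ : (y₀ : LaurentSeries L) = a / z ^ n)
    (h : ∀ i : ℕ, ∃ f ∈ W, (f : LaurentSeries L) ∈ gaussSubring O ∧
      ∃ t : FG (ι.comp (algebraMap L K)) Γ 1, (t : LaurentSeries L) ∈ gaussSubring O ∧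
        f ^ n - y₀ = algebraMap L (FG (ι.comp (algebraMap L K)) Γ 1) π ^ i * t) :
    ψ = 1 := by
  obtain ⟨r, c, b, -, hroot⟩ := exists_root_of_approx O hπ1 hπ0 hπ
    (FG (ι.comp (algebraMap L K)) Γ 1) hF W y₀ hn h K
  have hinj : Function.Injective (coeffMap (algebraMap L K)) := coeffMap_injective _
  refine psi_eq_one_of_root hG hy (z := coeffMap (algebraMap L K) z)
    (coeffMap_mem_FG (algebraMap L K) hz) ((map_ne_zero_iff _ hinj).mpr hz0) ?_ hn
    (hroot.trans ?_)
  · refine sum_mem fun j _ => mul_mem ((FG ι Γ 1).algebraMap_mem _)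
      (coeffMap_mem_FG (algebraMap L K) (b j).2)
  · rw [hy₀, map_div₀, ha, map_pow]

end Last

/-! ### The function field is generated by integral series -/

theorem intAlg_le_intField {K : Type*} [Field K] {x : LaurentSeries K} (hx : x ∈ intAlg K) :
    x ∈ intField K := by
  have h : intAlg K ≤ (intField K).toSubalgebra := by
    rw [intAlg]
    refine Algebra.adjoin_le ?_
    rintro _ ⟨Y, rfl⟩
    exact coeffMap_int_mem_intField Y
  exact h hx

theorem FG_le_intField {K : Type*} [Field K] {ι : K →+* ℂ} {Γ : Subgroup SL(2, ℤ)} [GoodGroup Γ]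
    [IntGroup Γ] : FG ι Γ 1 ≤ intField K := by
  intro x hx
  obtain ⟨a, ⟨A', hA⟩, b, ⟨B', hB⟩, -, rfl⟩ := mem_FG_iff.mp hx
  exact div_mem (intAlg_le_intField (mem_intAlg_of_isMF hA))
    (intAlg_le_intField (mem_intAlg_of_isMF hB))

/-! ### Reduction of `KeyFun` to approximation over number fields -/

section Reduction

variable (A : ValuationSubring Qbar) (L : IntermediateField ℚ Qbar)

/-- the restriction of the place `A` to `L` -/
abbrev resPlace : ValuationSubring L := A.comap (algebraMap L Qbar)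

variable {L}

theorem exists_incl_res {x : LaurentSeries L} {X : LaurentSeries A}
    (h : coeffMap (algebraMap L Qbar) x = incl A X) :
    ∃ X' : LaurentSeries (resPlace A L), incl (resPlace A L) X' = x ∧
      coeffMap (comapHom A (algebraMap L Qbar)) X' = X := by
  obtain ⟨X', hX'⟩ := exists_incl_of_coeff_mem (resPlace A L) (y := x) (fun k => by
    rw [ValuationSubring.mem_comap, ← coeffMap_coeff, h, coeffMap_coeff]
    exact (X.coeff k).2)
  refine ⟨X', hX', ?_⟩
  apply incl_injective A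
  rw [← h, ← hX']
  ext k
  rw [coeffMap_coeff, coeffMap_coeff, coeffMap_coeff, coeffMap_coeff]
  rfl

theorem redS_comapHom (X' : LaurentSeries (resPlace A L)) :
    redS A (coeffMap (comapHom A (algebraMap L Qbar)) X') =
      coeffMap (resHom A (algebraMap L Qbar)) (redS (resPlace A L) X') := by
  ext k
  rw [coeffMap_coeff, coeffMap_coeff, coeffMap_coeff, coeffMap_coeff, resHom_residue]

/-- **Reduction of `KeyFun`** to an approximation statement over number fields. -/
theorem keyFun_of_local {ι : Qbar →+* ℂ} {M : ℕ} {Γ : Subgroup SL(2, ℤ)} [Between M Γ]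
    [GoodGroup Γ] [IntGroup Γ] {n : ℕ} (hn : n ≠ 0) {p : ℕ} (hp : p.Prime)
    (hA : A.LiesOverPrime p)
    (key : ∀ (L : IntermediateField ℚ Qbar) [FiniteDimensional ℚ L] (π : L),
      (resPlace A L).valuation π < 1 → π ≠ 0 →
      (∀ c : L, c ≠ 0 → ∃ (m : ℤ) (u : L), (resPlace A L).valuation u = 1 ∧ c = π ^ m * u) →
      ∀ (ψ : Γ →* ℂˣ), ψ ∈ xGroup M Γ n → ∀ (G H : ℍ → ℂ) (y : LaurentSeries Qbar)
      (a z : LaurentSeries (resPlace A L)), IsCF ι Γ ψ G y → y ≠ 0 →
      coeffMap (algebraMap L Qbar) (incl (resPlace A L) a) = y ^ n →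
      IsMF (ι.comp (algebraMap L Qbar)) Γ 1 (G ^ n) (incl (resPlace A L) a) →
      IsMF (ι.comp (algebraMap L Qbar)) Γ 1 H (incl (resPlace A L) z) →
      redS (resPlace A L) z ≠ 0 → redS (resPlace A L) a = redS (resPlace A L) z ^ n →
      ∃ (W : Submodule L (FG (ι.comp (algebraMap L Qbar)) Γ 1)) (_ : FiniteDimensional L W)
        (y₀ : FG (ι.comp (algebraMap L Qbar)) Γ 1),
        (y₀ : LaurentSeries L) = incl (resPlace A L) a / incl (resPlace A L) z ^ n ∧
        ∀ i : ℕ, ∃ f ∈ W, (f : LaurentSeries L) ∈ gaussSubring (resPlace A L) ∧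
          ∃ t : FG (ι.comp (algebraMap L Qbar)) Γ 1,
            (t : LaurentSeries L) ∈ gaussSubring (resPlace A L) ∧
            f ^ n - y₀ = algebraMap L (FG (ι.comp (algebraMap L Qbar)) Γ 1) π ^ i * t) :
    KeyFun ι M Γ n A := by
  intro ψ hψ G H y Y Z hG hY hH hZ hYZ
  have hY0 : Y ≠ 0 := by
    rintro rfl
    rw [map_zero] at hYZ
    exact pow_ne_zero n hZ hYZ.symm
  have hy : y ≠ 0 := by
    rintro rfl
    rw [zero_pow hn] at hY
    exact hY0 (incl_injective A (by rw [hY, map_zero]))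
  have hGn : IsMF ι Γ 1 (G ^ n) (y ^ n) :=
    ((hG.pow n).char_congr (mem_charGroup.mp (xGroup_le n hψ)).1).toIsMF
  obtain ⟨L, hL, ⟨a, -, ha⟩, ⟨z, -, hz⟩⟩ := exists_numberField_two (mem_intAlg_of_isMF hGn)
    (mem_intAlg_of_isMF hH)
  obtain ⟨a', ha', haY⟩ := exists_incl_res A (x := a) (X := Y) (by rw [ha, hY])
  obtain ⟨z', hz', hzZ⟩ := exists_incl_res A (x := z) (X := Z) hz
  have hinj : Function.Injective (coeffMap (resHom A (algebraMap L Qbar))) := coeffMap_injective _
  have hz0 : redS (resPlace A L) z' ≠ 0 := by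
    intro h0
    apply hZ
    rw [← hzZ, redS_comapHom, h0, map_zero]
  have haz : redS (resPlace A L) a' = redS (resPlace A L) z' ^ n := by
    apply hinj
    rw [map_pow, ← redS_comapHom, ← redS_comapHom, haY, hzZ, hYZ]
  obtain ⟨π, hπ1, hπ0, hπ⟩ := exists_uniformizer A hp hA L
  have hGn' : IsMF (ι.comp (algebraMap L Qbar)) Γ 1 (G ^ n) (incl (resPlace A L) a') := by
    rw [isMF_comp_iff, ha', ha]
    exact hGn
  have hH' : IsMF (ι.comp (algebraMap L Qbar)) Γ 1 H (incl (resPlace A L) z') := by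
    rw [isMF_comp_iff, hz', hz]
    exact hH
  obtain ⟨W, hW, y₀, hy₀, happ⟩ := key L π hπ1 hπ0 hπ ψ hψ G H y a' z' hG hy
    (by rw [ha', ha]) hGn' hH' hz0 haz
  exact psi_eq_one_of_approx hG hy hn (a := incl (resPlace A L) a') (z := incl (resPlace A L) z')
    (by rw [ha', ha]) hH'.mem_FG (incl_ne_zero hz0) (resPlace A L) hπ1 hπ0 hπ FG_le_intField W y₀ hy₀
    happ

end Reduction

end Fermat.Agent.X1Key

end
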