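import Fermat.Agent.GaussVal.Field

/-!
# The limit argument

If a system of polynomial equations over a discretely valued field `L` has integral solutions
modulo every power of the uniformizer, then it has a solution in any algebraically closed field
containing `L`.
-/

set_option autoImplicit false

noncomputable section

namespace Fermat.Agent.X1Key

section Nullstellensatz

variable {L : Type*} [Field L] (O : ValuationSubring L) {π : L}

theorem exists_pow_mul_mem (hπ1 : O.valuation π < 1)
    (hπ : ∀ c : L, c ≠ 0 → ∃ (m : ℤ) (u : L), O.valuation u = 1 ∧ c = π ^ m * u) (c : L) :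
    ∃ m : ℕ, ∀ k, m ≤ k → π ^ k * c ∈ O := by
  by_cases hc : c = 0
  · exact ⟨0, fun k _ => by rw [hc, mul_zero]; exact O.zero_mem⟩
  by_cases hπ0 : π = 0
  · refine ⟨1, fun k hk => ?_⟩
    rw [hπ0, zero_pow (by omega), zero_mul]
    exact O.zero_mem
  obtain ⟨m, u, hu, rfl⟩ := hπ c hc
  refine ⟨m.natAbs, fun k hk => ?_⟩
  have hu' : u ∈ O := (O.valuation_le_one_iff u).mp hu.le
  have hπO : π ∈ O := (O.valuation_le_one_iff π).mp hπ1.le
  have h1 : 0 ≤ (k : ℤ) + m := by omega
  obtain ⟨j, hj⟩ := Int.eq_ofNat_of_zero_le h1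
  rw [← mul_assoc, ← zpow_natCast, ← zpow_add₀ hπ0, hj]
  exact mul_mem (by rw [zpow_natCast]; exact pow_mem hπO j) hu'

/-- evaluation of a polynomial with integral coefficients at an integral point -/
theorem eval_mem {σ : Type*} {p : MvPolynomial σ L} (hp : ∀ d, p.coeff d ∈ O) {x : σ → L}
    (hx : ∀ j, x j ∈ O) : MvPolynomial.eval x p ∈ O := by
  rw [MvPolynomial.eval_eq]
  refine sum_mem fun d _ => mul_mem (hp d) (prod_mem fun i _ => pow_mem (hx i) _)

/-- **Approximate solutions give solutions.** -/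
theorem exists_common_zero (hπ1 : O.valuation π < 1) (hπ0 : π ≠ 0)
    (hπ : ∀ c : L, c ≠ 0 → ∃ (m : ℤ) (u : L), O.valuation u = 1 ∧ c = π ^ m * u)
    {σ : Type*} [Finite σ] {ι : Type*} (P : ι → MvPolynomial σ L)
    (h : ∀ i : ℕ, ∃ x : σ → L, (∀ j, x j ∈ O) ∧
      ∀ a, ∃ z ∈ O, MvPolynomial.eval x (P a) = π ^ i * z)
    (K : Type*) [Field K] [Algebra L K] [IsAlgClosed K] :
    ∃ c : σ → K, ∀ a, MvPolynomial.aeval c (P a) = 0 := by
  classical
  set I : Ideal (MvPolynomial σ L) := Ideal.span (Set.range P) with hI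
  have hne : I ≠ ⊤ := by
    intro htop
    have h1 : (1 : MvPolynomial σ L) ∈ I := by rw [htop]; trivial
    rw [hI, Ideal.span, Finsupp.mem_span_range_iff_exists_finsupp] at h1
    obtain ⟨c, hc⟩ := h1
    -- common denominator
    have h2 : ∃ m : ℕ, ∀ a ∈ c.support, ∀ d, π ^ m * (c a).coeff d ∈ O := by
      have h3 : ∀ a d, ∃ m : ℕ, ∀ k, m ≤ k → π ^ k * (c a).coeff d ∈ O := fun a d =>
        exists_pow_mul_mem O hπ1 hπ _
      choose m hm using h3
      refine ⟨∑ a ∈ c.support, ∑ d ∈ (c a).support, m a d, fun a ha d => ?_⟩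
      by_cases hd : d ∈ (c a).support
      · refine hm a d _ ?_
        exact (Finset.single_le_sum (f := fun d => m a d) (fun _ _ => Nat.zero_le _) hd).trans
          (Finset.single_le_sum (f := fun a => ∑ d ∈ (c a).support, m a d)
            (fun _ _ => Nat.zero_le _) ha)
      · rw [MvPolynomial.notMem_support_iff.mp hd, mul_zero]
        exact O.zero_mem
    obtain ⟨m, hm⟩ := h2
    obtain ⟨x, hx, hxP⟩ := h (m + 1)
    have h4 : ∃ z ∈ O, π ^ m = π ^ (m + 1) * z := by
      choose z hz hzP using hxP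
      refine ⟨∑ a ∈ c.support, (π ^ m * MvPolynomial.eval x (c a)) * z a, ?_, ?_⟩
      · refine sum_mem fun a ha => mul_mem ?_ (hz a)
        have := eval_mem O (p := MvPolynomial.C (π ^ m) * c a) (fun d => by
          rw [MvPolynomial.coeff_C_mul]; exact hm a ha d) hx
        rwa [map_mul, MvPolynomial.eval_C] at this
      · have h5 := congrArg (MvPolynomial.eval x) hc
        rw [Finsupp.sum, map_sum, map_one] at h5
        have h6 : π ^ m = ∑ a ∈ c.support, π ^ m * MvPolynomial.eval x (c a) *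
            MvPolynomial.eval x (P a) := by
          conv_lhs => rw [← mul_one (π ^ m), ← h5, Finset.mul_sum]
          refine Finset.sum_congr rfl fun a _ => ?_
          rw [smul_eq_mul, map_mul, mul_assoc]
        conv_lhs => rw [h6]
        rw [Finset.mul_sum]
        refine Finset.sum_congr rfl fun a _ => ?_
        rw [hzP a]
        ring
    obtain ⟨z, hz, hz2⟩ := h4
    have h5 : π * z = 1 := by
      have h7 : π ^ m * (π * z) = π ^ m * 1 := by rw [mul_one, ← mul_assoc, ← pow_succ, ← hz2]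
      exact mul_left_cancel₀ (pow_ne_zero m hπ0) h7
    have h6 : O.valuation π * O.valuation z = 1 := by rw [← map_mul, h5, map_one]
    have h8 : O.valuation z ≤ 1 := (O.valuation_le_one_iff z).mpr hz
    have h9 : O.valuation π * O.valuation z < 1 := mul_lt_one_of_lt_of_le hπ1 h8
    exact absurd h6 h9.ne
  obtain ⟨J, hJ, hIJ⟩ := Ideal.exists_le_maximal I hne
  let : Field (MvPolynomial σ L ⧸ J) := Ideal.Quotient.field J
  have hft : Algebra.FiniteType L (MvPolynomial σ L ⧸ J) := inferInstance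
  have hfin : Module.Finite L (MvPolynomial σ L ⧸ J) := finite_of_finite_type_of_isJacobsonRing L _
  have halg : Algebra.IsAlgebraic L (MvPolynomial σ L ⧸ J) := Algebra.IsAlgebraic.of_finite L _
  let φ : (MvPolynomial σ L ⧸ J) →ₐ[L] K := IsAlgClosed.lift
  refine ⟨fun j => φ (Ideal.Quotient.mk J (MvPolynomial.X j)), fun a => ?_⟩
  have h1 : MvPolynomial.aeval (fun j => φ (Ideal.Quotient.mk J (MvPolynomial.X j))) =
      φ.comp (Ideal.Quotient.mkₐ L J) := by
    apply MvPolynomial.algHom_ext
    intro j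
    rw [MvPolynomial.aeval_X]
    rfl
  rw [h1, AlgHom.comp_apply]
  have h2 : Ideal.Quotient.mkₐ L J (P a) = 0 :=
    Ideal.Quotient.eq_zero_iff_mem.mpr (hIJ (Ideal.subset_span ⟨a, rfl⟩))
  rw [h2, map_zero]

end Nullstellensatz

/-! ### Laurent series -/

section Series

open ModularCurve Module

variable {L : Type*} [Field L]

/-- A finite dimensional space of Laurent series has a basis dual to a family of coefficient
functionals. -/
theorem exists_coords (n : ℕ) : ∀ (W : Submodule L (LaurentSeries L)) [FiniteDimensional L W],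
    finrank L W = n → ∃ (b : Fin n → LaurentSeries L) (k : Fin n → ℤ), (∀ j, b j ∈ W) ∧
      ∀ f ∈ W, f = ∑ j, f.coeff (k j) • b j := by
  induction n with
  | zero =>
    intro W _ hW
    refine ⟨Fin.elim0, Fin.elim0, fun j => j.elim0, fun f hf => ?_⟩
    have h1 : W = ⊥ := Submodule.finrank_eq_zero.mp hW
    rw [h1, Submodule.mem_bot] at hf
    rw [hf]
    simp
  | succ n ih =>
    intro W _ hW
    have hne : W ≠ ⊥ := by
      rintro rfl
      rw [finrank_bot] at hW
      omega
    obtain ⟨f, hfW, hf0⟩ := (Submodule.ne_bot_iff W).mp hne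
    obtain ⟨k0, hk0⟩ : ∃ k, f.coeff k ≠ 0 := by
      by_contra hcon
      push Not at hcon
      exact hf0 (HahnSeries.ext (funext hcon))
    -- the functional
    let φ : W →ₗ[L] L :=
      { toFun := fun g => (g : LaurentSeries L).coeff k0
        map_add' := fun a b => by simp
        map_smul' := fun c a => by simp }
    have hφ : φ ≠ 0 := fun h => hk0 (by
      have := LinearMap.congr_fun h ⟨f, hfW⟩
      exact this)
    have hker := Module.Dual.finrank_ker_add_one_of_ne_zero (f := φ) hφ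
    rw [hW] at hker
    set W' : Submodule L (LaurentSeries L) := (LinearMap.ker φ).map W.subtype with hW'
    have hmem : ∀ g : LaurentSeries L, g ∈ W' ↔ g ∈ W ∧ g.coeff k0 = 0 := by
      intro g
      rw [hW', Submodule.mem_map]
      constructor
      · rintro ⟨x, hx, rfl⟩
        exact ⟨x.2, hx⟩
      · rintro ⟨h1, h2⟩
        exact ⟨⟨g, h1⟩, h2, rfl⟩
    have e : LinearMap.ker φ ≃ₗ[L] W' :=
      Submodule.equivMapOfInjective W.subtype W.injective_subtype _
    have hfin' : FiniteDimensional L W' := Module.Finite.equiv e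
    have hfin : finrank L W' = n := by
      rw [← e.finrank_eq]
      omega
    obtain ⟨b, k, hb, hbk⟩ := ih W' hfin
    set f1 : LaurentSeries L := (f.coeff k0)⁻¹ • f with hf1
    have hf1k : f1.coeff k0 = 1 := by
      rw [hf1, HahnSeries.coeff_smul, smul_eq_mul, inv_mul_cancel₀ hk0]
    set b0 : LaurentSeries L := f1 - ∑ j, f1.coeff (k j) • b j with hb0
    have hb0W : b0 ∈ W := by
      refine sub_mem (W.smul_mem _ hfW) (sum_mem fun j _ => W.smul_mem _ ((hmem _).mp (hb j)).1)
    refine ⟨Fin.cons b0 b, Fin.cons k0 k, fun j => ?_, fun g hg => ?_⟩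
    · refine Fin.cases ?_ (fun j => ?_) j
      · exact hb0W
      · rw [Fin.cons_succ]
        exact ((hmem _).mp (hb j)).1
    · rw [Fin.sum_univ_succ]
      simp only [Fin.cons_zero, Fin.cons_succ]
      -- `g - g.coeff k0 • f1 ∈ W'`
      have h1 : g - g.coeff k0 • f1 ∈ W' := by
        rw [hmem]
        refine ⟨sub_mem hg (W.smul_mem _ (W.smul_mem _ hfW)), ?_⟩
        rw [HahnSeries.coeff_sub, HahnSeries.coeff_smul, smul_eq_mul, hf1k, mul_one, sub_self]
      have h2 := hbk _ h1
      have h3 : ∀ j, (g - g.coeff k0 • f1).coeff (k j) =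
          g.coeff (k j) - g.coeff k0 * f1.coeff (k j) := fun j => by
        rw [HahnSeries.coeff_sub, HahnSeries.coeff_smul, smul_eq_mul]
      simp only [h3, sub_smul, Finset.sum_sub_distrib, mul_smul] at h2
      rw [← Finset.smul_sum] at h2
      rw [hb0, smul_sub]
      linear_combination h2

/-- the universal element -/
def univ {r : ℕ} (b : Fin r → LaurentSeries L) : LaurentSeries (MvPolynomial (Fin r) L) :=
  ∑ j, HahnSeries.C (MvPolynomial.X j) * coeffMap (MvPolynomial.C) (b j)

theorem ev_univ {r : ℕ} (b : Fin r → LaurentSeries L) (G : LaurentSeries L) (n : ℕ)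
    {R : Type*} [CommRing R] [Algebra L R] (x : Fin r → R) :
    coeffMap (MvPolynomial.aeval x : MvPolynomial (Fin r) L →ₐ[L] R).toRingHom
        (univ b ^ n - coeffMap MvPolynomial.C G) =
      (∑ j, HahnSeries.C (x j) * coeffMap (algebraMap L R) (b j)) ^ n -
        coeffMap (algebraMap L R) G := by
  have hcomp : ∀ y : LaurentSeries L,
      coeffMap (MvPolynomial.aeval x : MvPolynomial (Fin r) L →ₐ[L] R).toRingHom
        (coeffMap MvPolynomial.C y) = coeffMap (algebraMap L R) y := by
    intro y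
    ext m
    rw [coeffMap_coeff, coeffMap_coeff, coeffMap_coeff]
    exact MvPolynomial.aeval_C x (y.coeff m)
  rw [map_sub, map_pow, hcomp, univ, map_sum]
  congr 2
  refine Finset.sum_congr rfl fun j _ => ?_
  rw [map_mul, hcomp]
  congr 1
  ext m
  rw [coeffMap_coeff, HahnSeries.C_apply, HahnSeries.C_apply, HahnSeries.coeff_single,
    HahnSeries.coeff_single]
  split_ifs
  · exact MvPolynomial.aeval_X x j
  · exact map_zero _

theorem coeffMap_algebraMap_self (y : LaurentSeries L) : coeffMap (algebraMap L L) y = y := by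
  ext m
  rw [coeffMap_coeff]
  rfl

variable (O : ValuationSubring L) {π : L}

/-- **The limit argument for Laurent series.** -/
theorem exists_root_series (hπ1 : O.valuation π < 1) (hπ0 : π ≠ 0)
    (hπ : ∀ c : L, c ≠ 0 → ∃ (m : ℤ) (u : L), O.valuation u = 1 ∧ c = π ^ m * u)
    (W : Submodule L (LaurentSeries L)) [FiniteDimensional L W] (G : LaurentSeries L) (n : ℕ)
    (h : ∀ i : ℕ, ∃ f ∈ W, (∀ k, f.coeff k ∈ O) ∧
      ∀ k, ∃ z ∈ O, (f ^ n - G).coeff k = π ^ i * z)
    (K : Type*) [Field K] [Algebra L K] [IsAlgClosed K] :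
    ∃ (r : ℕ) (c : Fin r → K) (b : Fin r → LaurentSeries L), (∀ j, b j ∈ W) ∧
      (∑ j, HahnSeries.C (c j) * coeffMap (algebraMap L K) (b j)) ^ n =
        coeffMap (algebraMap L K) G := by
  classical
  obtain ⟨r, b, k, hb, hbk⟩ : ∃ (r : ℕ) (b : Fin r → LaurentSeries L) (k : Fin r → ℤ),
      (∀ j, b j ∈ W) ∧ ∀ f ∈ W, f = ∑ j, f.coeff (k j) • b j :=
    ⟨_, exists_coords _ W rfl⟩
  obtain ⟨c, hc⟩ := exists_common_zero O hπ1 hπ0 hπ
    (fun m : ℤ => (univ b ^ n - coeffMap MvPolynomial.C G).coeff m) (fun i => by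
    obtain ⟨f, hfW, hf, hfG⟩ := h i
    refine ⟨fun j => f.coeff (k j), fun j => hf _, fun m => ?_⟩
    obtain ⟨z, hz, hz2⟩ := hfG m
    refine ⟨z, hz, ?_⟩
    rw [← hz2]
    have h1 := ev_univ b G n (R := L) (fun j => f.coeff (k j))
    have h2 := congrArg (fun y : LaurentSeries L => y.coeff m) h1
    simp only [coeffMap_coeff, coeffMap_algebraMap_self] at h2
    refine Eq.trans rfl (h2.trans ?_)
    have h3 : ∑ j, HahnSeries.C (f.coeff (k j)) * b j = f := by
      conv_rhs => rw [hbk f hfW]
      exact Finset.sum_congr rfl fun j _ => HahnSeries.C_mul_eq_smul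
    rw [h3]) K
  refine ⟨r, c, b, hb, ?_⟩
  rw [← sub_eq_zero, ← ev_univ b G n c]
  ext m
  rw [coeffMap_coeff]
  exact hc m

end Series

/-! ### The Gauss valuation -/

section Gauss

open ModularCurve Module Fermat.Agent.GaussVal

variable {L : Type*} [Field L] (O : ValuationSubring L) {π : L}

/-- The series with bounded coefficients. -/
def bddAlg : Subalgebra L (LaurentSeries L) where
  carrier := {x | ∃ c : L, c ≠ 0 ∧ ∃ X : LaurentSeries O,
    algebraMap L (LaurentSeries L) c * x = incl O X}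
  mul_mem' := by
    rintro x y ⟨c, hc, X, hX⟩ ⟨d, hd, Y, hY⟩
    refine ⟨c * d, mul_ne_zero hc hd, X * Y, ?_⟩
    rw [map_mul, map_mul, ← hX, ← hY]
    ring
  add_mem' := by
    rintro x y ⟨c, hc, X, hX⟩ ⟨d, hd, Y, hY⟩
    -- choose common denominators in `O`
    have h1 : ∀ (c : L), c ≠ 0 → ∀ (x : LaurentSeries L) (X : LaurentSeries O),
        algebraMap L (LaurentSeries L) c * x = incl O X → ∃ c' : L, c' ≠ 0 ∧ c' ∈ O ∧
          ∃ X' : LaurentSeries O, algebraMap L (LaurentSeries L) c' * x = incl O X' := by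
      intro c hc x X hX
      rcases O.mem_or_inv_mem c with h | h
      · exact ⟨c, hc, h, X, hX⟩
      · refine ⟨1, one_ne_zero, O.one_mem, HahnSeries.C ⟨c⁻¹, h⟩ * X, ?_⟩
        rw [map_mul, ← hX, map_one, one_mul]
        have h2 : incl O (HahnSeries.C ⟨c⁻¹, h⟩) = algebraMap L (LaurentSeries L) c⁻¹ := by
          rw [algebraMap_laurentSeries_eq_single, HahnSeries.C_apply, coeffMap_single]
          rfl
        rw [h2, ← mul_assoc, ← map_mul, inv_mul_cancel₀ hc, map_one, one_mul]
    obtain ⟨c', hc', hcO, X', hX'⟩ := h1 c hc x X hX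
    obtain ⟨d', hd', hdO, Y', hY'⟩ := h1 d hd y Y hY
    refine ⟨c' * d', mul_ne_zero hc' hd', HahnSeries.C ⟨d', hdO⟩ * X' +
      HahnSeries.C ⟨c', hcO⟩ * Y', ?_⟩
    have h2 : ∀ (a : L) (ha : a ∈ O), incl O (HahnSeries.C ⟨a, ha⟩) =
        algebraMap L (LaurentSeries L) a := by
      intro a ha
      rw [algebraMap_laurentSeries_eq_single, HahnSeries.C_apply, coeffMap_single]
      rfl
    rw [map_add, map_mul (incl O), map_mul (incl O), h2, h2, ← hX', ← hY', map_mul]
    ring
  algebraMap_mem' a := by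
    by_cases ha : a = 0
    · exact ⟨1, one_ne_zero, 0, by rw [ha, map_zero, mul_zero, map_zero]⟩
    · refine ⟨a⁻¹, inv_ne_zero ha, 1, ?_⟩
      rw [← map_mul, inv_mul_cancel₀ ha, map_one, map_one]

theorem mem_bddAlg {x : LaurentSeries L} : x ∈ bddAlg O ↔ ∃ c : L, c ≠ 0 ∧
    ∃ X : LaurentSeries O, algebraMap L (LaurentSeries L) c * x = incl O X := Iff.rfl

theorem intAlg_le_bddAlg : intAlg L ≤ bddAlg O := by
  rw [intAlg, Algebra.adjoin_le_iff]
  rintro _ ⟨Y, rfl⟩
  refine ⟨1, one_ne_zero, coeffMap (Int.castRingHom O) Y, ?_⟩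
  rw [map_one, one_mul]
  ext k
  rw [coeffMap_coeff, coeffMap_coeff, coeffMap_coeff]
  simp

/-- A nonzero bounded series over a discretely valued field has a coefficient with maximal
valuation. -/
theorem scalable_of_bdd (hπ1 : O.valuation π < 1) (hπ0 : π ≠ 0)
    (hπ : ∀ c : L, c ≠ 0 → ∃ (m : ℤ) (u : L), O.valuation u = 1 ∧ c = π ^ m * u)
    {x : LaurentSeries L} (hx : x ∈ bddAlg O) (hx0 : x ≠ 0) : Scalable O x := by
  classical
  obtain ⟨c, hc, X, hX⟩ := hx
  obtain ⟨a, u, hu, rfl⟩ := hπ c hc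
  have hπpos : 0 < O.valuation π := zero_lt_iff.mpr ((Valuation.ne_zero_iff _).mpr hπ0)
  -- the exponents of the coefficients
  let T : ℤ → Prop := fun m => ∃ k : ℤ, ∃ v : L, O.valuation v = 1 ∧ x.coeff k = π ^ m * v
  have hval : ∀ (m : ℤ) (v : L), O.valuation v = 1 →
      O.valuation (π ^ m * v) = O.valuation π ^ m := by
    intro m v hv
    rw [map_mul, hv, mul_one, map_zpow₀]
  have hmem : ∀ k, O.valuation (π ^ a * u * x.coeff k) ≤ 1 := by
    intro k
    have h1 := congrArg (fun z : LaurentSeries L => z.coeff k) hX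
    simp only [coeff_algebraMap_mul, coeffMap_coeff] at h1
    rw [h1]
    exact (O.valuation_le_one_iff _).mpr (X.coeff k).2
  have hTb : ∀ m, T m → -a ≤ m := by
    rintro m ⟨k, v, hv, hk⟩
    have h1 := hmem k
    rw [hk, map_mul, hval a u hu, hval m v hv, ← zpow_add₀ hπpos.ne',
      ← zpow_zero (O.valuation π), zpow_le_zpow_iff_right_of_lt_one₀ hπpos hπ1] at h1
    omega
  obtain ⟨k1, hk1⟩ : ∃ k, x.coeff k ≠ 0 := by
    by_contra hcon
    push Not at hcon
    exact hx0 (HahnSeries.ext (funext hcon))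
  obtain ⟨m1, v1, hv1, hm1⟩ := hπ _ hk1
  obtain ⟨m0, ⟨k0, v0, hv0, hm0⟩, hmin⟩ := Int.exists_least_of_bdd (P := T) ⟨-a, hTb⟩
    ⟨m1, k1, v1, hv1, hm1⟩
  refine ⟨k0, ?_, fun k => ?_⟩
  · intro h
    rw [hm0] at h
    have := congrArg O.valuation h
    rw [hval m0 v0 hv0, map_zero] at this
    exact zpow_ne_zero _ hπpos.ne' this
  · by_cases hk : x.coeff k = 0
    · rw [hk, map_zero]; exact zero_le
    obtain ⟨m, v, hv, hm⟩ := hπ _ hk
    have h1 := hmin m ⟨k, v, hv, hm⟩
    rw [hm, hm0, hval m v hv, hval m0 v0 hv0]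
    exact (zpow_le_zpow_iff_right_of_lt_one₀ hπpos hπ1).mpr h1

/-- A bounded series in the Gauss ring has integral coefficients. -/
theorem coeff_mem_of_gauss (hπ1 : O.valuation π < 1) (hπ0 : π ≠ 0)
    (hπ : ∀ c : L, c ≠ 0 → ∃ (m : ℤ) (u : L), O.valuation u = 1 ∧ c = π ^ m * u)
    {x : LaurentSeries L} (hx : x ∈ bddAlg O) (hg : x ∈ gaussSubring O) (k : ℤ) :
    x.coeff k ∈ O := by
  by_cases hx0 : x = 0
  · rw [hx0]
    exact O.zero_mem
  obtain ⟨c, Y, n₀, hc0, hcY, hY, -⟩ := (scalable_of_bdd O hπ1 hπ0 hπ hx hx0).exists_primitive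
  have h1 : algebraMap L (LaurentSeries L) c ∈ gaussSubring O := by
    have h2 : algebraMap L (LaurentSeries L) c = x * (incl O Y)⁻¹ := by
      rw [← hcY, mul_assoc, mul_inv_cancel₀ (incl_ne_zero hY), mul_one]
    rw [h2]
    exact mul_mem hg (inv_mem_of_primitive hY)
  have h3 : c ∈ O := algebraMap_mem_gaussSubring_iff.mp h1
  rw [← hcY, coeff_algebraMap_mul, coeffMap_coeff]
  exact mul_mem h3 (Y.coeff k).2

/-- common denominators -/
theorem exists_denominator (t : Finset (LaurentSeries L)) : (∀ x ∈ t, x ∈ intField L) →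
    ∃ e ∈ intAlg L, e ≠ 0 ∧ ∀ x ∈ t, e * x ∈ intAlg L := by
  classical
  have h1 : ∀ x : LaurentSeries L, x ∈ intField L → ∃ e ∈ intAlg L, e ≠ 0 ∧ e * x ∈ intAlg L := by
    intro x hx
    obtain ⟨a, ha, b, hb, hb0, hab⟩ := exists_div_of_mem_intField hx
    exact ⟨b, hb, hb0, by rw [mul_comm, hab]; exact ha⟩
  induction t using Finset.induction_on with
  | empty => exact fun _ => ⟨1, one_mem _, one_ne_zero, by simp⟩
  | insert x t hxt ih =>
    intro ht
    obtain ⟨e, he, he0, het⟩ := ih fun z hz => ht z (Finset.mem_insert_of_mem hz)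
    obtain ⟨e', he', he0', hex⟩ := h1 x (ht x (Finset.mem_insert_self x t))
    refine ⟨e * e', mul_mem he he', mul_ne_zero he0 he0', fun z hz => ?_⟩
    rcases Finset.mem_insert.mp hz with rfl | hz
    · rw [mul_assoc]
      exact mul_mem he hex
    · rw [mul_comm e e', mul_assoc]
      exact mul_mem he' (het z hz)

/-- **The limit argument for the Gauss valuation.** -/
theorem exists_root_of_approx (hπ1 : O.valuation π < 1) (hπ0 : π ≠ 0)
    (hπ : ∀ c : L, c ≠ 0 → ∃ (m : ℤ) (u : L), O.valuation u = 1 ∧ c = π ^ m * u)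
    (F : IntermediateField L (LaurentSeries L)) (hF : F ≤ intField L)
    (W : Submodule L F) [hWf : FiniteDimensional L W] (y : F) {n : ℕ} (hn : n ≠ 0)
    (h : ∀ i : ℕ, ∃ f ∈ W, (f : LaurentSeries L) ∈ gaussSubring O ∧
      ∃ z : F, (z : LaurentSeries L) ∈ gaussSubring O ∧ f ^ n - y = algebraMap L F π ^ i * z)
    (K : Type*) [Field K] [Algebra L K] [IsAlgClosed K] :
    ∃ (r : ℕ) (c : Fin r → K) (b : Fin r → F), (∀ j, b j ∈ W) ∧
      (∑ j, algebraMap K (LaurentSeries K) (c j) *
        coeffMap (algebraMap L K) (b j : LaurentSeries L)) ^ n =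
        coeffMap (algebraMap L K) (y : LaurentSeries L) := by
  classical
  -- a common denominator
  obtain ⟨d, hd, hd0, hdW, hdy⟩ : ∃ d ∈ intAlg L, d ≠ 0 ∧
      (∀ x ∈ W, d * (x : LaurentSeries L) ∈ intAlg L) ∧ d * (y : LaurentSeries L) ∈ intAlg L := by
    obtain ⟨s, hs⟩ := hWf
    have hsW : Submodule.span L ((fun x : W => (x : F)) '' (s : Set W)) = W := by
      have h1 := Submodule.map_span W.subtype (s : Set W)
      rw [hs, Submodule.map_top, Submodule.range_subtype] at h1
      exact h1.symm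
    obtain ⟨e, he, he0, het⟩ := exists_denominator
      (insert (y : LaurentSeries L) (s.image fun x : W => ((x : F) : LaurentSeries L))) (by
      intro x hx
      rcases Finset.mem_insert.mp hx with rfl | hx
      · exact hF y.2
      · obtain ⟨x, -, rfl⟩ := Finset.mem_image.mp hx
        exact hF (x : F).2)
    refine ⟨e, he, he0, fun x hx => ?_, het _ (Finset.mem_insert_self _ _)⟩
    rw [← hsW] at hx
    induction hx using Submodule.span_induction with
    | mem x hx =>
      obtain ⟨x, hx, rfl⟩ := hx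
      exact het _ (Finset.mem_insert_of_mem (Finset.mem_image_of_mem _ hx))
    | zero => rw [ZeroMemClass.coe_zero, mul_zero]; exact zero_mem _
    | add a b _ _ ha hb =>
      have h2 : ((a + b : F) : LaurentSeries L) = (a : LaurentSeries L) + b := rfl
      rw [h2, mul_add]
      exact add_mem ha hb
    | smul c a _ ha =>
      have h2 : ((c • a : F) : LaurentSeries L) =
          algebraMap L (LaurentSeries L) c * (a : LaurentSeries L) := by
        rw [Algebra.smul_def]; rfl
      rw [h2, mul_left_comm]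
      exact mul_mem (Subalgebra.algebraMap_mem _ c) ha
  -- make `d` integral
  obtain ⟨d, hdb, hdg, hd0, hdW, hdy⟩ : ∃ d ∈ bddAlg O, d ∈ gaussSubring O ∧ d ≠ 0 ∧
      (∀ x ∈ W, d * (x : LaurentSeries L) ∈ bddAlg O) ∧ d * (y : LaurentSeries L) ∈ bddAlg O := by
    obtain ⟨c, hc, X, hX⟩ := intAlg_le_bddAlg O hd
    have hcb : algebraMap L (LaurentSeries L) c ∈ bddAlg O := Subalgebra.algebraMap_mem _ c
    refine ⟨algebraMap L (LaurentSeries L) c * d, mul_mem hcb (intAlg_le_bddAlg O hd),
      by rw [hX]; exact incl_mem X, mul_ne_zero ?_ hd0, fun x hx => ?_, ?_⟩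
    · exact (map_ne_zero_iff _ (algebraMap L (LaurentSeries L)).injective).mpr hc
    · rw [mul_assoc]
      exact mul_mem hcb (intAlg_le_bddAlg O (hdW x hx))
    · rw [mul_assoc]
      exact mul_mem hcb (intAlg_le_bddAlg O hdy)
  -- the space `d W`
  let T : W →ₗ[L] LaurentSeries L :=
    { toFun := fun x => d * ((x : F) : LaurentSeries L)
      map_add' := fun a b => mul_add _ _ _
      map_smul' := fun c a => by
        have h2 : (((c • a : W) : F) : LaurentSeries L) =
            algebraMap L (LaurentSeries L) c * ((a : F) : LaurentSeries L) := by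
          rw [Submodule.coe_smul, Algebra.smul_def]; rfl
        rw [h2, RingHom.id_apply, ← HahnSeries.C_mul_eq_smul, algebraMap_laurentSeries_eq_single,
          HahnSeries.C_apply]
        ring }
  have hpow : ∀ (m : ℕ) (x : LaurentSeries L), x ∈ bddAlg O → x ^ m ∈ bddAlg O := fun m x hx =>
    pow_mem hx m
  have hdn : d ^ n * (y : LaurentSeries L) ∈ bddAlg O := by
    obtain ⟨m, rfl⟩ := Nat.exists_eq_succ_of_ne_zero hn
    rw [pow_succ, mul_assoc]
    exact mul_mem (hpow m d hdb) hdy
  obtain ⟨r, c, b, hb, hroot⟩ := exists_root_series O hπ1 hπ0 hπ (LinearMap.range T)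
    (d ^ n * (y : LaurentSeries L)) n (fun i => by
      obtain ⟨f, hfW, hfg, z, hz, hfz⟩ := h i
      have hfb : d * (f : LaurentSeries L) ∈ bddAlg O := hdW f hfW
      have hfg' : d * (f : LaurentSeries L) ∈ gaussSubring O := mul_mem hdg hfg
      refine ⟨d * (f : LaurentSeries L), ⟨⟨f, hfW⟩, rfl⟩,
        coeff_mem_of_gauss O hπ1 hπ0 hπ hfb hfg', fun k => ?_⟩
      have e1 : (d * (f : LaurentSeries L)) ^ n - d ^ n * (y : LaurentSeries L) =
          algebraMap L (LaurentSeries L) (π ^ i) * (d ^ n * (z : LaurentSeries L)) := by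
        have e2 := congrArg (fun x : F => (x : LaurentSeries L)) hfz
        have e3 : ((f ^ n - y : F) : LaurentSeries L) =
            (f : LaurentSeries L) ^ n - (y : LaurentSeries L) := rfl
        have e4 : ((algebraMap L F π ^ i * z : F) : LaurentSeries L) =
            algebraMap L (LaurentSeries L) π ^ i * (z : LaurentSeries L) := rfl
        simp only [e3, e4] at e2
        rw [mul_pow, ← mul_sub, e2, map_pow]
        ring
      have hzb : d ^ n * (z : LaurentSeries L) ∈ bddAlg O := by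
        have e5 : d ^ n * (z : LaurentSeries L) = algebraMap L (LaurentSeries L) (π ^ i)⁻¹ *
            ((d * (f : LaurentSeries L)) ^ n - d ^ n * (y : LaurentSeries L)) := by
          rw [e1, ← mul_assoc, ← map_mul, inv_mul_cancel₀ (pow_ne_zero i hπ0), map_one, one_mul]
        rw [e5]
        exact mul_mem (Subalgebra.algebraMap_mem _ _) (sub_mem (hpow n _ hfb) hdn)
      have hzg : d ^ n * (z : LaurentSeries L) ∈ gaussSubring O := mul_mem (pow_mem hdg n) hz
      refine ⟨_, coeff_mem_of_gauss O hπ1 hπ0 hπ hzb hzg k, ?_⟩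
      rw [e1, coeff_algebraMap_mul]) K
  choose b' hb' using hb
  refine ⟨r, c, fun j => (b' j : F), fun j => (b' j).2, ?_⟩
  have hdK : coeffMap (algebraMap L K) d ≠ 0 := by
    intro h0
    apply hd0
    ext k
    have h1 := congrArg (fun x : LaurentSeries K => x.coeff k) h0
    simp only [coeffMap_coeff, HahnSeries.coeff_zero] at h1
    rw [HahnSeries.coeff_zero]
    exact (map_eq_zero _).mp h1
  have e1 : ∑ j, HahnSeries.C (c j) * coeffMap (algebraMap L K) (b j) =
      coeffMap (algebraMap L K) d * ∑ j, algebraMap K (LaurentSeries K) (c j) *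
        coeffMap (algebraMap L K) ((b' j : F) : LaurentSeries L) := by
    rw [Finset.mul_sum]
    refine Finset.sum_congr rfl fun j _ => ?_
    rw [← hb' j, algebraMap_laurentSeries_eq_single, HahnSeries.C_apply]
    show _ * coeffMap (algebraMap L K) (d * ((b' j : F) : LaurentSeries L)) = _
    rw [map_mul]
    ring
  rw [e1, mul_pow, map_mul, map_pow] at hroot
  exact mul_left_cancel₀ (pow_ne_zero n hdK) hroot

end Gauss

end Fermat.Agent.X1Key

end
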