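import Fermat.Agent.X1.KeyFinDim

/-!
# The projective line with coordinate `h`: integrality properties of `O[h]`
-/

set_option autoImplicit false

noncomputable section

open Module Polynomial
open scoped IntermediateField

namespace Fermat.Agent.X1Key

variable {L F k κ : Type*} [Field L] [Field F] [Field k] [Field κ] [Algebra L F] [Algebra k κ]

/-- evaluation at `h` of polynomials over `B` -/
def evB (B : ValuationSubring L) (h : F) : B[X] →+* F :=
  eval₂RingHom ((algebraMap L F).comp B.subtype) h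

lemma evB_C (B : ValuationSubring L) (h : F) (b : B) : evB B h (C b) = algebraMap L F b := by
  simp [evB]

lemma evB_X (B : ValuationSubring L) (h : F) : evB B h X = h := by simp [evB]

lemma evB_eq (B : ValuationSubring L) (h : F) (P : B[X]) :
    evB B h P = aeval h (P.map B.subtype) := by
  rw [evB, coe_eval₂RingHom, aeval_def, eval₂_map]

lemma mem_OX {B : ValuationSubring L} {h x : F} : x ∈ OX B h ↔ ∃ P : B[X], evB B h P = x := Iff.rfl

lemma mem_KX_iff {u x : F} : x ∈ KX L u ↔ ∃ P : L[X], aeval u P = x := Iff.rfl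

/-- integrality from a monic polynomial with coefficients in a subring -/
lemma isIntegral_of_coeff {A : Subring F} {x : F} {p : F[X]} (hp : p.Monic)
    (hc : ∀ i, p.coeff i ∈ A) (hx : p.eval x = 0) : IsIntegral A x := by
  have h1 : p ∈ Polynomial.lifts A.subtype := by
    rw [Polynomial.lifts_iff_coeff_lifts]
    exact fun n => ⟨⟨_, hc n⟩, rfl⟩
  obtain ⟨q, hq, -, hqm⟩ := Polynomial.lifts_and_degree_eq_and_monic h1 hp
  refine ⟨q, hqm, ?_⟩
  rw [← hq, Polynomial.eval_map] at hx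
  exact hx

lemma isIntegral_OX_KX {B : ValuationSubring L} {u x : F} (hx : IsIntegral (OX B u) x) :
    IsIntegral (KX L u) x := isIntegral_mono (OX_le_KX B u) hx

/-- minimal polynomials of integral elements -/
lemma minpoly_coeff {A E F : Type*} [Field F] [CommRing A] [Field E] [Algebra A E]
    [IsFractionRing A E] [IsIntegrallyClosed A] [IsDomain A] [Algebra E F] {z : F} {p : A[X]}
    (hp : p.Monic) (hpz : aeval z (p.map (algebraMap A E)) = 0) (i : ℕ) :
    ∃ a : A, algebraMap A E a = (minpoly E z).coeff i := by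
  obtain ⟨g, hg⟩ := IsIntegrallyClosed.eq_map_mul_C_of_dvd (R := A) E hp (minpoly.dvd E z hpz)
  have hint : IsIntegral E z := ⟨p.map (algebraMap A E), hp.map _, hpz⟩
  rw [(minpoly.monic hint).leadingCoeff, C_1, mul_one] at hg
  exact ⟨g.coeff i, by rw [← hg, coeff_map]⟩

namespace LineData

variable {B : ValuationSubring L} {q₀ : B →+* k} {π : L} {V : Subring F} {red : V →+* κ} {h : F}
  (D : LineData B q₀ π V red h)

include D

lemma pi_mem : π ∈ B := (B.valuation_le_one_iff π).mp D.pi_lt.le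

lemma q_ne {u : L} (hu : B.valuation u = 1) (hu' : u ∈ B) : q₀ ⟨u, hu'⟩ ≠ 0 := by
  intro h0
  have := (D.q_ker ⟨u, hu'⟩).mp h0
  rw [hu] at this
  exact lt_irrefl _ this

lemma zpow_lt {m : ℤ} (hm : B.valuation (π ^ m) < 1) : 0 < m := by
  by_contra hn
  push Not at hn
  obtain ⟨n, rfl⟩ : ∃ n : ℕ, m = -n := ⟨(-m).toNat, by omega⟩
  rw [zpow_neg, zpow_natCast, map_inv₀, map_pow] at hm
  have h1 : B.valuation π ^ n ≤ 1 := pow_le_one' D.pi_lt.le n
  have h2 : B.valuation π ^ n ≠ 0 := pow_ne_zero _ ((Valuation.ne_zero_iff _).mpr D.pi_ne)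
  rw [inv_lt_one₀ (zero_lt_iff.mpr h2)] at hm
  exact absurd hm (not_lt.mpr h1)

/-- `B` as a `VRing` -/
lemma vringB : VRing B.toSubring π (q₀ : B.toSubring →+* k) where
  mem := D.pi_mem
  ne := D.pi_ne
  red_pi := by
    rw [rd_of_mem (V := B.toSubring) (q₀ : B.toSubring →+* k) D.pi_mem]
    exact (D.q_ker ⟨π, D.pi_mem⟩).mpr D.pi_lt
  surj := D.q_surj
  ker x hx h0 := by
    rw [rd_of_mem (V := B.toSubring) (q₀ : B.toSubring →+* k) hx] at h0
    have h1 := (D.q_ker ⟨x, hx⟩).mp h0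
    by_cases hx0 : x = 0
    · exact ⟨0, zero_mem _, by rw [hx0, mul_zero]⟩
    obtain ⟨m, u, hu, hxm⟩ := D.unif x hx0
    have h2 : B.valuation (π ^ m) < 1 := by
      have h3 : B.valuation x < 1 := h1
      rw [hxm, map_mul, hu, mul_one] at h3
      exact h3
    have h4 := D.zpow_lt h2
    refine ⟨π ^ (m - 1) * u, ?_, ?_⟩
    · obtain ⟨n, hn⟩ : ∃ n : ℕ, m - 1 = n := ⟨(m - 1).toNat, by omega⟩
      rw [hn, zpow_natCast]
      exact mul_mem (pow_mem D.pi_mem n) ((B.valuation_le_one_iff u).mp hu.le)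
    · rw [hxm, ← mul_assoc]
      congr 1
      conv_lhs => rw [show m = 1 + (m - 1) by ring]
      rw [zpow_add₀ D.pi_ne, zpow_one]
  scale x hx := by
    obtain ⟨m, u, hu, hxm⟩ := D.unif x hx
    have hu' : u ∈ B := (B.valuation_le_one_iff u).mp hu.le
    refine ⟨m, u, hu', ?_, hxm⟩
    rw [rd_of_mem (V := B.toSubring) (q₀ : B.toSubring →+* k) hu']
    exact D.q_ne hu hu'

/-- primitive multiples of polynomials -/
lemma exists_primitive {P : L[X]} (hP : P ≠ 0) :
    ∃ (m : ℤ) (Q : B[X]), P = C (π ^ m) * Q.map B.subtype ∧ Q.map q₀ ≠ 0 := by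
  obtain ⟨m, hm, i, hi⟩ := D.vringB.exists_scale_family
    (fun i : Fin (P.natDegree + 1) => P.coeff i)
    ⟨⟨P.natDegree, Nat.lt_succ_self _⟩, by simpa using hP⟩
  have h1 : ∀ n, (C (π ^ m) * P).coeff n ∈ Set.range B.subtype := by
    intro n
    rw [coeff_C_mul]
    by_cases hn : n < P.natDegree + 1
    · exact ⟨⟨_, hm ⟨n, hn⟩⟩, rfl⟩
    · rw [coeff_eq_zero_of_natDegree_lt (by omega), mul_zero]
      exact ⟨0, map_zero _⟩
  obtain ⟨Q, hQ⟩ := (Polynomial.mem_lifts _).mp ((Polynomial.lifts_iff_coeff_lifts _).mpr h1)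
  refine ⟨-m, Q, ?_, fun h0 => hi ?_⟩
  · rw [hQ, ← mul_assoc, ← C_mul, ← zpow_add₀ D.pi_ne, neg_add_cancel, zpow_zero, C_1, one_mul]
  · have h2 : (Q.coeff i : L) = π ^ m * P.coeff i := by
      have := congrArg (fun R : L[X] => R.coeff i) hQ
      simpa [coeff_map] using this
    have h3 := congrArg (fun R : k[X] => R.coeff i) h0
    simp only [coeff_map, coeff_zero] at h3
    rw [rd_of_mem (V := B.toSubring) (q₀ : B.toSubring →+* k) (hm i)]
    rw [← h3]
    congr 1
    exact Subtype.ext h2.symm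

lemma evB_mem (P : B[X]) : evB B h P ∈ V := by
  induction P using Polynomial.induction_on' with
  | add p q hp hq => rw [map_add]; exact add_mem hp hq
  | monomial n a =>
    rw [← C_mul_X_pow_eq_monomial, map_mul, map_pow, evB_C, evB_X]
    exact mul_mem (D.mem a) (pow_mem D.h_mem n)

lemma rd_evB (P : B[X]) : rd red (evB B h P) = aeval (rd red h) (P.map q₀) := by
  induction P using Polynomial.induction_on' with
  | add p q hp hq => rw [map_add, rd_add red (D.evB_mem p) (D.evB_mem q), hp, hq,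
      Polynomial.map_add, map_add]
  | monomial n a =>
    rw [← C_mul_X_pow_eq_monomial, map_mul, map_pow, evB_C, evB_X,
      rd_mul red (D.mem a) (pow_mem D.h_mem n), rd_pow red D.h_mem, D.red_eq]
    simp

lemma rd_evB_ne {Q : B[X]} (hQ : Q.map q₀ ≠ 0) : rd red (evB B h Q) ≠ 0 := by
  rw [D.rd_evB]
  exact fun h0 => hQ ((transcendental_iff.mp D.h_tr) _ h0)

omit [Field k] [Field κ] [Algebra k κ] D in
lemma aeval_eq {P : L[X]} {m : ℤ} {Q : B[X]} (hP : P = C (π ^ m) * Q.map B.subtype) :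
    aeval h P = (algebraMap L F π) ^ m * evB B h Q := by
  rw [hP, map_mul, aeval_C, evB_eq, map_zpow₀]

/-- `h` is transcendental over `L`. -/
lemma tr_L : Transcendental L h := by
  rw [transcendental_iff]
  intro P h0
  by_contra hP
  obtain ⟨m, Q, hPQ, hQ⟩ := D.exists_primitive hP
  have h1 := D.rd_evB_ne hQ
  rw [aeval_eq hPQ] at h0
  rcases mul_eq_zero.mp h0 with h2 | h2
  · exact zpow_ne_zero m D.vring.ne h2
  · rw [h2, rd_zero] at h1
    exact h1 rfl

/-- `V ∩ L[h] = B[h]` -/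
lemma exists_of_aeval_mem {P : L[X]} (hP : aeval h P ∈ V) : ∃ Q : B[X], Q.map B.subtype = P := by
  by_cases hP0 : P = 0
  · exact ⟨0, by rw [hP0, Polynomial.map_zero]⟩
  obtain ⟨m, Q, hPQ, hQ⟩ := D.exists_primitive hP0
  have h1 := D.rd_evB_ne hQ
  rw [aeval_eq hPQ] at hP
  have hm := D.vring.nonneg_of_mem h1 hP
  obtain ⟨n, rfl⟩ := Int.eq_ofNat_of_zero_le hm
  refine ⟨C (⟨π, D.pi_mem⟩ ^ n) * Q, ?_⟩
  rw [hPQ, Polynomial.map_mul, Polynomial.map_C, map_pow, zpow_natCast]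
  rfl

lemma mem_OX_of_mem {x : F} (hx : x ∈ V) (hx' : x ∈ KX L h) : x ∈ OX B h := by
  obtain ⟨P, rfl⟩ := mem_KX_iff.mp hx'
  obtain ⟨Q, rfl⟩ := D.exists_of_aeval_mem hx
  exact mem_OX.mpr ⟨Q, evB_eq B h Q⟩

lemma OX_le : OX B h ≤ V := by
  intro x hx
  obtain ⟨P, rfl⟩ := mem_OX.mp hx
  exact D.evB_mem P

lemma pi_mem_OX : algebraMap L F π ∈ OX B h := mem_OX.mpr ⟨C ⟨π, D.pi_mem⟩, evB_C _ _ _⟩

omit D in
lemma h_mem_OX : h ∈ OX B h := mem_OX.mpr ⟨X, evB_X _ _⟩

lemma evB_injective : Function.Injective (evB B h) := by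
  rw [injective_iff_map_eq_zero]
  intro P hP
  rw [evB_eq] at hP
  have h1 := (transcendental_iff.mp D.tr_L) _ hP
  exact (Polynomial.map_eq_zero_iff (f := B.subtype) Subtype.val_injective).mp h1

/-- `V ∩ L(h)` as a valuation ring of `L(h)` -/
def VE : ValuationSubring L⟮h⟯ where
  toSubring := V.comap (algebraMap L⟮h⟯ F)
  mem_or_inv_mem' x := by
    by_cases hx : x = 0
    · left
      show algebraMap L⟮h⟯ F x ∈ V
      rw [hx, map_zero]; exact zero_mem V
    obtain ⟨m, u, hu', hu, hm⟩ := D.vring.scale (algebraMap L⟮h⟯ F x)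
      (fun h0 => hx ((algebraMap L⟮h⟯ F).injective (by rw [h0, map_zero])))
    rcases le_or_gt 0 m with h0 | h0
    · left
      show algebraMap L⟮h⟯ F x ∈ V
      rw [hm]
      exact mul_mem (D.vring.pow_mem' h0) hu'
    · right
      show algebraMap L⟮h⟯ F x⁻¹ ∈ V
      rw [map_inv₀, hm, mul_inv, ← zpow_neg]
      exact mul_mem (D.vring.pow_mem' (by omega)) (D.vring.inv_mem hu' hu)

lemma mem_VE {x : L⟮h⟯} : x ∈ D.VE ↔ algebraMap L⟮h⟯ F x ∈ V := Iff.rfl

lemma minpoly_coeff_mem {z : F} (hz : z ∈ V) (i : ℕ) :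
    algebraMap L⟮h⟯ F ((minpoly L⟮h⟯ z).coeff i) ∈ V := by
  obtain ⟨p, hpm, hpc, hpz⟩ := D.int z hz
  have h1 : p ∈ Polynomial.lifts (algebraMap L⟮h⟯ F) := by
    rw [Polynomial.lifts_iff_coeff_lifts]
    exact fun n => ⟨⟨_, (hpc n).2⟩, rfl⟩
  obtain ⟨q, hq, -, hqm⟩ := Polynomial.lifts_and_degree_eq_and_monic h1 hpm
  have h2 : q ∈ Polynomial.lifts (algebraMap D.VE L⟮h⟯) := by
    rw [Polynomial.lifts_iff_coeff_lifts]
    intro n
    refine ⟨⟨q.coeff n, ?_⟩, rfl⟩
    rw [mem_VE]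
    have := (hpc n).1
    rw [← hq, coeff_map] at this
    exact this
  obtain ⟨r, hr, -, hrm⟩ := Polynomial.lifts_and_degree_eq_and_monic h2 hqm
  obtain ⟨a, ha⟩ := minpoly_coeff (A := D.VE) (E := L⟮h⟯) (z := z) hrm (by
    rw [hr, aeval_def, ← eval_map, hq, hpz]) i
  rw [← ha]
  exact a.2

lemma isIntegrallyClosed_adjoin : IsIntegrallyClosed (Algebra.adjoin L {h}) := by
  have h1 : Function.Injective (aeval (R := L) h) := transcendental_iff_injective.mp D.tr_L
  have h2 := Algebra.adjoin_singleton_eq_range_aeval L h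
  exact IsIntegrallyClosed.of_equiv ((AlgEquiv.ofInjective (aeval (R := L) h) h1).trans
    (Subalgebra.equivOfEq _ _ h2.symm)).toRingEquiv

open IntermediateField.algebraAdjoinAdjoin in
lemma minpoly_coeff_mem_KX {z : F} (hz : IsIntegral (KX L h) z) (i : ℕ) :
    algebraMap L⟮h⟯ F ((minpoly L⟮h⟯ z).coeff i) ∈ KX L h := by
  have := D.isIntegrallyClosed_adjoin
  have hmem : ∀ x : F, x ∈ KX L h ↔ x ∈ Algebra.adjoin L {h} := by
    intro x
    rw [Algebra.adjoin_singleton_eq_range_aeval]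
    exact Iff.rfl
  obtain ⟨p, hpm, hpz⟩ := hz
  let f : KX L h →+* Algebra.adjoin L {h} :=
    { toFun := fun x => ⟨x, (hmem x).mp x.2⟩
      map_one' := rfl
      map_zero' := rfl
      map_mul' := fun _ _ => rfl
      map_add' := fun _ _ => rfl }
  obtain ⟨a, ha⟩ := minpoly_coeff (A := Algebra.adjoin L {h}) (E := L⟮h⟯) (z := z) (hpm.map f) (by
    rw [aeval_def, eval₂_map, eval₂_map]
    exact hpz) i
  rw [← ha, hmem]
  exact a.2

/-- an element of `V` integral over `L[h]` is integral over `B[h]` -/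
lemma isIntegral_of_KX {z : F} (hz : z ∈ V) (hz' : IsIntegral (KX L h) z) :
    IsIntegral (OX B h) z := by
  have hint : IsIntegral L⟮h⟯ z := by
    obtain ⟨p, hpm, hpc, hpz⟩ := D.int z hz
    have h1 : p ∈ Polynomial.lifts (algebraMap L⟮h⟯ F) := by
      rw [Polynomial.lifts_iff_coeff_lifts]
      exact fun n => ⟨⟨_, (hpc n).2⟩, rfl⟩
    obtain ⟨q, hq, -, hqm⟩ := Polynomial.lifts_and_degree_eq_and_monic h1 hpm
    exact ⟨q, hqm, by rw [← eval_map, hq, hpz]⟩
  refine isIntegral_of_coeff (p := (minpoly L⟮h⟯ z).map (algebraMap L⟮h⟯ F))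
    ((minpoly.monic hint).map _) (fun i => ?_) ?_
  · rw [coeff_map]
    exact D.mem_OX_of_mem (D.minpoly_coeff_mem hz i) (D.minpoly_coeff_mem_KX hz' i)
  · rw [eval_map, ← aeval_def, minpoly.aeval]

/-- saturation -/
lemma sat {z : F} (hz : z ∈ V) (hz' : IsIntegral (OX B h) (algebraMap L F π * z)) :
    IsIntegral (OX B h) z := by
  refine D.isIntegral_of_KX hz ?_
  have h1 : IsIntegral (KX L h) (algebraMap L F π * z) := isIntegral_OX_KX hz'
  have h2 : algebraMap L F π⁻¹ ∈ KX L h := mem_KX_iff.mpr ⟨C π⁻¹, aeval_C _ _⟩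
  have h3 : IsIntegral (KX L h) (algebraMap L F π⁻¹) :=
    isIntegral_algebraMap (R := KX L h) (A := F) (x := ⟨_, h2⟩)
  have h4 : z = algebraMap L F π⁻¹ * (algebraMap L F π * z) := by
    rw [← mul_assoc, ← map_mul, inv_mul_cancel₀ D.pi_ne, map_one, one_mul]
  rw [h4]
  exact h3.mul h1

/-- clearing denominators -/
lemma exists_pow_isIntegral {x : F} (hx : IsIntegral (KX L h) x) :
    ∃ N : ℕ, ∀ M, N ≤ M → IsIntegral (OX B h) (algebraMap L F π ^ M * x) := by
  refine exists_pow_int D.pi_mem_OX (fun s hs => ?_) hx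
  obtain ⟨P, rfl⟩ := mem_KX_iff.mp hs
  by_cases hP : P = 0
  · exact ⟨0, by rw [hP, map_zero, mul_zero]; exact zero_mem _⟩
  obtain ⟨m, Q, hPQ, -⟩ := D.exists_primitive hP
  refine ⟨(-m).toNat, ?_⟩
  rw [aeval_eq hPQ]
  have h1 : algebraMap L F π ^ (-m).toNat * (algebraMap L F π ^ m * evB B h Q) =
      algebraMap L F π ^ (((-m).toNat : ℤ) + m).toNat * evB B h Q := by
    rw [← mul_assoc]
    congr 1
    rw [← zpow_natCast, ← zpow_natCast, ← zpow_add₀ D.vring.ne]
    congr 1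
    omega
  rw [h1]
  exact mul_mem (pow_mem D.pi_mem_OX _) (mem_OX.mpr ⟨Q, rfl⟩)

end LineData

end Fermat.Agent.X1Key

end
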