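import Fermat.Agent.X1.KeyLineBase

/-!
# The projective line with coordinate `h`: the gluing datum
-/

set_option autoImplicit false

noncomputable section

open Module Polynomial
open scoped IntermediateField

namespace Fermat.Agent.X1Key

variable {L F k κ : Type*} [Field L] [Field F] [Field k] [Field κ] [Algebra L F] [Algebra k κ]

namespace LineData

variable {B : ValuationSubring L} {q₀ : B →+* k} {π : L} {V : Subring F} {red : V →+* κ} {h : F}
  (D : LineData B q₀ π V red h)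

include D

/-- `B` is a discrete valuation ring. -/
lemma isDVR : IsDiscreteValuationRing B := by
  apply IsDiscreteValuationRing.ofHasUnitMulPowIrreducibleFactorization
  have hunit : ∀ b : B, ¬ IsUnit b → ∃ c : B, b = ⟨π, D.pi_mem⟩ * c := by
    intro b hb
    have h1 : B.valuation (b : L) < 1 :=
      lt_of_le_of_ne ((B.valuation_le_one_iff _).mpr b.2) fun h2 => hb
        ((ValuationSubring.valuation_eq_one_iff B b).mpr h2)
    obtain ⟨y, hy, hxy⟩ := D.vringB.ker b b.2 (by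
      rw [rd_of_mem (V := B.toSubring) (q₀ : B.toSubring →+* k) b.2]
      exact (D.q_ker b).mpr h1)
    exact ⟨⟨y, hy⟩, Subtype.ext hxy⟩
  refine ⟨⟨π, D.pi_mem⟩, ⟨?_, ?_⟩, ?_⟩
  · intro hu
    have := (ValuationSubring.valuation_eq_one_iff B _).mp hu
    have h2 := D.pi_lt
    rw [this] at h2
    exact lt_irrefl _ h2
  · intro a b hab
    by_contra hcon
    push Not at hcon
    obtain ⟨a', ha'⟩ := hunit a hcon.1
    obtain ⟨b', hb'⟩ := hunit b hcon.2
    have h1 : (⟨π, D.pi_mem⟩ : B) ≠ 0 := fun h0 => D.pi_ne (congrArg Subtype.val h0)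
    have h2 : (1 : B) = ⟨π, D.pi_mem⟩ * (a' * b') := by
      apply mul_left_cancel₀ h1
      rw [mul_one]
      conv_lhs => rw [hab, ha', hb']
      ring
    have h3 : IsUnit (⟨π, D.pi_mem⟩ : B) := IsUnit.of_mul_eq_one _ h2.symm
    have h4 := (ValuationSubring.valuation_eq_one_iff B _).mp h3
    have h5 := D.pi_lt
    rw [h4] at h5
    exact lt_irrefl _ h5
  · intro x hx
    obtain ⟨m, u, hu, hxm⟩ := D.unif (x : L) (fun h0 => hx (Subtype.ext h0))
    have hu' : u ∈ B := (B.valuation_le_one_iff u).mp hu.le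
    have hm : 0 ≤ m := by
      refine D.vringB.nonneg_of_mem (u := u) ?_ (by rw [← hxm]; exact x.2)
      rw [rd_of_mem (V := B.toSubring) (q₀ : B.toSubring →+* k) hu']
      exact D.q_ne hu hu'
    obtain ⟨n, rfl⟩ := Int.eq_ofNat_of_zero_le hm
    have hunit : IsUnit (⟨u, hu'⟩ : B) := (ValuationSubring.valuation_eq_one_iff B _).mpr hu
    refine ⟨n, hunit.unit, Subtype.ext ?_⟩
    rw [zpow_natCast] at hxm
    exact hxm.symm

lemma noeth : IsNoetherianRing (OX B h) := by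
  have := D.isDVR
  exact isNoetherianRing_range (evB B h)

lemma isIntegrallyClosed : IsIntegrallyClosed (OX B h) := by
  have := D.isDVR
  have h1 : Function.Bijective (evB B h).rangeRestrict :=
    ⟨fun a b hab => D.evB_injective (congrArg Subtype.val hab), (evB B h).rangeRestrict_surjective⟩
  exact IsIntegrallyClosed.of_equiv (RingEquiv.ofBijective _ h1)

omit D in
/-- the inclusion of `O[h]` in `L(h)` -/
def inclE (B : ValuationSubring L) (h : F) : OX B h →+* L⟮h⟯ where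
  toFun x := ⟨x, by
    obtain ⟨P, hP⟩ := mem_KX_iff.mp (OX_le_KX B h x.2)
    rw [← hP]
    exact (IntermediateField.mem_adjoin_simple_iff L _).mpr ⟨P, 1, by rw [map_one, div_one]⟩⟩
  map_one' := rfl
  map_zero' := rfl
  map_mul' _ _ := rfl
  map_add' _ _ := rfl

lemma exists_frac (z : L⟮h⟯) : ∃ x y : OX B h, z = inclE B h x / inclE B h y := by
  obtain ⟨r, s, hz⟩ := (IntermediateField.mem_adjoin_simple_iff L _).mp z.2
  by_cases hr : r = 0
  · refine ⟨0, 1, Subtype.ext ?_⟩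
    rw [hz, hr, map_zero, zero_div, map_zero, zero_div]
    rfl
  by_cases hs : s = 0
  · refine ⟨0, 1, Subtype.ext ?_⟩
    rw [hz, hs, map_zero, div_zero, map_zero, zero_div]
    rfl
  obtain ⟨m, Q, hQ, -⟩ := D.exists_primitive hr
  obtain ⟨m', Q', hQ', -⟩ := D.exists_primitive hs
  have hπ := D.vring.ne
  rw [aeval_eq hQ, aeval_eq hQ'] at hz
  rcases le_total m' m with h1 | h1
  · obtain ⟨n, hn⟩ : ∃ n : ℕ, m = m' + n := ⟨(m - m').toNat, by omega⟩
    refine ⟨⟨algebraMap L F π, D.pi_mem_OX⟩ ^ n * ⟨evB B h Q, mem_OX.mpr ⟨Q, rfl⟩⟩,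
      ⟨evB B h Q', mem_OX.mpr ⟨Q', rfl⟩⟩, Subtype.ext ?_⟩
    show (z : F) = algebraMap L F π ^ n * evB B h Q / evB B h Q'
    rw [hz, hn, zpow_add₀ hπ, zpow_natCast]
    have := zpow_ne_zero m' hπ
    rw [mul_assoc, mul_div_mul_left _ _ this]
  · obtain ⟨n, hn⟩ : ∃ n : ℕ, m' = m + n := ⟨(m' - m).toNat, by omega⟩
    refine ⟨⟨evB B h Q, mem_OX.mpr ⟨Q, rfl⟩⟩,
      ⟨algebraMap L F π, D.pi_mem_OX⟩ ^ n * ⟨evB B h Q', mem_OX.mpr ⟨Q', rfl⟩⟩, Subtype.ext ?_⟩
    show (z : F) = evB B h Q / (algebraMap L F π ^ n * evB B h Q')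
    rw [hz, hn, zpow_add₀ hπ, zpow_natCast]
    have := zpow_ne_zero m hπ
    rw [mul_assoc, mul_div_mul_left _ _ this]

/-- finiteness of the integral closure and denominators -/
lemma fin_alg [CharZero L] : (∃ N : Submodule (OX B h) F, N.FG ∧ ∀ x, IsIntegral (OX B h) x → x ∈ N) ∧
    ∀ z : F, ∃ s : OX B h, s ≠ 0 ∧ IsIntegral (OX B h) (s • z) := by
  let _ : Algebra (OX B h) L⟮h⟯ := (inclE B h).toAlgebra
  have : IsScalarTower (OX B h) L⟮h⟯ F := IsScalarTower.of_algebraMap_eq fun _ => rfl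
  have : FaithfulSMul (OX B h) L⟮h⟯ := (faithfulSMul_iff_algebraMap_injective _ _).mpr
    fun a b hab => Subtype.ext (congrArg (fun z : L⟮h⟯ => (z : F)) hab)
  have : IsFractionRing (OX B h) L⟮h⟯ := IsFractionRing.of_field _ _ fun z => by
    obtain ⟨x, y, hxy⟩ := D.exists_frac z
    exact ⟨x, y, hxy⟩
  have := D.noeth
  have := D.isIntegrallyClosed
  have := D.fd
  have : CharZero L⟮h⟯ := charZero_of_injective_algebraMap (algebraMap L L⟮h⟯).injective
  have : Algebra.IsSeparable L⟮h⟯ F := inferInstance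
  constructor
  · have h1 : IsNoetherian (OX B h) (integralClosure (OX B h) F) :=
      IsIntegralClosure.isNoetherian (OX B h) L⟮h⟯ F _
    refine ⟨Subalgebra.toSubmodule (integralClosure (OX B h) F), ?_, fun x hx => hx⟩
    exact (isNoetherian_submodule.mp h1) _ le_rfl
  · intro z
    have h1 : IsAlgebraic L⟮h⟯ z := Algebra.IsAlgebraic.isAlgebraic z
    obtain ⟨y, hy, h2⟩ :=
      IsAlgebraic.exists_integral_multiple ((IsFractionRing.isAlgebraic_iff (OX B h) L⟮h⟯ F).mpr h1)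
    exact ⟨y, hy, h2⟩

omit D in
lemma exists_pow_mul_mem (B : ValuationSubring L) {u v : F} (huv : u * v = 1) {s : F}
    (hs : s ∈ OX B u) : ∃ N : ℕ, v ^ N * s ∈ OX B v := by
  obtain ⟨P, rfl⟩ := mem_OX.mp hs
  have hu : u ≠ 0 := left_ne_zero_of_mul_eq_one huv
  have hv : v = u⁻¹ := eq_inv_of_mul_eq_one_right huv
  subst hv
  let _ : Invertible u := invertibleOfNonzero hu
  refine ⟨P.natDegree, mem_OX.mpr ⟨P.reverse, ?_⟩⟩
  have h1 := Polynomial.eval₂_reverse_mul_pow ((algebraMap L F).comp B.subtype) u P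
  rw [invOf_eq_inv] at h1
  show eval₂ ((algebraMap L F).comp B.subtype) u⁻¹ P.reverse =
    u⁻¹ ^ P.natDegree * eval₂ ((algebraMap L F).comp B.subtype) u P
  rw [← h1, inv_pow]
  field_simp

omit D in
lemma exists_const (B : ValuationSubring L) (u v : F) {s : F} (hs : s ∈ OX B v) :
    ∃ c ∈ OX B u, ∃ s' ∈ OX B v, s = c + v * s' := by
  obtain ⟨P, rfl⟩ := mem_OX.mp hs
  refine ⟨algebraMap L F (P.coeff 0), mem_OX.mpr ⟨C (P.coeff 0), evB_C _ _ _⟩,
    evB B v P.divX, mem_OX.mpr ⟨_, rfl⟩, ?_⟩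
  conv_lhs => rw [← Polynomial.divX_mul_X_add P]
  rw [map_add, map_mul, evB_X, evB_C]
  ring

lemma rd_mem_KX {s : F} (hs : s ∈ OX B h) : rd red s ∈ KX k (rd red h) := by
  obtain ⟨P, rfl⟩ := mem_OX.mp hs
  rw [D.rd_evB]
  exact mem_KX_iff.mpr ⟨_, rfl⟩

lemma hred : rd red h ≠ 0 := by
  intro h0
  have := D.h_tr
  rw [h0] at this
  exact this isAlgebraic_zero

/-- the coordinate `h⁻¹` -/
theorem inv : LineData B q₀ π V red h⁻¹ where
  q_surj := D.q_surj
  q_ker := D.q_ker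
  pi_lt := D.pi_lt
  pi_ne := D.pi_ne
  unif := D.unif
  vring := D.vring
  mem := D.mem
  red_eq := D.red_eq
  h_mem := D.vring.inv_mem D.h_mem D.hred
  h_tr := by
    rw [D.vring.red_inv D.h_mem D.hred]
    exact transcendental_inv D.h_tr
  fd := by
    rw [adjoin_inv]
    exact D.fd
  int x hx := by
    rw [adjoin_inv]
    exact D.int x hx

/-- the gluing datum -/
theorem glue_of [CharZero L] (D' : LineData B q₀ π V red h⁻¹) :
    Glue V (algebraMap L F π) red (OX B h) (OX B h⁻¹) (KX k (rd red h)) (KX k (rd red h⁻¹)) h where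
  vring := D.vring
  pi1 := D.pi_mem_OX
  pi2 := D'.pi_mem_OX
  h1 := h_mem_OX
  h2 := h_mem_OX
  hred := D.hred
  le1 := D.OX_le
  le2 := D'.OX_le
  red1 _ hs := D.rd_mem_KX hs
  red2 _ hs := D'.rd_mem_KX hs
  S12 _ hs := exists_pow_mul_mem B (mul_inv_cancel₀ (VRing.ne_zero_of_red D.hred)) hs
  S21 _ hs := exists_pow_mul_mem B (inv_mul_cancel₀ (VRing.ne_zero_of_red D.hred)) hs
  const _ hs := exists_const B h h⁻¹ hs
  sat1 _ hz hz' := D.sat hz hz'
  sat2 _ hz hz' := D'.sat hz hz'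
  noeth2 := D'.noeth
  fin2 := D'.fin_alg.1
  alg2 := D'.fin_alg.2

/-- the gluing datum -/
theorem glue [CharZero L] :
    Glue V (algebraMap L F π) red (OX B h) (OX B h⁻¹) (KX k (rd red h)) (KX k (rd red h⁻¹)) h :=
  D.glue_of D.inv

end LineData

end Fermat.Agent.X1Key

end
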