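import Mathlib
import Fermat.Agent.FG.Inv

/-!
# Orders of modular functions at the points of the upper half plane

`(J1)`, `(J2)`, `(J3)` of the KEY plan.
-/

set_option autoImplicit false
set_option linter.dupNamespace false

open UpperHalfPlane hiding I
open ModularForm Matrix.SpecialLinearGroup Filter Asymptotics
open scoped MatrixGroups Manifold ModularForm Topology IntermediateField

noncomputable section

namespace Fermat.Agent.X1Key

open Fermat.Agent.JLevelOne Fermat.Agent.X0Emb Fermat.Agent.ModFun ModularCurve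
  Fermat.Agent.IntStruct Fermat.Agent.FG

/-! ### Division by orders -/

/-- Division of holomorphic functions from an inequality of orders. -/
theorem exists_div_of_ord (u v : ℍ → ℂ) (hu : MDiff u) (hv : MDiff v) (hv0 : v ≠ 0)
    (h : ∀ z : ℍ, analyticOrderAt (v ∘ ofComplex) (z : ℂ) ≤ analyticOrderAt (u ∘ ofComplex) (z : ℂ)) :
    ∃ φ : ℍ → ℂ, MDiff φ ∧ ∀ τ, u τ = φ τ * v τ := by
  set U : Set ℂ := {z | 0 < z.im} with hU
  have hUo : IsOpen U := isOpen_upperHalfPlaneSet
  set A : ℂ → ℂ := u ∘ ofComplex with hAdef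
  set B : ℂ → ℂ := v ∘ ofComplex with hBdef
  have hA : AnalyticOnNhd ℂ A U := (UpperHalfPlane.mdifferentiable_iff.mp hu).analyticOnNhd hUo
  have hB : AnalyticOnNhd ℂ B U := (UpperHalfPlane.mdifferentiable_iff.mp hv).analyticOnNhd hUo
  have hBtop : ∀ z : ℍ, analyticOrderAt B (z : ℂ) ≠ ⊤ := fun z =>
    ordH_ne_top z (f := ⟨v, hv⟩) fun h0 => hv0 (congrArg Subtype.val h0)
  have hBne : ∀ z ∈ U, ∀ᶠ w in 𝓝[≠] z, B w ≠ 0 := by
    intro z hz
    rcases (hB z hz).eventually_eq_zero_or_eventually_ne_zero with h0 | h0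
    · exact absurd (analyticOrderAt_eq_top.mpr h0) (hBtop ⟨z, hz⟩)
    · exact h0
  set F : ℂ → ℂ := A / B with hF
  have hFm : MeromorphicOn F U := fun z hz => (hA z hz).meromorphicAt.div (hB z hz).meromorphicAt
  have hord : ∀ z ∈ U, 0 ≤ meromorphicOrderAt F z := by
    intro z hz
    have h1 := h ⟨z, hz⟩
    have h2 := hBtop ⟨z, hz⟩
    rw [hF, meromorphicOrderAt_div (hA z hz).meromorphicAt (hB z hz).meromorphicAt,
      (hA z hz).meromorphicOrderAt_eq, (hB z hz).meromorphicOrderAt_eq]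
    change analyticOrderAt B z ≤ analyticOrderAt A z at h1
    change analyticOrderAt B z ≠ ⊤ at h2
    lift analyticOrderAt B z to ℕ using h2 with m hm
    induction hn : analyticOrderAt A z with
    | top => simp
    | coe n =>
      rw [hn] at h1
      have h3 : m ≤ n := by exact_mod_cast h1
      have h4 : (m : ℤ) ≤ n := by exact_mod_cast h3
      rw [ENat.map_natCast, ENat.map_natCast]
      have h5 : (0 : WithTop ℤ) ≤ ((n : ℤ) - (m : ℤ) : ℤ) := by
        exact_mod_cast sub_nonneg.mpr h4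
      simpa using h5
  set Φ : ℂ → ℂ := toMeromorphicNFOn F U with hΦ
  have hΦan : ∀ z ∈ U, AnalyticAt ℂ Φ z := by
    intro z hz
    have hnf := meromorphicNFOn_toMeromorphicNFOn F U hz
    rw [← hnf.meromorphicOrderAt_nonneg_iff_analyticAt]
    rw [meromorphicOrderAt_toMeromorphicNFOn hFm hz]
    exact hord z hz
  have hAΦB : ∀ z ∈ U, A z = Φ z * B z := by
    intro z hz
    have hev : A =ᶠ[𝓝[≠] z] fun w => Φ w * B w := by
      filter_upwards [hFm.toMeromorphicNFOn_eq_self_on_nhdsNE hz, hBne z hz] with w hw1 hw2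
      have hw3 : Φ w = F w := hw1
      rw [hw3]
      simp only [hF, Pi.div_apply]
      field_simp
    have h1 : Tendsto A (𝓝[≠] z) (𝓝 (A z)) :=
      (hA z hz).continuousAt.tendsto.mono_left nhdsWithin_le_nhds
    have h2 : Tendsto (fun w => Φ w * B w) (𝓝[≠] z) (𝓝 (Φ z * B z)) :=
      (((hΦan z hz).continuousAt.mul (hB z hz).continuousAt).tendsto).mono_left nhdsWithin_le_nhds
    exact tendsto_nhds_unique (h1.congr' hev) h2
  refine ⟨fun τ => Φ τ, ?_, ?_⟩
  · rw [UpperHalfPlane.mdifferentiable_iff]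
    intro z hz
    have h1 : DifferentiableAt ℂ Φ z := (hΦan z hz).differentiableAt
    refine (h1.congr_of_eventuallyEq ?_).differentiableWithinAt
    filter_upwards [hUo.mem_nhds hz] with w hw
    simp only [Function.comp_apply]
    rw [ofComplex_apply_of_im_pos hw]
  · intro τ
    have h1 := hAΦB τ τ.im_pos
    simpa [hAdef, hBdef] using h1

/-! ### Behaviour of polynomials in `j` at infinity -/

theorem tendsto_norm_jFun : Tendsto (fun τ => ‖jFun τ‖) atImInfty atTop := by
  have h1 : Tendsto (fun τ => discriminant τ / E₄ τ ^ 3) atImInfty (𝓝 0) := by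
    have := tendsto_discriminant.div (tendsto_E₄.pow 3) (by simp)
    simpa using! this
  have h4 : ∀ᶠ τ in atImInfty, E₄ τ ≠ 0 :=
    tendsto_E₄.eventually_ne one_ne_zero
  have h2 : Tendsto (fun τ => discriminant τ / E₄ τ ^ 3) atImInfty (𝓝[≠] 0) := by
    rw [tendsto_nhdsWithin_iff]
    refine ⟨h1, ?_⟩
    filter_upwards [h4] with τ hτ
    exact div_ne_zero (discriminant_ne_zero τ) (pow_ne_zero _ hτ)
  have h3 := (tendsto_norm_cobounded_atTop.comp (Filter.tendsto_inv₀_nhdsNE_zero.comp h2))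
  refine h3.congr fun τ => ?_
  simp only [Function.comp_apply, inv_div]
  rfl

variable {K : Type*} [Field K] {ι : K →+* ℂ} {Γ Γ' : Subgroup SL(2, ℤ)} {h : ℕ}
  {F : ℍ → ℂ} {x y : LaurentSeries K}

theorem exists_lower_bound {d : Polynomial K} (hd : d ≠ 0) :
    ∃ c : ℝ, 0 < c ∧ ∀ᶠ τ in atImInfty, c ≤ ‖evJ ι τ d‖ := by
  have hev : ∀ τ, evJ ι τ d = (d.map ι).eval (jFun τ) := fun τ => by
    rw [evJ_apply, Polynomial.eval_map]
  rcases Nat.eq_zero_or_pos d.natDegree with h0 | hpos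
  · obtain ⟨c, rfl⟩ : ∃ c, d = Polynomial.C c := ⟨_, Polynomial.eq_C_of_natDegree_eq_zero h0⟩
    have hc : c ≠ 0 := fun h => hd (by rw [h, Polynomial.C_0])
    refine ⟨‖ι c‖, norm_pos_iff.mpr ((map_ne_zero ι).mpr hc), Eventually.of_forall fun τ => ?_⟩
    rw [evJ_apply, Polynomial.eval₂_C]
  · refine ⟨1, one_pos, ?_⟩
    have h1 := Polynomial.tendsto_norm_atTop (d.map ι) (by
      rw [Polynomial.degree_map]
      exact Polynomial.natDegree_pos_iff_degree_pos.mp hpos) tendsto_norm_jFun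
    filter_upwards [h1.eventually_ge_atTop 1] with τ hτ
    rw [hev]
    exact hτ

/-- A holomorphic quotient of a modular function by a polynomial in `j` is a modular function. -/
theorem isMF_of_mul_eq [NeZero h] {d : Polynomial K} (hd : d ≠ 0) {U φ : ℍ → ℂ}
    (hU : IsMF ι Γ h U (Polynomial.aeval (jE K h) d * x)) (hφ : MDiff φ)
    (hφU : ∀ τ, U τ = φ τ * evJ ι τ d) : IsMF ι Γ h φ x := by
  set v := Polynomial.aeval (jE K h) d with hv
  have hv0 : v ≠ 0 := aeval_jE_ne_zero ι hd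
  have hV := isMF_evJ (ι := ι) (h := h) Γ d
  rw [← hv] at hV
  set V : ℍ → ℂ := fun τ => evJ ι τ d with hVdef
  have hV0 : V ≠ 0 := fun h0 => hv0 (hV.eq_zero_iff.mp h0)
  obtain ⟨c, hc, hcV⟩ : ∃ c : ℝ, 0 < c ∧ ∀ᶠ τ in atImInfty, c ≤ ‖V τ‖ :=
    exists_lower_bound (ι := ι) hd
  have hcancel : ∀ f g : ℍ → ℂ, MDiff f → MDiff g → (∀ τ, f τ * V τ = g τ * V τ) → f = g := by
    intro f g hf hg hfg
    have h1 : (⟨f, hf⟩ : Hol) * ⟨V, hV.mdiff⟩ = ⟨g, hg⟩ * ⟨V, hV.mdiff⟩ :=
      Subtype.ext (funext hfg)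
    have h2 : (⟨V, hV.mdiff⟩ : Hol) ≠ 0 := fun h0 => hV0 (congrArg Subtype.val h0)
    exact congrArg Subtype.val (mul_right_cancel₀ h2 h1)
  have hh : (0 : ℝ) < h := by exact_mod_cast Nat.pos_of_ne_zero (NeZero.ne h)
  have hVinv : ∀ (σ : SL(2, ℤ)) (τ : ℍ), V (σ • τ) = V τ := fun σ τ => evJ_smul σ τ d
  have hφV : ∀ τ, U τ = φ τ * V τ := hφU
  clear_value V
  have hgr : ∀ σ : SL(2, ℤ), GrowthInf (fun τ => φ (σ • τ)) := by
    intro σ
    obtain ⟨m, hm⟩ := hU.growth σ
    refine ⟨m, IsBigO.trans (IsBigO.of_bound c⁻¹ ?_) hm⟩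
    filter_upwards [hcV] with τ h2
    have h1 : U (σ • τ) = φ (σ • τ) * V τ := by
      rw [hφV, hVinv]
    rw [h1, norm_mul]
    rw [mul_comm ‖φ (σ • τ)‖, ← mul_assoc]
    have h3 : 1 ≤ c⁻¹ * ‖V τ‖ := by
      rw [← inv_mul_cancel₀ hc.ne']
      exact mul_le_mul_of_nonneg_left h2 (inv_nonneg.mpr hc.le)
    calc ‖φ (σ • τ)‖ = 1 * ‖φ (σ • τ)‖ := (one_mul _).symm
      _ ≤ _ := mul_le_mul_of_nonneg_right h3 (norm_nonneg _)
  have hper : ∀ τ : ℍ, φ ((h : ℝ) +ᵥ τ) = φ τ := by
    have hT : MDiff (fun τ : ℍ => φ ((ModularGroup.T ^ h) • τ)) :=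
      hφ.comp (UpperHalfPlane.mdifferentiable_smul (by simp))
    have h1 := hcancel (fun τ => φ ((ModularGroup.T ^ h) • τ)) φ hT hφ (fun τ => by
      calc φ ((ModularGroup.T ^ h) • τ) * V τ
          = φ ((ModularGroup.T ^ h) • τ) * V ((ModularGroup.T ^ h) • τ) := by rw [hVinv]
        _ = U ((ModularGroup.T ^ h) • τ) := (hφV _).symm
        _ = U τ := by
            rw [T_pow_smul]
            exact lexp_vadd hh.ne' hU.lexp τ
        _ = φ τ * V τ := hφV τ)
    intro τ
    rw [← T_pow_smul]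
    exact congrFun h1 τ
  obtain ⟨G, hG⟩ := exists_lexp (h := h) hφ hper (by simpa using hgr 1)
  have hGx : G = coeffMap ι x := by
    have h1 := hG.mul hV.lexp
    have h2 : φ * V = U := funext fun τ => (hφV τ).symm
    rw [h2] at h1
    have h3 := h1.unique hh hU.lexp
    rw [map_mul, mul_comm] at h3
    exact mul_left_cancel₀ ((map_ne_zero _).mpr hv0) h3
  refine ⟨hφ, fun γ hγ τ => ?_, hgr, hGx ▸ hG⟩
  have h1 := hcancel (fun τ => φ (γ • τ)) φ
    (hφ.comp (UpperHalfPlane.mdifferentiable_smul (by simp))) hφ (fun τ => by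
      rw [← hφV τ, ← hU.inv γ hγ τ, hφV (γ • τ), hVinv])
  exact congrFun h1 τ

/-! ### (J1) -/

theorem le_of_eExp_le {m n : ℕ∞} (h : eExp n ≤ eExp m) : m ≤ n := by
  unfold eExp at h
  induction n with
  | top => exact le_top
  | coe n =>
    induction m with
    | top => simp at h
    | coe m =>
      simp only [ENat.natCast_ne_top, if_false, ENat.toNat_natCast] at h
      rw [WithZero.exp_le_exp] at h
      have : m ≤ n := by omega
      exact_mod_cast this

theorem valH_eq (z : ℍ) (f : Hol) : valH z f = eExp (ordH z f) := rfl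

/-- **(J1)** A modular function holomorphic at all points of `ℍ` belongs to `AG`. -/
theorem mem_AG_of_valM_le [Γ.FiniteIndex] [NeZero h] (x : FG ι Γ h)
    (hx : ∀ z : ℍ, valM z (toMerH x) ≤ 1) : (x : LaurentSeries K) ∈ AG ι Γ h := by
  obtain ⟨d, a, hd, hd0, hda⟩ := exists_div_poly x
  have h1 : ∀ z : ℍ, valH z (hol a) ≤ valH z (hol (Polynomial.aeval (jA ι Γ h) d)) := by
    intro z
    have h2 := congrArg (fun y => valM z (toMerH y)) hda
    simp only [map_mul, toMerH_algebraMap, valM_algebraMap] at h2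
    rw [← h2]
    exact mul_le_of_le_one_right' (hx z)
  have hVne : (fn (Polynomial.aeval (jA ι Γ h) d) : ℍ → ℂ) ≠ 0 := by
    intro h0
    apply hd0
    have h3 : Polynomial.aeval (jA ι Γ h) d = 0 :=
      Subtype.ext ((fn_spec _).eq_zero_iff.mp h0)
    rw [h3, map_zero]
  obtain ⟨φ, hφ, hφU⟩ := exists_div_of_ord (fn a) (fn (Polynomial.aeval (jA ι Γ h) d))
    (fn_spec _).mdiff (fn_spec _).mdiff hVne (fun z => le_of_eExp_le (h1 z))
  rw [fn_aeval_jA] at hφU
  have h4 : (a : LaurentSeries K) = Polynomial.aeval (jE K h) d * (x : LaurentSeries K) := by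
    have h5 := congrArg (fun z : FG ι Γ h => (z : LaurentSeries K)) hda
    simp only [MulMemClass.coe_mul, coe_algebraMap_AG, coe_aeval_jA] at h5
    exact h5.symm
  have h5 := fn_spec a
  rw [h4] at h5
  exact (isMF_of_mul_eq hd h5 hφ hφU).mem_AG

/-! ### (J2) -/

theorem ordH_jFun_sub_le (z : ℍ) (c : ℂ) :
    ordH z (⟨jFun, jFun_mdiff⟩ - constHol c) ≤ 3 := by
  have h0 : (((⟨jFun, jFun_mdiff⟩ - constHol c : Hol) : ℍ → ℂ)) = fun τ => jFun τ - c := rfl
  rw [ordH, h0]
  by_cases hc : jFun z = c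
  · subst hc
    by_cases h4 : E₄ z = 0
    · rw [analyticOrderAt_jFun_sub_of_E₄ h4]
    · by_cases h6 : E₆ z = 0
      · rw [analyticOrderAt_jFun_sub_of_E₆ h6]
        decide
      · rw [analyticOrderAt_jFun_sub_of_ne h4 h6]
        decide
  · have h1 : analyticOrderAt ((fun τ => jFun τ - c) ∘ ofComplex) (z : ℂ) = 0 :=
      JLevelOne.analyticOrderAt_eq_zero_of_ne (F := fun τ => jFun τ - c) (sub_ne_zero.mpr hc)
    rw [h1]
    exact zero_le

theorem exp_le_valH_jFun_sub (z : ℍ) (c : ℂ) :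
    WithZero.exp (-3 : ℤ) ≤ valH z (⟨jFun, jFun_mdiff⟩ - constHol c) := by
  have h1 := eExp_anti (ordH_jFun_sub_le z c)
  have h2 : eExp 3 = WithZero.exp (-3 : ℤ) := by
    have : (3 : ℕ∞) = ((3 : ℕ) : ℕ∞) := rfl
    rw [this, eExp, if_neg (ENat.natCast_ne_top 3), ENat.toNat_natCast]
    rfl
  rw [← h2]
  exact h1

theorem valH_const (z : ℍ) {c : ℂ} (hc : c ≠ 0) : valH z (constHol c) = 1 := by
  rw [valH_eq, ordH_const z hc]
  simp [eExp]

theorem hol_aeval_jA [NeZero h] (d : Polynomial K) :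
    hol (Polynomial.aeval (jA ι Γ h) d : AG ι Γ h) =
      (d.map ι).eval₂ constHol (⟨jFun, jFun_mdiff⟩ : Hol) := by
  ext τ
  rw [coe_hol, fn_aeval_jA, Polynomial.eval₂_map]
  have h1 := Polynomial.hom_eval₂ d (constHol.comp ι)
    ((Pi.evalRingHom (fun _ : ℍ => ℂ) τ).comp Hol.subtype) (⟨jFun, jFun_mdiff⟩ : Hol)
  refine Eq.trans ?_ h1.symm
  rfl

theorem exp_le_valH_aeval [NeZero h] (z : ℍ) {d : Polynomial K} (hd : d ≠ 0) :
    WithZero.exp (-3 : ℤ) ^ d.natDegree ≤ valH z (hol (Polynomial.aeval (jA ι Γ h) d)) := by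
  have hd' : d.map ι ≠ 0 := (Polynomial.map_ne_zero_iff ι.injective).mpr hd
  have hP := (IsAlgClosed.splits (d.map ι)).eq_prod_roots
  have hcard : Multiset.card (d.map ι).roots = d.natDegree := by
    rw [← (IsAlgClosed.splits (d.map ι)).natDegree_eq_card_roots, Polynomial.natDegree_map]
  rw [hol_aeval_jA, hP, Polynomial.eval₂_mul, Polynomial.eval₂_C, Polynomial.eval₂_multiset_prod,
    map_mul, valH_const z (Polynomial.leadingCoeff_ne_zero.mpr hd'), one_mul, ← hcard,
    map_multiset_prod, Multiset.map_map, Multiset.map_map]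
  generalize (d.map ι).roots = s
  induction s using Multiset.induction_on with
  | empty => simp
  | cons a s ih =>
    rw [Multiset.card_cons, pow_succ', Multiset.map_cons, Multiset.prod_cons]
    refine mul_le_mul' ?_ ih
    have h1 := exp_le_valH_jFun_sub z a
    simpa using h1

/-- **(J2)** Poles at the zeros of `ω` are removed by a power of `ω`. -/
theorem exists_pow_mul_mem_AG [Γ.FiniteIndex] [NeZero h] {ω : ℍ → ℂ} {wE : LaurentSeries K}
    (hω : IsMF ι Γ h ω wE) (x : FG ι Γ h)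
    (hx : ∀ z : ℍ, ω z ≠ 0 → valM z (toMerH x) ≤ 1) :
    ∃ N : ℕ, wE ^ N * (x : LaurentSeries K) ∈ AG ι Γ h := by
  obtain ⟨d, a, hd, hd0, hda⟩ := exists_div_poly x
  refine ⟨3 * d.natDegree, ?_⟩
  set W : AG ι Γ h := ⟨wE, hω.mem_AG⟩ with hW
  have hWfn : fn W = ω := fn_eq hω
  have hWle : ∀ z, valH z (hol W) ≤ 1 := by
    intro z
    have h1 := eExp_anti (zero_le (a := ordH z (hol W)))
    have h2 : eExp 0 = 1 := by simp [eExp]
    rwa [h2] at h1
  refine mem_AG_of_valM_le (algebraMap (AG ι Γ h) (FG ι Γ h) (W ^ (3 * d.natDegree)) * x) ?_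
  intro z
  rw [map_mul, map_mul, toMerH_algebraMap, valM_algebraMap, map_pow, map_pow]
  by_cases hz : ω z = 0
  · -- order of `ω` is at least one
    have h1 : valH z (hol W) ≤ WithZero.exp (-1 : ℤ) := by
      have h2 : (1 : ℕ∞) ≤ ordH z (hol W) := by
        rw [Order.one_le_iff_pos, pos_iff_ne_zero]
        intro h0
        have h3 : ((hol W : Hol) : ℍ → ℂ) z = ω z := by rw [coe_hol, hWfn]
        rw [ordH, (analyticAt_of_mdiff (Hol.mdiff _) z).analyticOrderAt_eq_zero] at h0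
        apply h0
        simp only [Function.comp_apply, ofComplex_apply]
        rw [h3, hz]
      have h4 := eExp_anti h2
      have h5 : eExp 1 = WithZero.exp (-1 : ℤ) := by
        have : (1 : ℕ∞) = ((1 : ℕ) : ℕ∞) := rfl
        rw [this, eExp, if_neg (ENat.natCast_ne_top 1), ENat.toNat_natCast]
        rfl
      rw [← h5]
      exact h4
    have h2 := congrArg (fun y => valM z (toMerH y)) hda
    simp only [map_mul, toMerH_algebraMap, valM_algebraMap] at h2
    have h3 := exp_le_valH_aeval (ι := ι) (Γ := Γ) (h := h) z hd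
    have h4 : valH z (hol a) ≤ 1 := by
      have h1 := eExp_anti (zero_le (a := ordH z (hol a)))
      have h2 : eExp 0 = 1 := by simp [eExp]
      rwa [h2] at h1
    -- `exp(-3)^deg * v(x) ≤ 1`
    have h5 : WithZero.exp (-3 : ℤ) ^ d.natDegree * valM z (toMerH x) ≤ 1 :=
      (mul_le_mul_left h3 _).trans (h2.le.trans h4)
    have h6 : valH z (hol W) ^ (3 * d.natDegree) ≤ WithZero.exp (-3 : ℤ) ^ d.natDegree := by
      rw [pow_mul]
      refine pow_le_pow_left₀ zero_le ?_ _
      calc valH z (hol W) ^ 3 ≤ WithZero.exp (-1 : ℤ) ^ 3 := pow_le_pow_left₀ zero_le h1 3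
        _ = WithZero.exp (-3 : ℤ) := by rw [← WithZero.exp_nsmul]; rfl
    exact (mul_le_mul_left h6 _).trans h5
  · exact mul_le_one' (pow_le_one₀ zero_le (hWle z)) (hx z hz)

/-! ### (J3) -/

section abstract

/-- A valuation trivial on a subfield is trivial on algebraic elements. -/
theorem valuation_le_one_of_isAlgebraic {E F Γ₀ : Type*} [Field E] [Field F] [Algebra E F]
    [LinearOrderedCommGroupWithZero Γ₀] (v : Valuation F Γ₀)
    (hv : ∀ e : E, v (algebraMap E F e) ≤ 1) {x : F} (hx : IsAlgebraic E x) : v x ≤ 1 := by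
  have hx' : IsIntegral E x := hx.isIntegral
  obtain ⟨p, hp, hpx⟩ := hx'
  let φ : E →+* v.valuationSubring := (algebraMap E F).codRestrict v.valuationSubring.toSubring
    (fun e => hv e)
  have h1 : IsIntegral v.valuationSubring x := by
    refine ⟨p.map φ, hp.map φ, ?_⟩
    rw [Polynomial.eval₂_map]
    exact hpx
  obtain ⟨y, hy⟩ := IsIntegrallyClosed.isIntegral_iff.mp h1
  rw [← hy]
  exact y.2

theorem valuation_eq_one_of_isAlgebraic {E F Γ₀ : Type*} [Field E] [Field F] [Algebra E F]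
    [LinearOrderedCommGroupWithZero Γ₀] (v : Valuation F Γ₀)
    (hv : ∀ e : E, v (algebraMap E F e) ≤ 1) {x : F} (hx : IsAlgebraic E x) (hx0 : x ≠ 0) :
    v x = 1 := by
  refine le_antisymm (valuation_le_one_of_isAlgebraic v hv hx) ?_
  have h1 := valuation_le_one_of_isAlgebraic v hv hx.inv
  rwa [map_inv₀, inv_le_one₀ (zero_lt_iff.mpr ((Valuation.ne_zero_iff v).mpr hx0))] at h1

variable {K C F M Γ₀ : Type*} [Field K] [Field C] [Field F] [Field M] [Algebra K F]
  [LinearOrderedCommGroupWithZero Γ₀]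

theorem eval₂_valuation_le {κ : C →+* M} {v : Valuation M Γ₀} (hκ : ∀ c, v (κ c) ≤ 1) {t : M}
    (ht : v t ≤ 1) (Q : Polynomial C) : v (Q.eval₂ κ t) ≤ 1 := by
  rw [Polynomial.eval₂_eq_sum_range]
  refine Valuation.map_sum_le _ fun i _ => ?_
  rw [map_mul, map_pow]
  exact mul_le_one' (hκ _) (pow_le_one₀ zero_le ht)

/-- The abstract form of (J3). -/
theorem local_param_abstract [CharZero K] {ι : K →+* C} {κ : C →+* M} {τ : F →+* M}
    (hτ : ∀ a : K, τ (algebraMap K F a) = κ (ι a)) {v : Valuation M Γ₀}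
    (hκ : ∀ c, c ≠ 0 → v (κ c) = 1) {u : F} {c : C} (hu : v (τ u - κ c) < 1)
    (halg : ∀ x : F, IsAlgebraic K⟮u⟯ x) :
    (∃ P : Polynomial K, v (τ (Polynomial.aeval u P)) = v (τ u - κ c)) ∨
      ∀ x : F, x ≠ 0 → v (τ x) = 1 := by
  have hκ' : ∀ c, v (κ c) ≤ 1 := by
    intro c
    by_cases hc : c = 0
    · rw [hc, map_zero, map_zero]
      exact zero_le
    · exact (hκ c hc).le
  have hτu : v (τ u) ≤ 1 := by
    have h1 : τ u = (τ u - κ c) + κ c := by ring
    rw [h1]
    exact (v.map_add _ _).trans (max_le hu.le (hκ' c))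
  have haev : ∀ P : Polynomial K, τ (Polynomial.aeval u P) = (P.map ι).eval₂ κ (τ u) := by
    intro P
    rw [Polynomial.aeval_def, Polynomial.hom_eval₂, Polynomial.eval₂_map]
    congr 1
    exact RingHom.ext hτ
  -- a polynomial over `C` not vanishing at `c` has valuation one
  have hunit : ∀ Q : Polynomial C, Q.eval c ≠ 0 → v (Q.eval₂ κ (τ u)) = 1 := by
    intro Q hQ
    obtain ⟨R, hR⟩ : ∃ R : Polynomial C, Q = Polynomial.C (Q.eval c) + (Polynomial.X - Polynomial.C c) * R := by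
      obtain ⟨R, hR⟩ : (Polynomial.X - Polynomial.C c) ∣ Q - Polynomial.C (Q.eval c) :=
        Polynomial.X_sub_C_dvd_sub_C_eval
      exact ⟨R, by rw [← hR]; ring⟩
    have h1 : Q.eval₂ κ (τ u) = κ (Q.eval c) + (τ u - κ c) * R.eval₂ κ (τ u) := by
      conv_lhs => rw [hR]
      simp
    rw [h1, v.map_add_eq_of_lt_left, hκ _ hQ]
    rw [hκ _ hQ, map_mul]
    exact mul_lt_one_of_lt_of_le hu (eval₂_valuation_le hκ' hτu R)
  let alg : Algebra K C := ι.toAlgebra
  by_cases hc : IsAlgebraic K c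
  · left
    set P := minpoly K c with hP
    have hint : IsIntegral K c := hc.isIntegral
    have hsep : P.Separable := (minpoly.irreducible hint).separable
    have hroot : (P.map ι).eval c = 0 := by
      rw [Polynomial.eval_map]
      exact minpoly.aeval K c
    obtain ⟨Q, hQ⟩ := Polynomial.dvd_iff_isRoot.mpr hroot
    have hsep' : (P.map ι).Separable := hsep.map
    have hQc : Q.eval c ≠ 0 := by
      intro h0
      rw [hQ] at hsep'
      obtain ⟨Q', hQ'⟩ := Polynomial.dvd_iff_isRoot.mpr h0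
      have h2 := hsep'.squarefree (Polynomial.X - Polynomial.C c) ⟨Q', by rw [hQ']; ring⟩
      exact Polynomial.not_isUnit_X_sub_C c h2
    refine ⟨P, ?_⟩
    rw [haev, hQ, Polynomial.eval₂_mul, map_mul, hunit Q hQc, mul_one]
    simp
  · right
    have h1 : ∀ P : Polynomial K, P ≠ 0 → v (τ (Polynomial.aeval u P)) = 1 := by
      intro P hP
      rw [haev]
      apply hunit
      intro h0
      apply hc
      refine ⟨P, hP, ?_⟩
      rw [Polynomial.eval_map] at h0
      exact h0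
    have h2 : ∀ e : K⟮u⟯, (v.comap τ) (algebraMap K⟮u⟯ F e) ≤ 1 := by
      intro e
      rw [Valuation.comap_apply]
      by_cases he : e = 0
      · rw [he, map_zero, map_zero, map_zero]
        exact zero_le
      · obtain ⟨r, s, hrs⟩ := (IntermediateField.mem_adjoin_simple_iff K _).mp e.2
        have h3 : algebraMap K⟮u⟯ F e = Polynomial.aeval u r / Polynomial.aeval u s := hrs
        have he' : algebraMap K⟮u⟯ F e ≠ 0 := (map_ne_zero _).mpr he
        rw [h3] at he'
        have hr : r ≠ 0 := by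
          rintro rfl
          exact he' (by simp)
        have hs : s ≠ 0 := by
          rintro rfl
          exact he' (by simp)
        rw [h3, map_div₀, map_div₀, h1 r hr, h1 s hs, div_one]
    intro x hx
    exact valuation_eq_one_of_isAlgebraic (v.comap τ) h2 (halg x) hx

end abstract

/-- **(J3)** Local parameters. -/
theorem local_param [NeZero h] (u : FG ι Γ h) (z : ℍ) (c : ℂ)
    (hu : valM z (toMerH u - algebraMap Hol MerH (constHol c)) = WithZero.exp (-1 : ℤ))
    (halg : ∀ x : FG ι Γ h, IsAlgebraic K⟮u⟯ x) :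
    (∃ P : Polynomial K, valM z (toMerH (Polynomial.aeval u P)) = WithZero.exp (-1 : ℤ)) ∨
      ∀ x : FG ι Γ h, x ≠ 0 → valM z (toMerH x) = 1 := by
  have hch : CharZero K := ι.charZero
  rw [← hu]
  refine local_param_abstract (κ := (algebraMap Hol MerH).comp constHol) (ι := ι)
    (fun a => toMerH_algebraMap' a) (v := valM z) (fun c hc => ?_) ?_ halg
  · rw [RingHom.comp_apply, valM_algebraMap, valH_const z hc]
  · rw [RingHom.comp_apply, hu]
    rw [← WithZero.exp_zero, WithZero.exp_lt_exp]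
    norm_num

end Fermat.Agent.X1Key
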