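import Fermat.Agent.X1.KeyBase
import Fermat.Agent.X1.KeyGlobal
import Fermat.Agent.FG.IntClosure
import Fermat.Agent.S28_Residual
import Fermat.Agent.Igusa.Theta

/-!
# The base coordinate as an element of the function field; valuations at the points of `ℍ`
-/

set_option autoImplicit false

open UpperHalfPlane hiding I
open ModularForm Matrix.SpecialLinearGroup Filter Asymptotics CongruenceSubgroup
open scoped MatrixGroups Manifold ModularForm Polynomial Topology IntermediateField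

noncomputable section

namespace Fermat.Agent.X1Key

open Fermat.Agent.JLevelOne Fermat.Agent.X0Emb Fermat.Agent.ModFun ModularCurve Fermat.Agent.FG
open WithZero

variable {K : Type*} [Field K] {ι : K →+* ℂ} {Γ : Subgroup SL(2, ℤ)}

/-! ### Valuations at points -/

/-- the valuation of the function field at a point of `ℍ` -/
def vz (z : ℍ) : Valuation (FG ι Γ 1) (WithZero (Multiplicative ℤ)) :=
  (valM z).comap (toMerH : FG ι Γ 1 →+* MerH)

lemma vz_apply (z : ℍ) (x : FG ι Γ 1) : vz z x = valM z (toMerH x) := rfl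

lemma toMerH_of_isMF {F : ℍ → ℂ} {x : FG ι Γ 1} (hF : IsMF ι Γ 1 F (x : LaurentSeries K)) :
    toMerH x = algebraMap Hol MerH ⟨F, hF.mdiff⟩ := by
  have h1 : x = algebraMap (AG ι Γ 1) (FG ι Γ 1) ⟨x, hF.mem_AG⟩ := Subtype.ext rfl
  refine (congrArg toMerH h1).trans ((toMerH_algebraMap _).trans ?_)
  have h2 : hol (⟨(x : LaurentSeries K), hF.mem_AG⟩ : AG ι Γ 1) = ⟨F, hF.mdiff⟩ := by
    apply Subtype.ext
    rw [coe_hol]
    exact fn_eq (a := (⟨(x : LaurentSeries K), hF.mem_AG⟩ : AG ι Γ 1)) hF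
  rw [h2]

lemma vz_of_isMF {F : ℍ → ℂ} {x : FG ι Γ 1} (hF : IsMF ι Γ 1 F (x : LaurentSeries K)) (z : ℍ) :
    vz z x = valH z ⟨F, hF.mdiff⟩ := by
  rw [vz_apply, toMerH_of_isMF hF, valM_algebraMap]

lemma valH_apply (z : ℍ) (f : Hol) : valH z f = eExp (ordH z f) := rfl

lemma valH_le_one (z : ℍ) (f : Hol) : valH z f ≤ 1 := by
  have h : eExp 0 = 1 := by simp [eExp]
  rw [valH_apply, ← h]
  exact eExp_anti zero_le

lemma valH_eq_one {z : ℍ} {f : Hol} (h : f z ≠ 0) : valH z f = 1 := by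
  have h : ordH z f = 0 := analyticOrderAt_eq_zero_of_ne h
  rw [valH_apply, h]
  simp [eExp]

lemma valH_eq_exp (z : ℍ) {f : Hol} (hf : f ≠ 0) : ∃ m : ℤ, valH z f = exp m := by
  have h := ordH_ne_top z hf
  refine ⟨-((ordH z f).toNat : ℤ), ?_⟩
  rw [valH_apply, eExp, if_neg h]

lemma vz_algebraMap_le (z : ℍ) (c : K) : vz z (algebraMap K (FG ι Γ 1) c) ≤ 1 := by
  have h : IsMF ι Γ 1 (fun _ => ι c) ((algebraMap K (FG ι Γ 1) c : FG ι Γ 1) : LaurentSeries K) :=
    IsMF.const Γ 1 c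
  rw [vz_of_isMF h]
  exact valH_le_one _ _

/-! ### The base coordinate -/

variable {p : ℕ} (B : Base Γ p)

variable (K) in
/-- the expansion of the base coordinate -/
def Base.X : LaurentSeries K := coeffMap (Int.castRingHom K) B.T

lemma coeffMap_int (σ : K →+* ℂ) (T : LaurentSeries ℤ) :
    coeffMap σ (coeffMap (Int.castRingHom K) T) = coeffMap (Int.castRingHom ℂ) T := by
  ext n
  rw [coeffMap_coeff, coeffMap_coeff, coeffMap_coeff]
  simp

lemma Base.isMF : IsMF ι Γ 1 B.f (B.X K) where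
  mdiff := B.mdiff
  inv := B.inv
  growth := B.growth
  lexp := by
    rw [Base.X, coeffMap_int, Nat.cast_one]
    exact B.lexp

variable (ι) in
/-- the base coordinate in the function field -/
def Base.h : FG ι Γ 1 := ⟨B.X K, B.isMF.mem_FG⟩

@[simp] lemma Base.coe_h : ((B.h ι : FG ι Γ 1) : LaurentSeries K) = B.X K := rfl

/-- the order of the expansion of the base coordinate over any field -/
lemma Base.order_X (k : Type*) [Field k] : (B.X k).order = -1 := by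
  have h1 : (B.X k).coeff (-1) = 1 := by
    rw [Base.X, coeffMap_coeff, B.lead, map_one]
  have h0 : B.X k ≠ 0 := by
    intro h
    rw [h, HahnSeries.coeff_zero] at h1
    exact zero_ne_one h1
  refine le_antisymm (HahnSeries.order_le_of_coeff_ne_zero (by rw [h1]; exact one_ne_zero)) ?_
  by_contra hlt
  push Not at hlt
  have h2 := HahnSeries.coeff_order_eq_zero.not.mpr h0
  apply h2
  rw [Base.X, coeffMap_coeff]
  rw [← Base.X, B.low _ hlt, map_zero]

lemma Base.transcendental_X (k : Type*) [Field k] : Transcendental k (B.X k) :=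
  Fermat.Agent.S28aux.transcendental_of_order (by rw [B.order_X]; norm_num)

lemma Base.transcendental_h : Transcendental K (B.h ι) := by
  rw [← transcendental_algebraMap_iff (FaithfulSMul.algebraMap_injective (FG ι Γ 1) (LaurentSeries K))]
  exact B.transcendental_X K

lemma Base.h_ne_zero : B.h ι ≠ 0 := fun h0 => B.transcendental_h (ι := ι) (by
  rw [h0]; exact isAlgebraic_zero)

/-- polynomials in the coordinate -/
lemma Base.isMF_aeval (P : K[X]) : IsMF ι Γ 1 (fun τ => (P.map ι).eval (B.f τ))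
    ((Polynomial.aeval (B.h ι) P : FG ι Γ 1) : LaurentSeries K) := by
  have h1 : IsMF ι Γ 1 (∑ i ∈ Finset.range (P.natDegree + 1), ι (P.coeff i) • B.f ^ i)
      (∑ i ∈ Finset.range (P.natDegree + 1),
        algebraMap K (LaurentSeries K) (P.coeff i) * B.X K ^ i) :=
    IsMF.sum _ fun i _ => (B.isMF.pow i).smul _
  have h2 : ((Polynomial.aeval (B.h ι) P : FG ι Γ 1) : LaurentSeries K) =
      ∑ i ∈ Finset.range (P.natDegree + 1),
        algebraMap K (LaurentSeries K) (P.coeff i) * B.X K ^ i := by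
    have h3 := Polynomial.aeval_algHom_apply (FG ι Γ 1).val (B.h ι) P
    have h4 : ((Polynomial.aeval (B.h ι) P : FG ι Γ 1) : LaurentSeries K) =
      Polynomial.aeval (B.X K) P := h3.symm
    rw [h4, Polynomial.aeval_eq_sum_range]
    refine Finset.sum_congr rfl fun i _ => ?_
    rw [Algebra.smul_def]
  rw [h2]
  refine h1.congr_fun (funext fun τ => ?_)
  rw [Finset.sum_apply, Polynomial.eval_map, Polynomial.eval₂_eq_sum_range]
  refine Finset.sum_congr rfl fun i _ => ?_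
  simp

/-! ### The special elements -/

/-- the special element `X (X + c)` of the chart `u = h` -/
def Base.W1 : ℤ[X] := Polynomial.X * (Polynomial.X + Polynomial.C B.c)

/-- the special element `X (1 + c X)` of the chart `u = h⁻¹` -/
def Base.W2 : ℤ[X] := Polynomial.X * (1 + Polynomial.C B.c * Polynomial.X)

/-- the element whose zeros are the bad points -/
def Base.W0 : ℤ[X] := Polynomial.X ^ B.e * (Polynomial.X + Polynomial.C B.c)

lemma radEl_mul {k : Type*} [Field k] {a b : k[X]} (ha : Prime a) (hb : Prime b)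
    (hab : IsCoprime a b) : RadEl (a * b) := by
  refine ⟨mul_ne_zero ha.ne_zero hb.ne_zero, fun N r h => ?_⟩
  exact hab.mul_dvd (ha.dvd_of_dvd_pow ((dvd_mul_right a b).trans h))
    (hb.dvd_of_dvd_pow ((dvd_mul_left b a).trans h))

lemma prime_X_add {k : Type*} [Field k] (c : k) : Prime (Polynomial.X + Polynomial.C c) := by
  have := Polynomial.prime_X_sub_C (-c)
  rwa [map_neg, sub_neg_eq_add] at this

lemma Base.radEl_W1 {k : Type*} [Field k] (hc : (B.c : k) ≠ 0) :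
    RadEl (B.W1.map (Int.castRingHom k)) := by
  have h1 : B.W1.map (Int.castRingHom k) =
      Polynomial.X * (Polynomial.X + Polynomial.C (B.c : k)) := by
    simp [Base.W1]
  rw [h1]
  refine radEl_mul Polynomial.prime_X (prime_X_add _) ?_
  refine ⟨-Polynomial.C (B.c : k)⁻¹, Polynomial.C (B.c : k)⁻¹, ?_⟩
  have h2 : Polynomial.C (B.c : k)⁻¹ * Polynomial.C (B.c : k) = (1 : k[X]) := by
    rw [← Polynomial.C_mul, inv_mul_cancel₀ hc, Polynomial.C_1]
  linear_combination h2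

lemma Base.radEl_W2 {k : Type*} [Field k] (hc : (B.c : k) ≠ 0) :
    RadEl (B.W2.map (Int.castRingHom k)) := by
  have h1 : B.W2.map (Int.castRingHom k) =
      Polynomial.X * (1 + Polynomial.C (B.c : k) * Polynomial.X) := by
    simp [Base.W2]
  have h2 : Polynomial.C (B.c : k) * Polynomial.C (B.c : k)⁻¹ = (1 : k[X]) := by
    rw [← Polynomial.C_mul, mul_inv_cancel₀ hc, Polynomial.C_1]
  have h3 : (1 + Polynomial.C (B.c : k) * Polynomial.X : k[X]) =
      (Polynomial.X + Polynomial.C (B.c : k)⁻¹) * Polynomial.C (B.c : k) := by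
    linear_combination -h2
  have h4 : IsUnit (Polynomial.C (B.c : k)) := Polynomial.isUnit_C.mpr hc.isUnit
  rw [h1]
  refine radEl_mul Polynomial.prime_X ?_ ?_
  · rw [h3]
    exact (associated_mul_unit_right (Polynomial.X + Polynomial.C (B.c : k)⁻¹) _ h4).prime
      (prime_X_add _)
  · exact ⟨-Polynomial.C (B.c : k), 1, by ring⟩

/-- the derivative of the expansion -/
lemma Base.theta_ne (k : Type*) [Field k] : Fermat.Agent.Igusa.theta (B.X k) ≠ 0 := by
  intro h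
  have h1 := congrArg (fun z : LaurentSeries k => z.coeff (-1)) h
  have h2 : (B.X k).coeff (-1) = 1 := by
    rw [Base.X, coeffMap_coeff, B.lead, map_one]
  simp [h2] at h1

/-! ### Relations -/

lemma mem_KX {k κ : Type*} [Field k] [Field κ] [Algebra k κ] {u x : κ} :
    x ∈ KX k u ↔ ∃ P : k[X], Polynomial.aeval u P = x := Iff.rfl

lemma self_mem_KX (k : Type*) {κ : Type*} [Field k] [Field κ] [Algebra k κ] (u : κ) : u ∈ KX k u :=
  mem_KX.mpr ⟨Polynomial.X, Polynomial.aeval_X _⟩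

lemma algebraMap_mem_KX {k κ : Type*} [Field k] [Field κ] [Algebra k κ] (u : κ) (c : k) :
    algebraMap k κ c ∈ KX k u :=
  mem_KX.mpr ⟨Polynomial.C c, Polynomial.aeval_C _ _⟩

lemma aeval_mem_KX {k κ : Type*} [Field k] [Field κ] [Algebra k κ] (u : κ) (P : k[X]) :
    Polynomial.aeval u P ∈ KX k u := mem_KX.mpr ⟨P, rfl⟩

/-- denominators of `K[j]` in `K[u]` -/
lemma exists_pow_mul_mem_KX {k κ : Type*} [Field k] [Field κ] [Algebra k κ] {u j W : κ}
    (hW : W ∈ KX k u) {a : ℕ} (ha : W ^ a * j ∈ KX k u) {s : κ} (hs : s ∈ KX k j) :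
    ∃ N : ℕ, W ^ N * s ∈ KX k u := by
  obtain ⟨P, rfl⟩ := mem_KX.mp hs
  refine ⟨a * P.natDegree, ?_⟩
  rw [Polynomial.aeval_eq_sum_range, Finset.mul_sum]
  refine sum_mem fun i hi => ?_
  have hi' : i ≤ P.natDegree := Nat.lt_succ_iff.mp (Finset.mem_range.mp hi)
  have h1 : W ^ (a * P.natDegree) * P.coeff i • j ^ i =
      algebraMap k κ (P.coeff i) * (W ^ (a * (P.natDegree - i)) * (W ^ a * j) ^ i) := by
    rw [Algebra.smul_def]
    have h2 : a * P.natDegree = a * (P.natDegree - i) + a * i := by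
      rw [← Nat.mul_add]; congr 1; omega
    rw [h2, pow_add, mul_pow, ← pow_mul]
    ring
  rw [h1]
  exact mul_mem (algebraMap_mem_KX _ _) (mul_mem (pow_mem hW _) (pow_mem ha _))

lemma Base.rel_field : jG ι Γ 1 * B.h ι ^ B.a =
    Polynomial.aeval (B.h ι) (B.P.map (Int.castRingHom K)) := by
  apply Subtype.ext
  have h1 : IsMF ι Γ 1 (jFun * B.f ^ B.a) (jE K 1 * B.X K ^ B.a) :=
    (isMF_j Γ 1).mul (B.isMF.pow B.a)
  have h2 := B.isMF_aeval (ι := ι) (B.P.map (Int.castRingHom K))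
  have h3 : (fun τ => ((B.P.map (Int.castRingHom K)).map ι).eval (B.f τ)) = jFun * B.f ^ B.a := by
    funext τ
    rw [Polynomial.map_map, Pi.mul_apply, Pi.pow_apply, B.rel τ, Polynomial.aeval_def,
      Polynomial.eval_map]
    congr 1
    exact RingHom.ext_int _ _
  exact h1.unique (h2.congr_fun h3)

lemma Base.aeval_W1 {κ : Type*} [Field κ] [Algebra K κ] (u : κ) :
    Polynomial.aeval u (B.W1.map (Int.castRingHom K)) = u * (u + (B.c : κ)) := by
  simp [Base.W1]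

lemma Base.aeval_W2 {κ : Type*} [Field κ] [Algebra K κ] (u : κ) :
    Polynomial.aeval u (B.W2.map (Int.castRingHom K)) = u * (1 + (B.c : κ) * u) := by
  simp [Base.W2]

lemma Base.aeval_W0 {κ : Type*} [Field κ] [Algebra K κ] (u : κ) :
    Polynomial.aeval u (B.W0.map (Int.castRingHom K)) = u ^ B.e * (u + (B.c : κ)) := by
  simp [Base.W0]

lemma intCast_mem_KX {k κ : Type*} [Field k] [Field κ] [Algebra k κ] (u : κ) (c : ℤ) :
    (c : κ) ∈ KX k u := intCast_mem _ c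

variable (ι) in
/-- the element vanishing at the bad points -/
def Base.ω : FG ι Γ 1 := Polynomial.aeval (B.h ι) (B.W0.map (Int.castRingHom K))

lemma Base.isMF_ω : IsMF ι Γ 1 (fun τ => B.f τ ^ B.e * (B.f τ + B.c))
    ((B.ω ι : FG ι Γ 1) : LaurentSeries K) :=
  (B.isMF_aeval _).congr_fun (by funext τ; simp [Base.W0])

lemma Base.hc_ne : B.h ι + (B.c : FG ι Γ 1) ≠ 0 := by
  intro h0
  refine B.transcendental_h (ι := ι) ⟨Polynomial.X + Polynomial.C (B.c : K), ?_, ?_⟩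
  · exact Polynomial.X_add_C_ne_zero _
  · simpa using h0

lemma Base.ω_ne : B.ω ι ≠ 0 := by
  rw [Base.ω, B.aeval_W0]
  exact mul_ne_zero (pow_ne_zero _ B.h_ne_zero) B.hc_ne

/-- chart `u = h`, the ring `K[j]` -/
lemma Base.hS1 {s : FG ι Γ 1} (hs : s ∈ KX K (jG ι Γ 1)) :
    ∃ N : ℕ, Polynomial.aeval (B.h ι) (B.W1.map (Int.castRingHom K)) ^ N * s ∈ KX K (B.h ι) := by
  refine exists_pow_mul_mem_KX (a := B.a) (aeval_mem_KX _ _) ?_ hs
  rw [B.aeval_W1, mul_pow]
  have h1 : B.h ι ^ B.a * (B.h ι + (B.c : FG ι Γ 1)) ^ B.a * jG ι Γ 1 =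
      (B.h ι + (B.c : FG ι Γ 1)) ^ B.a * (jG ι Γ 1 * B.h ι ^ B.a) := by ring
  rw [h1, B.rel_field]
  exact mul_mem (pow_mem (add_mem (self_mem_KX _ _) (intCast_mem_KX _ _)) _) (aeval_mem_KX _ _)

lemma Base.hω1 : ∃ N : ℕ, Polynomial.aeval (B.h ι) (B.W1.map (Int.castRingHom K)) ^ N *
    (B.ω ι)⁻¹ ∈ KX K (B.h ι) := by
  refine ⟨1, ?_⟩
  have hh := B.h_ne_zero (ι := ι)
  have hh' := B.hc_ne (ι := ι)
  rw [pow_one, B.aeval_W1, Base.ω, B.aeval_W0]
  have h1 : B.h ι * (B.h ι + (B.c : FG ι Γ 1)) *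
      (B.h ι ^ B.e * (B.h ι + (B.c : FG ι Γ 1)))⁻¹ = B.h ι ^ (1 - B.e) := by
    have h2 : B.h ι = B.h ι ^ (1 - B.e) * B.h ι ^ B.e := by
      rw [← pow_add, Nat.sub_add_cancel B.he, pow_one]
    have h3 : B.h ι ^ B.e ≠ 0 := pow_ne_zero _ hh
    rw [mul_inv]
    calc B.h ι * (B.h ι + (B.c : FG ι Γ 1)) *
          ((B.h ι ^ B.e)⁻¹ * (B.h ι + (B.c : FG ι Γ 1))⁻¹)
        = B.h ι * (B.h ι ^ B.e)⁻¹ * ((B.h ι + (B.c : FG ι Γ 1)) *
            (B.h ι + (B.c : FG ι Γ 1))⁻¹) := by ring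
      _ = B.h ι * (B.h ι ^ B.e)⁻¹ := by rw [mul_inv_cancel₀ hh', mul_one]
      _ = B.h ι ^ (1 - B.e) * B.h ι ^ B.e * (B.h ι ^ B.e)⁻¹ := by rw [← h2]
      _ = _ := by rw [mul_assoc, mul_inv_cancel₀ h3, mul_one]
  rw [h1]
  exact pow_mem (self_mem_KX _ _) _

/-- `v j ∈ K[v]` -/
lemma Base.v_mul_j : (B.h ι)⁻¹ * jG ι Γ 1 ∈ KX K (B.h ι)⁻¹ := by
  have hh := B.h_ne_zero (ι := ι)
  have h1 : (B.h ι)⁻¹ * jG ι Γ 1 = (B.h ι)⁻¹ ^ (B.a + 1) * (jG ι Γ 1 * B.h ι ^ B.a) := by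
    rw [pow_succ, inv_pow]
    field_simp
  rw [h1, B.rel_field, Polynomial.aeval_eq_sum_range, Finset.mul_sum]
  refine sum_mem fun i hi => ?_
  have hi' : i ≤ B.a + 1 := by
    have h2 := Finset.mem_range.mp hi
    have h3 := Polynomial.natDegree_map_le (f := Int.castRingHom K) (p := B.P)
    have h4 := B.hP
    omega
  have h2 : (B.h ι)⁻¹ ^ (B.a + 1) * (B.P.map (Int.castRingHom K)).coeff i • B.h ι ^ i =
      algebraMap K _ ((B.P.map (Int.castRingHom K)).coeff i) * (B.h ι)⁻¹ ^ (B.a + 1 - i) := by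
    rw [Algebra.smul_def]
    have h3 : (B.h ι)⁻¹ ^ (B.a + 1) = (B.h ι)⁻¹ ^ (B.a + 1 - i) * (B.h ι)⁻¹ ^ i := by
      rw [← pow_add]; congr 1; omega
    rw [h3]
    have h4 : (B.h ι)⁻¹ ^ i * B.h ι ^ i = 1 := by
      rw [← mul_pow, inv_mul_cancel₀ hh, one_pow]
    linear_combination (algebraMap K (FG ι Γ 1) ((B.P.map (Int.castRingHom K)).coeff i) *
      (B.h ι)⁻¹ ^ (B.a + 1 - i)) * h4
  rw [h2]
  exact mul_mem (algebraMap_mem_KX _ _) (pow_mem (self_mem_KX _ _) _)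

lemma Base.hS2 {s : FG ι Γ 1} (hs : s ∈ KX K (jG ι Γ 1)) :
    ∃ N : ℕ, Polynomial.aeval (B.h ι)⁻¹ (B.W2.map (Int.castRingHom K)) ^ N * s ∈
      KX K (B.h ι)⁻¹ := by
  refine exists_pow_mul_mem_KX (a := 1) (aeval_mem_KX _ _) ?_ hs
  rw [pow_one, B.aeval_W2]
  have h1 : (B.h ι)⁻¹ * (1 + (B.c : FG ι Γ 1) * (B.h ι)⁻¹) * jG ι Γ 1 =
      (1 + (B.c : FG ι Γ 1) * (B.h ι)⁻¹) * ((B.h ι)⁻¹ * jG ι Γ 1) := by ring
  rw [h1]
  exact mul_mem (add_mem (one_mem _) (mul_mem (intCast_mem_KX _ _) (self_mem_KX _ _))) B.v_mul_j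

lemma Base.hω2 : ∃ N : ℕ, Polynomial.aeval (B.h ι)⁻¹ (B.W2.map (Int.castRingHom K)) ^ N *
    (B.ω ι)⁻¹ ∈ KX K (B.h ι)⁻¹ := by
  refine ⟨1, ?_⟩
  have hh := B.h_ne_zero (ι := ι)
  have hh' := B.hc_ne (ι := ι)
  rw [pow_one, B.aeval_W2, Base.ω, B.aeval_W0]
  have h1 : (B.h ι)⁻¹ * (1 + (B.c : FG ι Γ 1) * (B.h ι)⁻¹) *
      (B.h ι ^ B.e * (B.h ι + (B.c : FG ι Γ 1)))⁻¹ = (B.h ι)⁻¹ ^ (B.e + 2) := by
    have h3 : B.h ι ^ B.e ≠ 0 := pow_ne_zero _ hh
    rw [pow_add, inv_pow, inv_pow, mul_inv]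
    field_simp
    try ring
  rw [h1]
  exact pow_mem (self_mem_KX _ _) _

end Fermat.Agent.X1Key

end
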