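import Fermat.Agent.X1.KeyPoint
import Fermat.Agent.X1.KeyOrd

/-!
# The duality statements for the two charts of the base coordinate
-/

set_option autoImplicit false

open UpperHalfPlane hiding I
open ModularForm Matrix.SpecialLinearGroup Filter Asymptotics CongruenceSubgroup
open scoped MatrixGroups Manifold ModularForm Polynomial Topology IntermediateField

noncomputable section

namespace Fermat.Agent.X1Key

open Fermat.Agent.JLevelOne Fermat.Agent.X0Emb Fermat.Agent.ModFun ModularCurve Fermat.Agent.FG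
open WithZero

variable {K : Type*} [Field K] {ι : K →+* ℂ} {Γ : Subgroup SL(2, ℤ)} {p : ℕ} (B : Base Γ p)

/-- the good points -/
def Base.Z : Type := {z : ℍ // B.f z ^ B.e * (B.f z + B.c) ≠ 0}

lemma Base.f_ne (z : B.Z) : B.f z.1 ≠ 0 := B.nz _ z.2

lemma Base.fc_ne (z : B.Z) : B.f z.1 + B.c ≠ 0 := right_ne_zero_of_mul z.2

lemma Base.toMerH_h : toMerH (B.h ι) = algebraMap Hol MerH ⟨B.f, B.mdiff⟩ :=
  toMerH_of_isMF (x := B.h ι) B.isMF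

lemma Base.vz_aeval (z : B.Z) (P : K[X]) (hP : (P.map ι).eval (B.f z.1) ≠ 0) :
    vz z.1 (Polynomial.aeval (B.h ι) P) = 1 := by
  rw [vz_of_isMF (B.isMF_aeval P)]
  exact valH_eq_one hP

lemma Base.vz_h (z : B.Z) : vz z.1 (B.h ι) = 1 := by
  rw [vz_of_isMF (x := B.h ι) B.isMF]
  exact valH_eq_one (f := ⟨B.f, B.mdiff⟩) (B.f_ne z)

lemma Base.vz_hc (z : B.Z) : vz z.1 (B.h ι + (B.c : FG ι Γ 1)) = 1 := by
  have h1 := B.vz_aeval (ι := ι) z (Polynomial.X + Polynomial.C (B.c : K))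
    (by simpa using B.fc_ne z)
  simpa using h1

lemma Base.vz_W1 (z : B.Z) :
    vz z.1 (Polynomial.aeval (B.h ι) (B.W1.map (Int.castRingHom K))) = 1 := by
  rw [B.aeval_W1, map_mul, B.vz_h, B.vz_hc, mul_one]

lemma Base.vz_W2 (z : B.Z) :
    vz z.1 (Polynomial.aeval (B.h ι)⁻¹ (B.W2.map (Int.castRingHom K))) = 1 := by
  have hh := B.h_ne_zero (ι := ι)
  rw [B.aeval_W2]
  have h1 : (B.h ι)⁻¹ * (1 + (B.c : FG ι Γ 1) * (B.h ι)⁻¹) =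
      (B.h ι)⁻¹ * (B.h ι)⁻¹ * (B.h ι + (B.c : FG ι Γ 1)) := by
    field_simp
  rw [h1, map_mul, map_mul, map_inv₀, B.vz_h, B.vz_hc]
  simp

lemma eExp_one : eExp 1 = exp (-1 : ℤ) := by
  have : (1 : ℕ∞) = ((1 : ℕ) : ℕ∞) := rfl
  rw [this, eExp, if_neg (ENat.natCast_ne_top 1), ENat.toNat_natCast]
  rfl

lemma Base.param1 (z : B.Z) :
    valM z.1 (toMerH (B.h ι) - algebraMap Hol MerH (constHol (B.f z.1))) = exp (-1 : ℤ) := by
  rw [B.toMerH_h, ← map_sub, valM_algebraMap, valH_eq, ordH]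
  have h1 : ((⟨B.f, B.mdiff⟩ - constHol (B.f z.1) : Hol) : ℍ → ℂ) = fun τ => B.f τ - B.f z.1 := rfl
  rw [h1, B.ord z.1 z.2, eExp_one]

lemma Base.param2 (z : B.Z) :
    valM z.1 (toMerH (B.h ι)⁻¹ - algebraMap Hol MerH (constHol (B.f z.1)⁻¹)) =
      exp (-1 : ℤ) := by
  set a : MerH := toMerH (B.h ι) with ha
  have ha1 : valM z.1 a = 1 := B.vz_h z
  have ha0 : a ≠ 0 := (Valuation.ne_zero_iff (valM z.1)).mp (by rw [ha1]; exact one_ne_zero)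
  set b : MerH := algebraMap Hol MerH (constHol (B.f z.1)) with hb
  have hb1 : valM z.1 b = 1 := by
    rw [hb, valM_algebraMap]
    exact valH_const _ (B.f_ne z)
  have hb0 : b ≠ 0 := (Valuation.ne_zero_iff (valM z.1)).mp (by rw [hb1]; exact one_ne_zero)
  have hbi : algebraMap Hol MerH (constHol (B.f z.1)⁻¹) = b⁻¹ := by
    apply eq_inv_of_mul_eq_one_left
    rw [hb, ← map_mul, ← map_mul, inv_mul_cancel₀ (B.f_ne z), map_one, map_one]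
  rw [hbi, map_inv₀, ← ha]
  have h1 : a⁻¹ - b⁻¹ = -(a - b) * a⁻¹ * b⁻¹ := by
    field_simp
    ring
  rw [h1, map_mul, map_mul, Valuation.map_neg, map_inv₀, map_inv₀, ha1, hb1, B.param1 z]
  simp

section Dual

variable [Γ.FiniteIndex]

omit B in
lemma isIntegral_of_mem_AG {x : FG ι Γ 1} (hx : (x : LaurentSeries K) ∈ AG ι Γ 1) :
    IsIntegral (KX K (jG ι Γ 1)) x := by
  obtain ⟨F, hF⟩ := hx
  obtain ⟨P, hPm, -, hP⟩ := hF.exists_monic_FG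
  exact (isIntegral_range_iff _).mp ⟨P, hPm, hP⟩

lemma Base.hJ2 {x : FG ι Γ 1} (hx : ∀ z : B.Z, vz z.1 x ≤ 1) :
    ∃ N : ℕ, IsIntegral (KX K (jG ι Γ 1)) (B.ω ι ^ N * x) := by
  obtain ⟨N, hN⟩ := exists_pow_mul_mem_AG (B.isMF_ω (ι := ι)) x fun z hz => hx ⟨z, hz⟩
  exact ⟨N, isIntegral_of_mem_AG hN⟩

/-- Duality in the chart `u = h`. -/
theorem Base.dual1 [FiniteDimensional K⟮B.h ι⟯ (FG ι Γ 1)] {n : ℕ} (hn : n ≠ 0) {y₀ : FG ι Γ 1}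
    (hy0 : y₀ ≠ 0) (hy : ∀ z : ℍ, ∃ a : ℤ, vz z y₀ = exp a ^ n) (x : FG ι Γ 1)
    (hx : ∀ m : FG ι Γ 1, RadMem (icl (KX K (B.h ι)))
        (Polynomial.aeval (B.h ι) (B.W1.map (Int.castRingHom K)))
        ((Polynomial.aeval (B.h ι) (B.W1.map (Int.castRingHom K)) * m) ^ n * y₀) →
      algebraMap K⟮B.h ι⟯ (FG ι Γ 1) (Algebra.trace K⟮B.h ι⟯ (FG ι Γ 1) (x * m)) ∈
        KX K (B.h ι)) :
    x ^ n * y₀⁻¹ ∈ (icl (KX K (B.h ι)) : Subring (FG ι Γ 1)) := by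
  have hch : CharZero K := ι.charZero
  refine dual_global B.transcendental_h (fun z : B.Z => vz z.1) (fun z c => vz_algebraMap_le _ _)
    (fun z => (B.vz_h z).le) (w := B.W1.map (Int.castRingHom K)) ?_ (fun z => B.vz_W1 z) ?_ hn
    (inv_ne_zero hy0) ?_ (KX K (jG ι Γ 1)) B.ω_ne (fun x hx => B.hJ2 hx) (fun s hs => B.hS1 hs)
    B.hω1 ?_
  · intro h0
    have h1 : Polynomial.aeval (B.h ι) (B.W1.map (Int.castRingHom K)) = 0 := by rw [h0, map_zero]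
    rw [B.aeval_W1] at h1
    exact mul_ne_zero B.h_ne_zero B.hc_ne h1
  · intro z
    exact local_param (B.h ι) z.1 (B.f z.1) (B.param1 z) fun x => Algebra.IsAlgebraic.isAlgebraic x
  · intro z
    obtain ⟨a, ha⟩ := hy z.1
    exact ⟨-a, by rw [map_inv₀, ha, exp_neg, inv_pow]⟩
  · rw [inv_inv]; exact hx

/-- Duality in the chart `u = h⁻¹`. -/
theorem Base.dual2 [FiniteDimensional K⟮(B.h ι)⁻¹⟯ (FG ι Γ 1)] {n : ℕ} (hn : n ≠ 0)
    {y₀ : FG ι Γ 1}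
    (hy0 : y₀ ≠ 0) (hy : ∀ z : ℍ, ∃ a : ℤ, vz z y₀ = exp a ^ n) (x : FG ι Γ 1)
    (hx : ∀ m : FG ι Γ 1, RadMem (icl (KX K (B.h ι)⁻¹))
        (Polynomial.aeval (B.h ι)⁻¹ (B.W2.map (Int.castRingHom K)))
        ((Polynomial.aeval (B.h ι)⁻¹ (B.W2.map (Int.castRingHom K)) * m) ^ n * y₀) →
      algebraMap K⟮(B.h ι)⁻¹⟯ (FG ι Γ 1) (Algebra.trace K⟮(B.h ι)⁻¹⟯ (FG ι Γ 1) (x * m)) ∈
        KX K (B.h ι)⁻¹) :
    x ^ n * y₀⁻¹ ∈ (icl (KX K (B.h ι)⁻¹) : Subring (FG ι Γ 1)) := by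
  have hch : CharZero K := ι.charZero
  have htr : Transcendental K (B.h ι)⁻¹ := fun h => B.transcendental_h (ι := ι) (by
    have := h.inv
    rwa [inv_inv] at this)
  refine dual_global htr (fun z : B.Z => vz z.1) (fun z c => vz_algebraMap_le _ _)
    (fun z => ?_) (w := B.W2.map (Int.castRingHom K)) ?_ (fun z => B.vz_W2 z) ?_ hn
    (inv_ne_zero hy0) ?_ (KX K (jG ι Γ 1)) B.ω_ne (fun x hx => B.hJ2 hx) (fun s hs => B.hS2 hs)
    B.hω2 ?_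
  · show vz z.1 (B.h ι)⁻¹ ≤ 1
    rw [map_inv₀, B.vz_h, inv_one]
  · intro h0
    have hh := B.h_ne_zero (ι := ι)
    have h1 : Polynomial.aeval (B.h ι)⁻¹ (B.W2.map (Int.castRingHom K)) = 0 := by
      rw [h0, map_zero]
    rw [B.aeval_W2] at h1
    have h2 : (B.h ι)⁻¹ * (1 + (B.c : FG ι Γ 1) * (B.h ι)⁻¹) =
        (B.h ι)⁻¹ * (B.h ι)⁻¹ * (B.h ι + (B.c : FG ι Γ 1)) := by
      field_simp
    rw [h2] at h1
    exact mul_ne_zero (mul_ne_zero (inv_ne_zero hh) (inv_ne_zero hh)) B.hc_ne h1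
  · intro z
    exact local_param (B.h ι)⁻¹ z.1 (B.f z.1)⁻¹ (B.param2 z)
      fun x => Algebra.IsAlgebraic.isAlgebraic x
  · intro z
    obtain ⟨a, ha⟩ := hy z.1
    exact ⟨-a, by rw [map_inv₀, ha, exp_neg, inv_pow]⟩
  · rw [inv_inv]; exact hx

end Dual

omit B in
/-- valuations of `G ^ n / H ^ n` -/
theorem exists_vz_div {n : ℕ} (hn : n ≠ 0) {G H : ℍ → ℂ} (hG : MDiff G) {a z : LaurentSeries K}
    (ha : IsMF ι Γ 1 (G ^ n) a) (hz : IsMF ι Γ 1 H z) (ha0 : a ≠ 0) (hz0 : z ≠ 0) {y₀ : FG ι Γ 1}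
    (hy₀ : (y₀ : LaurentSeries K) = a / z ^ n) (τ : ℍ) : ∃ m : ℤ, vz τ y₀ = exp m ^ n := by
  have h1 : y₀ = ⟨a, ha.mem_FG⟩ / ⟨z, hz.mem_FG⟩ ^ n := Subtype.ext hy₀
  have hG0 : G ≠ 0 := by
    rintro rfl
    rw [zero_pow hn] at ha
    exact ha0 (ha.eq_zero_iff.mp rfl)
  have hH0 : H ≠ 0 := fun h => hz0 (hz.eq_zero_iff.mp h)
  obtain ⟨m₁, h₁⟩ := valH_eq_exp τ (f := ⟨G, hG⟩) (fun h => hG0 (congrArg Subtype.val h))
  obtain ⟨m₂, h₂⟩ := valH_eq_exp τ (f := ⟨H, hz.mdiff⟩) (fun h => hH0 (congrArg Subtype.val h))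
  refine ⟨m₁ - m₂, ?_⟩
  rw [h1, map_div₀, map_pow, vz_of_isMF (x := (⟨a, ha.mem_FG⟩ : FG ι Γ 1)) ha,
    vz_of_isMF (x := (⟨z, hz.mem_FG⟩ : FG ι Γ 1)) hz, h₂, exp_sub, div_pow, ← h₁, ← map_pow]
  rfl

end Fermat.Agent.X1Key

end
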