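import Mathlib

/-!
# A purity lemma (trace duality) for a discretely valued field

`V` is a discrete valuation ring of the field `F` (given by a uniformizer `π` and a residue map
`red : V →+* κ`).  `M'` is a finitely generated `R`-submodule of `V`, saturated in `V`.  The dual
basis of (a basis of) `M'` with respect to the trace form lies in `V` if the residue extension is
separable.  This gives lifting of residual elements with integral traces.
-/

set_option autoImplicit false

open Module

namespace Fermat.Agent.X1Key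

section RD

variable {F κ : Type*} [Field F] [Field κ] {V : Subring F}

open Classical in
/-- The residue map extended by zero to `F`. -/
noncomputable def rd (red : V →+* κ) (x : F) : κ := if h : x ∈ V then red ⟨x, h⟩ else 0

variable (red : V →+* κ)

lemma rd_of_mem {x : F} (h : x ∈ V) : rd red x = red ⟨x, h⟩ := by simp [rd, h]

@[simp] lemma rd_coe (x : V) : rd red (x : F) = red x := rd_of_mem red x.2

@[simp] lemma rd_zero : rd red 0 = 0 := by
  rw [rd_of_mem red (zero_mem V)]; exact map_zero red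

@[simp] lemma rd_one : rd red 1 = 1 := by
  rw [rd_of_mem red (one_mem V)]; exact map_one red

lemma rd_add {x y : F} (hx : x ∈ V) (hy : y ∈ V) : rd red (x + y) = rd red x + rd red y := by
  rw [rd_of_mem red hx, rd_of_mem red hy, rd_of_mem red (add_mem hx hy), ← map_add]; rfl

lemma rd_mul {x y : F} (hx : x ∈ V) (hy : y ∈ V) : rd red (x * y) = rd red x * rd red y := by
  rw [rd_of_mem red hx, rd_of_mem red hy, rd_of_mem red (mul_mem hx hy), ← map_mul]; rfl

lemma rd_neg {x : F} (hx : x ∈ V) : rd red (-x) = - rd red x := by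
  rw [rd_of_mem red hx, rd_of_mem red (neg_mem hx), ← map_neg]; rfl

lemma rd_sub {x y : F} (hx : x ∈ V) (hy : y ∈ V) : rd red (x - y) = rd red x - rd red y := by
  rw [rd_of_mem red hx, rd_of_mem red hy, rd_of_mem red (sub_mem hx hy), ← map_sub]; rfl

lemma rd_pow {x : F} (hx : x ∈ V) (n : ℕ) : rd red (x ^ n) = rd red x ^ n := by
  rw [rd_of_mem red hx, rd_of_mem red (pow_mem hx n), ← map_pow]; rfl

lemma rd_sum {ι : Type*} (s : Finset ι) (f : ι → F) (hf : ∀ i ∈ s, f i ∈ V) :
    rd red (∑ i ∈ s, f i) = ∑ i ∈ s, rd red (f i) := by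
  classical
  induction s using Finset.induction_on with
  | empty => simp
  | insert a s ha ih =>
    rw [Finset.sum_insert ha, Finset.sum_insert ha,
      rd_add red (hf a (Finset.mem_insert_self _ _))
        (sum_mem fun i hi => hf i (Finset.mem_insert_of_mem hi)),
      ih fun i hi => hf i (Finset.mem_insert_of_mem hi)]

end RD

section VRing

variable {F κ : Type*} [Field F] [Field κ]

/-- `V` is a discrete valuation ring of `F` with uniformizer `π` and residue map `red`. -/
structure VRing (V : Subring F) (π : F) (red : V →+* κ) : Prop where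
  mem : π ∈ V
  ne : π ≠ 0
  red_pi : rd red π = 0
  surj : Function.Surjective red
  ker : ∀ x ∈ V, rd red x = 0 → ∃ y ∈ V, x = π * y
  scale : ∀ x : F, x ≠ 0 → ∃ (m : ℤ), ∃ u ∈ V, rd red u ≠ 0 ∧ x = π ^ m * u

namespace VRing

variable {V : Subring F} {π : F} {red : V →+* κ} (h : VRing V π red)

include h

lemma pow_mem' {m : ℤ} (hm : 0 ≤ m) : π ^ m ∈ V := by
  obtain ⟨n, rfl⟩ := Int.eq_ofNat_of_zero_le hm
  rw [zpow_natCast]
  exact pow_mem h.mem n

lemma red_pi_mul {y : F} (hy : y ∈ V) : rd red (π * y) = 0 := by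
  rw [rd_mul red h.mem hy, h.red_pi, zero_mul]

lemma red_pow_mul {m : ℤ} (hm : 0 < m) {u : F} (hu : u ∈ V) : rd red (π ^ m * u) = 0 := by
  have h1 : π ^ m * u = π * (π ^ (m - 1) * u) := by
    rw [← mul_assoc]
    congr 1
    conv_lhs => rw [show m = 1 + (m - 1) by ring]
    rw [zpow_add₀ h.ne, zpow_one]
  rw [h1]
  exact h.red_pi_mul (mul_mem (h.pow_mem' (by omega)) hu)

lemma nonneg_of_mem {m : ℤ} {u : F} (hu : rd red u ≠ 0) (hmem : π ^ m * u ∈ V) :
    0 ≤ m := by
  by_contra hm
  push Not at hm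
  have h1 : u = π ^ (-m) * (π ^ m * u) := by
    rw [← mul_assoc, ← zpow_add₀ h.ne, neg_add_cancel, zpow_zero, one_mul]
  apply hu
  rw [h1]
  exact h.red_pow_mul (m := -m) (by omega) hmem

omit h in
lemma ne_zero_of_red {u : F} (hu : rd red u ≠ 0) : u ≠ 0 := by
  rintro rfl
  exact hu (rd_zero red)

lemma inv_mem {u : F} (hu' : u ∈ V) (hu : rd red u ≠ 0) : u⁻¹ ∈ V := by
  have hu0 : u ≠ 0 := ne_zero_of_red hu
  obtain ⟨m, w, hw', hw, hm⟩ := h.scale u⁻¹ (inv_ne_zero hu0)
  have h1 : (1 : F) = π ^ m * (w * u) := by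
    rw [← mul_assoc, ← hm, inv_mul_cancel₀ hu0]
  have hm0 : 0 ≤ m := by
    refine h.nonneg_of_mem (u := w * u) (by rw [rd_mul red hw' hu']; exact mul_ne_zero hw hu) ?_
    rw [← h1]; exact one_mem _
  rw [hm]
  exact mul_mem (h.pow_mem' hm0) hw'

lemma red_inv {u : F} (hu' : u ∈ V) (hu : rd red u ≠ 0) : rd red u⁻¹ = (rd red u)⁻¹ := by
  apply eq_inv_of_mul_eq_one_left
  rw [← rd_mul red (h.inv_mem hu' hu) hu', inv_mul_cancel₀ (ne_zero_of_red hu), rd_one]

/-- Scaling a finite family so that it becomes integral and primitive. -/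
lemma exists_scale_family {ι : Type*} [Finite ι] (c : ι → F) (hc : ∃ i, c i ≠ 0) :
    ∃ m : ℤ, (∀ i, π ^ m * c i ∈ V) ∧ ∃ i, rd red (π ^ m * c i) ≠ 0 := by
  classical
  have := Fintype.ofFinite ι
  have key : ∀ i : ι, ∃ m : ℤ, ∃ u : F, (c i ≠ 0 → u ∈ V ∧ rd red u ≠ 0 ∧ c i = π ^ m * u) := by
    intro i
    by_cases h0 : c i = 0
    · exact ⟨0, 0, fun h => absurd h0 h⟩
    · obtain ⟨m, u, hu', hu, hm⟩ := h.scale _ h0
      exact ⟨m, u, fun _ => ⟨hu', hu, hm⟩⟩
  choose m u hu using key
  let s : Finset ι := Finset.univ.filter fun i => c i ≠ 0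
  have hs : s.Nonempty := by
    obtain ⟨i, hi⟩ := hc
    exact ⟨i, by simp [s, hi]⟩
  obtain ⟨i₀, hi₀, hmin⟩ := s.exists_min_image m hs
  have hi₀' : c i₀ ≠ 0 := by simpa [s] using hi₀
  refine ⟨-m i₀, ?_, i₀, ?_⟩
  · intro i
    by_cases h0 : c i = 0
    · rw [h0, mul_zero]; exact zero_mem _
    · have h1 : m i₀ ≤ m i := hmin i (by simp [s, h0])
      obtain ⟨ha, -, hc'⟩ := hu i h0
      rw [hc', ← mul_assoc, ← zpow_add₀ h.ne]
      exact mul_mem (h.pow_mem' (by omega)) ha
  · obtain ⟨ha, hb, hc'⟩ := hu i₀ hi₀'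
    have h1 : π ^ (-m i₀) * c i₀ = u i₀ := by
      rw [hc', ← mul_assoc, ← zpow_add₀ h.ne, neg_add_cancel, zpow_zero, one_mul]
    rw [h1]
    exact hb

/-- If a family is not integral, then a positive power of `π` makes it integral and primitive. -/
lemma exists_scale_family_pos {ι : Type*} [Finite ι] (c : ι → F) (hc : ∃ i, c i ∉ V) :
    ∃ m : ℤ, 0 < m ∧ (∀ i, π ^ m * c i ∈ V) ∧ ∃ i, rd red (π ^ m * c i) ≠ 0 := by
  obtain ⟨i₀, hi₀⟩ := hc
  obtain ⟨m, hm, i, hi⟩ := h.exists_scale_family c ⟨i₀, fun h0 => hi₀ (h0 ▸ zero_mem _)⟩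
  refine ⟨m, ?_, hm, i, hi⟩
  by_contra hneg
  push Not at hneg
  apply hi₀
  have h1 : c i₀ = π ^ (-m) * (π ^ m * c i₀) := by
    rw [← mul_assoc, ← zpow_add₀ h.ne, neg_add_cancel, zpow_zero, one_mul]
  rw [h1]
  exact mul_mem (h.pow_mem' (by omega)) (hm i₀)

end VRing

end VRing

section Chart

universe u

variable {F : Type*} {κ : Type u} [Field F] [Field κ] {V : Subring F} {π : F} {red : V →+* κ}
variable {E Eb R Rb : Type*} [Field E] [Field Eb] [CommRing R] [CommRing Rb]
  [Algebra R E] [Algebra R F] [Algebra E F] [IsScalarTower R E F]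
  [Algebra Rb Eb] [Algebra Rb κ] [Algebra Eb κ] [IsScalarTower Rb Eb κ]

/-- A chart: a ring `R ⊆ V ∩ E` with `E = Frac R` whose reduction is `Rb`. -/
structure Chart {F κ : Type*} [Field F] [Field κ] (V : Subring F) (π : F) (red : V →+* κ) (E Eb : Type*) [Field E] [Field Eb]
    [Algebra E F] [Algebra Eb κ] (R Rb : Type*) [CommRing R] [CommRing Rb]
    [Algebra R E] [Algebra R F] [Algebra Rb Eb] [Algebra Rb κ]
    (q : R →+* Rb) : Prop where
  vring : VRing V π red
  mem : ∀ r : R, algebraMap R F r ∈ V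
  surj : Function.Surjective q
  red_eq : ∀ r : R, rd red (algebraMap R F r) = algebraMap Rb κ (q r)
  unif : ∃ ϖ : R, algebraMap R F ϖ = π
  sat : ∀ r : R, q r = 0 → ∃ r' : R, algebraMap R F r = π * algebraMap R F r'
  injF : Function.Injective (algebraMap R F)
  injK : Function.Injective (algebraMap Rb κ)
  frac : ∀ e : E, ∃ s r : R, s ≠ 0 ∧ algebraMap R E s * e = algebraMap R E r
  fracb : ∀ e : Eb, ∃ s r : Rb, s ≠ 0 ∧ algebraMap Rb Eb s * e = algebraMap Rb Eb r

namespace Chart

variable {q : R →+* Rb} (C : Chart V π red E Eb R Rb q)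

include C

omit [IsScalarTower R E F] [IsScalarTower Rb Eb κ] in
/-- a nonzero element of `R` is `π ^ m` times an element with nonzero reduction -/
lemma exists_primitive (s : R) (hs : s ≠ 0) :
    ∃ (m : ℕ) (s' : R), q s' ≠ 0 ∧ algebraMap R F s = π ^ m * algebraMap R F s' := by
  have hs0 : algebraMap R F s ≠ 0 := fun h0 => hs (C.injF (by rw [h0, map_zero]))
  obtain ⟨m, u, hu', hu, hm⟩ := C.vring.scale _ hs0
  have hm0 : 0 ≤ m := C.vring.nonneg_of_mem hu (by rw [← hm]; exact C.mem s)
  obtain ⟨n, rfl⟩ := Int.eq_ofNat_of_zero_le hm0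
  clear hm0
  rw [zpow_natCast] at hm
  -- induct on n
  have key : ∀ (n : ℕ) (s : R), algebraMap R F s = π ^ n * u →
      ∃ s' : R, q s' ≠ 0 ∧ algebraMap R F s = π ^ n * algebraMap R F s' := by
    intro n
    induction n with
    | zero =>
      intro s hs
      refine ⟨s, ?_, by rw [pow_zero, one_mul]⟩
      intro h0
      apply hu
      have h1 := C.red_eq s
      rw [h0, map_zero, hs, pow_zero, one_mul] at h1
      exact h1
    | succ n ih =>
      intro s hs
      have h2 : algebraMap R F s = π * (π ^ n * u) := by rw [hs, pow_succ]; ring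
      have h1 : q s = 0 := by
        apply C.injK
        rw [← C.red_eq, map_zero, h2]
        exact C.vring.red_pi_mul (mul_mem (pow_mem C.vring.mem n) hu')
      obtain ⟨r', hr'⟩ := C.sat s h1
      have h3 : algebraMap R F r' = π ^ n * u := by
        apply mul_left_cancel₀ C.vring.ne
        rw [← hr', h2]
      obtain ⟨s', hs', h4⟩ := ih r' h3
      exact ⟨s', hs', by rw [hr', h4, pow_succ]; ring⟩
  obtain ⟨s', hs', h5⟩ := key n s hm
  exact ⟨n, s', hs', h5⟩

omit [IsScalarTower R E F] [IsScalarTower Rb Eb κ] in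
lemma sat_pow (m : ℕ) : ∀ (r : R) (x : F), x ∈ V → algebraMap R F r = π ^ m * x →
    ∃ r' : R, algebraMap R F r' = x := by
  induction m with
  | zero => intro r x _ h; exact ⟨r, by rw [h, pow_zero, one_mul]⟩
  | succ m ih =>
    intro r x hx h
    have h2 : algebraMap R F r = π * (π ^ m * x) := by rw [h, pow_succ]; ring
    have h1 : q r = 0 := by
      apply C.injK
      rw [← C.red_eq, map_zero, h2]
      exact C.vring.red_pi_mul (mul_mem (pow_mem C.vring.mem m) hx)
    obtain ⟨r', hr'⟩ := C.sat r h1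
    refine ih r' x hx ?_
    apply mul_left_cancel₀ C.vring.ne
    rw [← hr', h2]

omit [IsScalarTower Rb Eb κ] in
/-- integral elements of `E` have a primitive denominator in `R` -/
lemma exists_frac (e : E) (he : algebraMap E F e ∈ V) :
    ∃ s r : R, q s ≠ 0 ∧ algebraMap R F s * algebraMap E F e = algebraMap R F r := by
  obtain ⟨s, r, hs, hsr⟩ := C.frac e
  obtain ⟨m, s', hs', h1⟩ := C.exists_primitive s hs
  have h2 : algebraMap R F s * algebraMap E F e = algebraMap R F r := by
    rw [IsScalarTower.algebraMap_apply R E F, IsScalarTower.algebraMap_apply R E F r, ← map_mul,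
      hsr]
  obtain ⟨r', hr'⟩ := C.sat_pow m r (algebraMap R F s' * algebraMap E F e)
    (mul_mem (C.mem _) he) (by rw [← h2, h1, mul_assoc])
  exact ⟨s', r', hs', hr'.symm⟩

omit [IsScalarTower R E F] [IsScalarTower Rb Eb κ] in
lemma red_ne {s : R} (hs : q s ≠ 0) : rd red (algebraMap R F s) ≠ 0 := by
  rw [C.red_eq]
  exact fun h0 => hs (C.injK (by rw [h0, map_zero]))

lemma red_mem (e : E) (he : algebraMap E F e ∈ V) :
    ∃ eb : Eb, rd red (algebraMap E F e) = algebraMap Eb κ eb := by
  obtain ⟨s, r, hs, h1⟩ := C.exists_frac e he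
  refine ⟨algebraMap Rb Eb (q r) / algebraMap Rb Eb (q s), ?_⟩
  have hs0 : algebraMap Rb κ (q s) ≠ 0 := fun h0 => hs (C.injK (by rw [h0, map_zero]))
  rw [map_div₀, ← IsScalarTower.algebraMap_apply, ← IsScalarTower.algebraMap_apply,
    eq_div_iff hs0, ← C.red_eq, ← C.red_eq, ← rd_mul red he (C.mem s), ← h1, mul_comm]

lemma exists_lift (eb : Eb) :
    ∃ (e : E), algebraMap E F e ∈ V ∧ rd red (algebraMap E F e) = algebraMap Eb κ eb := by
  obtain ⟨s, r, hs, h1⟩ := C.fracb eb
  obtain ⟨s, rfl⟩ := C.surj s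
  obtain ⟨r, rfl⟩ := C.surj r
  have hs0 : algebraMap Rb κ (q s) ≠ 0 := fun h0 => hs (C.injK (by rw [h0, map_zero]))
  have hs1 : rd red (algebraMap R F s) ≠ 0 := C.red_ne hs
  have hmem : algebraMap E F (algebraMap R E r / algebraMap R E s) =
      algebraMap R F r * (algebraMap R F s)⁻¹ := by
    rw [map_div₀, ← IsScalarTower.algebraMap_apply, ← IsScalarTower.algebraMap_apply,
      div_eq_mul_inv]
  refine ⟨algebraMap R E r / algebraMap R E s, ?_, ?_⟩
  · rw [hmem]
    exact mul_mem (C.mem r) (C.vring.inv_mem (C.mem s) hs1)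
  rw [hmem, rd_mul red (C.mem r) (C.vring.inv_mem (C.mem s) hs1), C.vring.red_inv (C.mem s) hs1,
    C.red_eq, C.red_eq]
  have h4 : algebraMap Rb κ (q s) * algebraMap Eb κ eb = algebraMap Rb κ (q r) := by
    rw [IsScalarTower.algebraMap_apply Rb Eb κ, IsScalarTower.algebraMap_apply Rb Eb κ (q r),
      ← map_mul, h1]
  rw [← h4]
  field_simp

section Basis

variable [IsDomain Rb] [IsPrincipalIdealRing Rb]

/-- A finitely generated saturated submodule of `V` spanning `F` has, up to a denominator which is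
`1` modulo `π`, a basis whose reductions form a basis of the residue field extension. -/
theorem exists_basis (M' : Submodule R F) (hM'V : ∀ x ∈ M', x ∈ V) (hfg : M'.FG)
    (hsat : ∀ x ∈ V, π * x ∈ M' → x ∈ M') (hspan : ∀ x : F, ∃ s : R, s ≠ 0 ∧ s • x ∈ M') :
    ∃ (ι : Type u) (_ : Fintype ι) (_ : DecidableEq ι) (b : Basis ι E F) (eb : Basis ι Eb κ),
      (∀ i, b i ∈ M') ∧ (∀ i, eb i = rd red (b i)) ∧
      (∃ s : R, q s = 1 ∧ ∀ m ∈ M', s • m ∈ Submodule.span R (Set.range b)) ∧
      (∀ x ∈ V, ∀ i, algebraMap E F (b.repr x i) ∈ V) := by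
  classical
  obtain ⟨ϖ, hϖ⟩ := C.unif
  have hsmul : ∀ (r : R) {x : F}, x ∈ V → rd red (r • x) = q r • rd red x := by
    intro r x hx
    rw [Algebra.smul_def, Algebra.smul_def, ← C.red_eq, rd_mul red (C.mem r) hx]
  -- the reduction of `M'` as a module over `Rb`
  let Nb : Submodule Rb κ :=
    { carrier := {y | ∃ x ∈ M', rd red x = y}
      add_mem' := by
        rintro _ _ ⟨x, hx, rfl⟩ ⟨y, hy, rfl⟩
        exact ⟨x + y, add_mem hx hy, rd_add red (hM'V _ hx) (hM'V _ hy)⟩
      zero_mem' := ⟨0, zero_mem _, rd_zero red⟩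
      smul_mem' := by
        rintro c _ ⟨x, hx, rfl⟩
        obtain ⟨r, rfl⟩ := C.surj c
        exact ⟨r • x, M'.smul_mem r hx, hsmul r (hM'V _ hx)⟩ }
  have hNfg : Nb.FG := by
    obtain ⟨S, hS⟩ := hfg
    have hSM : ∀ x ∈ S, x ∈ M' := fun x hx => hS ▸ Submodule.subset_span hx
    refine ⟨S.image fun x => rd red x, ?_⟩
    apply le_antisymm
    · rw [Submodule.span_le]
      intro y hy
      simp only [Finset.coe_image, Set.mem_image] at hy
      obtain ⟨x, hx, rfl⟩ := hy
      exact ⟨x, hSM _ hx, rfl⟩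
    · rintro _ ⟨x, hx, rfl⟩
      rw [← hS] at hx
      induction hx using Submodule.span_induction with
      | mem x hx =>
        apply Submodule.subset_span
        simp only [Finset.coe_image, Set.mem_image]
        exact ⟨x, hx, rfl⟩
      | zero => rw [rd_zero]; exact zero_mem _
      | add x y hx hy ihx ihy =>
        rw [rd_add red (hM'V _ (hS ▸ hx)) (hM'V _ (hS ▸ hy))]
        exact add_mem ihx ihy
      | smul r x hx ihx =>
        rw [hsmul r (hM'V _ (hS ▸ hx))]
        exact Submodule.smul_mem _ _ ihx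
  have : Module.Finite Rb Nb := Module.Finite.iff_fg.mpr hNfg
  have : IsTorsionFree Rb κ := by
    rw [isTorsionFree_iff_algebraMap_injective]
    exact C.injK
  have : IsTorsionFree Rb Nb := inferInstance
  let e := Module.Free.chooseBasis Rb Nb
  have hlift : ∀ i, ∃ x ∈ M', rd red x = (e i : κ) := fun i => (e i).2
  choose b hbM hbred using hlift
  have hbV : ∀ i, b i ∈ V := fun i => hM'V _ (hbM i)
  -- independence of the reductions over `Eb`
  have hLIb : LinearIndependent Eb fun i => (e i : κ) := by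
    rw [Fintype.linearIndependent_iff]
    intro c hc i
    choose s r hs hr using fun j => C.fracb (c j)
    have hs' : ∀ j, algebraMap Rb κ (s j) ≠ 0 := fun j h0 =>
      hs j (C.injK (by rw [h0, map_zero]))
    have hs'' : ∀ j, algebraMap Rb Eb (s j) ≠ 0 := fun j h0 => hs' j (by
      rw [IsScalarTower.algebraMap_apply Rb Eb κ, h0, map_zero])
    have h1 : ∑ j, ((∏ l ∈ Finset.univ.erase j, s l) * r j) • e j = 0 := by
      apply Subtype.ext
      rw [Submodule.coe_sum, Submodule.coe_zero]
      have h2 : (∏ l, algebraMap Rb Eb (s l)) • ∑ j, c j • (e j : κ) = 0 := by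
        rw [hc, smul_zero]
      rw [← h2, Finset.smul_sum]
      refine Finset.sum_congr rfl fun j _ => ?_
      rw [Submodule.coe_smul, smul_smul, algebra_compatible_smul Eb, map_mul, map_prod, ← hr j,
        ← mul_assoc, ← Finset.mul_prod_erase Finset.univ _ (Finset.mem_univ j)]
      congr 2
      ring
    have h3 := Fintype.linearIndependent_iff.mp e.linearIndependent _ h1 i
    have h4 : r i = 0 := by
      rcases mul_eq_zero.mp h3 with h5 | h5
      · rw [Finset.prod_eq_zero_iff] at h5
        obtain ⟨l, -, hl⟩ := h5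
        exact absurd hl (hs l)
      · exact h5
    have h5 := hr i
    rw [h4, map_zero] at h5
    exact (mul_eq_zero.mp h5).resolve_left (hs'' i)
  have hLI : ∀ c : Module.Free.ChooseBasisIndex Rb Nb → E, (∀ i, algebraMap E F (c i) ∈ V) →
      rd red (∑ i, c i • b i) = 0 → ∀ i, rd red (algebraMap E F (c i)) = 0 := by
    intro c hc h0 i
    choose eb heb using fun j => C.red_mem (c j) (hc j)
    have h1 : ∑ j, eb j • (e j : κ) = 0 := by
      rw [← h0, rd_sum]
      · refine Finset.sum_congr rfl fun j _ => ?_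
        rw [Algebra.smul_def, Algebra.smul_def, rd_mul red (hc j) (hbV j), hbred j, heb j]
      · intro j _
        rw [Algebra.smul_def]
        exact mul_mem (hc j) (hbV j)
    have h2 := Fintype.linearIndependent_iff.mp hLIb _ h1 i
    rw [heb i, h2, map_zero]
  have hLIE : LinearIndependent E b := by
    rw [Fintype.linearIndependent_iff]
    by_contra hcon
    push Not at hcon
    obtain ⟨c, hc, i₀, hi₀⟩ := hcon
    obtain ⟨m, hm, i, hi⟩ := C.vring.exists_scale_family (fun i => algebraMap E F (c i))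
      ⟨i₀, fun h0 => hi₀ ((algebraMap E F).injective (by rw [h0, map_zero]))⟩
    have hϖE : algebraMap E F (algebraMap R E ϖ) = π := by
      rw [← IsScalarTower.algebraMap_apply, hϖ]
    have h1 : ∀ j, algebraMap E F (algebraMap R E ϖ ^ m * c j) = π ^ m * algebraMap E F (c j) := by
      intro j
      rw [map_mul, map_zpow₀, hϖE]
    apply hi
    rw [← h1]
    refine hLI (fun j => algebraMap R E ϖ ^ m * c j) (fun j => ?_) ?_ i
    · show algebraMap E F _ ∈ V
      rw [h1]; exact hm j
    · have h2 : ∑ j, (algebraMap R E ϖ ^ m * c j) • b j = (algebraMap R E ϖ ^ m) • ∑ j, c j • b j := by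
        rw [Finset.smul_sum]
        exact Finset.sum_congr rfl fun j _ => by rw [smul_smul]
      rw [h2, hc, smul_zero, rd_zero]
  -- Nakayama
  have hNak : ∃ s : R, q s = 1 ∧ ∀ m ∈ M', s • m ∈ Submodule.span R (Set.range b) := by
    have hle : M' ≤ Submodule.span R (Set.range b) ⊔ Ideal.span {ϖ} • M' := by
      intro m hm
      have hy : rd red m ∈ Nb := ⟨m, hm, rfl⟩
      choose r hr using fun i => C.surj (e.repr ⟨rd red m, hy⟩ i)
      have h1 : ∑ i, q (r i) • (e i : κ) = rd red m := by
        have := congrArg (fun z : Nb => (z : κ)) (e.sum_repr ⟨rd red m, hy⟩)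
        simp only [Submodule.coe_sum, Submodule.coe_smul] at this
        rw [← this]
        exact Finset.sum_congr rfl fun i _ => by rw [hr i]
      have h2 : ∑ i, r i • b i ∈ Submodule.span R (Set.range b) :=
        Submodule.sum_mem _ fun i _ => Submodule.smul_mem _ _ (Submodule.subset_span ⟨i, rfl⟩)
      have h2' : ∑ i, r i • b i ∈ M' := Submodule.sum_mem _ fun i _ => M'.smul_mem _ (hbM i)
      have h3 : rd red (m - ∑ i, r i • b i) = 0 := by
        rw [rd_sub red (hM'V _ hm) (hM'V _ h2'), rd_sum, ← h1, sub_eq_zero]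
        · exact Finset.sum_congr rfl fun i _ => by rw [hsmul _ (hbV i), hbred]
        · exact fun i _ => hM'V _ (M'.smul_mem _ (hbM i))
      obtain ⟨y, hyV, hy'⟩ := C.vring.ker _ (sub_mem (hM'V _ hm) (hM'V _ h2')) h3
      have hyM : y ∈ M' := hsat y hyV (by rw [← hy']; exact sub_mem hm h2')
      have h4 : m = ∑ i, r i • b i + ϖ • y := by
        rw [Algebra.smul_def, hϖ, ← hy']; ring
      rw [h4]
      refine Submodule.add_mem_sup h2 ?_
      exact Submodule.smul_mem_smul (Ideal.mem_span_singleton_self ϖ) hyM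
    obtain ⟨s, hs1, hs2⟩ :=
      Submodule.exists_sub_one_mem_and_smul_le_of_fg_of_le_sup hfg le_rfl hle
    refine ⟨s, ?_, fun m hm => hs2 (Submodule.smul_mem_pointwise_smul m s M' hm)⟩
    obtain ⟨t, ht⟩ := Ideal.mem_span_singleton.mp hs1
    have hqϖ : q ϖ = 0 := by
      apply C.injK
      rw [← C.red_eq, hϖ, C.vring.red_pi, map_zero]
    have h5 : q (s - 1) = 0 := by rw [ht, map_mul, hqϖ, zero_mul]
    rw [map_sub, map_one, sub_eq_zero] at h5
    exact h5
  have hspE : ⊤ ≤ Submodule.span E (Set.range b) := by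
    intro x _
    obtain ⟨s, hs1, hs2⟩ := hNak
    obtain ⟨t, ht0, ht⟩ := hspan x
    have h1 : (s * t) • x ∈ Submodule.span R (Set.range b) := by
      rw [mul_smul]; exact hs2 _ ht
    have h2 : (s * t) • x ∈ Submodule.span E (Set.range b) := Submodule.span_subset_span R E _ h1
    have hs0 : algebraMap R E (s * t) ≠ 0 := by
      intro h0
      have h3 : algebraMap R F (s * t) = 0 := by
        rw [IsScalarTower.algebraMap_apply R E F, h0, map_zero]
      rw [map_mul] at h3
      rcases mul_eq_zero.mp h3 with h4 | h4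
      · have : s = 0 := C.injF (by rw [h4, map_zero])
        rw [this, map_zero] at hs1
        exact zero_ne_one hs1
      · exact ht0 (C.injF (by rw [h4, map_zero]))
    have h4 : x = (algebraMap R E (s * t))⁻¹ • ((s * t) • x) := by
      rw [algebra_compatible_smul E (s * t) x, smul_smul, inv_mul_cancel₀ hs0, one_smul]
    rw [h4]
    exact Submodule.smul_mem _ _ h2
  let B : Basis _ E F := Basis.mk hLIE hspE
  have hB : ∀ i, B i = b i := fun i => Basis.mk_apply hLIE hspE i
  have hcoord : ∀ x ∈ V, ∀ i, algebraMap E F (B.repr x i) ∈ V := by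
    intro x hx
    by_contra hcon
    push Not at hcon
    obtain ⟨m, hm0, hm, i, hi⟩ := C.vring.exists_scale_family_pos _ hcon
    have hϖE : algebraMap E F (algebraMap R E ϖ) = π := by
      rw [← IsScalarTower.algebraMap_apply, hϖ]
    have h1 : ∀ j, algebraMap E F (algebraMap R E ϖ ^ m * B.repr x j) =
        π ^ m * algebraMap E F (B.repr x j) := by
      intro j
      rw [map_mul, map_zpow₀, hϖE]
    apply hi
    rw [← h1]
    refine hLI (fun j => algebraMap R E ϖ ^ m * B.repr x j) (fun j => ?_) ?_ i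
    · show algebraMap E F _ ∈ V
      rw [h1]; exact hm j
    · have h2 : ∑ j, (algebraMap R E ϖ ^ m * B.repr x j) • b j = π ^ m * x := by
        conv_rhs => rw [← B.sum_repr x, Finset.mul_sum]
        refine Finset.sum_congr rfl fun j _ => ?_
        rw [Algebra.smul_def, Algebra.smul_def, h1, hB, mul_assoc]
      rw [h2]
      exact C.vring.red_pow_mul hm0 hx
  have hspb : ⊤ ≤ Submodule.span Eb (Set.range fun i => (e i : κ)) := by
    intro a _
    obtain ⟨x, rfl⟩ := C.vring.surj a
    have h1 : red x = ∑ i, rd red (algebraMap E F (B.repr x i)) * (e i : κ) := by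
      rw [← rd_coe red x]
      conv_lhs => rw [← B.sum_repr (x : F)]
      rw [rd_sum]
      · refine Finset.sum_congr rfl fun j _ => ?_
        rw [Algebra.smul_def, hB, rd_mul red (hcoord _ x.2 j) (hbV j), hbred]
      · intro j _
        rw [Algebra.smul_def, hB]
        exact mul_mem (hcoord _ x.2 j) (hbV j)
    rw [h1]
    refine Submodule.sum_mem _ fun i _ => ?_
    obtain ⟨eb, heb⟩ := C.red_mem _ (hcoord _ x.2 i)
    rw [heb, ← Algebra.smul_def]
    exact Submodule.smul_mem _ _ (Submodule.subset_span ⟨i, rfl⟩)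
  let Bb : Basis _ Eb κ := Basis.mk hLIb hspb
  refine ⟨Module.Free.ChooseBasisIndex Rb Nb, inferInstance, inferInstance, B, Bb, ?_, ?_, ?_, hcoord⟩
  · intro i; rw [hB]; exact hbM i
  · intro i
    rw [hB, hbred]
    exact Basis.mk_apply hLIb hspb i
  · have : (B : _ → F) = b := funext hB
    rw [this]
    exact hNak

omit [IsDomain Rb] [IsPrincipalIdealRing Rb] [IsScalarTower R E F] [IsScalarTower Rb Eb κ] in
/-- compatibility of the trace with reduction -/
lemma trace_red {ι : Type*} [Fintype ι] [DecidableEq ι] (b : Basis ι E F) (eb : Basis ι Eb κ)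
    (hbV : ∀ i, b i ∈ V) (heb : ∀ i, eb i = rd red (b i))
    (hco : ∀ x ∈ V, ∀ i, algebraMap E F (b.repr x i) ∈ V)
    (hred : ∀ e : E, algebraMap E F e ∈ V → ∃ e' : Eb, rd red (algebraMap E F e) = algebraMap Eb κ e')
    (x : F) (hx : x ∈ V) :
    algebraMap E F (Algebra.trace E F x) ∈ V ∧
      rd red (algebraMap E F (Algebra.trace E F x)) =
        algebraMap Eb κ (Algebra.trace Eb κ (rd red x)) := by
  have h1 : algebraMap E F (Algebra.trace E F x) =
      ∑ i, algebraMap E F (b.repr (x * b i) i) := by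
    rw [Algebra.trace_eq_matrix_trace b, Matrix.trace, map_sum]
    refine Finset.sum_congr rfl fun i _ => ?_
    rw [Matrix.diag_apply, Algebra.leftMulMatrix_eq_repr_mul]
  have hxb : ∀ i, x * b i ∈ V := fun i => mul_mem hx (hbV i)
  refine ⟨by rw [h1]; exact sum_mem fun i _ => hco _ (hxb i) i, ?_⟩
  rw [h1, rd_sum red _ _ fun i _ => hco _ (hxb i) i, Algebra.trace_eq_matrix_trace eb,
    Matrix.trace, map_sum]
  refine Finset.sum_congr rfl fun i _ => ?_
  rw [Matrix.diag_apply, Algebra.leftMulMatrix_eq_repr_mul]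
  choose c hc using fun j => hred _ (hco _ (hxb i) j)
  have h2 : rd red x * eb i = ∑ j, c j • eb j := by
    rw [heb, ← rd_mul red hx (hbV i)]
    conv_lhs => rw [← b.sum_repr (x * b i)]
    rw [rd_sum]
    · refine Finset.sum_congr rfl fun j _ => ?_
      rw [Algebra.smul_def, Algebra.smul_def, rd_mul red (hco _ (hxb i) j) (hbV j), hc, heb]
    · intro j _
      rw [Algebra.smul_def]
      exact mul_mem (hco _ (hxb i) j) (hbV j)
  rw [h2, eb.repr_sum_self, hc]

/-- **Purity.**  `M, M'` are in duality for the trace; every residual element whose traces against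
the reduction of `M'` are integral is the reduction of an element of `M`. -/
theorem purity [FiniteDimensional E F] [Algebra.IsSeparable E F]
    [FiniteDimensional Eb κ] [Algebra.IsSeparable Eb κ]
    (M' : Submodule R F) (hM'V : ∀ x ∈ M', x ∈ V) (hfg : M'.FG)
    (hsat : ∀ x ∈ V, π * x ∈ M' → x ∈ M') (hspan : ∀ x : F, ∃ s : R, s ≠ 0 ∧ s • x ∈ M')
    (M : Submodule R F)
    (hdual : ∀ x ∈ V, (∀ m ∈ M', ∃ r : R, Algebra.trace E F (x * m) = algebraMap R E r) → x ∈ M)
    (a : κ) (ha : ∀ m ∈ M', ∃ r : Rb, Algebra.trace Eb κ (a * rd red m) = algebraMap Rb Eb r) :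
    ∃ m ∈ M, m ∈ V ∧ rd red m = a := by
  classical
  obtain ⟨ι, _, _, b, eb, hbM, heb, ⟨s, hs1, hs2⟩, hco⟩ :=
    C.exists_basis M' hM'V hfg hsat hspan
  have hbV : ∀ i, b i ∈ V := fun i => hM'V _ (hbM i)
  have htr := C.trace_red b eb hbV heb hco C.red_mem
  obtain ⟨ϖ, hϖ⟩ := C.unif
  have hϖE : algebraMap E F (algebraMap R E ϖ) = π := by
    rw [← IsScalarTower.algebraMap_apply, hϖ]
  -- the dual basis lies in `V`
  have hdV : ∀ i, b.traceDual i ∈ V := by
    intro i
    by_contra hcon
    -- coordinates of the dual basis vector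
    have hcoord : ∃ j, algebraMap E F (b.repr (b.traceDual i) j) ∉ V := by
      by_contra hall
      push Not at hall
      apply hcon
      rw [← b.sum_repr (b.traceDual i)]
      refine sum_mem fun j _ => ?_
      rw [Algebra.smul_def]
      exact mul_mem (hall j) (hbV j)
    obtain ⟨m, hm0, hm, j, hj⟩ := C.vring.exists_scale_family_pos _ hcoord
    -- `y = π ^ m * b*_i`
    have hyV : π ^ m * b.traceDual i ∈ V := by
      rw [← b.sum_repr (b.traceDual i), Finset.mul_sum]
      refine sum_mem fun l _ => ?_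
      rw [Algebra.smul_def, ← mul_assoc]
      exact mul_mem (hm l) (hbV l)
    have hy0 : rd red (π ^ m * b.traceDual i) = 0 := by
      have h1 : ∀ z : κ, Algebra.trace Eb κ (rd red (π ^ m * b.traceDual i) * z) = 0 := by
        have h2 : ∀ l, Algebra.trace Eb κ (rd red (π ^ m * b.traceDual i) * eb l) = 0 := by
          intro l
          apply (algebraMap Eb κ).injective
          rw [heb, ← rd_mul red hyV (hbV l), ← (htr _ (mul_mem hyV (hbV l))).2, map_zero]
          have h3 : π ^ m * b.traceDual i * b l =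
              (algebraMap R E ϖ ^ m) • (b.traceDual i * b l) := by
            rw [Algebra.smul_def, map_zpow₀, hϖE, mul_assoc]
          rw [h3, map_smul, smul_eq_mul, map_mul, map_zpow₀, hϖE, Basis.trace_traceDual_mul]
          split_ifs
          · rw [map_one]; exact C.vring.red_pow_mul hm0 (one_mem _)
          · rw [map_zero, mul_zero, rd_zero]
        intro z
        rw [← eb.sum_repr z, Finset.mul_sum, map_sum]
        refine Finset.sum_eq_zero fun l _ => ?_
        rw [mul_smul_comm, map_smul, h2, smul_zero]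
      have h4 := traceForm_nondegenerate Eb κ
      exact h4.1 _ (fun z => by rw [Algebra.traceForm_apply]; exact h1 z)
    obtain ⟨y, hyV', hy⟩ := C.vring.ker _ hyV hy0
    -- the coordinates of `y` are in `V`, so those of `π y` reduce to zero
    apply hj
    have h5 : π ^ m * algebraMap E F (b.repr (b.traceDual i) j) =
        π * algebraMap E F (b.repr y j) := by
      have h6 : (algebraMap R E ϖ ^ m) • b.traceDual i = algebraMap R E ϖ • y := by
        rw [Algebra.smul_def, Algebra.smul_def, map_zpow₀, hϖE, hy]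
      have h7 := congrArg (fun z => algebraMap E F (b.repr z j)) h6
      simp only [map_smul, Finsupp.smul_apply, smul_eq_mul, map_mul, map_zpow₀, hϖE] at h7
      exact h7
    rw [h5]
    exact C.vring.red_pi_mul (hco y hyV' j)
  -- `s • b*_i ∈ M`
  have hsM : ∀ i, s • b.traceDual i ∈ M := by
    intro i
    refine hdual _ (by rw [Algebra.smul_def]; exact mul_mem (C.mem s) (hdV i)) fun m hm => ?_
    have h1 : s • b.traceDual i * m = b.traceDual i * (s • m) := by
      rw [smul_mul_assoc, mul_smul_comm]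
    rw [h1]
    have h2 := hs2 m hm
    generalize s • m = y at h2
    induction h2 using Submodule.span_induction with
    | mem x hx =>
      obtain ⟨j, rfl⟩ := hx
      rw [Basis.trace_traceDual_mul]
      split_ifs
      · exact ⟨1, by rw [map_one]⟩
      · exact ⟨0, by rw [map_zero]⟩
    | zero => exact ⟨0, by rw [mul_zero, map_zero, map_zero]⟩
    | add x y _ _ hx hy =>
      obtain ⟨r, hr⟩ := hx
      obtain ⟨r', hr'⟩ := hy
      exact ⟨r + r', by rw [mul_add, map_add, hr, hr', map_add]⟩
    | smul c x _ hx =>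
      obtain ⟨r, hr⟩ := hx
      refine ⟨c * r, ?_⟩
      rw [algebra_compatible_smul E c x, mul_smul_comm, map_smul, hr, smul_eq_mul, map_mul]
  -- expansion of `a`
  obtain ⟨⟨x, hx⟩, rfl⟩ := C.vring.surj a
  choose r hr using fun i => ha (b i) (hbM i)
  choose r' hr' using fun i => C.surj (r i)
  refine ⟨∑ i, r' i • (s • b.traceDual i), Submodule.sum_mem _ fun i _ => M.smul_mem _ (hsM i),
    ?_, ?_⟩
  · refine sum_mem fun i _ => ?_
    rw [Algebra.smul_def, Algebra.smul_def]
    exact mul_mem (C.mem _) (mul_mem (C.mem _) (hdV i))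
  · have h1 : x = ∑ i, algebraMap E F (Algebra.trace E F (x * b i)) * b.traceDual i := by
      conv_lhs => rw [← b.traceDual.sum_repr x]
      refine Finset.sum_congr rfl fun i _ => ?_
      rw [Algebra.smul_def, Basis.traceDual_repr_apply, Algebra.traceForm_apply]
    have h2 : red ⟨x, hx⟩ = ∑ i, rd red (algebraMap E F (Algebra.trace E F (x * b i))) *
        rd red (b.traceDual i) := by
      rw [← rd_of_mem red hx]
      conv_lhs => rw [h1]
      rw [rd_sum]
      · exact Finset.sum_congr rfl fun i _ => rd_mul red (htr _ (mul_mem hx (hbV i))).1 (hdV i)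
      · exact fun i _ => mul_mem (htr _ (mul_mem hx (hbV i))).1 (hdV i)
    rw [h2, rd_sum]
    · refine Finset.sum_congr rfl fun i _ => ?_
      rw [(htr _ (mul_mem hx (hbV i))).2, rd_mul red hx (hbV i), rd_of_mem red hx, hr i,
        Algebra.smul_def, Algebra.smul_def,
        rd_mul red (C.mem _) (mul_mem (C.mem _) (hdV i)), rd_mul red (C.mem _) (hdV i),
        C.red_eq, C.red_eq, hs1, map_one, one_mul, hr' i, ← IsScalarTower.algebraMap_apply]
    · intro i _
      rw [Algebra.smul_def, Algebra.smul_def]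
      exact mul_mem (C.mem _) (mul_mem (C.mem _) (hdV i))

end Basis

end Chart

end Chart

end Fermat.Agent.X1Key
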