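import Fermat.Agent.X1.KeyPurity

/-!
# Twisted modules `{x | x ^ n * y ∈ B}` and their radical versions
-/

set_option autoImplicit false

open Module

namespace Fermat.Agent.X1Key

section Integral

variable {F κ : Type*} [Field F] [Field κ] {V : Subring F} {π : F} {red : V →+* κ}

/-- A discrete valuation ring is integrally closed. -/
lemma VRing.mem_of_isIntegral (h : VRing V π red) {x : F} (hx : IsIntegral V x) : x ∈ V := by
  by_cases hx0 : x = 0
  · rw [hx0]; exact zero_mem _
  obtain ⟨m, u, hu', hu, hm⟩ := h.scale x hx0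
  by_cases hm0 : 0 ≤ m
  · rw [hm]; exact mul_mem (h.pow_mem' hm0) hu'
  push Not at hm0
  -- `x⁻¹ = π ^ (-m) * u⁻¹` reduces to zero
  exfalso
  have hinv : x⁻¹ = π ^ (-m) * u⁻¹ := by rw [hm, mul_inv, zpow_neg]
  have hinvV : x⁻¹ ∈ V := by rw [hinv]; exact mul_mem (h.pow_mem' (by omega)) (h.inv_mem hu' hu)
  have hred : rd red x⁻¹ = 0 := by
    rw [hinv]; exact h.red_pow_mul (by omega) (h.inv_mem hu' hu)
  obtain ⟨p, hp, hpx⟩ := hx
  have h1 := congrArg (fun z => z * (x⁻¹) ^ p.natDegree) hpx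
  simp only [zero_mul] at h1
  rw [Polynomial.eval₂_eq_sum_range, Finset.sum_mul, Finset.sum_range_succ] at h1
  rw [hp.coeff_natDegree, map_one, one_mul, ← mul_pow, mul_inv_cancel₀ hx0, one_pow] at h1
  have h2 : ∀ i ∈ Finset.range p.natDegree,
      algebraMap V F (p.coeff i) * x ^ i * x⁻¹ ^ p.natDegree =
        (p.coeff i : F) * (x⁻¹ ^ (p.natDegree - i)) := by
    intro i hi
    rw [Finset.mem_range] at hi
    have : x⁻¹ ^ p.natDegree = x⁻¹ ^ i * x⁻¹ ^ (p.natDegree - i) := by
      rw [← pow_add]; congr 1; omega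
    rw [this]
    have h3 : x ^ i * x⁻¹ ^ i = 1 := by rw [← mul_pow, mul_inv_cancel₀ hx0, one_pow]
    calc algebraMap V F (p.coeff i) * x ^ i * (x⁻¹ ^ i * x⁻¹ ^ (p.natDegree - i))
        = algebraMap V F (p.coeff i) * (x ^ i * x⁻¹ ^ i) * x⁻¹ ^ (p.natDegree - i) := by ring
      _ = _ := by rw [h3, mul_one]; rfl
  rw [Finset.sum_congr rfl h2] at h1
  have h4 : rd red (∑ i ∈ Finset.range p.natDegree, (p.coeff i : F) * x⁻¹ ^ (p.natDegree - i) + 1)
      = 1 := by
    rw [rd_add red (sum_mem fun i _ => mul_mem (p.coeff i).2 (pow_mem hinvV _)) (one_mem _),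
      rd_one, rd_sum red _ _ fun i _ => mul_mem (p.coeff i).2 (pow_mem hinvV _)]
    rw [Finset.sum_eq_zero, zero_add]
    intro i hi
    rw [Finset.mem_range] at hi
    rw [rd_mul red (p.coeff i).2 (pow_mem hinvV _), rd_pow red hinvV, hred,
      zero_pow (by omega), mul_zero]
  rw [h1, rd_zero] at h4
  exact zero_ne_one h4

end Integral

section Twist

variable {F : Type*} [Field F]

/-- `B` is integrally closed in `F`. -/
def IntClosed (B : Subring F) : Prop := ∀ x : F, IsIntegral B x → x ∈ B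

lemma IntClosed.of_pow {B : Subring F} (hB : IntClosed B) {x : F} {n : ℕ} (hn : n ≠ 0)
    (hx : x ^ n ∈ B) : x ∈ B :=
  hB x (IsIntegral.of_pow (Nat.pos_of_ne_zero hn)
    (isIntegral_algebraMap (R := B) (A := F) (x := ⟨x ^ n, hx⟩)))

/-- if `x ^ n * y` and `x' ^ n * y` are in `B` then so is `x ^ i * x' ^ (n - i) * y` -/
lemma IntClosed.mixed {B : Subring F} (hB : IntClosed B) {n : ℕ} (hn : n ≠ 0) {x x' y : F}
    (hx : x ^ n * y ∈ B) (hx' : x' ^ n * y ∈ B) {i : ℕ} (hi : i ≤ n) :
    x ^ i * x' ^ (n - i) * y ∈ B := by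
  refine hB.of_pow hn ?_
  have : (x ^ i * x' ^ (n - i) * y) ^ n = (x ^ n * y) ^ i * (x' ^ n * y) ^ (n - i) := by
    have h1 : y ^ n = y ^ i * y ^ (n - i) := by rw [← pow_add]; congr 1; omega
    rw [mul_pow, mul_pow, h1, mul_pow, mul_pow, ← pow_mul, ← pow_mul, ← pow_mul, ← pow_mul,
      mul_comm i n, mul_comm (n - i) n]
    ring
  rw [this]
  exact mul_mem (pow_mem hx _) (pow_mem hx' _)

variable {R : Type*} [CommRing R] [Algebra R F]

/-- The twisted module `{x | x ^ n * y ∈ B}`. -/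
def twist (B : Subring F) (hB : IntClosed B) (hR : ∀ r : R, algebraMap R F r ∈ B) (n : ℕ)
    (hn : n ≠ 0) (y : F) : Submodule R F where
  carrier := {x | x ^ n * y ∈ B}
  zero_mem' := by
    show (0 : F) ^ n * y ∈ B
    rw [zero_pow hn, zero_mul]; exact zero_mem _
  add_mem' := by
    intro x x' hx hx'
    show (x + x') ^ n * y ∈ B
    rw [add_pow, Finset.sum_mul]
    refine sum_mem fun i hi => ?_
    rw [Finset.mem_range] at hi
    have h1 := hB.mixed hn hx hx' (i := i) (by omega)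
    have h2 : x ^ i * x' ^ (n - i) * (n.choose i : F) * y =
        (x ^ i * x' ^ (n - i) * y) * (n.choose i : F) := by ring
    rw [h2]
    exact mul_mem h1 (natCast_mem B _)
  smul_mem' := by
    intro r x hx
    show (r • x) ^ n * y ∈ B
    rw [Algebra.smul_def, mul_pow, mul_assoc]
    exact mul_mem (pow_mem (hR r) _) hx

@[simp] lemma mem_twist {B : Subring F} {hB : IntClosed B} {hR : ∀ r : R, algebraMap R F r ∈ B}
    {n : ℕ} {hn : n ≠ 0} {y x : F} : x ∈ twist B hB hR n hn y ↔ x ^ n * y ∈ B := Iff.rfl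

/-- The radical ideal `√(v B)`. -/
def RadMem (B : Subring F) (v z : F) : Prop := z ∈ B ∧ ∃ N : ℕ, ∃ b ∈ B, z ^ N = v * b

lemma RadMem.mono_pow {B : Subring F} {v z : F} (h : RadMem B v z) :
    ∃ N : ℕ, 0 < N ∧ ∃ b ∈ B, z ^ N = v * b := by
  obtain ⟨hz, N, b, hb, hN⟩ := h
  exact ⟨N + 1, Nat.succ_pos _, z * b, mul_mem hz hb, by rw [pow_succ, hN]; ring⟩

lemma RadMem.mul_right {B : Subring F} {v z : F} (h : RadMem B v z) {c : F} (hc : c ∈ B) :
    RadMem B v (z * c) := by
  obtain ⟨hz, N, b, hb, hN⟩ := h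
  exact ⟨mul_mem hz hc, N, b * c ^ N, mul_mem hb (pow_mem hc _), by rw [mul_pow, hN]; ring⟩

lemma RadMem.add {B : Subring F} {v z z' : F} (h : RadMem B v z) (h' : RadMem B v z') :
    RadMem B v (z + z') := by
  obtain ⟨hz, N, b, hb, hN⟩ := h
  obtain ⟨hz', N', b', hb', hN'⟩ := h'
  refine ⟨add_mem hz hz', N + N', ?_⟩
  rw [add_pow]
  have key : ∀ i ∈ Finset.range (N + N' + 1), ∃ c ∈ B,
      z ^ i * z' ^ (N + N' - i) * ((N + N').choose i : F) = v * c := by
    intro i hi
    rw [Finset.mem_range] at hi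
    by_cases hiN : N ≤ i
    · refine ⟨b * z ^ (i - N) * z' ^ (N + N' - i) * ((N + N').choose i : F),
        mul_mem (mul_mem (mul_mem hb (pow_mem hz _)) (pow_mem hz' _)) (natCast_mem B _), ?_⟩
      have : z ^ i = z ^ N * z ^ (i - N) := by rw [← pow_add]; congr 1; omega
      rw [this, hN]; ring
    · push Not at hiN
      refine ⟨b' * z ^ i * z' ^ (N - i) * ((N + N').choose i : F),
        mul_mem (mul_mem (mul_mem hb' (pow_mem hz _)) (pow_mem hz' _)) (natCast_mem B _), ?_⟩
      have : z' ^ (N + N' - i) = z' ^ N' * z' ^ (N - i) := by rw [← pow_add]; congr 1; omega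
      rw [this, hN']; ring
  choose! c hc hc' using key
  exact ⟨∑ i ∈ Finset.range (N + N' + 1), c i, sum_mem hc, by
    rw [Finset.mul_sum]; exact Finset.sum_congr rfl hc'⟩

lemma RadMem.of_pow {B : Subring F} {v z : F} {n : ℕ} (hz : z ∈ B)
    (h : RadMem B v (z ^ n)) : RadMem B v z := by
  obtain ⟨-, N, b, hb, hN⟩ := h
  exact ⟨hz, n * N, b, hb, by rw [pow_mul, hN]⟩

lemma RadMem.zero {B : Subring F} {v : F} : RadMem B v 0 :=
  ⟨zero_mem _, 1, 0, zero_mem _, by simp⟩

/-- The radical twisted module `{x | (v x) ^ n * y ∈ √(v B)}`. -/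
def rtwist (B : Subring F) (hB : IntClosed B) (hR : ∀ r : R, algebraMap R F r ∈ B) (n : ℕ)
    (hn : n ≠ 0) (v y : F) : Submodule R F where
  carrier := {x | RadMem B v ((v * x) ^ n * y)}
  zero_mem' := by
    show RadMem B v ((v * 0) ^ n * y)
    rw [mul_zero, zero_pow hn, zero_mul]; exact RadMem.zero
  add_mem' := by
    intro x x' hx hx'
    show RadMem B v ((v * (x + x')) ^ n * y)
    rw [mul_add, add_pow, Finset.sum_mul]
    have key : ∀ i ∈ Finset.range (n + 1),
        RadMem B v ((v * x) ^ i * (v * x') ^ (n - i) * (n.choose i : F) * y) := by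
      intro i hi
      rw [Finset.mem_range] at hi
      have h2 : (v * x) ^ i * (v * x') ^ (n - i) * (n.choose i : F) * y =
          ((v * x) ^ i * (v * x') ^ (n - i) * y) * (n.choose i : F) := by ring
      rw [h2]
      refine RadMem.mul_right (RadMem.of_pow (n := n) (hB.mixed hn hx.1 hx'.1 (by omega)) ?_)
        (natCast_mem B _)
      have : ((v * x) ^ i * (v * x') ^ (n - i) * y) ^ n =
          ((v * x) ^ n * y) ^ i * ((v * x') ^ n * y) ^ (n - i) := by
        have h1 : y ^ n = y ^ i * y ^ (n - i) := by rw [← pow_add]; congr 1; omega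
        rw [mul_pow ((v * x) ^ i * (v * x') ^ (n - i)), h1, mul_pow ((v * x) ^ n),
          mul_pow ((v * x') ^ n), mul_pow ((v * x) ^ i), ← pow_mul, ← pow_mul, ← pow_mul,
          ← pow_mul, mul_comm i n, mul_comm (n - i) n]
        ring
      rw [this]
      rcases Nat.eq_zero_or_pos i with rfl | hi0
      · rw [pow_zero, one_mul, Nat.sub_zero]
        obtain ⟨m, rfl⟩ : ∃ m, n = m + 1 := ⟨n - 1, by omega⟩
        rw [pow_succ' _ m]
        exact hx'.mul_right (pow_mem hx'.1 _)
      · obtain ⟨m, rfl⟩ : ∃ m, i = m + 1 := ⟨i - 1, by omega⟩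
        rw [pow_succ' _ m, mul_assoc]
        exact hx.mul_right (mul_mem (pow_mem hx.1 _) (pow_mem hx'.1 _))
    generalize Finset.range (n + 1) = s at key
    classical
    induction s using Finset.induction_on with
    | empty => rw [Finset.sum_empty]; exact RadMem.zero
    | insert a s ha ih =>
      rw [Finset.sum_insert ha]
      exact (key a (Finset.mem_insert_self _ _)).add
        (ih fun i hi => key i (Finset.mem_insert_of_mem hi))
  smul_mem' := by
    intro r x hx
    show RadMem B v ((v * (r • x)) ^ n * y)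
    have : (v * (r • x)) ^ n * y = ((v * x) ^ n * y) * algebraMap R F r ^ n := by
      rw [Algebra.smul_def]; ring
    rw [this]
    exact hx.mul_right (pow_mem (hR r) _)

@[simp] lemma mem_rtwist {B : Subring F} {hB : IntClosed B} {hR : ∀ r : R, algebraMap R F r ∈ B}
    {n : ℕ} {hn : n ≠ 0} {v y x : F} :
    x ∈ rtwist B hB hR n hn v y ↔ RadMem B v ((v * x) ^ n * y) := Iff.rfl

end Twist

end Fermat.Agent.X1Key
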