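import Fermat.Agent.DS.Pseudo
import Fermat.Agent.DS.Interface
import Fermat.Agent.Frob.Density

/-!
# From a quadratic relation on Frobenius elements to a two-dimensional representation
-/

set_option autoImplicit false

noncomputable section

namespace Fermat.Agent.X1

open Fermat.Agent.DS (GQ)

section Abstract

variable {G : Type*} [Group G] {k : Type*} [Field k] {W : Type*} [AddCommGroup W] [Module k W]
  (r : G →* Module.End k W) (D : G →* kˣ)

/-- `r σ + D σ r σ⁻¹` -/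
def quad (σ : G) : Module.End k W := r σ + ((D σ : kˣ) : k) • r σ⁻¹

lemma quad_def (σ : G) : quad r D σ = r σ + ((D σ : kˣ) : k) • r σ⁻¹ := rfl

lemma quad_mul (g h : G) :
    r g * quad r D h + ((D g : kˣ) : k) • (quad r D h * r g⁻¹) =
      quad r D (g * h) + ((D h : kˣ) : k) • quad r D (g * h⁻¹) := by
  have e1 : (g * h)⁻¹ = h⁻¹ * g⁻¹ := mul_inv_rev g h
  have e2 : (g * h⁻¹)⁻¹ = h * g⁻¹ := by group
  have e3 : ((D h : kˣ) : k) * ((D (g * h⁻¹) : kˣ) : k) = ((D g : kˣ) : k) := by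
    rw [← Units.val_mul, map_mul, map_inv, mul_comm (D g), mul_inv_cancel_left]
  have e4 : ((D (g * h) : kˣ) : k) = ((D g : kˣ) : k) * ((D h : kˣ) : k) := by
    rw [map_mul, Units.val_mul]
  simp only [quad_def, e1, e2, mul_add, add_mul, smul_add, smul_smul, e3, e4, mul_smul_comm,
    smul_mul_assoc, ← map_mul]
  abel

lemma quad_one : quad r D 1 = (2 : k) • (1 : Module.End k W) := by
  rw [quad_def, map_one, map_one, inv_one, map_one, Units.val_one, one_smul, two_smul]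

lemma quad_mul_right {σ : G} (hσ : r σ = 1) (hσD : D σ = 1) (g : G) :
    quad r D (g * σ) = quad r D g := by
  have h1 : r σ⁻¹ = 1 := by
    have : r σ⁻¹ * r σ = 1 := by rw [← map_mul, inv_mul_cancel, map_one]
    rwa [hσ, mul_one] at this
  rw [quad_def, quad_def, mul_inv_rev, map_mul, map_mul, map_mul, hσ, hσD, h1, mul_one, mul_one,
    one_mul]

/-- powers -/
lemma quad_pow {σ : G} {t : k} (h : quad r D σ = t • (1 : Module.End k W)) (n : ℕ) :
    ∃ t' : k, quad r D (σ ^ n) = t' • (1 : Module.End k W) := by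
  suffices H : ∀ n : ℕ, (∃ t' : k, quad r D (σ ^ n) = t' • (1 : Module.End k W)) ∧
      (∃ t' : k, quad r D (σ ^ (n + 1)) = t' • (1 : Module.End k W)) from (H n).1
  intro n
  induction n with
  | zero =>
    refine ⟨⟨2, by rw [pow_zero]; exact quad_one r D⟩, ⟨t, by rw [zero_add, pow_one]; exact h⟩⟩
  | succ n ih =>
    obtain ⟨⟨t₁, h1⟩, ⟨t₂, h2⟩⟩ := ih
    refine ⟨⟨t₂, h2⟩, ?_⟩
    have h3 := quad_mul r D (σ ^ (n + 1)) σ
    have h4 : σ ^ (n + 1) * σ⁻¹ = σ ^ n := by rw [pow_succ, mul_inv_cancel_right]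
    rw [h4, ← pow_succ, h, h1] at h3
    have h5 : r (σ ^ (n + 1)) * t • (1 : Module.End k W) +
        ((D (σ ^ (n + 1)) : kˣ) : k) • (t • (1 : Module.End k W) * r (σ ^ (n + 1))⁻¹) =
        t • quad r D (σ ^ (n + 1)) := by
      rw [quad_def, smul_add, mul_smul_comm, mul_one, smul_mul_assoc, one_mul, smul_comm]
    rw [h5, h2] at h3
    refine ⟨t * t₂ - ((D σ : kˣ) : k) * t₁, ?_⟩
    rw [sub_smul, mul_smul, mul_smul, h3]
    abel

lemma quad_of_rel {σ : G} {t : k}
    (h : r σ * r σ - t • r σ + ((D σ : kˣ) : k) • (1 : Module.End k W) = 0) :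
    quad r D σ = t • (1 : Module.End k W) := by
  have h1 : r σ * r σ⁻¹ = 1 := by rw [← map_mul, mul_inv_cancel, map_one]
  have h2 := congrArg (· * r σ⁻¹) h
  simp only [add_mul, sub_mul, mul_assoc, h1, mul_one, smul_mul_assoc, one_mul, zero_mul] at h2
  rw [quad_def]
  have h3 : r σ + ((D σ : kˣ) : k) • r σ⁻¹ - t • (1 : Module.End k W) = 0 := by
    rw [← h2]; abel
  exact sub_eq_zero.mp h3

lemma quad_of_rel' {σ : G} {t : k}
    (h : ∀ w : W, r σ (r σ w) - t • r σ w + ((D σ : kˣ) : k) • w = 0) :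
    quad r D σ = t • (1 : Module.End k W) := by
  apply quad_of_rel
  apply LinearMap.ext
  intro w
  exact h w

end Abstract

section Galois

variable {k : Type} [Field k] {W : Type*} [AddCommGroup W] [Module k W] [Nontrivial W]

lemma smul_one_inj {a b : k} (h : a • (1 : Module.End k W) = b • (1 : Module.End k W)) : a = b := by
  obtain ⟨w, hw⟩ := exists_ne (0 : W)
  have h1 := LinearMap.congr_fun h w
  simp only [LinearMap.smul_apply, Module.End.one_apply] at h1
  rw [← sub_eq_zero, ← sub_smul] at h1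
  exact sub_eq_zero.mp ((smul_eq_zero.mp h1).resolve_right hw)

theorem exists_rep_of_quadratic (h2 : (2 : k) ≠ 0) (r : GQ →* Module.End k W) (D : GQ →* kˣ)
    (L : IntermediateField ℚ (AlgebraicClosure ℚ)) [FiniteDimensional ℚ L]
    (hL : ∀ σ : GQ, (∀ x ∈ L, σ x = x) → r σ = 1 ∧ D σ = 1)
    (S : Set ℕ) (hS : S.Finite)
    (hfrob : ∀ p : ℕ, p.Prime → p ∉ S → ∀ A : ValuationSubring (AlgebraicClosure ℚ),
      A.LiesOverPrime p → ∀ φ : GQ, A.IsFrobeniusAt φ p →
        ∃ t : k, quad r D φ = t • (1 : Module.End k W))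
    (c : GQ) (hc : c * c = 1) (hcD : ((D c : kˣ) : k) = -1) :
    ∃ ρ : GQ →* GL (Fin 2) k,
      (∀ (σ : GQ) (t : k), quad r D σ = t • (1 : Module.End k W) →
        ((ρ σ : GL (Fin 2) k) : Matrix (Fin 2) (Fin 2) k).trace = t) ∧
      (∀ σ, ((ρ σ : GL (Fin 2) k) : Matrix (Fin 2) (Fin 2) k).det = ((D σ : kˣ) : k)) ∧
      ∀ σ : GQ, r σ = 1 → D σ = 1 → ρ σ = 1 := by
  have hall : ∀ σ : GQ, ∃ t : k, quad r D σ = t • (1 : Module.End k W) := by
    intro σ
    obtain ⟨ℓ, hℓ, hℓS, A, hA, φ, hφ, -, k', -, hk'⟩ := FrobDensity.exists_frobenius_on L σ S hS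
    obtain ⟨t, ht⟩ := hfrob ℓ hℓ hℓS A hA φ hφ
    obtain ⟨t', ht'⟩ := quad_pow r D ht k'
    have h1 : ∀ x ∈ L, ((φ ^ k')⁻¹ * σ) x = x := by
      intro x hx
      rw [AlgEquiv.mul_apply, hk' x hx, ← AlgEquiv.mul_apply, inv_mul_cancel, AlgEquiv.one_apply]
    obtain ⟨h3, h4⟩ := hL _ h1
    refine ⟨t', ?_⟩
    rw [← ht', ← quad_mul_right r D h3 h4 (φ ^ k'), mul_inv_cancel_left]
  choose T hT using hall
  have key : ∀ g h, T g * T h = T (g * h) + ((D h : kˣ) : k) * T (g * h⁻¹) := by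
    intro g h
    apply smul_one_inj (W := W)
    have h1 := quad_mul r D g h
    rw [hT h, hT (g * h), hT (g * h⁻¹)] at h1
    have h5 : r g * T h • (1 : Module.End k W) +
        ((D g : kˣ) : k) • (T h • (1 : Module.End k W) * r g⁻¹) =
        T h • quad r D g := by
      rw [quad_def, smul_add, mul_smul_comm, mul_one, smul_mul_assoc, one_mul, smul_comm]
    rw [h5, hT g] at h1
    rw [mul_comm, mul_smul, h1, add_smul, mul_smul]
  have hT1 : T 1 = 2 := smul_one_inj (W := W) (by rw [← hT, quad_one])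
  obtain ⟨ρ, h3, h4, h5⟩ := DS.exists_rep_of_pseudo h2 T D hT1 key c hc hcD
  refine ⟨ρ, fun σ t ht => ?_, h4, fun σ h6 h7 => h5 σ fun g => ?_⟩
  · rw [h3]
    exact smul_one_inj (W := W) (by rw [← hT, ht])
  · exact smul_one_inj (W := W) (by rw [← hT, ← hT, quad_mul_right r D h6 h7])

/-- Version with a simultaneous eigenvector in a bigger space. -/
theorem exists_rep_of_eigenvector {X : Type*} [AddCommGroup X] [Module k X] (h2 : (2 : k) ≠ 0)
    (R : GQ →* Module.End k X) (D : GQ →* kˣ) {I : Type*} (T : I → Module.End k X) (a : I → k)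
    (hcomm : ∀ σ i, R σ * T i = T i * R σ) (z : X) (hz0 : z ≠ 0) (hz : ∀ i, T i z = a i • z)
    (L : IntermediateField ℚ (AlgebraicClosure ℚ)) [FiniteDimensional ℚ L]
    (hL : ∀ σ : GQ, (∀ x ∈ L, σ x = x) → R σ = 1 ∧ D σ = 1)
    (S : Set ℕ) (hS : S.Finite) (t : ℕ → k)
    (hfrob : ∀ p : ℕ, p.Prime → p ∉ S → ∀ A : ValuationSubring (AlgebraicClosure ℚ),
      A.LiesOverPrime p → ∀ φ : GQ, A.IsFrobeniusAt φ p →
        ∀ w : X, (∀ i, T i w = a i • w) →
          R φ (R φ w) - t p • R φ w + ((D φ : kˣ) : k) • w = 0)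
    (c : GQ) (hc : c * c = 1) (hcD : ((D c : kˣ) : k) = -1) :
    ∃ ρ : GQ →* GL (Fin 2) k,
      (∀ p : ℕ, p.Prime → p ∉ S → ∀ A : ValuationSubring (AlgebraicClosure ℚ),
        A.LiesOverPrime p → ∀ φ : GQ, A.IsFrobeniusAt φ p →
        ((ρ φ : GL (Fin 2) k) : Matrix (Fin 2) (Fin 2) k).trace = t p) ∧
      (∀ σ, ((ρ σ : GL (Fin 2) k) : Matrix (Fin 2) (Fin 2) k).det = ((D σ : kˣ) : k)) ∧
      ∀ σ : GQ, R σ = 1 → D σ = 1 → ρ σ = 1 := by
  let W : Submodule k X :=
    { carrier := {w | ∀ i, T i w = a i • w}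
      zero_mem' := fun i => by rw [map_zero, smul_zero]
      add_mem' := fun {x y} hx hy i => by rw [map_add, hx i, hy i, smul_add]
      smul_mem' := fun b x hx i => by rw [map_smul, hx i, smul_comm] }
  have hnt : Nontrivial W := ⟨⟨⟨z, hz⟩, 0, fun h => hz0 (congrArg Subtype.val h)⟩⟩
  have hRW : ∀ (σ : GQ), ∀ w ∈ W, R σ w ∈ W := by
    intro σ w hw i
    rw [← Module.End.mul_apply, ← hcomm, Module.End.mul_apply, hw i, map_smul]
  let r : GQ →* Module.End k W :=
    { toFun := fun σ => (R σ).restrict (hRW σ)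
      map_one' := by
        apply LinearMap.ext
        intro w
        apply Subtype.ext
        rw [LinearMap.coe_restrict_apply, map_one]
        rfl
      map_mul' := fun σ τ => by
        apply LinearMap.ext
        intro w
        apply Subtype.ext
        rw [LinearMap.coe_restrict_apply, map_mul]
        rfl }
  have hr : ∀ σ (w : W), ((r σ w : W) : X) = R σ w := fun σ w => rfl
  have hr1 : ∀ σ, R σ = 1 → r σ = 1 := by
    intro σ hσ
    apply LinearMap.ext
    intro w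
    apply Subtype.ext
    rw [hr, hσ]
    rfl
  have hq : ∀ p : ℕ, p.Prime → p ∉ S → ∀ A : ValuationSubring (AlgebraicClosure ℚ),
      A.LiesOverPrime p → ∀ φ : GQ, A.IsFrobeniusAt φ p →
        quad r D φ = t p • (1 : Module.End k W) := by
    intro p hp hpS A hA φ hφ
    apply quad_of_rel'
    intro w
    apply Subtype.ext
    exact hfrob p hp hpS A hA φ hφ w w.2
  obtain ⟨ρ, h3, h4, h5⟩ := exists_rep_of_quadratic (W := W) h2 r D L
    (fun σ hσ => ⟨hr1 σ (hL σ hσ).1, (hL σ hσ).2⟩) S hS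
    (fun p hp hpS A hA φ hφ => ⟨t p, hq p hp hpS A hA φ hφ⟩) c hc hcD
  exact ⟨ρ, fun p hp hpS A hA φ hφ => h3 φ _ (hq p hp hpS A hA φ hφ), h4,
    fun σ h6 h7 => h5 σ (hr1 σ h6) h7⟩

end Galois

end Fermat.Agent.X1

end
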