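import Fermat.Agent.X1.Interface
import Fermat.Agent.X1.HeckeNeb
import Fermat.Agent.X1.HeckeCoeff
import Fermat.Agent.DS.Integral

/-! The mod `ℓ` eigenclass attached to a weight one form (helper80). -/

set_option autoImplicit false

open CongruenceSubgroup ModularCurve.Period UpperHalfPlane ModularFormClass
open scoped MatrixGroups ModularForm Manifold

noncomputable section

namespace Fermat.Agent.X1

namespace WtOneAux

/-- restriction of a cusp form to a smaller group -/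
def resCusp {Γ Γ' : Subgroup SL(2, ℤ)} (h : Γ' ≤ Γ) {k : ℤ} (f : CuspForm Γ k) : CuspForm Γ' k where
  toFun := f
  slash_action_eq' A hA := f.slash_action_eq' A (Subgroup.map_mono h hA)
  holo' := f.holo'
  zero_at_cusps' hc := f.zero_at_cusps' (hc.mono (Subgroup.map_mono h))

/-- restriction of a modular form to a smaller group -/
def resMod {Γ Γ' : Subgroup SL(2, ℤ)} (h : Γ' ≤ Γ) {k : ℤ} (f : ModularForm Γ k) :
    ModularForm Γ' k where
  toFun := f
  slash_action_eq' A hA := f.slash_action_eq' A (Subgroup.map_mono h hA)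
  holo' := f.holo'
  bdd_at_cusps' hc := f.bdd_at_cusps' (hc.mono (Subgroup.map_mono h))

theorem gamma1_le_left (N l : ℕ) : Gamma1 (N * l) ≤ Gamma1 N := by
  intro γ hγ
  rw [Gamma1_mem] at hγ ⊢
  have hc : ∀ a : ℤ, ∀ b : ℤ, (a : ZMod (N * l)) = b → (a : ZMod N) = b := by
    intro a b h
    have := congrArg (ZMod.castHom (dvd_mul_right N l) (ZMod N)) h
    simpa using this
  exact ⟨by simpa using hc _ 1 (by simpa using hγ.1), by simpa using hc _ 1 (by simpa using hγ.2.1),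
    by simpa using hc _ 0 (by simpa using hγ.2.2)⟩

theorem gamma1_le_right (N l : ℕ) : Gamma1 (N * l) ≤ Gamma1 l := by
  rw [mul_comm]
  exact gamma1_le_left l N

/-- the product `f * E` as a weight two cusp form on `Γ₁(N l)` -/
def prodForm {N l : ℕ} (f : CuspForm (Gamma1 N) 1) (E : ModularForm (Gamma1 l) 1) :
    CuspForm (Gamma1 (N * l)) 2 :=
  CuspForm.mcast (by norm_num) ((resCusp (gamma1_le_left N l) f).mulModularForm
    (resMod (gamma1_le_right N l) E))

theorem coe_prodForm {N l : ℕ} (f : CuspForm (Gamma1 N) 1) (E : ModularForm (Gamma1 l) 1) :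
    (prodForm f E : ℍ → ℂ) = (f : ℍ → ℂ) * (E : ℍ → ℂ) := rfl

theorem qExpansion_prodForm {N l : ℕ} (f : CuspForm (Gamma1 N) 1) (E : ModularForm (Gamma1 l) 1)
    (n : ℕ) : qCoeff (prodForm f E) n =
      ∑ x ∈ Finset.HasAntidiagonal.antidiagonal n, qCoeff f x.1 * qCoeff E x.2 := by
  have hf := qGood_of_modularFormClass N (Gamma1 N) 1 f
  have hE := qGood_of_modularFormClass l (Gamma1 l) 1 E
  rw [coe_prodForm, qCoeff, UpperHalfPlane.qExpansion_mul hf.analyticAt hE.analyticAt,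
    PowerSeries.coeff_mul]
  rfl

theorem dCusp_prodForm {N l : ℕ} [NeZero N] [NeZero l] [NeZero (N * l)]
    (f : CuspForm (Gamma1 N) 1) (E : ModularForm (Gamma1 l) 1) (u : (ZMod (N * l))ˣ) (a b : ℂ)
    (ha : dCusp N (Gamma1 N) 1 (ZMod.unitsMap (dvd_mul_right N l) u) f = a • f)
    (hb : ∀ γ : SL(2, ℤ), γ ∈ Gamma0 l →
      ((γ 1 1 : ℤ) : ZMod l) = ZMod.unitsMap (dvd_mul_left l N) u →
      (E : ℍ → ℂ) ∣[(1 : ℤ)] γ = b • (E : ℍ → ℂ)) :
    dCusp (N * l) (Gamma1 (N * l)) 2 u (prodForm f E) = (a * b) • prodForm f E := by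
  have hγ := diaMat_mem (M := N * l) u
  have hγN : diaMat (N * l) u ∈ Gamma0 N := by
    rw [Gamma0_mem] at hγ ⊢
    have := congrArg (ZMod.castHom (dvd_mul_right N l) (ZMod N)) hγ
    simpa using this
  have hγl : diaMat (N * l) u ∈ Gamma0 l := by
    rw [Gamma0_mem] at hγ ⊢
    have := congrArg (ZMod.castHom (dvd_mul_left l N) (ZMod l)) hγ
    simpa using this
  have h11 := diaMat_11 (M := N * l) u
  have h11N : ((diaMat (N * l) u 1 1 : ℤ) : ZMod N) = ZMod.unitsMap (dvd_mul_right N l) u := by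
    have := congrArg (ZMod.castHom (dvd_mul_right N l) (ZMod N)) h11
    simpa [ZMod.unitsMap_val] using this
  have h11l : ((diaMat (N * l) u 1 1 : ℤ) : ZMod l) = ZMod.unitsMap (dvd_mul_left l N) u := by
    have := congrArg (ZMod.castHom (dvd_mul_left l N) (ZMod l)) h11
    simpa [ZMod.unitsMap_val] using this
  have h1 : (f : ℍ → ℂ) ∣[(1 : ℤ)] (diaMat (N * l) u) = a • (f : ℍ → ℂ) := by
    rw [slash_eq_dia (inv_gamma1 (Gamma1 N) 1 f) _ hγN _ h11N, ← coe_dCusp, ha, FunLike.coe_smul]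
  have h2 := hb _ hγl h11l
  refine DFunLike.coe_injective ?_
  rw [coe_dCusp, FunLike.coe_smul, coe_prodForm, show (2 : ℤ) = 1 + 1 by norm_num,
    ModularForm.mul_slash_SL2, h1, h2, smul_mul_smul_comm]

end WtOneAux

/-- The eigenclass statement (helper97, `X1/HeckeEigen`). -/
def Eigenclass (M ℓ : ℕ) [NeZero M] : Prop :=
  ∀ (g : CuspForm (Gamma1 M) 2) (ψ : (ZMod M)ˣ → integralClosure ℤ ℂ),
    (∀ u, dCusp M (Gamma1 M) 2 u g = (ψ u : ℂ) • g) → (∀ n, IsIntegral ℤ (qCoeff g n)) →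
    ∀ (k : Type) [Field k] [CharP k ℓ] (φ : integralClosure ℤ ℂ →+* k),
      (∃ (n : ℕ) (a : integralClosure ℤ ℂ), (a : ℂ) = qCoeff g n ∧ φ a ≠ 0) →
      ∀ (t : ℕ → integralClosure ℤ ℂ),
        (∀ (p : ℕ) [Fact p.Prime], ¬ p ∣ M → ∀ (n : ℕ) (b c : integralClosure ℤ ℂ),
          (b : ℂ) = qCoeff (tCusp M (Gamma1 M) 2 p g) n → (c : ℂ) = qCoeff g n →
            φ b = φ (t p) * φ c) →
        ∃ c : Additive (Gamma1 M) →+ k, c ≠ 0 ∧ IsParabolicHom (Gamma1 M) c ∧
          (∀ (p : ℕ) [Fact p.Prime], ¬ p ∣ M → tOp M k (Gamma1 M) k p c = φ (t p) • c) ∧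
          ∀ u, dOp M k (Gamma1 M) k u c = φ (ψ u) • c

open WtOneAux in
theorem wtOneEigenclass_of (N ℓ : ℕ) [NeZero N] [NeZero (N * ℓ)] (hE : EOmega ℓ)
    (hC : Eigenclass (N * ℓ) ℓ) : WtOneEigenclass N ℓ := by
  intro ε f t e he hint hH k _ _ φ hnz
  have : NeZero ℓ := ⟨fun h => NeZero.ne (N * ℓ) (by rw [h, mul_zero])⟩
  obtain ⟨ω, E, hω, hEs, hEc⟩ := hE k φ
  choose Eb hEb hEφ using hEc
  let fb : ℕ → integralClosure ℤ ℂ := fun n => ⟨qCoeff f n, hint n⟩
  let gb : ℕ → integralClosure ℤ ℂ := fun n =>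
    ∑ x ∈ Finset.HasAntidiagonal.antidiagonal n, fb x.1 * Eb x.2
  have hgb : ∀ n, (gb n : ℂ) = qCoeff (prodForm f E) n := by
    intro n
    rw [qExpansion_prodForm]
    simp only [gb]
    rw [AddSubmonoidClass.coe_finsetSum]
    refine Finset.sum_congr rfl fun x _ => ?_
    rw [MulMemClass.coe_mul, hEb]
  have hgφ : ∀ n, φ (gb n) = φ (fb n) := by
    intro n
    simp only [gb, map_sum, map_mul, hEφ]
    rw [Finset.sum_eq_single (n, 0)]
    · simp
    · rintro ⟨i, j⟩ hij hne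
      rw [Finset.HasAntidiagonal.mem_antidiagonal] at hij
      rw [if_neg, mul_zero]
      intro hj
      apply hne
      simp only at hij hj
      rw [hj, add_zero] at hij
      rw [hij, hj]
    · intro h
      exact absurd (Finset.HasAntidiagonal.mem_antidiagonal.mpr (add_zero n)) h
  -- the character
  have hneb : ∀ u : (ZMod N)ˣ, dCusp N (Gamma1 N) 1 u f = ε (u : ZMod N) • f := by
    refine dCusp_eq_of_primes (Gamma1 N) f ε fun p hp hpN => ?_
    have : Fact p.Prime := ⟨hp⟩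
    refine dCusp_pUnit_eq (Gamma1 N) p hpN f _ (t p) fun n => ?_
    have h2 := hH p hp hpN n
    rw [he] at h2
    simpa using h2
  let ψ : (ZMod (N * ℓ))ˣ → integralClosure ℤ ℂ := fun u =>
    ⟨ε ((ZMod.unitsMap (dvd_mul_right N ℓ) u : (ZMod N)ˣ) : ZMod N), DS.isIntegral_dirichlet ε _⟩ *
      ((ω (ZMod.unitsMap (dvd_mul_left ℓ N) u))⁻¹ : (integralClosure ℤ ℂ)ˣ)
  have hψ : ∀ u, dCusp (N * ℓ) (Gamma1 (N * ℓ)) 2 u (prodForm f E) = (ψ u : ℂ) • prodForm f E := by
    intro u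
    have := dCusp_prodForm f E u _
      (((((ω (ZMod.unitsMap (dvd_mul_left ℓ N) u))⁻¹ : (integralClosure ℤ ℂ)ˣ) :
        integralClosure ℤ ℂ) : ℂ)) (hneb _) (fun γ hγ h11 => hEs γ _ hγ h11)
    rw [this]
    rfl
  -- the key congruence
  have hpψ : ∀ (p : ℕ) [Fact p.Prime], ¬ p ∣ N * ℓ →
      (p : k) * φ (ψ (pUnit (N * ℓ) p)) = φ (e p) := by
    intro p hp hpN
    have hc : p.Coprime (N * ℓ) := (Nat.Prime.coprime_iff_not_dvd hp.out).mpr hpN
    have h1 := coe_pUnit (M := N * ℓ) hc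
    have h2 : ((ZMod.unitsMap (dvd_mul_right N ℓ) (pUnit (N * ℓ) p) : (ZMod N)ˣ) : ZMod N) = p := by
      rw [ZMod.unitsMap_val, h1]
      simp
    have h3 : ((ZMod.unitsMap (dvd_mul_left ℓ N) (pUnit (N * ℓ) p) : (ZMod ℓ)ˣ) : ZMod ℓ) = p := by
      rw [ZMod.unitsMap_val, h1]
      simp
    have h4 : φ (ω (ZMod.unitsMap (dvd_mul_left ℓ N) (pUnit (N * ℓ) p)) : integralClosure ℤ ℂ) =
        (p : k) := by
      rw [hω, h3, ZMod.val_natCast, ← CharP.cast_eq_mod]
    have h5 : φ (ω (ZMod.unitsMap (dvd_mul_left ℓ N) (pUnit (N * ℓ) p)) : integralClosure ℤ ℂ) *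
        φ ((ω (ZMod.unitsMap (dvd_mul_left ℓ N) (pUnit (N * ℓ) p)))⁻¹ : (integralClosure ℤ ℂ)ˣ)
        = 1 := by
      rw [← map_mul, ← Units.val_mul, mul_inv_cancel, Units.val_one, map_one]
    rw [h4] at h5
    have h6 : (⟨ε ((ZMod.unitsMap (dvd_mul_right N ℓ) (pUnit (N * ℓ) p) : (ZMod N)ˣ) : ZMod N),
        DS.isIntegral_dirichlet ε _⟩ : integralClosure ℤ ℂ) = e p := by
      apply Subtype.ext
      rw [he, ← h2]
    have h7 : φ (ψ (pUnit (N * ℓ) p)) = φ (e p) *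
        φ ((ω (ZMod.unitsMap (dvd_mul_left ℓ N) (pUnit (N * ℓ) p)))⁻¹ :
          (integralClosure ℤ ℂ)ˣ) := by
      simp only [ψ]
      rw [map_mul, h6]
    rw [h7]
    linear_combination (φ (e p)) * h5
  obtain ⟨c, hc0, hpar, hT, hD⟩ := hC (prodForm f E) ψ hψ
    (fun n => by rw [← hgb]; exact (gb n).2) k φ (by
      obtain ⟨n, a, ha, ha0⟩ := hnz
      refine ⟨n, gb n, hgb n, ?_⟩
      rw [hgφ]
      have : fb n = a := Subtype.ext ha.symm
      rwa [this]) t (by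
      intro p hp hpM n b c hb hc
      have hpN : ¬ p ∣ N := fun h => hpM (Dvd.dvd.mul_right h ℓ)
      have hc' : c = gb n := Subtype.ext (by rw [hc, hgb])
      have hbe : b = gb (n * p) + (if p ∣ n then (p : integralClosure ℤ ℂ) *
          (ψ (pUnit (N * ℓ) p) * gb (n / p)) else 0) := by
        apply Subtype.ext
        rw [hb, qCoeff_tCusp (Gamma1 (N * ℓ)) 2 p hpM, ← hgb, hψ]
        split_ifs with hpn
        · rw [qCoeff_cusp_smul (N * ℓ) (Gamma1 (N * ℓ)) 2, ← hgb]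
          simp
        · simp
      have h3 : fb (p * n) + e p * (if p ∣ n then fb (n / p) else 0) = t p * fb n := by
        apply Subtype.ext
        have h2 := hH p hp.out hpN n
        simp only [fb] at h2 ⊢
        split_ifs at h2 ⊢ with hpn
        · exact h2
        · exact h2
      have h4 := congrArg φ h3
      rw [map_add, map_mul, map_mul] at h4
      rw [hbe, hc', map_add, hgφ, hgφ, mul_comm n p, ← h4]
      congr 1
      split_ifs with hpn
      · rw [map_mul, map_mul, map_natCast, ← mul_assoc, hpψ p hpM, hgφ]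
      · rw [map_zero, mul_zero])
  exact ⟨fun u => φ (ψ u), c, hc0, hpar, hT, hD, hpψ⟩

end Fermat.Agent.X1
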